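/-
PROJECT MZ (S15), block (INJ), part 1 (helper9): the `q`-expansion of the modular unit
`U = Δ(q)/Δ(q^p)` over an arbitrary commutative ring, and the fact that in characteristic `ℓ ≥ 5`
it is not a constant times an `ℓ`-th power of a Laurent series.

* `unitModC R p = q^{1-p}·(1 - 24 q + …)` : integral model, functorial in `R`
  (`coeffMap_unitModC`), `unitModC R p * deltaNModC R p = deltaModC R`,
  `unitModC k p = coeffEmb k (modularUnitSeries p)` over a field `k ⊇ ℚ`;
* `coeff_pow_char_of_not_dvd` : in characteristic `ℓ` the `ℓ`-th power of a Laurent series is a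
  series in `q^ℓ`;
* `unitModC_ne_C_mul_pow` : `U mod ℓ` is not `a·w^ℓ`.
-/
import Mathlib
import Fermat.Agent.SS.UNIT_helper6_Int
import Fermat.Agent.SS.HOSTB_helper6_Coeff

set_option autoImplicit false
set_option linter.unusedSectionVars false
set_option linter.style.haveILetI false

open ModularCurve HahnSeries

namespace Fermat.Agent.MZ

open Fermat.Agent.SS

/-! ### `q ↦ q^p` on power series inside Laurent series -/

section QExpandPS

variable (R : Type*) [CommRing R] (p : ℕ) [NeZero p]

theorem qExpand_ofPowerSeries_expand (g : PowerSeries R) :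
    qExpand R p (HahnSeries.ofPowerSeries ℤ R g) =
      HahnSeries.ofPowerSeries ℤ R (PowerSeries.expand p (NeZero.ne p) g) := by
  have hp0 : (0 : ℤ) < (p : ℤ) := by exact_mod_cast Nat.pos_of_ne_zero (NeZero.ne p)
  ext n
  by_cases hn : (p : ℤ) ∣ n
  · obtain ⟨m, rfl⟩ := hn
    rw [qExpand_coeff_mul]
    rcases le_or_gt 0 m with hm | hm
    · lift m to ℕ using hm
      rw [HahnSeries.ofPowerSeries_apply_coeff,
        show (p : ℤ) * (m : ℤ) = ((p * m : ℕ) : ℤ) by push_cast; rfl,
        HahnSeries.ofPowerSeries_apply_coeff, PowerSeries.coeff_expand_mul]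
    · rw [ofPowerSeries_coeff_of_neg _ hm, ofPowerSeries_coeff_of_neg _ (by nlinarith)]
  · rw [qExpand_coeff_of_not_dvd p _ hn]
    rcases le_or_gt 0 n with hn0 | hn0
    · lift n to ℕ using hn0
      rw [HahnSeries.ofPowerSeries_apply_coeff, PowerSeries.coeff_expand_of_not_dvd]
      intro h
      exact hn (by exact_mod_cast h)
    · rw [ofPowerSeries_coeff_of_neg _ hn0]

end QExpandPS

/-! ### the integral model of the modular unit -/

section Model

variable (R : Type*) [CommRing R] (p : ℕ) [NeZero p]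

/-- `∏ (1 - qⁿ)^24` over `R`. -/
noncomputable def etaR : PowerSeries R := dedekindEtaUnit.map (Int.castRingHom R)

/-- `∏ (1 - qⁿ)^(-24)` over `R`. -/
noncomputable def etaInvR : PowerSeries R := dedekindEtaUnitInv.map (Int.castRingHom R)

theorem etaR_mul_etaInvR : etaR R * etaInvR R = 1 := by
  rw [etaR, etaInvR, ← map_mul, dedekindEtaUnit_mul_inv, map_one]

variable {R} in
theorem map_etaR {S : Type*} [CommRing S] (f : R →+* S) : (etaR R).map f = etaR S := by
  rw [etaR, etaR, ← RingHom.comp_apply (PowerSeries.map f) (PowerSeries.map (Int.castRingHom R)),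
    ← PowerSeries.map_comp, RingHom.ext_int (f.comp (Int.castRingHom R)) (Int.castRingHom S)]

variable {R} in
theorem map_etaInvR {S : Type*} [CommRing S] (f : R →+* S) : (etaInvR R).map f = etaInvR S := by
  rw [etaInvR, etaInvR,
    ← RingHom.comp_apply (PowerSeries.map f) (PowerSeries.map (Int.castRingHom R)),
    ← PowerSeries.map_comp, RingHom.ext_int (f.comp (Int.castRingHom R)) (Int.castRingHom S)]

/-- the power series part `∏ (1 - qⁿ)^24 / ∏ (1 - q^{pn})^24` of the modular unit. -/
noncomputable def unitPS : PowerSeries R :=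
  etaR R * PowerSeries.expand p (NeZero.ne p) (etaInvR R)

/-- the `q`-expansion of `Δ(q)/Δ(q^p)` over `R`. -/
noncomputable def unitModC : LaurentSeries R :=
  HahnSeries.single (1 - (p : ℤ)) 1 * HahnSeries.ofPowerSeries ℤ R (unitPS R p)

variable {R} in
theorem map_unitPS {S : Type*} [CommRing S] (f : R →+* S) : (unitPS R p).map f = unitPS S p := by
  rw [unitPS, unitPS, map_mul, PowerSeries.map_expand, map_etaR, map_etaInvR]

variable {R} in
theorem coeffMap_unitModC {S : Type*} [CommRing S] (f : R →+* S) :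
    coeffMap f (unitModC R p) = unitModC S p := by
  rw [unitModC, unitModC, map_mul, coeffMap_single, map_one, coeffMap_ofPowerSeries, map_unitPS]

theorem deltaModC_eq : deltaModC R =
    HahnSeries.single (1 : ℤ) 1 * HahnSeries.ofPowerSeries ℤ R (etaR R) := rfl

theorem deltaNModC_eq : deltaNModC R p =
    HahnSeries.single (p : ℤ) 1 *
      HahnSeries.ofPowerSeries ℤ R (PowerSeries.expand p (NeZero.ne p) (etaR R)) := by
  rw [deltaNModC, deltaModC_eq, map_mul, qExpand_single, mul_one, qExpand_ofPowerSeries_expand]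

/-- `U · Δ(q^p) = Δ(q)`. -/
theorem unitModC_mul_deltaNModC : unitModC R p * deltaNModC R p = deltaModC R := by
  have h1 : unitPS R p * PowerSeries.expand p (NeZero.ne p) (etaR R) = etaR R := by
    rw [unitPS, mul_assoc, ← map_mul, mul_comm (etaInvR R), etaR_mul_etaInvR, map_one, mul_one]
  have h2 : (HahnSeries.single (1 - (p : ℤ)) (1 : R) : LaurentSeries R) *
      HahnSeries.single (p : ℤ) 1 = HahnSeries.single (1 : ℤ) 1 := by
    rw [HahnSeries.single_mul_single, mul_one, sub_add_cancel]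
  rw [unitModC, deltaNModC_eq, deltaModC_eq, mul_mul_mul_comm, h2, ← map_mul, h1]

theorem coeff_unitModC (n : ℕ) :
    (unitModC R p).coeff ((n : ℤ) + (1 - (p : ℤ))) = PowerSeries.coeff n (unitPS R p) := by
  rw [unitModC, HahnSeries.coeff_single_mul_add, one_mul, HahnSeries.ofPowerSeries_apply_coeff]

theorem coeff_unitPS_zero : PowerSeries.coeff 0 (unitPS R p) = 1 := by
  rw [PowerSeries.coeff_zero_eq_constantCoeff_apply, unitPS, map_mul,
    PowerSeries.constantCoeff_expand, etaR, etaInvR,
    ← PowerSeries.coeff_zero_eq_constantCoeff_apply, ← PowerSeries.coeff_zero_eq_constantCoeff_apply,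
    PowerSeries.coeff_map, PowerSeries.coeff_map, coeff_dedekindEtaUnit_small.1,
    coeff_dedekindEtaUnitInv_small.1]
  simp

theorem coeff_unitPS_one (hp : 2 ≤ p) : PowerSeries.coeff 1 (unitPS R p) = -24 := by
  have h1 : ¬ p ∣ 1 := by
    intro h
    have := Nat.le_of_dvd one_pos h
    omega
  rw [unitPS, PowerSeries.coeff_mul, show (1 : ℕ) = 0 + 1 from rfl,
    Finset.Nat.sum_antidiagonal_succ, Finset.Nat.antidiagonal_zero, Finset.sum_singleton]
  rw [PowerSeries.coeff_expand_of_not_dvd p (NeZero.ne p) _ h1, mul_zero, zero_add]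
  have h0 : PowerSeries.coeff 0 (PowerSeries.expand p (NeZero.ne p) (etaInvR R)) = 1 := by
    rw [PowerSeries.coeff_zero_eq_constantCoeff_apply, PowerSeries.constantCoeff_expand,
      ← PowerSeries.coeff_zero_eq_constantCoeff_apply, etaInvR, PowerSeries.coeff_map,
      coeff_dedekindEtaUnitInv_small.1]
    simp
  show PowerSeries.coeff 1 (etaR R) * PowerSeries.coeff 0 _ = -24
  rw [h0, mul_one, etaR, PowerSeries.coeff_map, coeff_dedekindEtaUnit_small.2.1]
  simp

/-- the leading coefficient of `U` (at `q^{1-p}`) is `1`. -/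
theorem coeff_unitModC_lead : (unitModC R p).coeff (1 - (p : ℤ)) = 1 := by
  have h := coeff_unitModC R p 0
  rwa [Nat.cast_zero, zero_add, coeff_unitPS_zero] at h

/-- the next coefficient of `U` (at `q^{2-p}`) is `-24`. -/
theorem coeff_unitModC_next (hp : 2 ≤ p) : (unitModC R p).coeff (2 - (p : ℤ)) = -24 := by
  have h := coeff_unitModC R p 1
  rw [coeff_unitPS_one R p hp] at h
  rw [← h]
  congr 1
  push_cast
  ring

theorem unitModC_ne_zero [Nontrivial R] : unitModC R p ≠ 0 := by
  intro h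
  have h1 := coeff_unitModC_lead R p
  rw [h, HahnSeries.coeff_zero] at h1
  exact zero_ne_one h1

end Model

section Field

variable (k : Type*) [Field k] [Algebra ℚ k] (p : ℕ) [NeZero p]

/-- over a field of characteristic zero the integral model is the Prelude's modular unit. -/
theorem unitModC_eq_coeffEmb : unitModC k p = coeffEmb k (modularUnitSeries p) := by
  apply mul_right_cancel₀ (deltaNModC_ne_zero k p)
  rw [unitModC_mul_deltaNModC, modularUnitSeries_eq_deltaRatioSeries,
    coeffEmb_deltaRatioSeries_mul k 1 p, deltaNModC, qExpand_one_apply]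

end Field

/-! ### `ℓ`-th powers in characteristic `ℓ` -/

section Frobenius

variable {k : Type*} [Field k] (ℓ : ℕ) [Fact ℓ.Prime] [CharP k ℓ]

theorem coeff_pow_char_powerSeries (g : PowerSeries k) {j : ℕ} (hj : ¬ ℓ ∣ j) :
    PowerSeries.coeff j (g ^ ℓ) = 0 := by
  have hℓ : ℓ ≠ 0 := (Fact.out : ℓ.Prime).ne_zero
  have h : (PowerSeries.expand ℓ hℓ g).map (frobenius k ℓ) = g ^ ℓ :=
    MvPowerSeries.map_frobenius_expand ℓ hℓ
  rw [← h, PowerSeries.coeff_map, PowerSeries.coeff_expand_of_not_dvd ℓ hℓ g hj, map_zero]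

/-- **in characteristic `ℓ` an `ℓ`-th power is a series in `q^ℓ`.** -/
theorem coeff_pow_char_of_not_dvd (w : LaurentSeries k) {n : ℤ} (hn : ¬ (ℓ : ℤ) ∣ n) :
    (w ^ ℓ).coeff n = 0 := by
  have hℓ : ℓ ≠ 0 := (Fact.out : ℓ.Prime).ne_zero
  have hw := LaurentSeries.single_order_mul_powerSeriesPart w
  rw [← hw, mul_pow, HahnSeries.single_pow, one_pow, ← map_pow]
  have e : n = (n - ℓ • w.order) + ℓ • w.order := by ring
  rw [e, HahnSeries.coeff_single_mul_add, one_mul]
  rcases lt_or_ge (n - ℓ • w.order) 0 with hneg | hpos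
  · exact ofPowerSeries_coeff_of_neg _ hneg
  · obtain ⟨j, hj⟩ := Int.eq_ofNat_of_zero_le hpos
    rw [hj, HahnSeries.ofPowerSeries_apply_coeff]
    apply coeff_pow_char_powerSeries
    intro hdvd
    apply hn
    have h1 : (ℓ : ℤ) ∣ (j : ℤ) := by exact_mod_cast hdvd
    have h2 : n = (j : ℤ) + ℓ • w.order := by rw [← hj]; ring
    rw [h2, nsmul_eq_mul]
    exact dvd_add h1 (dvd_mul_right _ _)

/-- **`U mod ℓ` is not a constant times an `ℓ`-th power** (`ℓ ≥ 5`). -/
theorem unitModC_ne_C_mul_pow (p : ℕ) [NeZero p] (hp : 2 ≤ p) (hℓ5 : 5 ≤ ℓ) (a : k)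
    (w : LaurentSeries k) : unitModC k p ≠ HahnSeries.C a * w ^ ℓ := by
  intro h
  have hℓp : ℓ.Prime := Fact.out
  have hcoeff : ∀ n : ℤ, ¬ (ℓ : ℤ) ∣ n → (unitModC k p).coeff n = 0 := by
    intro n hn
    rw [h, HahnSeries.C_mul_eq_smul, HahnSeries.coeff_smul, coeff_pow_char_of_not_dvd ℓ w hn,
      smul_zero]
  have h24 : ((24 : ℕ) : k) ≠ 0 := by
    rw [Ne, CharP.cast_eq_zero_iff k ℓ]
    intro hd
    have h2 : ℓ ∣ 2 ^ 3 * 3 := by norm_num; exact hd
    rcases (Nat.Prime.dvd_mul hℓp).mp h2 with h3 | h3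
    · have := Nat.le_of_dvd (by norm_num) (hℓp.dvd_of_dvd_pow h3)
      omega
    · have := Nat.le_of_dvd (by norm_num) h3
      omega
  by_cases h1 : (ℓ : ℤ) ∣ 1 - (p : ℤ)
  · -- then `ℓ ∤ 2 - p`
    have h2 : ¬ (ℓ : ℤ) ∣ 2 - (p : ℤ) := by
      intro h2
      have h3 : (ℓ : ℤ) ∣ 1 := by
        have := dvd_sub h2 h1
        simpa using this
      have h4 : ℓ ∣ 1 := by exact_mod_cast h3
      have := Nat.le_of_dvd one_pos h4
      omega
    have h3 := hcoeff _ h2
    rw [coeff_unitModC_next k p hp] at h3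
    apply h24
    have h4 : ((24 : ℕ) : k) = -(-24 : k) := by push_cast; ring
    rw [h4, h3, neg_zero]
  · have h3 := hcoeff _ h1
    rw [coeff_unitModC_lead] at h3
    exact one_ne_zero h3

end Frobenius

end Fermat.Agent.MZ
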