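/-
PROJECT MZ (S15), block (a), part 1 (helper9): the two cusps of `X₀(p)` (`p` prime) over
`Ω = ℚ̄` and the divisor of the modular unit `U = Δ(q)/Δ(q^p)`.

* `P∞ = Fermat.Agent.MW.infN p`, `P0 = Fermat.Agent.MW.zeroN p` (both on main, S17);
* `frickeAlg N` : the Fricke involution of the function field of `X₀(N)` as an `Ω`-algebra
  automorphism; `zeroN_eq_fricke_smul` : `P0 = W • P∞`; `zeroN_ord` : `ord_{P0} f = ord_{P∞} (W f)`;
* `ord_infN_modUnit = 1 - p`, `ord_zeroN_modUnit = p - 1`, `ord_modUnit_of_ne = 0` elsewhere;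
* `modUnitDiv p = (p-1)•([P0] - [P∞])` is the divisor of `U` (`modUnitDiv_apply`,
  `modUnitDiv_isPrincipal`).
-/
import Mathlib
import Fermat.Agent.MW.ARCH_helper9_DictCusp
import Fermat.Agent.SS.CUSPORD_helper9_Main
import Fermat.Agent.SS.UNIT_helper6_Fricke
import Fermat.Agent.SS.UNIT_helper6_Place

set_option autoImplicit false
set_option linter.unusedSectionVars false
set_option linter.style.haveILetI false

open AlgebraicCurve ModularCurve HahnSeries

namespace Fermat.Agent.MZ

open Fermat.Agent.MW Fermat.Agent.SS Fermat.Agent.X0N Fermat.Agent.JA Fermat.Agent.FF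

attribute [local instance] algOmC

local notation "Ω" => AlgebraicClosure ℚ

/-! ### the Fricke involution as an algebra automorphism -/

section Fricke

variable (N : ℕ) [NeZero N]

/-- the Fricke involution of the function field of `X₀(N)` over `Ω`, as an `Ω`-algebra
automorphism. -/
noncomputable def frickeAlg : FunN N ≃ₐ[Ω] FunN N :=
  AlgEquiv.ofRingEquiv (f := frickeNEquiv (algebraMap Ω ℂ) N)
    (fun c => frickeN_algebraMap (algebraMap Ω ℂ) N c)

@[simp] theorem frickeAlg_apply (z : FunN N) :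
    frickeAlg N z = frickeN (algebraMap Ω ℂ) N z := rfl

theorem frickeAlg_frickeAlg (z : FunN N) : frickeAlg N (frickeAlg N z) = z :=
  frickeN_frickeN (algebraMap Ω ℂ) N z

/-- orders at the Fricke image of a place. -/
theorem ord_frickeAlg_smul (P : PtN N) (f : FunN N) :
    (frickeAlg N • P).ord f = P.ord (frickeAlg N f) := by
  have h := Place.ord_smul (frickeAlg N) P (frickeAlg N f)
  rwa [frickeAlg_frickeAlg] at h

end Fricke

/-! ### the cusp `0` is the Fricke image of the cusp `∞` -/

section Cusps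

variable (p : ℕ) [NeZero p]

theorem frickeAlg_jBar :
    frickeAlg p (Fermat.Agent.X0N.jBar p) = jdBar (k := Ω) p (dvd_refl p) :=
  cuspord_frickeN_jGen (algebraMap Ω ℂ) p

theorem jdBar_self_ne_zero : (jdBar (k := Ω) p (dvd_refl p) : FunN p) ≠ 0 := by
  rw [← frickeAlg_jBar]
  exact (map_ne_zero (frickeAlg p)).mpr (jBar_ne_zero p)

theorem infN_ord_jdBar_self :
    (infN p).ord (jdBar (k := Ω) p (dvd_refl p) : FunN p) = -(p : ℤ) := by
  rw [infN_ord p (jdBar_self_ne_zero p), cuspord_coe_jdBar, cuspord_order_jqNModC]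

theorem ord_fricke_smul_infN_jBar :
    (frickeAlg p • infN p).ord (Fermat.Agent.X0N.jBar p) = -(p : ℤ) := by
  rw [ord_frickeAlg_smul, frickeAlg_jBar, infN_ord_jdBar_self]

/-- **the cusp `0` is `W • ∞`** (`p` prime). -/
theorem zeroN_eq_fricke_smul (hp : p.Prime) : zeroN p = frickeAlg p • infN p := by
  have hneg : (frickeAlg p • infN p).ord (Fermat.Agent.X0N.jBar p) < 0 := by
    rw [ord_fricke_smul_infN_jBar]
    have := hp.pos
    omega
  rcases pole_cases p hp _ hneg with h | h
  · exfalso
    have h1 := ord_fricke_smul_infN_jBar p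
    rw [h, infN_ord_jBar] at h1
    have h2 := hp.two_le
    omega
  · exact h.symm

/-- orders at the cusp `0` through the Fricke involution. -/
theorem zeroN_ord (hp : p.Prime) (f : FunN p) :
    (zeroN p).ord f = (infN p).ord (frickeAlg p f) := by
  rw [zeroN_eq_fricke_smul p hp, ord_frickeAlg_smul]

end Cusps

/-! ### orders of the modular unit -/

section Unit

variable (p : ℕ) [NeZero p]

/-- the modular unit `U = Δ(q)/Δ(q^p)` of `X₀(p)` over `Ω`. -/
noncomputable abbrev modUnitP : FunN p := modUnit Ω p p dvd_rfl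

theorem modUnitP_ne_zero : modUnitP p ≠ 0 := deltaRatio_ne_zero 1 p Ω p (one_dvd p) dvd_rfl

theorem order_coeffEmb (s : LaurentSeries ℚ) : (coeffEmb Ω s).order = s.order :=
  order_coeffMap_of_injective (algebraMap ℚ Ω).injective s

/-- `ord_∞ U = 1 - p`. -/
theorem ord_infN_modUnit : (infN p).ord (modUnitP p) = 1 - (p : ℤ) := by
  rw [infN_ord p (modUnitP_ne_zero p), coe_modUnit, order_coeffEmb, order_modularUnitSeries]

theorem order_deltaRatioSeries (d e : ℕ) [NeZero d] [NeZero e] :
    (deltaRatioSeries d e).order = (d : ℤ) - e := by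
  have h : IsMonicOfOrder (deltaRatioSeries d e) ((d : ℤ) - e) := by
    refine IsMonicOfOrder.of_mul_right ?_ (isMonicOfOrder_deltaSeriesN e)
    have : deltaRatioSeries d e * deltaSeriesN e = deltaSeriesN d := by
      rw [deltaRatioSeries, mul_assoc, inv_mul_cancel₀ (deltaSeriesN_ne_zero e), mul_one]
    rw [this]
    exact isMonicOfOrder_deltaSeriesN d
  exact h.1

theorem infN_ord_deltaRatio (d e : ℕ) [NeZero d] [NeZero e] (hd : d ∣ p) (he : e ∣ p) :
    (infN p).ord (deltaRatio d e Ω p hd he) = (d : ℤ) - e := by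
  rw [infN_ord p (deltaRatio_ne_zero d e Ω p hd he), coe_deltaRatio, order_coeffEmb,
    order_deltaRatioSeries]

/-- `ord_0 U = p - 1`. -/
theorem ord_zeroN_modUnit (hp : p.Prime) : (zeroN p).ord (modUnitP p) = (p : ℤ) - 1 := by
  rw [zeroN_ord p hp, frickeAlg_apply]
  have hN : p = p * 1 := (mul_one p).symm
  have h := frickeN_modUnit (k := Ω) (algebraMap Ω ℂ) (N := p) (q := p) (M := 1) hN
  rw [h]
  have hc : ((p : Ω) ^ 12) ≠ 0 := by
    apply pow_ne_zero
    exact_mod_cast (NeZero.ne p)
  have hc' : algebraMap Ω (FunN p) ((p : Ω) ^ 12) ≠ 0 :=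
    (map_ne_zero (algebraMap Ω (FunN p))).mpr hc
  have hd := deltaRatio_ne_zero p 1 Ω p dvd_rfl (one_dvd p)
  rw [Place.ord_mul (infN p) hc' hd, infN_ord_deltaRatio]
  have h0 : (infN p).ord (algebraMap Ω (FunN p) ((p : Ω) ^ 12)) = 0 := by
    rw [infN_ord p hc']
    show (algebraMap Ω (LaurentSeries Ω) ((p : Ω) ^ 12)).order = 0
    rw [algebraMap_laurentSeries_eq_single]
    exact HahnSeries.order_single hc
  rw [h0]
  push_cast
  ring

/-- `U` has neither a zero nor a pole outside the cusps. -/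
theorem ord_modUnit_of_ne (hp : p.Prime) (v : PtN p) (h1 : v ≠ infN p) (h2 : v ≠ zeroN p) :
    v.ord (modUnitP p) = 0 := by
  haveI := isScalarTower_algOmC
  haveI : CharZero Ω := algebraRat.charZero Ω
  have hj : 0 ≤ v.ord (Fermat.Agent.X0N.jBar p) := by
    by_contra hneg
    rw [not_le] at hneg
    rcases pole_cases p hp v hneg with h | h
    · exact h1 h
    · exact h2 h
  have hmem : jGen Ω p ∈ v.toValuationSubring :=
    (PlaceAux.mem_iff_ord_nonneg' v (jBar_ne_zero p)).mpr hj
  exact ord_deltaRatio_eq_zero_of_isAlgClosed 1 p (one_dvd p) dvd_rfl v hmem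

end Unit

/-! ### the divisor of the modular unit -/

section Div

variable (p : ℕ) [NeZero p]

open scoped Classical in
/-- `(p-1)•([0] - [∞])`. -/
noncomputable def modUnitDiv : Divisor Ω (FunN p) :=
  ((p : ℤ) - 1) • (Finsupp.single (zeroN p) 1 - Finsupp.single (infN p) 1)

/-- **`div U = (p-1)([0] - [∞])`.** -/
theorem modUnitDiv_apply (hp : p.Prime) (v : PtN p) :
    modUnitDiv p v = v.ord (modUnitP p) := by
  classical
  have hne := infN_ne_zeroN p hp
  unfold modUnitDiv
  rw [Finsupp.smul_apply, Finsupp.sub_apply, smul_eq_mul]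
  by_cases h1 : v = infN p
  · subst h1
    rw [Finsupp.single_apply, Finsupp.single_apply, if_neg (Ne.symm hne), if_pos rfl,
      ord_infN_modUnit]
    ring
  · by_cases h2 : v = zeroN p
    · subst h2
      rw [Finsupp.single_apply, Finsupp.single_apply, if_pos rfl, if_neg hne,
        ord_zeroN_modUnit p hp]
      ring
    · rw [Finsupp.single_apply, Finsupp.single_apply, if_neg (fun h => h2 h.symm),
        if_neg (fun h => h1 h.symm), ord_modUnit_of_ne p hp v h1 h2]
      ring

theorem modUnitDiv_isPrincipal (hp : p.Prime) : (modUnitDiv p).IsPrincipal :=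
  ⟨modUnitP p, modUnitP_ne_zero p, modUnitDiv_apply p hp⟩

end Div

end Fermat.Agent.MZ
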