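/-
MZ (S15 gamble) — helper4 — block (D1): **cocycle currency** and the **abstract dévissage**.

Everything is at the level of cocycles (no quotient `H¹`, no `H⁰`, no connecting maps):
for a group `Γ` acting on an abelian group `G`, `Z1 Γ G ≤ (Γ → G)` are the `1`-cocycles,
`B1 Γ G` the coboundaries.  For a subgroup `𝒵 ≤ (Γ → G)` of cocycles and a short exact sequence
`0 → G' → G → G'' → 0` the *propagated* groups are `𝒵.comap (i ∘ ·)` and `𝒵.map (π ∘ ·)`;
then `card 𝒵 = card 𝒵' * card 𝒵''` (`card_eq_card_comap_mul_card_map`) and, for the restrictions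
to a subset `I ⊆ Γ`, `card (res 𝒵') * card (res 𝒵'') ≤ card (res 𝒵)` (`card_res_mul_le`).
-/
import Mathlib

set_option autoImplicit false
set_option linter.style.haveILetI false
set_option linter.unusedSectionVars false
set_option linter.unusedVariables false

namespace Fermat.Agent.MZ

section Card

variable {A B : Type*} [AddCommGroup A] [AddCommGroup B]

theorem card_eq_card_ker_mul_card_range (f : A →+ B) :
    Nat.card A = Nat.card f.ker * Nat.card f.range := by
  rw [← AddSubgroup.index_ker, AddSubgroup.card_mul_index]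

theorem finite_of_finite_ker_range (f : A →+ B) (hk : Finite f.ker) (hr : Finite f.range) :
    Finite A := by
  haveI : Finite (A ⧸ f.ker) :=
    Finite.of_equiv _ (QuotientAddGroup.quotientKerEquivRange f).symm.toEquiv
  exact Finite.of_equiv _ (AddSubgroup.addGroupEquivQuotientProdAddSubgroup (s := f.ker)).symm

end Card

section Coc

variable (Γ : Type*) [Group Γ] (G : Type*) [AddCommGroup G] [DistribMulAction Γ G]

/-- `1`-cocycles. -/
def Z1 : AddSubgroup (Γ → G) where
  carrier := {f | ∀ σ τ, f (σ * τ) = f σ + σ • f τ}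
  zero_mem' := by intro σ τ; simp
  add_mem' := by
    intro f g hf hg σ τ
    simp only [Pi.add_apply, hf σ τ, hg σ τ, smul_add]
    abel
  neg_mem' := by
    intro f hf σ τ
    simp only [Pi.neg_apply, hf σ τ, smul_neg]
    abel

variable {Γ G}

theorem mem_Z1 {f : Γ → G} : f ∈ Z1 Γ G ↔ ∀ σ τ, f (σ * τ) = f σ + σ • f τ := Iff.rfl

theorem Z1_map_one {f : Γ → G} (hf : f ∈ Z1 Γ G) : f 1 = 0 := by
  have h := hf 1 1
  rw [one_mul, one_smul] at h
  exact left_eq_add.mp h

theorem Z1_map_inv {f : Γ → G} (hf : f ∈ Z1 Γ G) (σ : Γ) : f σ⁻¹ = -(σ⁻¹ • f σ) := by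
  have h := hf σ⁻¹ σ
  rw [inv_mul_cancel, Z1_map_one hf] at h
  exact eq_neg_of_add_eq_zero_left h.symm

variable (Γ) in
/-- the coboundary of an element. -/
def cobd : G →+ (Γ → G) where
  toFun g := fun σ => σ • g - g
  map_zero' := by funext σ; simp
  map_add' a b := by funext σ; simp only [smul_add, Pi.add_apply]; abel

@[simp] theorem cobd_apply (g : G) (σ : Γ) : cobd Γ g σ = σ • g - g := rfl

variable (Γ G) in
/-- `1`-coboundaries. -/
def B1 : AddSubgroup (Γ → G) := (cobd Γ (G := G)).range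

theorem cobd_mem_Z1 (g : G) : cobd Γ g ∈ Z1 Γ G := by
  intro σ τ
  simp only [cobd_apply, mul_smul, smul_sub]
  abel

theorem B1_le_Z1 : B1 Γ G ≤ Z1 Γ G := by
  rintro _ ⟨g, rfl⟩
  exact cobd_mem_Z1 g

/-- restriction of functions to a subset of `Γ`. -/
def resTo (I : Set Γ) : (Γ → G) →+ (I → G) where
  toFun f := fun s => f s.1
  map_zero' := rfl
  map_add' _ _ := rfl

@[simp] theorem resTo_apply (I : Set Γ) (f : Γ → G) (s : I) : resTo I f s = f s.1 := rfl

end Coc

section Exact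

variable {Γ : Type*} [Group Γ]
  {G' G G'' : Type*} [AddCommGroup G'] [AddCommGroup G] [AddCommGroup G'']
  (i : G' →+ G) (π : G →+ G'') (hi : Function.Injective i)
  (hex : ∀ g : G, π g = 0 ↔ g ∈ i.range)

/-- the propagated cocycle group on the submodule. -/
def subCoc (𝒵 : AddSubgroup (Γ → G)) : AddSubgroup (Γ → G') := 𝒵.comap (i.compLeft Γ)

/-- the propagated cocycle group on the quotient module. -/
def quotCoc (𝒵 : AddSubgroup (Γ → G)) : AddSubgroup (Γ → G'') := 𝒵.map (π.compLeft Γ)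

theorem mem_subCoc {𝒵 : AddSubgroup (Γ → G)} {f : Γ → G'} :
    f ∈ subCoc i 𝒵 ↔ (fun σ => i (f σ)) ∈ 𝒵 := Iff.rfl

theorem mem_quotCoc {𝒵 : AddSubgroup (Γ → G)} {f : Γ → G''} :
    f ∈ quotCoc π 𝒵 ↔ ∃ g ∈ 𝒵, (fun σ => π (g σ)) = f := Iff.rfl

/-- the map `𝒵 → quotCoc π 𝒵`. -/
def toQuotCoc (𝒵 : AddSubgroup (Γ → G)) : ↥𝒵 →+ ↥(quotCoc π 𝒵) :=
  ((π.compLeft Γ).comp 𝒵.subtype).codRestrict (quotCoc π 𝒵)
    (fun f => ⟨f.1, f.2, rfl⟩)

theorem toQuotCoc_surjective (𝒵 : AddSubgroup (Γ → G)) :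
    Function.Surjective (toQuotCoc π 𝒵) := by
  rintro ⟨f, g, hg, rfl⟩
  exact ⟨⟨g, hg⟩, rfl⟩

/-- the map `subCoc i 𝒵 → ker (𝒵 → quotCoc π 𝒵)`. -/
def toKerCoc (hπi : ∀ g', π (i g') = 0) (𝒵 : AddSubgroup (Γ → G)) :
    ↥(subCoc i 𝒵) →+ ↥(toQuotCoc π 𝒵).ker :=
  (((i.compLeft Γ).comp (subCoc i 𝒵).subtype).codRestrict 𝒵 (fun f => f.2)).codRestrict _
    (fun f => by
      rw [AddMonoidHom.mem_ker]
      apply Subtype.ext
      funext σ
      exact hπi _)

include hi in
theorem toKerCoc_injective (hπi : ∀ g', π (i g') = 0) (𝒵 : AddSubgroup (Γ → G)) :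
    Function.Injective (toKerCoc i π hπi 𝒵) := by
  intro f g h
  apply Subtype.ext
  funext σ
  have h1 := congrArg (fun x => (x.1.1 : Γ → G) σ) h
  exact hi h1

include hex in
theorem toKerCoc_surjective (hπi : ∀ g', π (i g') = 0) (𝒵 : AddSubgroup (Γ → G)) :
    Function.Surjective (toKerCoc i π hπi 𝒵) := by
  rintro ⟨⟨f, hf⟩, hker⟩
  rw [AddMonoidHom.mem_ker] at hker
  have h0 : ∀ σ, π (f σ) = 0 := fun σ => congrFun (congrArg Subtype.val hker) σ
  have h1 : ∀ σ, ∃ g', i g' = f σ := fun σ => (hex (f σ)).mp (h0 σ)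
  choose f' hf' using h1
  have hff : (fun σ => i (f' σ)) = f := funext hf'
  refine ⟨⟨f', ?_⟩, ?_⟩
  · rw [mem_subCoc, hff]; exact hf
  · apply Subtype.ext
    apply Subtype.ext
    exact hff

include hi hex in
/-- **exactness at the level of cocycles**: `card 𝒵 = card 𝒵' * card 𝒵''`. -/
theorem card_eq_card_subCoc_mul_card_quotCoc (𝒵 : AddSubgroup (Γ → G)) :
    Nat.card 𝒵 = Nat.card (subCoc i 𝒵) * Nat.card (quotCoc π 𝒵) := by
  have hπi : ∀ g', π (i g') = 0 := fun g' => (hex _).mpr ⟨g', rfl⟩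
  rw [card_eq_card_ker_mul_card_range (toQuotCoc π 𝒵)]
  congr 1
  · exact (Nat.card_congr (Equiv.ofBijective _
      ⟨toKerCoc_injective i π hi hπi 𝒵, toKerCoc_surjective i π hex hπi 𝒵⟩)).symm
  · rw [AddMonoidHom.range_eq_top.mpr (toQuotCoc_surjective π 𝒵)]
    exact Nat.card_congr (Equiv.Set.univ _)

include hi hex in
theorem finite_of_finite_subCoc_quotCoc (𝒵 : AddSubgroup (Γ → G))
    (h1 : Finite (subCoc i 𝒵)) (h2 : Finite (quotCoc π 𝒵)) : Finite 𝒵 := by
  have hπi : ∀ g', π (i g') = 0 := fun g' => (hex _).mpr ⟨g', rfl⟩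
  apply finite_of_finite_ker_range (toQuotCoc π 𝒵)
  · exact Finite.of_surjective _ (toKerCoc_surjective i π hex hπi 𝒵)
  · exact Finite.of_injective (fun x => x.1) Subtype.val_injective

include hi hex in
/-- restriction to a subset `I ⊆ Γ`: `card (res 𝒵') * card (res 𝒵'') ≤ card (res 𝒵)`. -/
theorem card_res_mul_le (I : Set Γ) (𝒵 : AddSubgroup (Γ → G))
    (hfin : Finite (𝒵.map (resTo I))) :
    Nat.card ((subCoc i 𝒵).map (resTo I)) * Nat.card ((quotCoc π 𝒵).map (resTo I)) ≤
      Nat.card (𝒵.map (resTo I)) := by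
  have hπi : ∀ g', π (i g') = 0 := fun g' => (hex _).mpr ⟨g', rfl⟩
  set ψ : ↥(𝒵.map (resTo I)) →+ (I → G'') :=
    (π.compLeft I).comp (𝒵.map (resTo I)).subtype with hψ
  have hrange : ψ.range = (quotCoc π 𝒵).map (resTo I) := by
    ext x
    constructor
    · rintro ⟨⟨_, f, hf, rfl⟩, rfl⟩
      exact ⟨fun σ => π (f σ), ⟨f, hf, rfl⟩, rfl⟩
    · rintro ⟨_, ⟨f, hf, rfl⟩, rfl⟩
      exact ⟨⟨resTo I f, f, hf, rfl⟩, rfl⟩
  -- the injection `res 𝒵' → ker ψ`
  have hmem : ∀ x : ↥((subCoc i 𝒵).map (resTo I)),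
      (fun s : I => i (x.1 s)) ∈ 𝒵.map (resTo I) := by
    rintro ⟨_, f', hf', rfl⟩
    exact ⟨fun σ => i (f' σ), hf', rfl⟩
  let j : ↥((subCoc i 𝒵).map (resTo I)) → ↥ψ.ker := fun x =>
    ⟨⟨fun s : I => i (x.1 s), hmem x⟩, by
      rw [AddMonoidHom.mem_ker]
      funext s
      exact hπi _⟩
  have hj : Function.Injective j := by
    intro x y hxy
    apply Subtype.ext
    funext s
    have h1 := congrArg (fun z : ↥ψ.ker => (z.1.1 : I → G) s) hxy
    exact hi h1
  have hle : Nat.card ((subCoc i 𝒵).map (resTo I)) ≤ Nat.card ψ.ker :=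
    Nat.card_le_card_of_injective j hj
  rw [card_eq_card_ker_mul_card_range ψ, hrange]
  exact Nat.mul_le_mul_right _ hle

end Exact

section ExtMod

variable {Γ : Type*} [Group Γ] {G : Type*} [AddCommGroup G] [DistribMulAction Γ G]

/-- **the extension module of a cocycle** `f` with values in a module `G` killed by `n`:
`G × ZMod n` with `σ • (w, j) = (σ • w + j • f σ, j)`. -/
def ExtMod (n : ℕ) [Module (ZMod n) G] (_f : Z1 Γ G) : Type _ := G × ZMod n

namespace ExtMod

variable {n : ℕ} [Module (ZMod n) G] {f : Z1 Γ G}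

instance : AddCommGroup (ExtMod n f) := inferInstanceAs (AddCommGroup (G × ZMod n))

/-- constructor -/
def mk (w : G) (j : ZMod n) : ExtMod n f := (w, j)

/-- first component -/
def fst (x : ExtMod n f) : G := Prod.fst x

/-- second component -/
def snd (x : ExtMod n f) : ZMod n := Prod.snd x

@[simp] theorem fst_mk (w : G) (j : ZMod n) : (mk w j : ExtMod n f).fst = w := rfl
@[simp] theorem snd_mk (w : G) (j : ZMod n) : (mk w j : ExtMod n f).snd = j := rfl
@[simp] theorem fst_add (x y : ExtMod n f) : (x + y).fst = x.fst + y.fst := rfl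
@[simp] theorem snd_add (x y : ExtMod n f) : (x + y).snd = x.snd + y.snd := rfl
@[simp] theorem fst_zero : (0 : ExtMod n f).fst = 0 := rfl
@[simp] theorem snd_zero : (0 : ExtMod n f).snd = 0 := rfl
@[simp] theorem fst_neg (x : ExtMod n f) : (-x).fst = -x.fst := rfl
@[simp] theorem snd_neg (x : ExtMod n f) : (-x).snd = -x.snd := rfl
@[simp] theorem fst_sub (x y : ExtMod n f) : (x - y).fst = x.fst - y.fst := rfl
@[simp] theorem snd_sub (x y : ExtMod n f) : (x - y).snd = x.snd - y.snd := rfl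

@[ext] theorem ext {x y : ExtMod n f} (h1 : x.fst = y.fst) (h2 : x.snd = y.snd) : x = y :=
  Prod.ext h1 h2

theorem smul_zmod_comm (σ : Γ) (j : ZMod n) (w : G) : σ • (j • w) = j • (σ • w) :=
  ZMod.map_smul (DistribSMul.toAddMonoidHom G σ) j w

instance : DistribMulAction Γ (ExtMod n f) where
  smul σ x := mk (σ • x.fst + x.snd • f.1 σ) x.snd
  one_smul x := by
    apply ext
    · show (1 : Γ) • x.fst + x.snd • f.1 1 = x.fst
      rw [one_smul, Z1_map_one f.2, smul_zero, add_zero]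
    · rfl
  mul_smul σ τ x := by
    apply ext
    · show (σ * τ) • x.fst + x.snd • f.1 (σ * τ) =
        σ • (τ • x.fst + x.snd • f.1 τ) + x.snd • f.1 σ
      rw [f.2 σ τ, mul_smul, smul_add, smul_add, smul_zmod_comm]
      abel
    · rfl
  smul_zero σ := by
    apply ext
    · show σ • (0 : G) + (0 : ZMod n) • f.1 σ = 0
      rw [smul_zero, zero_smul, add_zero]
    · rfl
  smul_add σ x y := by
    apply ext
    · show σ • (x.fst + y.fst) + (x.snd + y.snd) • f.1 σ =
        (σ • x.fst + x.snd • f.1 σ) + (σ • y.fst + y.snd • f.1 σ)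
      rw [smul_add, add_smul]
      abel
    · rfl

@[simp] theorem fst_smul (σ : Γ) (x : ExtMod n f) :
    (σ • x).fst = σ • x.fst + x.snd • f.1 σ := rfl

@[simp] theorem snd_smul (σ : Γ) (x : ExtMod n f) : (σ • x).snd = x.snd := rfl

instance [Finite G] [NeZero n] : Finite (ExtMod n f) :=
  inferInstanceAs (Finite (G × ZMod n))

/-- the inclusion of `G`. -/
def inl : G →+ ExtMod n f where
  toFun w := mk w 0
  map_zero' := rfl
  map_add' a b := by apply ext <;> simp

@[simp] theorem fst_inl (w : G) : (inl w : ExtMod n f).fst = w := rfl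
@[simp] theorem snd_inl (w : G) : (inl w : ExtMod n f).snd = 0 := rfl

theorem inl_injective : Function.Injective (inl : G → ExtMod n f) := by
  intro a b h
  exact congrArg fst h

theorem inl_smul (σ : Γ) (w : G) : (inl (σ • w) : ExtMod n f) = σ • inl w := by
  apply ext <;> simp

/-- the projection to `ZMod n`. -/
def sndHom : ExtMod n f →+ ZMod n where
  toFun x := x.snd
  map_zero' := rfl
  map_add' _ _ := rfl

/-- the canonical lift of `1`. -/
def e₀ : ExtMod n f := mk 0 1

/-- the cocycle of the extension is `f`. -/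
theorem smul_e₀_sub (σ : Γ) : σ • (e₀ : ExtMod n f) - e₀ = inl (f.1 σ) := by
  apply ext <;> simp [e₀]

/-- functoriality in the coefficient module. -/
def map {G' : Type*} [AddCommGroup G'] [DistribMulAction Γ G'] [Module (ZMod n) G']
    (φ : G →+ G') {f' : Z1 Γ G'} (hf' : ∀ σ, f'.1 σ = φ (f.1 σ)) : ExtMod n f →+ ExtMod n f' where
  toFun x := mk (φ x.fst) x.snd
  map_zero' := by apply ext <;> simp
  map_add' a b := by apply ext <;> simp

theorem map_smul' {G' : Type*} [AddCommGroup G'] [DistribMulAction Γ G'] [Module (ZMod n) G']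
    (φ : G →+ G') (hφ : ∀ (σ : Γ) (w : G), φ (σ • w) = σ • φ w) {f' : Z1 Γ G'}
    (hf' : ∀ σ, f'.1 σ = φ (f.1 σ)) (σ : Γ) (x : ExtMod n f) :
    map φ hf' (σ • x) = σ • map φ hf' x := by
  apply ext
  · show φ (σ • x.fst + x.snd • f.1 σ) = σ • φ x.fst + x.snd • f'.1 σ
    rw [map_add, hφ, hf', ZMod.map_smul]
  · rfl

theorem map_injective {G' : Type*} [AddCommGroup G'] [DistribMulAction Γ G']
    [Module (ZMod n) G'] (φ : G →+ G') (hφ : Function.Injective φ) {f' : Z1 Γ G'}
    (hf' : ∀ σ, f'.1 σ = φ (f.1 σ)) : Function.Injective (map φ hf' : ExtMod n f → _) := by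
  intro x y h
  apply ext
  · exact hφ (congrArg (fun z : ExtMod n f' => z.fst) h)
  · exact congrArg (fun z : ExtMod n f' => z.snd) h

theorem map_surjective {G' : Type*} [AddCommGroup G'] [DistribMulAction Γ G']
    [Module (ZMod n) G'] (φ : G →+ G') (hφ : Function.Surjective φ) {f' : Z1 Γ G'}
    (hf' : ∀ σ, f'.1 σ = φ (f.1 σ)) : Function.Surjective (map φ hf' : ExtMod n f → _) := by
  intro y
  obtain ⟨w, hw⟩ := hφ y.fst
  exact ⟨mk w y.snd, by apply ext <;> simp [map, hw]⟩

/-- change of the cocycle by a coboundary. -/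
def shift (g : G) {f' : Z1 Γ G} (hf' : ∀ σ, f'.1 σ = f.1 σ + (σ • g - g)) :
    ExtMod n f →+ ExtMod n f' where
  toFun x := mk (x.fst - x.snd • g) x.snd
  map_zero' := by apply ext <;> simp
  map_add' a b := by
    apply ext
    · simp only [fst_mk, fst_add, snd_add, add_smul]; abel
    · simp

theorem shift_smul (g : G) {f' : Z1 Γ G} (hf' : ∀ σ, f'.1 σ = f.1 σ + (σ • g - g)) (σ : Γ)
    (x : ExtMod n f) : shift g hf' (σ • x) = σ • shift g hf' x := by
  apply ext
  · show σ • x.fst + x.snd • f.1 σ - x.snd • g =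
      σ • (x.fst - x.snd • g) + x.snd • f'.1 σ
    rw [hf', smul_sub, smul_add, smul_sub, smul_zmod_comm]
    abel
  · rfl

theorem shift_injective (g : G) {f' : Z1 Γ G} (hf' : ∀ σ, f'.1 σ = f.1 σ + (σ • g - g)) :
    Function.Injective (shift g hf' : ExtMod n f → _) := by
  intro x y h
  have h2 : x.snd = y.snd := by
    have := congrArg (fun z : ExtMod n f' => z.snd) h
    exact this
  have h1 : x.fst - x.snd • g = y.fst - y.snd • g := by
    have := congrArg (fun z : ExtMod n f' => z.fst) h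
    exact this
  apply ext
  · rw [h2] at h1; exact sub_left_injective h1
  · exact h2

end ExtMod

end ExtMod

end Fermat.Agent.MZ
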