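/-
MZ (S15 gamble) — helper4 — the **Good cocycles** (Selmer currency) for finite `G_ℚ`-modules.

`GoodCoc r p n hn f` : `f : G_ℚ → G` is a cocycle, continuous (vanishes on the fixing subgroup of a
finite extension), vanishes on every inertia group at primes `v ∉ {r, p}`, and its extension
module `ExtMod n f` (`G × ZMod n`, `σ • (w, j) = (σ • w + j • f σ, j)`) carries a Hopf order at `r`.
Propagation to submodules (`GoodCoc.of_injective`) and quotient modules (`GoodCoc.of_surjective`).
-/
import Fermat.Agent.FG.HOPF_helper8_Closure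
import Fermat.Agent.MZ.D1_helper4_Coc

set_option autoImplicit false
set_option linter.style.haveILetI false
set_option linter.unusedSectionVars false
set_option linter.unusedVariables false

namespace Fermat.Agent.MZ

open Fermat.Agent.FG

local notation "Ω" => AlgebraicClosure ℚ
local notation "GQ" => (AlgebraicClosure ℚ ≃ₐ[ℚ] AlgebraicClosure ℚ)

section Good

variable {G : Type} [AddCommGroup G] [DistribMulAction GQ G]

/-- continuity of a cocycle: it vanishes on the fixing subgroup of a finite extension. -/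
def IsCtsCoc (f : GQ → G) : Prop :=
  ∃ F : IntermediateField ℚ Ω, FiniteDimensional ℚ F ∧ ∀ σ : GQ, (∀ a ∈ F, σ a = a) → f σ = 0

/-- the cocycle vanishes on all inertia groups at the primes outside `S`. -/
def IsUnrCocOutside (S : Set ℕ) (f : GQ → G) : Prop :=
  ∀ v : ℕ, v.Prime → v ∉ S → ∀ A : ValuationSubring Ω, A.LiesOverPrime v →
    ∀ σ ∈ A.inertiaSubgroupIn ℚ, f σ = 0

/-- the extension module of the cocycle carries a Hopf order at `r` (instance-free form: the
`ZMod n`-module structure is the canonical one of a group killed by `n`). -/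
def FlatCoc (r n : ℕ) (hn : ∀ x : G, n • x = 0) (f : Z1 GQ G) : Prop :=
  letI : Module (ZMod n) G := AddCommGroup.zmodModule hn
  HasHopfOrder r (@ExtMod GQ _ G _ _ n (AddCommGroup.zmodModule hn) f)

/-- **Good cocycles.** -/
structure GoodCoc (r p n : ℕ) (hn : ∀ x : G, n • x = 0) (f : GQ → G) : Prop where
  coc : f ∈ Z1 GQ G
  cts : IsCtsCoc f
  unr : IsUnrCocOutside {r, p} f
  flat : FlatCoc r n hn ⟨f, coc⟩

variable {G' : Type} [AddCommGroup G'] [DistribMulAction GQ G']

/-- pull-back of Good cocycles to a submodule. -/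
theorem GoodCoc.of_injective {r p n : ℕ} {hn : ∀ x : G, n • x = 0} (hn' : ∀ x : G', n • x = 0)
    (i : G' →+ G) (hi : Function.Injective i) (hiσ : ∀ (σ : GQ) (g : G'), i (σ • g) = σ • i g)
    {f' : GQ → G'} (h : GoodCoc r p n hn (fun σ => i (f' σ))) : GoodCoc r p n hn' f' := by
  have hcoc : f' ∈ Z1 GQ G' := by
    intro σ τ
    apply hi
    rw [map_add, hiσ]
    exact h.coc σ τ
  refine ⟨hcoc, ?_, ?_, ?_⟩
  · obtain ⟨F, hF, hv⟩ := h.cts
    exact ⟨F, hF, fun σ hσ => hi (by rw [map_zero]; exact hv σ hσ)⟩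
  · intro v hv hvS A hA σ hσ
    exact hi (by rw [map_zero]; exact h.unr v hv hvS A hA σ hσ)
  · letI := AddCommGroup.zmodModule hn
    letI := AddCommGroup.zmodModule hn'
    have hf : ∀ σ, (⟨fun σ => i (f' σ), h.coc⟩ : Z1 GQ G).1 σ = i ((⟨f', hcoc⟩ : Z1 GQ G').1 σ) :=
      fun σ => rfl
    exact h.flat.of_injective (ExtMod.map i hf) (ExtMod.map_injective i hi hf)
      (fun σ x => ExtMod.map_smul' i hiσ hf σ x)

/-- push-forward of Good cocycles to a quotient module. -/
theorem GoodCoc.of_surjective {r p n : ℕ} [Fact r.Prime] [NeZero n] [Finite G]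
    {hn : ∀ x : G, n • x = 0} (hn' : ∀ x : G', n • x = 0)
    (π : G →+ G') (hπ : Function.Surjective π) (hπσ : ∀ (σ : GQ) (g : G), π (σ • g) = σ • π g)
    {f : GQ → G} (h : GoodCoc r p n hn f) : GoodCoc r p n hn' (fun σ => π (f σ)) := by
  have hcoc : (fun σ => π (f σ)) ∈ Z1 GQ G' := by
    intro σ τ
    show π (f (σ * τ)) = π (f σ) + σ • π (f τ)
    rw [h.coc σ τ, map_add, hπσ]
  refine ⟨hcoc, ?_, ?_, ?_⟩
  · obtain ⟨F, hF, hv⟩ := h.cts
    exact ⟨F, hF, fun σ hσ => by show π (f σ) = 0; rw [hv σ hσ, map_zero]⟩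
  · intro v hv hvS A hA σ hσ
    show π (f σ) = 0
    rw [h.unr v hv hvS A hA σ hσ, map_zero]
  · letI := AddCommGroup.zmodModule hn
    letI := AddCommGroup.zmodModule hn'
    have hf : ∀ σ, (⟨fun σ => π (f σ), hcoc⟩ : Z1 GQ G').1 σ = π ((⟨f, h.coc⟩ : Z1 GQ G).1 σ) :=
      fun σ => rfl
    exact h.flat.of_surjective (ExtMod.map π hf) (ExtMod.map_surjective π hπ hf)
      (fun σ x => ExtMod.map_smul' π hπσ hf σ x)

end Good

end Fermat.Agent.MZ
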