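/-
PROJECT MZ (S15), block (FIN-d), the tame structure at `p` — helper2 —
**adapters of the tame inertia package on main to `G_ℚ`-sets, modules and cocycles.**

On main: `TW.exists_generator_of_inertia` (helper6: tame inertia is pro-cyclic) and
`S35.map_conj_frobenius_eq_pow` (helper8: `φ τ φ⁻¹ = τ ^ q`), both for monoid homomorphisms
`f : G_ℚ →* M` of finite level whose values on the inertia group `I_P` have order prime to `q`.
Here they are restated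

* for a continuous action of `G_ℚ` on a set `E` (`tame_smul_cyclic`, `tame_smul_conj_frobenius`);
* for a finite group `𝒵` of continuous cocycles with values in a `G_ℚ`-module `G` killed by an
  integer prime to `q` (`tame_cocycle_cyclic`, `tame_cocycle_conj_frobenius`): there is
  `τ₀ ∈ I_P` such that every `τ ∈ I_P` acts on `G` as a power `τ₀ ^ k` and `f τ = f (τ₀ ^ k)` for all
  `f ∈ 𝒵` simultaneously; and `φ τ φ⁻¹` acts as `τ ^ q`, `f (φ τ φ⁻¹) = f (τ ^ q)`, for every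
  Frobenius element `φ` at `P`;
* consequences used by the count at `p`: `tame_linear_dependence` (two continuous characters with
  values in a group killed by an integer prime to `q` are "proportional" on `I_P`) and the relation
  `(φ - q) (f τ₀) ∈ (τ₀ - 1) G` (`tame_frobenius_sub_smul_mem`) when `(τ₀ - 1)² = 0` on `G`.
-/
import Mathlib
import Fermat.Agent.S35.TAME_helper8_Main
import Fermat.Agent.MZ.GOOD_helper4_Defs

set_option autoImplicit false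
set_option linter.unusedSectionVars false
set_option linter.unusedVariables false
set_option linter.style.haveILetI false

namespace Fermat.Agent.MZ

local notation "Ω" => AlgebraicClosure ℚ
local notation "GQ" => (AlgebraicClosure ℚ ≃ₐ[ℚ] AlgebraicClosure ℚ)

section Action

variable {q : ℕ} {P : ValuationSubring Ω} {E : Type*} [MulAction GQ E]

/-- the action of `G_ℚ` on the set `E` factors through a finite level. -/
def IsCtsAction (E : Type*) [MulAction GQ E] : Prop :=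
  ∃ F : IntermediateField ℚ Ω, FiniteDimensional ℚ F ∧
    ∀ σ : GQ, (∀ a ∈ F, σ a = a) → ∀ e : E, σ • e = e

/-- a continuous action factors through a finite NORMAL level. -/
theorem IsCtsAction.exists_normal (h : IsCtsAction E) :
    ∃ N : IntermediateField ℚ Ω, FiniteDimensional ℚ N ∧ Normal ℚ N ∧
      ∀ σ : GQ, (∀ a ∈ N, σ a = a) → ∀ e : E, σ • e = e := by
  obtain ⟨F, hF, hFE⟩ := h
  haveI := hF
  refine ⟨IntermediateField.normalClosure ℚ F Ω, normalClosure.is_finiteDimensional ℚ F Ω,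
    normalClosure.normal ℚ F Ω, fun σ hσ e => hFE σ (fun a ha => hσ a ?_) e⟩
  exact F.le_normalClosure ha

/-- **tame inertia acts through a cyclic group** on every continuous `G_ℚ`-set on which the
elements of `I_P` have order prime to `q`. -/
theorem tame_smul_cyclic (hq : q.Prime) (hP : P.LiesOverPrime q) (hcont : IsCtsAction E)
    (hcop : ∀ σ ∈ P.inertiaSubgroupIn ℚ, ∃ m : ℕ, m.Coprime q ∧ ∀ e : E, σ ^ m • e = e) :
    ∃ τ₀ ∈ P.inertiaSubgroupIn ℚ, ∀ τ ∈ P.inertiaSubgroupIn ℚ, ∃ n : ℕ,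
      ∀ e : E, τ • e = τ₀ ^ n • e := by
  obtain ⟨N, hNfd, hNn, hN⟩ := hcont.exists_normal
  haveI := hNfd
  haveI := hNn
  obtain ⟨τ₀, hτ₀, h⟩ := Fermat.Agent.TW.exists_generator_of_inertia hq hP
    (MulAction.toPermHom GQ E) N
    (fun σ hσ => by
      ext e
      exact hN σ hσ e)
    (fun σ hσ => by
      obtain ⟨m, hm, hme⟩ := hcop σ hσ
      refine ⟨m, hm, ?_⟩
      rw [← map_pow]
      ext e
      exact hme e)
  refine ⟨τ₀, hτ₀, fun τ hτ => ?_⟩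
  obtain ⟨n, hn⟩ := h τ hτ
  refine ⟨n, fun e => ?_⟩
  have h1 := congrArg (fun g : Equiv.Perm E => g e) hn
  rw [← map_pow] at h1
  exact h1

/-- **the tame relation `φ τ φ⁻¹ = τ ^ q`** on every continuous `G_ℚ`-set on which the elements of
`I_P` have order prime to `q`. -/
theorem tame_smul_conj_frobenius (hq : q.Prime) (hP : P.LiesOverPrime q) (hcont : IsCtsAction E)
    (hcop : ∀ σ ∈ P.inertiaSubgroupIn ℚ, ∃ m : ℕ, m.Coprime q ∧ ∀ e : E, σ ^ m • e = e)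
    {φ : GQ} (hφ : P.IsFrobeniusAt φ q) {τ : GQ} (hτ : τ ∈ P.inertiaSubgroupIn ℚ) (e : E) :
    (φ * τ * φ⁻¹) • e = τ ^ q • e := by
  obtain ⟨N, hNfd, hNn, hN⟩ := hcont.exists_normal
  haveI := hNfd
  haveI := hNn
  have h := Fermat.Agent.S35.map_conj_frobenius_eq_pow hq hP
    (MulAction.toPermHom GQ E) N
    (fun σ hσ => by
      ext e
      exact hN σ hσ e)
    (fun σ hσ => by
      obtain ⟨m, hm, hme⟩ := hcop σ hσ
      refine ⟨m, hm, ?_⟩
      rw [← map_pow]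
      ext e
      exact hme e) hφ hτ
  have h1 := congrArg (fun g : Equiv.Perm E => g e) h
  rw [← map_pow] at h1
  exact h1

end Action

section Cocycle

variable {G : Type} [AddCommGroup G] [DistribMulAction GQ G]

/-- the `G_ℚ`-set attached to a group of cocycles: pairs `(f, g)`, `f ∈ 𝒵` a cocycle, `g ∈ G`, with
the affine action `σ • (f, g) = (f, σ • g + f σ)`. -/
def CocSet (𝒵 : AddSubgroup (GQ → G)) : Type := {f : GQ → G // f ∈ 𝒵 ∧ f ∈ Z1 GQ G} × G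

noncomputable instance (𝒵 : AddSubgroup (GQ → G)) : MulAction GQ (CocSet 𝒵) where
  smul σ x := (x.1, σ • x.2 + x.1.1 σ)
  one_smul x := by
    refine Prod.ext rfl ?_
    show (1 : GQ) • x.2 + x.1.1 1 = x.2
    rw [one_smul, Z1_map_one x.1.2.2, add_zero]
  mul_smul σ τ x := by
    refine Prod.ext rfl ?_
    show (σ * τ) • x.2 + x.1.1 (σ * τ) = σ • (τ • x.2 + x.1.1 τ) + x.1.1 σ
    rw [x.1.2.2 σ τ, mul_smul, smul_add]
    abel

theorem CocSet.smul_def {𝒵 : AddSubgroup (GQ → G)} (σ : GQ) (x : CocSet 𝒵) :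
    σ • x = (x.1, σ • x.2 + x.1.1 σ) := rfl

/-- powers of an element acting trivially act trivially. -/
theorem pow_smul_eq_of_smul_eq (ρ : GQ) (hρ : ∀ g : G, ρ • g = g) (j : ℕ) (g : G) :
    ρ ^ j • g = g := by
  induction j with
  | zero => rw [pow_zero, one_smul]
  | succ i ihi => rw [pow_succ, mul_smul, hρ, ihi]

/-- a cocycle on an element acting trivially is additive on its powers. -/
theorem Z1_map_pow_of_smul_eq {f : GQ → G} (hf : f ∈ Z1 GQ G) (ρ : GQ)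
    (hρ : ∀ g : G, ρ • g = g) (j : ℕ) : f (ρ ^ j) = j • f ρ := by
  induction j with
  | zero => rw [pow_zero, Z1_map_one hf, zero_smul]
  | succ j ih =>
    rw [pow_succ, hf (ρ ^ j) ρ, ih, pow_smul_eq_of_smul_eq ρ hρ j, succ_nsmul]

variable {q : ℕ} {P : ValuationSubring Ω}

/-- continuity and prime-to-`q` orders for the `G_ℚ`-set of a finite group of continuous
cocycles. -/
theorem cocSet_hyps (n : ℕ) (hn : ∀ x : G, n • x = 0) (hnq : n.Coprime q)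
    (hGcont : IsCtsAction G)
    (hGcop : ∀ σ ∈ P.inertiaSubgroupIn ℚ, ∃ m : ℕ, m.Coprime q ∧ ∀ g : G, σ ^ m • g = g)
    (𝒵 : AddSubgroup (GQ → G)) (hcts : ∀ f ∈ 𝒵, IsCtsCoc f) (hfin : Finite 𝒵) :
    IsCtsAction (CocSet 𝒵) ∧
      ∀ σ ∈ P.inertiaSubgroupIn ℚ, ∃ m : ℕ, m.Coprime q ∧ ∀ e : CocSet 𝒵, σ ^ m • e = e := by
  constructor
  · obtain ⟨F₀, hF₀, hF₀G⟩ := hGcont
    choose Ff hFf hFfv using fun f : 𝒵 => hcts f.1 f.2
    haveI := hF₀
    haveI : ∀ f : 𝒵, FiniteDimensional ℚ (Ff f) := hFf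
    refine ⟨F₀ ⊔ ⨆ f : 𝒵, Ff f, inferInstance, fun σ hσ e => ?_⟩
    have h0 : ∀ a ∈ F₀, σ a = a := fun a ha => hσ a ((le_sup_left : F₀ ≤ _) ha)
    have h1 : ∀ f : 𝒵, f.1 σ = 0 := fun f =>
      hFfv f σ fun a ha => hσ a ((le_sup_right : (⨆ f : 𝒵, Ff f) ≤ F₀ ⊔ ⨆ f : 𝒵, Ff f)
        ((le_iSup Ff f) ha))
    rw [CocSet.smul_def]
    refine Prod.ext rfl ?_
    show σ • e.2 + e.1.1 σ = e.2
    rw [hF₀G σ h0, h1 ⟨e.1.1, e.1.2.1⟩, add_zero]
  · intro σ hσ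
    obtain ⟨m₀, hm₀, hm₀G⟩ := hGcop σ hσ
    refine ⟨m₀ * n, Nat.Coprime.mul_left hm₀ hnq, fun e => ?_⟩
    rw [CocSet.smul_def]
    refine Prod.ext rfl ?_
    show σ ^ (m₀ * n) • e.2 + e.1.1 (σ ^ (m₀ * n)) = e.2
    have hpow : ∀ g : G, σ ^ (m₀ * n) • g = g := by
      intro g
      rw [pow_mul]
      exact pow_smul_eq_of_smul_eq (σ ^ m₀) hm₀G n g
    rw [hpow, pow_mul, Z1_map_pow_of_smul_eq e.1.2.2 (σ ^ m₀) hm₀G n, hn, add_zero]

/-- **tame inertia is cyclic on modules and cocycles**: one generator `τ₀ ∈ I_P` for the action on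
`G` and for all cocycles of a finite group `𝒵` of continuous cocycles. -/
theorem tame_cocycle_cyclic (hq : q.Prime) (hP : P.LiesOverPrime q)
    (n : ℕ) (hn : ∀ x : G, n • x = 0) (hnq : n.Coprime q) (hGcont : IsCtsAction G)
    (hGcop : ∀ σ ∈ P.inertiaSubgroupIn ℚ, ∃ m : ℕ, m.Coprime q ∧ ∀ g : G, σ ^ m • g = g)
    (𝒵 : AddSubgroup (GQ → G)) (h𝒵 : 𝒵 ≤ Z1 GQ G) (hcts : ∀ f ∈ 𝒵, IsCtsCoc f)
    (hfin : Finite 𝒵) :
    ∃ τ₀ ∈ P.inertiaSubgroupIn ℚ, ∀ τ ∈ P.inertiaSubgroupIn ℚ, ∃ k : ℕ,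
      (∀ g : G, τ • g = τ₀ ^ k • g) ∧ ∀ f ∈ 𝒵, f τ = f (τ₀ ^ k) := by
  obtain ⟨hc, hcop⟩ := cocSet_hyps (P := P) n hn hnq hGcont hGcop 𝒵 hcts hfin
  obtain ⟨τ₀, hτ₀, h⟩ := tame_smul_cyclic hq hP hc hcop
  refine ⟨τ₀, hτ₀, fun τ hτ => ?_⟩
  obtain ⟨k, hk⟩ := h τ hτ
  have hf : ∀ f ∈ 𝒵, f τ = f (τ₀ ^ k) := by
    intro f hf
    have h1 : τ • (0 : G) + f τ = τ₀ ^ k • (0 : G) + f (τ₀ ^ k) := congrArg Prod.snd
      (hk ((⟨f, hf, h𝒵 hf⟩ : {f : GQ → G // f ∈ 𝒵 ∧ f ∈ Z1 GQ G}), (0 : G)))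
    rw [smul_zero, smul_zero, zero_add, zero_add] at h1
    exact h1
  refine ⟨k, fun g => ?_, hf⟩
  have h1 : τ • g + (0 : GQ → G) τ = τ₀ ^ k • g + (0 : GQ → G) (τ₀ ^ k) := congrArg Prod.snd
    (hk ((⟨0, 𝒵.zero_mem, (Z1 GQ G).zero_mem⟩ : {f : GQ → G // f ∈ 𝒵 ∧ f ∈ Z1 GQ G}), g))
  rw [Pi.zero_apply, Pi.zero_apply, add_zero, add_zero] at h1
  exact h1

/-- **the tame relation on modules and cocycles**: `φ τ φ⁻¹` acts as `τ ^ q` on `G` and on all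
cocycles of a finite group `𝒵` of continuous cocycles. -/
theorem tame_cocycle_conj_frobenius (hq : q.Prime) (hP : P.LiesOverPrime q)
    (n : ℕ) (hn : ∀ x : G, n • x = 0) (hnq : n.Coprime q) (hGcont : IsCtsAction G)
    (hGcop : ∀ σ ∈ P.inertiaSubgroupIn ℚ, ∃ m : ℕ, m.Coprime q ∧ ∀ g : G, σ ^ m • g = g)
    (𝒵 : AddSubgroup (GQ → G)) (h𝒵 : 𝒵 ≤ Z1 GQ G) (hcts : ∀ f ∈ 𝒵, IsCtsCoc f)
    (hfin : Finite 𝒵) {φ : GQ} (hφ : P.IsFrobeniusAt φ q) {τ : GQ}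
    (hτ : τ ∈ P.inertiaSubgroupIn ℚ) :
    (∀ g : G, (φ * τ * φ⁻¹) • g = τ ^ q • g) ∧ ∀ f ∈ 𝒵, f (φ * τ * φ⁻¹) = f (τ ^ q) := by
  obtain ⟨hc, hcop⟩ := cocSet_hyps (P := P) n hn hnq hGcont hGcop 𝒵 hcts hfin
  have hk := fun e : CocSet 𝒵 => tame_smul_conj_frobenius hq hP hc hcop hφ hτ e
  have hf : ∀ f ∈ 𝒵, f (φ * τ * φ⁻¹) = f (τ ^ q) := by
    intro f hf
    have h1 : (φ * τ * φ⁻¹) • (0 : G) + f (φ * τ * φ⁻¹) = τ ^ q • (0 : G) + f (τ ^ q) :=
      congrArg Prod.snd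
        (hk ((⟨f, hf, h𝒵 hf⟩ : {f : GQ → G // f ∈ 𝒵 ∧ f ∈ Z1 GQ G}), (0 : G)))
    rw [smul_zero, smul_zero, zero_add, zero_add] at h1
    exact h1
  refine ⟨fun g => ?_, hf⟩
  have h1 : (φ * τ * φ⁻¹) • g + (0 : GQ → G) (φ * τ * φ⁻¹) =
      τ ^ q • g + (0 : GQ → G) (τ ^ q) := congrArg Prod.snd
    (hk ((⟨0, 𝒵.zero_mem, (Z1 GQ G).zero_mem⟩ : {f : GQ → G // f ∈ 𝒵 ∧ f ∈ Z1 GQ G}), g))
  rw [Pi.zero_apply, Pi.zero_apply, add_zero, add_zero] at h1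
  exact h1

end Cocycle

section Consequences

variable {q : ℕ} {P : ValuationSubring Ω}

/-- **two continuous characters are proportional on tame inertia**: for additive continuous maps
`f g : G_ℚ → Q`, `Q` killed by an integer prime to `q`, there is `τ₀ ∈ I_P` such that
`(f τ, g τ) = k • (f τ₀, g τ₀)` for every `τ ∈ I_P`. -/
theorem tame_hom_pair_cyclic (hq : q.Prime) (hP : P.LiesOverPrime q) {Q : Type} [AddCommGroup Q]
    (n : ℕ) (hn : ∀ x : Q, n • x = 0) (hnq : n.Coprime q) (f g : GQ → Q)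
    (hf : ∀ σ τ, f (σ * τ) = f σ + f τ) (hg : ∀ σ τ, g (σ * τ) = g σ + g τ)
    (hfc : IsCtsCoc f) (hgc : IsCtsCoc g) :
    ∃ τ₀ ∈ P.inertiaSubgroupIn ℚ, ∀ τ ∈ P.inertiaSubgroupIn ℚ, ∃ k : ℕ,
      f τ = k • f τ₀ ∧ g τ = k • g τ₀ := by
  obtain ⟨F₁, hF₁, hF₁v⟩ := hfc
  obtain ⟨F₂, hF₂, hF₂v⟩ := hgc
  haveI := hF₁
  haveI := hF₂
  obtain ⟨N, hN⟩ : ∃ N : IntermediateField ℚ Ω,
    N = IntermediateField.normalClosure ℚ (↥(F₁ ⊔ F₂)) Ω := ⟨_, rfl⟩
  haveI : FiniteDimensional ℚ N := by rw [hN]; exact normalClosure.is_finiteDimensional ℚ _ Ω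
  haveI : Normal ℚ N := by rw [hN]; exact normalClosure.normal ℚ _ Ω
  have hle : F₁ ⊔ F₂ ≤ N := by rw [hN]; exact (F₁ ⊔ F₂).le_normalClosure
  have hf1 : f 1 = 0 := by
    have := hf 1 1
    rw [mul_one] at this
    exact (add_eq_left.mp this.symm)
  have hg1 : g 1 = 0 := by
    have := hg 1 1
    rw [mul_one] at this
    exact (add_eq_left.mp this.symm)
  let fg : GQ →* Multiplicative (Q × Q) :=
    { toFun := fun σ => Multiplicative.ofAdd (f σ, g σ)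
      map_one' := by
        show Multiplicative.ofAdd (f 1, g 1) = 1
        rw [hf1, hg1]
        rfl
      map_mul' := fun σ τ => by
        show Multiplicative.ofAdd (f (σ * τ), g (σ * τ)) =
          Multiplicative.ofAdd (f σ, g σ) * Multiplicative.ofAdd (f τ, g τ)
        rw [hf, hg]
        rfl }
  obtain ⟨τ₀, hτ₀, h⟩ := Fermat.Agent.TW.exists_generator_of_inertia hq hP fg N
    (fun σ hσ => by
      show Multiplicative.ofAdd (f σ, g σ) = 1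
      rw [hF₁v σ fun a ha => hσ a (hle ((le_sup_left : F₁ ≤ F₁ ⊔ F₂) ha)),
        hF₂v σ fun a ha => hσ a (hle ((le_sup_right : F₂ ≤ F₁ ⊔ F₂) ha))]
      rfl)
    (fun σ hσ => by
      refine ⟨n, hnq, ?_⟩
      show Multiplicative.ofAdd (f σ, g σ) ^ n = 1
      rw [← ofAdd_nsmul, Prod.smul_mk, hn, hn]
      rfl)
  refine ⟨τ₀, hτ₀, fun τ hτ => ?_⟩
  obtain ⟨k, hk⟩ := h τ hτ
  refine ⟨k, ?_, ?_⟩
  · have h1 : Multiplicative.ofAdd (f τ, g τ) = Multiplicative.ofAdd (f τ₀, g τ₀) ^ k := hk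
    rw [← ofAdd_nsmul, Prod.smul_mk] at h1
    exact congrArg Prod.fst (Multiplicative.ofAdd.injective h1)
  · have h1 : Multiplicative.ofAdd (f τ, g τ) = Multiplicative.ofAdd (f τ₀, g τ₀) ^ k := hk
    rw [← ofAdd_nsmul, Prod.smul_mk] at h1
    exact congrArg Prod.snd (Multiplicative.ofAdd.injective h1)

/-- **(TAME-fin)**: two continuous characters `G_ℚ → ℤ/r`, `r ≠ q`, are linearly dependent on the
inertia group `I_P`. -/
theorem tame_linear_dependence (hq : q.Prime) (hP : P.LiesOverPrime q) (r : ℕ) (hr : r.Coprime q)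
    (f g : GQ → ZMod r)
    (hf : ∀ σ τ, f (σ * τ) = f σ + f τ) (hg : ∀ σ τ, g (σ * τ) = g σ + g τ)
    (hfc : IsCtsCoc f) (hgc : IsCtsCoc g) :
    ∃ a b : ZMod r, ((a ≠ 0 ∨ b ≠ 0) ∨ Subsingleton (ZMod r)) ∧
      ∀ σ ∈ P.inertiaSubgroupIn ℚ, a * f σ + b * g σ = 0 := by
  obtain ⟨τ₀, hτ₀, h⟩ := tame_hom_pair_cyclic hq hP r
    (fun x : ZMod r => by rw [nsmul_eq_mul]; simp) hr f g hf hg hfc hgc
  by_cases h0 : f τ₀ = 0 ∧ g τ₀ = 0
  · refine ⟨1, 0, ?_, fun σ hσ => ?_⟩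
    · by_cases h1 : (1 : ZMod r) = 0
      · right
        exact ⟨fun x y => by rw [← mul_one x, ← mul_one y, h1, mul_zero, mul_zero]⟩
      · left; left; exact h1
    · obtain ⟨k, hk1, hk2⟩ := h σ hσ
      rw [hk1, h0.1, smul_zero, mul_zero, zero_mul, add_zero]
  · refine ⟨g τ₀, -f τ₀, ?_, fun σ hσ => ?_⟩
    · left
      by_contra hcon
      push Not at hcon
      exact h0 ⟨neg_eq_zero.mp hcon.2, hcon.1⟩
    · obtain ⟨k, hk1, hk2⟩ := h σ hσ
      rw [hk1, hk2, nsmul_eq_mul, nsmul_eq_mul]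
      ring

variable {G : Type} [AddCommGroup G] [DistribMulAction GQ G]

/-- powers of an element with `(τ₀ - 1)² = 0`. -/
theorem pow_smul_of_sq_zero (τ₀ : GQ) (hN2 : ∀ g : G, τ₀ • (τ₀ • g - g) = τ₀ • g - g) (j : ℕ)
    (g : G) : τ₀ ^ j • g = g + j • (τ₀ • g - g) := by
  induction j with
  | zero => rw [pow_zero, one_smul, zero_smul, add_zero]
  | succ i ih =>
    rw [pow_succ', mul_smul, ih, smul_add, smul_nsmul_comm_aux τ₀ i (τ₀ • g - g), hN2, succ_nsmul]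
    abel
where
  smul_nsmul_comm_aux (τ₀ : GQ) (i : ℕ) (x : G) : τ₀ • (i • x) = i • (τ₀ • x) := by
    induction i with
    | zero => rw [zero_smul, zero_smul, smul_zero]
    | succ k ihk => rw [succ_nsmul, succ_nsmul, smul_add, ihk]

/-- the values of a cocycle on the powers of an element with `(τ₀ - 1)² = 0`. -/
theorem Z1_map_pow_of_sq_zero {f : GQ → G} (hf : f ∈ Z1 GQ G) (τ₀ : GQ)
    (hN2 : ∀ g : G, τ₀ • (τ₀ • g - g) = τ₀ • g - g) (j : ℕ) :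
    f (τ₀ ^ j) = j • f τ₀ + (j.choose 2) • (τ₀ • f τ₀ - f τ₀) := by
  induction j with
  | zero => rw [pow_zero, Z1_map_one hf, zero_smul, Nat.choose_zero_succ, zero_smul, add_zero]
  | succ i ih =>
    have hc : (i + 1).choose 2 = i + i.choose 2 := by
      rw [Nat.choose_succ_succ' i 1, Nat.choose_one_right]
    rw [pow_succ, hf (τ₀ ^ i) τ₀, ih, pow_smul_of_sq_zero τ₀ hN2 i (f τ₀), hc,
      add_smul i (i.choose 2), succ_nsmul]
    abel

/-- **the Frobenius constraint on the value at a tame generator**: if `φ τ₀ φ⁻¹` acts as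
`τ₀ ^ q` on `G` and on the cocycle `f`, and `(τ₀ - 1)² = 0` on `G`, then
`(φ - q) (f τ₀) ∈ (τ₀ - 1) G`. -/
theorem tame_frobenius_sub_smul_mem {f : GQ → G} (hf : f ∈ Z1 GQ G) (φ τ₀ : GQ) (q : ℕ)
    (hact : ∀ g : G, (φ * τ₀ * φ⁻¹) • g = τ₀ ^ q • g)
    (hfv : f (φ * τ₀ * φ⁻¹) = f (τ₀ ^ q))
    (hN2 : ∀ g : G, τ₀ • (τ₀ • g - g) = τ₀ • g - g) :
    ∃ y : G, φ • f τ₀ - q • f τ₀ = τ₀ • y - y := by
  refine ⟨q • f φ + (q.choose 2) • f τ₀, ?_⟩
  -- the left-hand side of `hfv`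
  have h1 : f (φ * τ₀ * φ⁻¹) = f φ + φ • f τ₀ - (φ * τ₀ * φ⁻¹) • f φ := by
    rw [hf (φ * τ₀) φ⁻¹, hf φ τ₀, Z1_map_inv hf φ, smul_neg, ← mul_smul]
    abel
  rw [hact, pow_smul_of_sq_zero τ₀ hN2 q (f φ)] at h1
  rw [h1, Z1_map_pow_of_sq_zero hf τ₀ hN2 q] at hfv
  have h2 : τ₀ • (q • f φ + (q.choose 2) • f τ₀) - (q • f φ + (q.choose 2) • f τ₀) =
      q • (τ₀ • f φ - f φ) + (q.choose 2) • (τ₀ • f τ₀ - f τ₀) := by
    rw [smul_add, pow_smul_of_sq_zero.smul_nsmul_comm_aux, pow_smul_of_sq_zero.smul_nsmul_comm_aux,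
      smul_sub, smul_sub]
    abel
  rw [h2]
  have h3 : φ • f τ₀ = q • f τ₀ + (q.choose 2) • (τ₀ • f τ₀ - f τ₀) + q • (τ₀ • f φ - f φ) := by
    have := hfv
    have e : f φ + φ • f τ₀ - (f φ + q • (τ₀ • f φ - f φ)) = φ • f τ₀ - q • (τ₀ • f φ - f φ) := by
      abel
    rw [e] at this
    rw [← this]
    abel
  rw [h3]
  abel

end Consequences

end Fermat.Agent.MZ
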