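/-
PROJECT MZ (S15), block (a), part 2 (helper9): the genus formula of `X₀(p)` is positive for a
prime `p ∉ {2, 3, 5, 7, 13}`.
-/
import Mathlib
import Fermat.Prelude.Def_ModularCurve_GenusNumerics
import Fermat.Agent.X0N.Cosets_helper9_Count

set_option autoImplicit false
set_option linter.unusedSectionVars false
set_option linter.style.haveILetI false

open ModularCurve Polynomial

namespace Fermat.Agent.MZ

/-- a quadratic polynomial condition over `ZMod p` (`p` prime) has at most two solutions. -/
theorem card_quadratic_le_two {p : ℕ} [Fact p.Prime] (f : (ZMod p)[X]) (hf : f.natDegree = 2)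
    (P : ZMod p → Prop) (hP : ∀ x, P x → f.IsRoot x) : Nat.card {x : ZMod p // P x} ≤ 2 := by
  classical
  have hf0 : f ≠ 0 := by
    intro h
    rw [h, natDegree_zero] at hf
    omega
  rw [Nat.card_eq_fintype_card, Fintype.card_subtype]
  calc (Finset.univ.filter P).card ≤ f.roots.toFinset.card := by
        apply Finset.card_le_card
        intro x hx
        rw [Finset.mem_filter] at hx
        rw [Multiset.mem_toFinset, mem_roots hf0]
        exact hP x hx.2
    _ ≤ Multiset.card f.roots := Multiset.toFinset_card_le _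
    _ ≤ f.natDegree := card_roots' f
    _ = 2 := hf

theorem nuTwo_le_two {p : ℕ} (hp : p.Prime) : nuTwo p ≤ 2 := by
  haveI : Fact p.Prime := ⟨hp⟩
  refine card_quadratic_le_two (X ^ 2 + 1 : (ZMod p)[X]) ?_ _ ?_
  · compute_degree!
  · intro x hx
    rw [IsRoot.def]
    simpa using hx

theorem nuThree_le_two {p : ℕ} (hp : p.Prime) : nuThree p ≤ 2 := by
  haveI : Fact p.Prime := ⟨hp⟩
  refine card_quadratic_le_two (X ^ 2 + X + 1 : (ZMod p)[X]) ?_ _ ?_
  · compute_degree!
  · intro x hx
    rw [IsRoot.def]
    simpa using hx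

theorem cuspCount_prime {p : ℕ} (hp : p.Prime) : cuspCount p = 2 := by
  unfold cuspCount
  rw [Nat.Prime.divisors hp, Finset.sum_pair hp.one_lt.ne]
  simp [Nat.div_self hp.pos]

theorem dedekindPsi_prime {p : ℕ} (hp : p.Prime) : dedekindPsi p = p + 1 := by
  have h := Fermat.Agent.X0N.dedekindPsi_prime_pow hp (n := 1) one_pos
  rwa [pow_one, Nat.sub_self, pow_zero] at h

theorem nuTwo_eleven : nuTwo 11 = 0 := by
  unfold nuTwo
  rw [Nat.card_eq_zero]
  left
  rw [isEmpty_subtype]
  decide

theorem nuThree_eleven : nuThree 11 = 0 := by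
  unfold nuThree
  rw [Nat.card_eq_zero]
  left
  rw [isEmpty_subtype]
  decide

/-- **the genus formula of `X₀(p)` is positive** for a prime `p ∉ {2, 3, 5, 7, 13}`. -/
theorem genusFormula_pos {p : ℕ} (hp : p.Prime) (hp' : p ∉ ({2, 3, 5, 7, 13} : Finset ℕ)) :
    0 < genusFormula p := by
  unfold genusFormula
  rw [dedekindPsi_prime hp, cuspCount_prime hp]
  by_cases h11 : p = 11
  · subst h11
    rw [nuTwo_eleven, nuThree_eleven]
    norm_num
  · have h17 : 17 ≤ p := by
      by_contra hlt
      rw [not_le] at hlt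
      simp only [Finset.mem_insert, Finset.mem_singleton, not_or] at hp'
      interval_cases p <;> first | omega | (exfalso; revert hp; decide)
    have h2 : (nuTwo p : ℚ) ≤ 2 := by exact_mod_cast nuTwo_le_two hp
    have h3 : (nuThree p : ℚ) ≤ 2 := by exact_mod_cast nuThree_le_two hp
    have hpq : (17 : ℚ) ≤ (p : ℚ) := by exact_mod_cast h17
    push_cast
    linarith

end Fermat.Agent.MZ
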