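/-
PROJECT MZ — helper2 — **S09 from S12** (and S10, S11, S13 on main): the mod `p` representation of
the Frey curve is irreducible, given that it has no Galois-stable cofixed line for `p ≥ 17`.
-/
import Fermat.Agent.S10
import Fermat.Agent.S11
import Fermat.Agent.S13

set_option autoImplicit false
open WeierstrassCurve WeierstrassCurve.Affine WeierstrassCurve.Affine.Point
open FreyPackage

namespace Fermat.Agent.MZ

/-- a prime `≥ 5` is `5`, `7`, `11`, `13` or `≥ 17`. -/
theorem prime_cases_of_five_le {p : ℕ} (hp : p.Prime) (h5 : 5 ≤ p) :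
    (p = 5 ∨ p = 7 ∨ p = 13) ∨ p = 11 ∨ 17 ≤ p := by
  by_contra hcon
  push Not at hcon
  obtain ⟨⟨h5', h7, h13⟩, h11, h17⟩ := hcon
  interval_cases p <;> first | omega | (exfalso; revert hp; decide)

/-- **S09 from S12.** -/
theorem s09_of_s12
    (h12 : ∀ P : FreyPackage, 17 ≤ P.p →
      ¬ HasGaloisStableCofixedLine (K := AlgebraicClosure ℚ) ℚ P.freyCurve P.p)
    (P : FreyPackage) : GaloisRepIsIrreducible (K := AlgebraicClosure ℚ) ℚ P.freyCurve P.p := by
  by_contra hred
  have hline := Fermat.Agent.S13.result P hred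
  rcases prime_cases_of_five_le P.pp P.hp5 with h | h | h
  · exact Fermat.Agent.S10.result P h hline
  · exact Fermat.Agent.S11.result P h hline
  · exact h12 P h hline

end Fermat.Agent.MZ
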