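/-
PROJECT MZ (S15), PART A interface — helper6.
Interface Props consumed by the conditional top theorem [TOP15].
-/
import Mathlib
import Fermat.Prelude.Def_ModularCurve_HeckeModule
import Fermat.Prelude.Def_ModularCurve_ReductionModL
import Fermat.Prelude.Def_EllipticCurve_ZeroComponentAt

set_option autoImplicit false

open ModularCurve AlgebraicCurve

namespace Fermat.Agent.MZ

/-- The ring of Hecke operators away from `p` acting on `JZero p` (a subalgebra of the additive
endomorphisms; commutativity is neither assumed nor needed by [TOP15]). -/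
noncomputable def heckeAdjoin (p : ℕ) [NeZero p] : Subalgebra ℤ (Module.End ℤ (JZero p)) :=
  Algebra.adjoin ℤ {T | ∃ ℓ' : Nat.Primes, (ℓ' : ℕ) ≠ p ∧ T = heckeOperatorBar p ℓ'}

/-- **(FIN)-conclusion** for the class `c` and the prime `r`: a Hecke operator `t` which kills the
Galois-fixed points up to torsion and acts on `c` through an integer prime to `r`. -/
def EisKiller (p : ℕ) [NeZero p] (c : JZero p) (r : ℕ) : Prop :=
  ∃ t ∈ heckeAdjoin p,
    (∀ x : JZero p, (∀ σ : AlgebraicClosure ℚ ≃ₐ[ℚ] AlgebraicClosure ℚ, σ • x = x) →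
      ∃ m : ℕ, 0 < m ∧ m • t x = 0) ∧
    ∃ u : ℤ, ¬ (r : ℤ) ∣ u ∧ t c = u • c

end Fermat.Agent.MZ
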