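/-
PROJECT MZ (S15), PART A — helper6.  [TOP15]: Mazur's Step 3 as a CONDITIONAL theorem.

`s15_of_inputs` : (MOD) + (FIN)-conclusion `EisKiller` + (HR) + (INJ) + S18 ⟹ the statement of S15
(for the given prime `p`).
-/
import Mathlib
import Fermat.Agent.MZ.TOP15_helper6_Defs
import Fermat.Agent.JA.O1_helper2_Compat
import Fermat.Agent.S18

set_option autoImplicit false

open ModularCurve AlgebraicCurve
open WeierstrassCurve WeierstrassCurve.Affine

namespace Fermat.Agent.MZ

local notation "Ω" => AlgebraicClosure ℚ
local notation "GQ" => (AlgebraicClosure ℚ ≃ₐ[ℚ] AlgebraicClosure ℚ)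

section PlaceDiff

variable (p : ℕ) [NeZero p]

/-- the class of the difference of two places of `Ω·F_p`. -/
noncomputable def placeDiff (P P' : Place Ω (modularFunctionFieldBar p)) : JZero p :=
  Pic0.mk ⟨Finsupp.single P 1 - Finsupp.single P' 1, by
    rw [Divisor.mem_degZero, map_sub, Divisor.degree_single, Divisor.degree_single,
      Fermat.Agent.JA.deg_eq_one_bar, Fermat.Agent.JA.deg_eq_one_bar]
    simp⟩

theorem placeDiff_add (P P' P'' : Place Ω (modularFunctionFieldBar p)) :
    placeDiff p P P' + placeDiff p P' P'' = placeDiff p P P'' := by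
  rw [placeDiff, placeDiff, placeDiff, ← Pic0.mk_add]
  refine congrArg Pic0.mk (Subtype.ext ?_)
  show (Finsupp.single P 1 - Finsupp.single P' 1 : Divisor Ω (modularFunctionFieldBar p)) +
    (Finsupp.single P' 1 - Finsupp.single P'' 1) = Finsupp.single P 1 - Finsupp.single P'' 1
  abel

theorem placeDiff_sub (P P' P'' : Place Ω (modularFunctionFieldBar p)) :
    placeDiff p P P'' - placeDiff p P' P'' = placeDiff p P P' := by
  rw [← placeDiff_add p P P' P'']
  abel

/-- Galois acts on `placeDiff` through the places. -/
theorem smul_placeDiff (σ : GQ) (P P' : Place Ω (modularFunctionFieldBar p)) :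
    σ • placeDiff p P P' =
      placeDiff p (arithmeticGalois (modularFunctionFieldFull p) σ • P)
        (arithmeticGalois (modularFunctionFieldFull p) σ • P') := by
  unfold placeDiff
  rw [galois_smul_pic0_def, SemilinearAut.pic0_smul_mk]
  refine congrArg Pic0.mk (Subtype.ext ?_)
  rw [SemilinearAut.coe_degZeroSMulHom]
  show arithmeticGalois (modularFunctionFieldFull p) σ •
      (Finsupp.single P 1 - Finsupp.single P' 1 : Divisor Ω (modularFunctionFieldBar p)) =
    (Finsupp.single (arithmeticGalois (modularFunctionFieldFull p) σ • P) 1 -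
      Finsupp.single (arithmeticGalois (modularFunctionFieldFull p) σ • P') 1 :
        Divisor Ω (modularFunctionFieldBar p))
  rw [smul_sub, SemilinearAut.smul_single, SemilinearAut.smul_single]

/-- two places with the same reduction have a difference class in the kernel of reduction. -/
theorem reductionModL_placeDiff_eq_zero {A : ValuationSubring Ω} (h : ReductionInputsModL A p)
    {P P' : Place Ω (modularFunctionFieldBar p)}
    (hPP' : placeReductionModL h P = placeReductionModL h P') :
    reductionModL A p (placeDiff p P P') = 0 := by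
  rw [placeDiff, reductionModL_mk h]
  have h0 : reductionDegZeroAlong (placeReductionModL h)
      (isPlaceReductionModL_placeReductionModL h).1
      ⟨Finsupp.single P 1 - Finsupp.single P' 1, by
        rw [Divisor.mem_degZero, map_sub, Divisor.degree_single, Divisor.degree_single,
          Fermat.Agent.JA.deg_eq_one_bar, Fermat.Agent.JA.deg_eq_one_bar]
        simp⟩ = 0 := by
    apply Subtype.ext
    rw [coe_reductionDegZeroAlong]
    show Finsupp.mapDomain (placeReductionModL h)
      (Finsupp.single P 1 - Finsupp.single P' 1 : Divisor Ω (modularFunctionFieldBar p)) = 0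
    rw [← Finsupp.mapDomain.addMonoidHom_apply, map_sub, Finsupp.mapDomain.addMonoidHom_apply,
      Finsupp.mapDomain.addMonoidHom_apply, Finsupp.mapDomain_single, Finsupp.mapDomain_single,
      hPP', sub_self]
  rw [h0]
  rfl

end PlaceDiff

section Interface

variable (p : ℕ) [NeZero p]

/-- **(MOD)**: the moduli dictionary.  To a rational point `Q` of exact order `p` on `W` it attaches
a Galois-fixed place `Px` of `Ω·F_p` which, at every prime `ℓ ≠ p` of multiplicative reduction,
reduces to the cusp `P0` when `Q` is not in the zero component and to the cusp `P∞` when it is. -/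
def ModDict (Pinf P0 : Place Ω (modularFunctionFieldBar p)) : Prop :=
  ∀ (W : WeierstrassCurve ℤ), W.Δ ≠ 0 →
  ∀ (Q : ((W.map (Int.castRingHom ℚ))⁄(AlgebraicClosure ℚ)).Point),
    (∀ σ : GQ, σ • Q = Q) → addOrderOf Q = p →
    ∃ Px : Place Ω (modularFunctionFieldBar p),
      (∀ σ : GQ, arithmeticGalois (modularFunctionFieldFull p) σ • Px = Px) ∧
      ∀ ℓ : ℕ, ℓ.Prime → ℓ ≠ p → (ℓ : ℤ) ∣ W.Δ → ¬ (ℓ : ℤ) ∣ W.c₄ →
        ∀ A : ValuationSubring Ω, A.LiesOverPrime ℓ → ∀ h : ReductionInputsModL A p,
          (¬ W.InZeroComponentAt A Q → placeReductionModL h Px = placeReductionModL h P0) ∧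
          (W.InZeroComponentAt A Q → placeReductionModL h Px = placeReductionModL h Pinf)

/-- **(HR)**: the kernel of reduction at `A` is stable under the Hecke operators away from `p`. -/
def HeckeRedStable (A : ValuationSubring Ω) : Prop :=
  ∀ ℓ' : Nat.Primes, (ℓ' : ℕ) ≠ p → ∀ x : JZero p,
    reductionModL A p x = 0 → reductionModL A p (heckeOperatorBar p ℓ' x) = 0

/-- **(GAL)**: the Hecke operators commute with the Galois action. -/
def HeckeGaloisComm : Prop :=
  ∀ (ℓ' : Nat.Primes) (σ : GQ) (x : JZero p),
    heckeOperatorBar p ℓ' (σ • x) = σ • heckeOperatorBar p ℓ' x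

/-- **(INJ)**: reduction at `A` is injective on the cyclic group generated by `c`. -/
def CuspInj (A : ValuationSubring Ω) (c : JZero p) : Prop :=
  ∀ m : ℤ, reductionModL A p (m • c) = 0 → m • c = 0

end Interface

section Top

variable {p : ℕ} [NeZero p]

theorem heckeAdjoin_galois_comm (hgal : HeckeGaloisComm p) {t : Module.End ℤ (JZero p)}
    (ht : t ∈ heckeAdjoin p) (σ : GQ) (x : JZero p) : t (σ • x) = σ • t x := by
  induction ht using Algebra.adjoin_induction generalizing x with
  | mem T hT =>
    obtain ⟨ℓ', -, rfl⟩ := hT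
    exact hgal ℓ' σ x
  | algebraMap n =>
    rw [Module.algebraMap_end_apply, Module.algebraMap_end_apply, smul_comm]
  | add a b _ _ ha hb =>
    rw [LinearMap.add_apply, LinearMap.add_apply, ha, hb, smul_add]
  | mul a b _ _ ha hb =>
    rw [Module.End.mul_apply, Module.End.mul_apply, hb, ha]

theorem heckeAdjoin_red_stable {A : ValuationSubring Ω} (hHR : HeckeRedStable p A)
    {t : Module.End ℤ (JZero p)} (ht : t ∈ heckeAdjoin p) (x : JZero p)
    (hx : reductionModL A p x = 0) : reductionModL A p (t x) = 0 := by
  induction ht using Algebra.adjoin_induction generalizing x with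
  | mem T hT =>
    obtain ⟨ℓ', hℓ', rfl⟩ := hT
    exact hHR ℓ' hℓ' x hx
  | algebraMap n =>
    rw [Module.algebraMap_end_apply, map_zsmul, hx, smul_zero]
  | add a b _ _ ha hb =>
    rw [LinearMap.add_apply, map_add, ha x hx, hb x hx, add_zero]
  | mul a b _ _ ha hb =>
    rw [Module.End.mul_apply]
    exact ha _ (hb x hx)

end Top

end Fermat.Agent.MZ
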