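/-
PROJECT MZ (S15), block (a), part 3 (helper9): the cuspidal class `c = cl(P∞ - P0)` of `J₀(p)`.

* `cuspInfP p`, `cuspZeroP p` : the two cusps of `X₀(p)` over `Ω = ℚ̄` (literals (a0));
* `galois_smul_cuspInfP`, `galois_smul_cuspZeroP` : they are Galois-fixed (a1);
* `cuspClass p = placeDiff p (cuspInfP p) (cuspZeroP p)`;
* `sub_one_zsmul_cuspClass : (p - 1) • c = 0`, `isOfFinAddOrder_cuspClass` (a2);
* `cuspClass_ne_zero` for `p ∉ {2, 3, 5, 7, 13}` (a2) : a function with a single simple pole forces
  genus `0` (`genus_eq_zero_of_simple_pole`), against S24 and `genusFormula_pos`;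
* `exists_prime_dvd_addOrderOf_cuspClass`.
-/
import Mathlib
import Fermat.Agent.MZ.CUSP_helper9_Div
import Fermat.Agent.MZ.CUSP_helper9_Genus
import Fermat.Agent.MZ.TOP15_helper6_Main
import Fermat.Agent.MW.INST_helper8_Gal
import Fermat.Agent.S24
import Fermat.Agent.FF.RiemannHurwitz

set_option autoImplicit false
set_option linter.unusedSectionVars false
set_option linter.style.haveILetI false

open AlgebraicCurve ModularCurve HahnSeries

namespace Fermat.Agent.MZ

open Fermat.Agent.MW Fermat.Agent.SS Fermat.Agent.X0N Fermat.Agent.JA Fermat.Agent.FF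

local notation "Ω" => AlgebraicClosure ℚ
local notation "GQ" => (AlgebraicClosure ℚ ≃ₐ[ℚ] AlgebraicClosure ℚ)

/-! ### a function with a single simple pole forces genus zero -/

section GenusZero

variable {k F : Type*} [Field k] [Field F] [Algebra k F] [CharZero k] [IsAlgClosed k]

theorem genus_eq_zero_of_simple_pole (c : Coord k F) [HasCanonicalDivisor (K := k) (F := F)]
    (f : F) (P0 : Place k F) (hpole : ∀ v : Place k F, v.ord f < 0 ↔ v = P0)
    (h0 : P0.ord f = -1) : genus k F = 0 := by
  classical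
  have htr : Transcendental k f := by
    intro halg
    have := ord_eq_zero_of_isAlgebraic P0 halg
    omega
  set c' : Coord k F := c.ofTranscendental f htr with hc'
  have hx : c'.x = f := rfl
  have hpoles : c'.poles = {P0} := by
    ext v
    rw [c'.mem_poles, hx, hpole, Finset.mem_singleton]
  have hdeg : (c'.degree : ℤ) = 1 := by
    rw [← c'.sum_poles', hpoles, Finset.sum_singleton, hx, h0]
    norm_num
  have hdeg' : c'.degree = 1 := by exact_mod_cast hdeg
  have hcard : ∀ a : k, (c'.zeros a).card = c'.degree := by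
    intro a
    apply le_antisymm (c'.card_zeros_le a)
    rw [hdeg', Finset.one_le_card]
    by_contra hne
    rw [Finset.not_nonempty_iff_eq_empty] at hne
    have h1 := c'.sum_zeros' a
    rw [hne, Finset.sum_empty, hdeg] at h1
    omega
  refine c'.genus_eq ∅ (fun a _ => hcard a) 0 ?_
  rw [Finset.sum_empty, hpoles, Finset.card_singleton, hdeg]
  norm_num

end GenusZero

/-! ### the cusps and the cuspidal class -/

section Defs

variable (p : ℕ) [NeZero p]

/-- the cusp `∞` of `X₀(p)` over `Ω`. -/
noncomputable def cuspInfP : Place Ω (modularFunctionFieldBar p) := infN p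

/-- the cusp `0` of `X₀(p)` over `Ω`. -/
noncomputable def cuspZeroP : Place Ω (modularFunctionFieldBar p) := zeroN p

/-- the cuspidal class `cl(P∞ - P0)`. -/
noncomputable def cuspClass : JZero p := placeDiff p (cuspInfP p) (cuspZeroP p)

theorem cuspInfP_ne_cuspZeroP (hp : p.Prime) : cuspInfP p ≠ cuspZeroP p := infN_ne_zeroN p hp

/-- (a1) the cusp `∞` is Galois-fixed. -/
theorem galois_smul_cuspInfP (σ : GQ) :
    arithmeticGalois (modularFunctionFieldFull p) σ • cuspInfP p = cuspInfP p :=
  gal_smul_infN p σ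

/-- (a1) the cusp `0` is Galois-fixed. -/
theorem galois_smul_cuspZeroP (hp : p.Prime) (σ : GQ) :
    arithmeticGalois (modularFunctionFieldFull p) σ • cuspZeroP p = cuspZeroP p := by
  show σ • zeroN p = zeroN p
  have hord : (σ • zeroN p).ord (Fermat.Agent.X0N.jBar p) = -(p : ℤ) := by
    rw [ord_smul_left, gal_smul_jBar, zeroN_ord_jBar]
  have hneg : (σ • zeroN p).ord (Fermat.Agent.X0N.jBar p) < 0 := by
    rw [hord]
    have := hp.pos
    omega
  rcases pole_cases p hp _ hneg with h | h
  · exfalso
    rw [h, infN_ord_jBar] at hord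
    have := hp.two_le
    omega
  · exact h

/-- the cuspidal class is Galois-fixed. -/
theorem galois_smul_cuspClass (hp : p.Prime) (σ : GQ) : σ • cuspClass p = cuspClass p := by
  rw [cuspClass, smul_placeDiff, galois_smul_cuspInfP, galois_smul_cuspZeroP p hp]

end Defs

/-! ### principal divisors and `placeDiff` -/

section Principal

variable (p : ℕ) [NeZero p]

theorem zsmul_placeDiff_eq_zero_iff (m : ℤ) (P P' : Place Ω (modularFunctionFieldBar p)) :
    m • placeDiff p P P' = 0 ↔
      (m • (Finsupp.single P 1 - Finsupp.single P' 1 :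
        Divisor Ω (modularFunctionFieldBar p))).IsPrincipal := by
  unfold placeDiff Pic0.mk
  rw [← QuotientAddGroup.mk_zsmul, QuotientAddGroup.eq_zero_iff, AddSubgroup.mem_addSubgroupOf,
    Divisor.mem_principal]
  rfl

theorem placeDiff_eq_zero_iff (P P' : Place Ω (modularFunctionFieldBar p)) :
    placeDiff p P P' = 0 ↔
      (Finsupp.single P 1 - Finsupp.single P' 1 :
        Divisor Ω (modularFunctionFieldBar p)).IsPrincipal := by
  have h := zsmul_placeDiff_eq_zero_iff p 1 P P'
  rwa [one_smul, one_smul] at h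

end Principal

/-! ### (a2): the cuspidal class is torsion and nonzero -/

section Torsion

variable (p : ℕ) [NeZero p]

/-- **`(p - 1) • c = 0`**: `(p-1)(P∞ - P0) = - div U`. -/
theorem sub_one_zsmul_cuspClass (hp : p.Prime) : ((p : ℤ) - 1) • cuspClass p = 0 := by
  rw [cuspClass, zsmul_placeDiff_eq_zero_iff]
  have h : ((p : ℤ) - 1) • (Finsupp.single (cuspInfP p) 1 - Finsupp.single (cuspZeroP p) 1 :
      Divisor Ω (modularFunctionFieldBar p)) = -modUnitDiv p := by
    unfold modUnitDiv cuspInfP cuspZeroP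
    rw [← smul_neg, neg_sub]
  rw [h]
  exact (Divisor.principal (K := Ω) (F := ↥(modularFunctionFieldBar p))).neg_mem
    (modUnitDiv_isPrincipal p hp)

theorem sub_one_nsmul_cuspClass (hp : p.Prime) : (p - 1) • cuspClass p = 0 := by
  have h := sub_one_zsmul_cuspClass p hp
  have e : ((p : ℤ) - 1) = ((p - 1 : ℕ) : ℤ) := by
    rw [Nat.cast_sub hp.one_le, Nat.cast_one]
  rwa [e, natCast_zsmul] at h

/-- (a2) the cuspidal class has finite order. -/
theorem isOfFinAddOrder_cuspClass (hp : p.Prime) : IsOfFinAddOrder (cuspClass p) := by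
  rw [isOfFinAddOrder_iff_nsmul_eq_zero]
  refine ⟨p - 1, ?_, sub_one_nsmul_cuspClass p hp⟩
  have := hp.two_le
  omega

theorem addOrderOf_cuspClass_dvd (hp : p.Prime) : addOrderOf (cuspClass p) ∣ p - 1 :=
  addOrderOf_dvd_of_nsmul_eq_zero (sub_one_nsmul_cuspClass p hp)

/-- (a2) **the cuspidal class is nonzero** when the genus is positive. -/
theorem cuspClass_ne_zero (hp : p.Prime) (hp' : p ∉ ({2, 3, 5, 7, 13} : Finset ℕ)) :
    cuspClass p ≠ 0 := by
  classical
  intro h0
  rw [cuspClass, placeDiff_eq_zero_iff] at h0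
  obtain ⟨f, hf, hdiv⟩ := h0
  have hne := cuspInfP_ne_cuspZeroP p hp
  haveI : CharZero Ω := algebraRat.charZero Ω
  haveI : HasCanonicalDivisor (K := Ω) (F := ↥(modularFunctionFieldBar p)) :=
    (jCoordBar p).hasCanonicalDivisor
  have hord0 : (cuspZeroP p).ord f = -1 := by
    rw [← hdiv, Finsupp.sub_apply, Finsupp.single_apply, Finsupp.single_apply, if_neg hne,
      if_pos rfl]
    norm_num
  have hpole : ∀ v : Place Ω (modularFunctionFieldBar p), v.ord f < 0 ↔ v = cuspZeroP p := by
    intro v
    constructor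
    · intro hv
      by_contra hvne
      rw [← hdiv, Finsupp.sub_apply, Finsupp.single_apply, Finsupp.single_apply,
        if_neg (fun h : cuspZeroP p = v => hvne h.symm)] at hv
      split_ifs at hv <;> norm_num at hv
    · rintro rfl
      rw [hord0]
      norm_num
  have hg := genus_eq_zero_of_simple_pole (jCoordBar p) f (cuspZeroP p) hpole hord0
  have h24 := Fermat.Agent.S24.result p
  rw [hg] at h24
  have hpos := genusFormula_pos hp hp'
  rw [← h24] at hpos
  simp at hpos

/-- some prime divides the order of the cuspidal class (and it divides `p - 1`). -/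
theorem exists_prime_dvd_addOrderOf_cuspClass (hp : p.Prime)
    (hp' : p ∉ ({2, 3, 5, 7, 13} : Finset ℕ)) :
    ∃ r : ℕ, r.Prime ∧ r ∣ addOrderOf (cuspClass p) ∧ r ∣ p - 1 := by
  have h1 : addOrderOf (cuspClass p) ≠ 1 := by
    rw [Ne, AddMonoid.addOrderOf_eq_one_iff]
    exact cuspClass_ne_zero p hp hp'
  obtain ⟨r, hr, hrd⟩ := Nat.exists_prime_and_dvd h1
  exact ⟨r, hr, hrd, hrd.trans (addOrderOf_cuspClass_dvd p hp)⟩

end Torsion

end Fermat.Agent.MZ
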