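/-
PROJECT MZ (S15), block (INJ), part 2 (helper9): reduction modulo `ℓ ≥ 5` (`ℓ ≠ p`) is injective on
the cuspidal group `⟨c⟩ ⊆ J₀(p)`, `c = cl(P∞ - P0)`.

Proof.  `U = Δ(q)/Δ(q^p)` has divisor `(p-1)(P0 - P∞)` and integral `q`-expansion, so its reduction
`Ū` has divisor `(p-1)(r P0 - r P∞)`.  If `m • red c = 0`, i.e. `m (r P∞ - r P0) = div ḡ`, then with
`e = gcd(m, p-1)`, `m = e m₁`, `p - 1 = e n₁` the function `ḡ^{n₁} Ū^{m₁}` has trivial divisor, hence
is constant.  If `ℓ ∣ n₁` then `ℓ ∤ m₁` and Bezout makes `Ū` a constant times an `ℓ`-th power in the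
reduced field `⊆ k((q))`, against `Ū = q^{1-p}(1 - 24 q + …)` (`INJL_helper9_Series`).  So
`ℓ ∤ (p-1)/gcd(m, p-1)`; then `m • c` is killed by the prime-to-`ℓ` part of `p - 1` and S18 applies.
-/
import Mathlib
import Fermat.Agent.MZ.CUSP_helper9_Class
import Fermat.Agent.MZ.INJL_helper9_Series
import Fermat.Agent.JA.S37KEY_helper8
import Fermat.Agent.S18

set_option autoImplicit false
set_option linter.unusedSectionVars false
set_option linter.style.haveILetI false

open AlgebraicCurve ModularCurve HahnSeries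

namespace Fermat.Agent.MZ

open Fermat.Agent.MW Fermat.Agent.SS Fermat.Agent.X0N Fermat.Agent.JA Fermat.Agent.FF

local notation "Ω" => AlgebraicClosure ℚ
local notation "GQ" => (AlgebraicClosure ℚ ≃ₐ[ℚ] AlgebraicClosure ℚ)

/-! ### a Bezout computation in a field -/

section Bezout

variable {F : Type*} [Field F]

theorem eq_const_mul_pow_of_bezout {u g c : F} (hu : u ≠ 0) (hg : g ≠ 0) (a b m₁ n₂ : ℤ) (ℓ : ℕ)
    (hx : g ^ ((ℓ : ℤ) * n₂) * u ^ m₁ = c) (hb : a * m₁ + b * ℓ = 1) :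
    u = c ^ a * (g ^ (-(n₂ * a)) * u ^ b) ^ ℓ := by
  have hgn : g ^ ((ℓ : ℤ) * n₂) ≠ 0 := zpow_ne_zero _ hg
  have h1 : u ^ m₁ = c * (g ^ ((ℓ : ℤ) * n₂))⁻¹ := by
    rw [← hx, mul_comm (g ^ ((ℓ : ℤ) * n₂)), mul_assoc, mul_inv_cancel₀ hgn, mul_one]
  have h2 : (u ^ m₁) ^ a = c ^ a * (g ^ (-(n₂ * a))) ^ (ℓ : ℤ) := by
    rw [h1, mul_zpow, ← zpow_neg, ← zpow_mul, ← zpow_mul]
    congr 2
    ring
  calc u = u ^ (a * m₁ + b * ℓ) := by rw [hb, zpow_one]
    _ = (u ^ m₁) ^ a * (u ^ b) ^ (ℓ : ℤ) := by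
        rw [zpow_add₀ hu, mul_comm a m₁, zpow_mul, zpow_mul]
    _ = c ^ a * ((g ^ (-(n₂ * a))) ^ (ℓ : ℤ) * (u ^ b) ^ (ℓ : ℤ)) := by rw [h2, mul_assoc]
    _ = c ^ a * (g ^ (-(n₂ * a)) * u ^ b) ^ ℓ := by rw [← mul_zpow, zpow_natCast]

end Bezout

/-! ### the reduction of the modular unit -/

section Reduction

variable {ℓ : ℕ} [Fact ℓ.Prime] (p : ℕ) [NeZero p] {A : ValuationSubring Ω}
  (hA : A.LiesOverPrime ℓ)

theorem coeffMap_subtype_unitModC :
    coeffMap A.subtype (unitModC ↥A p) = coeffEmb Ω (modularUnitSeries p) := by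
  rw [coeffMap_unitModC, unitModC_eq_coeffEmb]

theorem coeffMap_subtype_unitModC_mem :
    coeffMap A.subtype (unitModC ↥A p) ∈ laurentBaseChange Ω (modularFunctionFieldFull p) := by
  rw [coeffMap_subtype_unitModC]
  exact coeffEmb_modularUnitSeries_mem Ω (q := p) (N := p) dvd_rfl

theorem mk_coeffMap_subtype_unitModC :
    (⟨coeffMap A.subtype (unitModC ↥A p), coeffMap_subtype_unitModC_mem p⟩ :
      ↥(laurentBaseChange Ω (modularFunctionFieldFull p))) = modUnitP p := by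
  apply Subtype.ext
  show coeffMap A.subtype (unitModC ↥A p) = _
  rw [coeffMap_subtype_unitModC, coe_modUnit]

include hA in
theorem unitModC_residue_mem (hℓp : ¬ ℓ ∣ p) :
    unitModC (IsLocalRing.ResidueField ↥A) p ∈
      modularFunctionFieldFullC (IsLocalRing.ResidueField ↥A) p := by
  have h := coeffMap_residue_mem_fullC hA p hℓp (unitModC ↥A p) (coeffMap_subtype_unitModC_mem p)
  rwa [coeffMap_unitModC] at h

/-- the reduction `Ū` of the modular unit, in the reduced function field. -/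
noncomputable def mzUnitBar (hℓp : ¬ ℓ ∣ p) :
    ↥(modularFunctionFieldFullC (IsLocalRing.ResidueField ↥A) p) :=
  ⟨unitModC (IsLocalRing.ResidueField ↥A) p, unitModC_residue_mem p hA hℓp⟩

theorem mzUnitBar_ne_zero (hℓp : ¬ ℓ ∣ p) : mzUnitBar p hA hℓp ≠ 0 := by
  intro h
  exact unitModC_ne_zero (IsLocalRing.ResidueField ↥A) p (congrArg Subtype.val h)

/-- **the divisor of `Ū`** is the reduction of the divisor of `U`. -/
theorem ord_mzUnitBar (hℓp : ¬ ℓ ∣ p) (hp : p.Prime)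
    {r : Place Ω (modularFunctionFieldBar p) →
      Place (IsLocalRing.ResidueField ↥A)
        (modularFunctionFieldFullC (IsLocalRing.ResidueField ↥A) p)}
    (hr : IsPlaceReductionModL A p r)
    (Q : Place (IsLocalRing.ResidueField ↥A)
      (modularFunctionFieldFullC (IsLocalRing.ResidueField ↥A) p)) :
    Q.ord (mzUnitBar p hA hℓp) =
      -(((p : ℤ) - 1) * ((Finsupp.single (r (cuspInfP p)) (1 : ℤ) -
        Finsupp.single (r (cuspZeroP p)) 1 : Divisor (IsLocalRing.ResidueField ↥A)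
          (modularFunctionFieldFullC (IsLocalRing.ResidueField ↥A) p)) Q)) := by
  have hyk : coeffMap (IsLocalRing.residue ↥A) (unitModC ↥A p) ∈
      modularFunctionFieldFullC (IsLocalRing.ResidueField ↥A) p := by
    rw [coeffMap_unitModC]
    exact unitModC_residue_mem p hA hℓp
  have hne : coeffMap (IsLocalRing.residue ↥A) (unitModC ↥A p) ≠ 0 := by
    rw [coeffMap_unitModC]
    exact unitModC_ne_zero _ p
  have key := hr.2 (unitModC ↥A p) (coeffMap_subtype_unitModC_mem p) hyk hne (modUnitDiv p)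
    (fun P => by
      rw [mk_coeffMap_subtype_unitModC]
      exact modUnitDiv_apply p hp P) Q
  have e1 : (⟨coeffMap (IsLocalRing.residue ↥A) (unitModC ↥A p), hyk⟩ :
      ↥(modularFunctionFieldFullC (IsLocalRing.ResidueField ↥A) p)) = mzUnitBar p hA hℓp := by
    apply Subtype.ext
    show coeffMap (IsLocalRing.residue ↥A) (unitModC ↥A p) = unitModC _ p
    rw [coeffMap_unitModC]
  rw [e1] at key
  rw [← key]
  unfold modUnitDiv
  rw [Finsupp.mapDomain_smul, ← Finsupp.mapDomain.addMonoidHom_apply, map_sub,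
    Finsupp.mapDomain.addMonoidHom_apply, Finsupp.mapDomain.addMonoidHom_apply,
    Finsupp.mapDomain_single, Finsupp.mapDomain_single, Finsupp.smul_apply, Finsupp.sub_apply,
    Finsupp.sub_apply, smul_eq_mul]
  unfold cuspInfP cuspZeroP
  ring

end Reduction

/-! ### the main argument -/

section Main

variable {ℓ : ℕ} [Fact ℓ.Prime] (p : ℕ) [NeZero p] {A : ValuationSubring Ω}
  (hA : A.LiesOverPrime ℓ)

/-- `m • red (cl(P - P')) = 0` iff `m (r P - r P')` is principal on the reduced curve. -/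
theorem zsmul_reductionModL_placeDiff_eq_zero_iff (h : ReductionInputsModL A p) (m : ℤ)
    (P P' : Place Ω (modularFunctionFieldBar p)) :
    m • reductionModL A p (placeDiff p P P') = 0 ↔
      (m • (Finsupp.single (placeReductionModL h P) (1 : ℤ) -
        Finsupp.single (placeReductionModL h P') 1 : Divisor (IsLocalRing.ResidueField ↥A)
          (modularFunctionFieldFullC (IsLocalRing.ResidueField ↥A) p))).IsPrincipal := by
  rw [placeDiff, reductionModL_mk h]
  unfold Pic0.mk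
  rw [← QuotientAddGroup.mk_zsmul, QuotientAddGroup.eq_zero_iff, AddSubgroup.mem_addSubgroupOf,
    Divisor.mem_principal, AddSubgroupClass.coe_zsmul, coe_reductionDegZeroAlong]
  have e : Finsupp.mapDomain (placeReductionModL h)
      (Finsupp.single P (1 : ℤ) - Finsupp.single P' 1 : Divisor Ω (modularFunctionFieldBar p)) =
      Finsupp.single (placeReductionModL h P) (1 : ℤ) -
        Finsupp.single (placeReductionModL h P') 1 := by
    rw [← Finsupp.mapDomain.addMonoidHom_apply, map_sub, Finsupp.mapDomain.addMonoidHom_apply,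
      Finsupp.mapDomain.addMonoidHom_apply, Finsupp.mapDomain_single, Finsupp.mapDomain_single]
  show Divisor.IsPrincipal (m • Finsupp.mapDomain (placeReductionModL h)
      (Finsupp.single P (1 : ℤ) - Finsupp.single P' 1 :
        Divisor Ω (modularFunctionFieldBar p))) ↔ _
  rw [e]

include hA in
/-- **the key step of (INJ)**: if `m • red c = 0` then `ℓ ∤ (p-1)/gcd(m, p-1)`. -/
theorem not_dvd_of_zsmul_reductionModL_cuspClass_eq_zero (hp : p.Prime) (hℓp : ¬ ℓ ∣ p)
    (hℓ5 : 5 ≤ ℓ) (h : ReductionInputsModL A p) (m : ℤ)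
    (hm : m • reductionModL A p (cuspClass p) = 0) :
    ¬ (ℓ : ℤ) ∣ ((p : ℤ) - 1) / (Int.gcd m ((p : ℤ) - 1) : ℤ) := by
  intro hdvd
  haveI : CharP (IsLocalRing.ResidueField ↥A) ℓ := charP_residueField hA
  haveI : IsAlgClosed (IsLocalRing.ResidueField ↥A) := isAlgClosed_residueField A
  set r := placeReductionModL h with hrdef
  have hr : IsPlaceReductionModL A p r := isPlaceReductionModL_placeReductionModL h
  rw [cuspClass, zsmul_reductionModL_placeDiff_eq_zero_iff p h] at hm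
  obtain ⟨g, hg0, hgdiv⟩ := hm
  set E : Divisor (IsLocalRing.ResidueField ↥A)
      (modularFunctionFieldFullC (IsLocalRing.ResidueField ↥A) p) :=
    Finsupp.single (r (cuspInfP p)) (1 : ℤ) - Finsupp.single (r (cuspZeroP p)) 1 with hE
  have hgord : ∀ Q, Q.ord g = m * E Q := by
    intro Q
    rw [← hgdiv Q, Finsupp.smul_apply, smul_eq_mul]
  have huord : ∀ Q, Q.ord (mzUnitBar p hA hℓp) = -(((p : ℤ) - 1) * E Q) :=
    fun Q => ord_mzUnitBar p hA hℓp hp hr Q
  have hu0 := mzUnitBar_ne_zero p hA hℓp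
  -- the gcd decomposition
  have hp1 : ((p : ℤ) - 1) ≠ 0 := by
    have := hp.two_le
    have : (2 : ℤ) ≤ (p : ℤ) := by exact_mod_cast this
    omega
  set e : ℕ := Int.gcd m ((p : ℤ) - 1) with he
  have he0 : 0 < e := Int.gcd_pos_of_ne_zero_right m hp1
  have he0' : (e : ℤ) ≠ 0 := by exact_mod_cast he0.ne'
  obtain ⟨m₁, hm₁⟩ : (e : ℤ) ∣ m := Int.gcd_dvd_left m _
  obtain ⟨n₁, hn₁⟩ : (e : ℤ) ∣ (p : ℤ) - 1 := Int.gcd_dvd_right m _
  have hdiv1 : ((p : ℤ) - 1) / (e : ℤ) = n₁ := by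
    rw [hn₁, Int.mul_ediv_cancel_left _ he0']
  have hdiv2 : m / (e : ℤ) = m₁ := by
    rw [hm₁, Int.mul_ediv_cancel_left _ he0']
  rw [hdiv1] at hdvd
  obtain ⟨n₂, hn₂⟩ := hdvd
  have hcop : Int.gcd m₁ n₁ = 1 := by
    have := Int.gcd_div_gcd_div_gcd (i := m) (j := (p : ℤ) - 1) he0
    rwa [← he, hdiv1, hdiv2] at this
  obtain ⟨a, b', hab⟩ : ∃ a b' : ℤ, a * m₁ + b' * n₁ = 1 := by
    have := Int.isCoprime_iff_gcd_eq_one.mpr hcop
    obtain ⟨a, b', h1⟩ := this
    exact ⟨a, b', h1⟩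
  have hb : a * m₁ + (b' * n₂) * (ℓ : ℤ) = 1 := by
    rw [← hab, hn₂]
    ring
  -- the function with trivial divisor
  set x := g ^ ((ℓ : ℤ) * n₂) * (mzUnitBar p hA hℓp) ^ m₁ with hx
  have hx0 : x ≠ 0 := mul_ne_zero (zpow_ne_zero _ hg0) (zpow_ne_zero _ hu0)
  have hxord : ∀ Q : Place (IsLocalRing.ResidueField ↥A)
      (modularFunctionFieldFullC (IsLocalRing.ResidueField ↥A) p), Q.ord x = 0 := by
    intro Q
    rw [hx, Place.ord_mul Q (zpow_ne_zero _ hg0) (zpow_ne_zero _ hu0), Place.ord_zpow,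
      Place.ord_zpow, hgord, huord, ← hn₂, hm₁, hn₁]
    ring
  have hℓN : ¬ ℓ ∣ p := hℓp
  obtain ⟨c₀, hc₀⟩ := const_of_ord_eq_zero (IsLocalRing.ResidueField ↥A) p
    (isSeparable_fullC_residueField hA p hℓN) (finiteDimensional_fullC_residueField hA p hℓN)
    x hx0 hxord
  have hkey := eq_const_mul_pow_of_bezout hu0 hg0 a (b' * n₂) m₁ n₂ ℓ hc₀ hb
  -- pass to Laurent series
  have hkey' := congrArg (Subtype.val : ↥(modularFunctionFieldFullC
    (IsLocalRing.ResidueField ↥A) p) → LaurentSeries (IsLocalRing.ResidueField ↥A)) hkey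
  rw [← map_zpow₀, IntermediateField.coe_mul, IntermediateField.coe_pow] at hkey'
  have hC : ((algebraMap (IsLocalRing.ResidueField ↥A)
      ↥(modularFunctionFieldFullC (IsLocalRing.ResidueField ↥A) p) (c₀ ^ a) :
        ↥(modularFunctionFieldFullC (IsLocalRing.ResidueField ↥A) p)) :
      LaurentSeries (IsLocalRing.ResidueField ↥A)) = HahnSeries.C (c₀ ^ a) := by
    rw [HahnSeries.C_apply, ← algebraMap_laurentSeries_eq_single]
    rfl
  rw [hC] at hkey'
  exact unitModC_ne_C_mul_pow ℓ p hp.two_le hℓ5 _ _ hkey'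

include hA in
/-- **(INJ)**, given the reduction inputs: reduction modulo `ℓ ≥ 5`, `ℓ ≠ p`, is injective on the
cuspidal group. -/
theorem cuspInj_cuspClass_of_inputs (hp : p.Prime) (hℓp : ¬ ℓ ∣ p) (hℓ5 : 5 ≤ ℓ)
    (h : ReductionInputsModL A p) : CuspInj p A (cuspClass p) := by
  intro m hred
  have hℓ : ℓ.Prime := Fact.out
  have hm : m • reductionModL A p (cuspClass p) = 0 := by
    rw [← map_zsmul]
    exact hred
  have hnd := not_dvd_of_zsmul_reductionModL_cuspClass_eq_zero p hA hp hℓp hℓ5 h m hm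
  have hp1 : p - 1 ≠ 0 := by
    have := hp.two_le
    omega
  obtain ⟨a, s, hs, hps⟩ := Nat.exists_eq_pow_mul_and_not_dvd hp1 ℓ hℓ.ne_one
  have hpsZ : ((p : ℤ) - 1) = (ℓ : ℤ) ^ a * (s : ℤ) := by
    have h1 : ((p - 1 : ℕ) : ℤ) = (p : ℤ) - 1 := by
      rw [Nat.cast_sub hp.one_le, Nat.cast_one]
    rw [← h1, hps]
    push_cast
    ring
  refine Fermat.Agent.S18.result p hℓp A hA h s hs (m • cuspClass p) ?_ hred
  -- `(p - 1) ∣ s * m`
  set e : ℤ := (Int.gcd m ((p : ℤ) - 1) : ℤ) with he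
  have hem : e ∣ m := Int.gcd_dvd_left m _
  have hep : e ∣ (p : ℤ) - 1 := Int.gcd_dvd_right m _
  have hn₁ : e * (((p : ℤ) - 1) / e) = (p : ℤ) - 1 := Int.mul_ediv_cancel' hep
  have hcop : IsCoprime ((ℓ : ℤ) ^ a) (((p : ℤ) - 1) / e) :=
    IsCoprime.pow_left
      ((Nat.prime_iff_prime_int.mp hℓ).irreducible.coprime_iff_not_dvd.mpr hnd)
  have hdvd : (ℓ : ℤ) ^ a ∣ e := by
    apply hcop.dvd_of_dvd_mul_right
    rw [hn₁, hpsZ]
    exact dvd_mul_right _ _
  obtain ⟨t, ht⟩ := hdvd.trans hem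
  have hsm : (s : ℤ) * m = ((p : ℤ) - 1) * t := by
    rw [ht, hpsZ]
    ring
  rw [← natCast_zsmul, ← mul_smul, hsm, mul_comm, mul_smul, sub_one_zsmul_cuspClass p hp,
    smul_zero]

end Main

end Fermat.Agent.MZ
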