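/-
PROJECT MZ (S15), block (INJ), part 3 (helper9): **(INJ)** in the literal of [TOP15]
(`s15_of_inputs`, hypothesis `hinj`), with the reduction inputs discharged from main
(`placeReductionData_h6`).
-/
import Mathlib
import Fermat.Agent.MZ.INJL_helper9_Main
import Fermat.Agent.JA.O1_helper6_Final

set_option autoImplicit false
set_option linter.unusedSectionVars false
set_option linter.style.haveILetI false

open AlgebraicCurve ModularCurve

namespace Fermat.Agent.MZ

local notation "Ω" => AlgebraicClosure ℚ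

/-- the reduction inputs at every `A | ℓ`, `ℓ ∤ p` (from `placeReductionData_h6`). -/
theorem reductionInputsModL_of_not_dvd (p : ℕ) [NeZero p] {ℓ : ℕ} (hℓ : ℓ.Prime) (hℓp : ¬ ℓ ∣ p)
    (A : ValuationSubring Ω) (hA : A.LiesOverPrime ℓ) : ReductionInputsModL A p := by
  haveI : Fact ℓ.Prime := ⟨hℓ⟩
  have hℓp1 : ¬ ℓ ∣ p * 1 := by rwa [mul_one]
  obtain ⟨r, hr, hgen, -⟩ := (Fermat.Agent.JA.placeReductionData_h6 hA p 1 hℓp1
    (Fermat.Agent.JA.gaussRes_residue hA p hℓp) 0).exists_data
  exact ⟨r, hr, hgen⟩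

/-- **(INJ)**: for every prime `r ∉ {2, 3, p}` and every `A | r`, reduction at `A` is injective on
the cuspidal group `⟨cl(P∞ - P0)⟩` of `J₀(p)`. -/
theorem cuspInj_cuspClass (p : ℕ) [NeZero p] (hp : p.Prime) (r : ℕ) (hr : r.Prime) (hr2 : r ≠ 2)
    (hr3 : r ≠ 3) (hrp : r ≠ p) (A : ValuationSubring Ω) (hA : A.LiesOverPrime r) :
    CuspInj p A (cuspClass p) := by
  haveI : Fact r.Prime := ⟨hr⟩
  have hrp' : ¬ r ∣ p := fun h => hrp ((Nat.prime_dvd_prime_iff_eq hr hp).mp h)
  have h5 : 5 ≤ r := by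
    by_contra hlt
    rw [not_le] at hlt
    have h2 := hr.two_le
    interval_cases r
    · exact hr2 rfl
    · exact hr3 rfl
    · exact absurd hr (by decide)
  exact cuspInj_cuspClass_of_inputs p hA hp hrp' h5
    (reductionInputsModL_of_not_dvd p hr hrp' A hA)

end Fermat.Agent.MZ
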