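/-
PROJECT MZ (S15), PART A — helper6.  [TOP15]: Mazur's Step 3 as a CONDITIONAL theorem.
-/
import Mathlib
import Fermat.Agent.MZ.TOP15_helper6_Main

set_option autoImplicit false

open ModularCurve AlgebraicCurve
open WeierstrassCurve WeierstrassCurve.Affine

namespace Fermat.Agent.MZ

local notation "Ω" => AlgebraicClosure ℚ
local notation "GQ" => (AlgebraicClosure ℚ ≃ₐ[ℚ] AlgebraicClosure ℚ)

/-- **[TOP15]**: Mazur's Step 3 from (MOD), the (FIN)-conclusion `EisKiller`, (HR), (INJ) and S18. -/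
theorem s15_of_inputs {p : ℕ} [NeZero p] (hp : p.Prime) (hp2 : p ≠ 2) (hp3 : p ≠ 3)
    (Pinf P0 : Place Ω (modularFunctionFieldBar p))
    (hP0 : ∀ σ : GQ, arithmeticGalois (modularFunctionFieldFull p) σ • P0 = P0)
    (hmod : ModDict p Pinf P0)
    (hred : ∀ ℓ : ℕ, ℓ.Prime → ℓ ≠ p → ∀ A : ValuationSubring Ω, A.LiesOverPrime ℓ →
      ReductionInputsModL A p)
    (hHR : ∀ ℓ : ℕ, ℓ.Prime → ℓ ≠ p → ∀ A : ValuationSubring Ω, A.LiesOverPrime ℓ →
      HeckeRedStable p A)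
    (hA2 : ∃ A : ValuationSubring Ω, A.LiesOverPrime 2)
    (hA3 : ∃ A : ValuationSubring Ω, A.LiesOverPrime 3)
    (r : ℕ) (hr : r.Prime)
    (hctors : IsOfFinAddOrder (placeDiff p Pinf P0))
    (hrc : r ∣ addOrderOf (placeDiff p Pinf P0))
    (hfin : EisKiller p (placeDiff p Pinf P0) r)
    (hinj : r ≠ 2 → r ≠ 3 → r ≠ p → ∀ A : ValuationSubring Ω, A.LiesOverPrime r →
      CuspInj p A (placeDiff p Pinf P0))
    (W : WeierstrassCurve ℤ) (hΔ : W.Δ ≠ 0)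
    (Q : ((W.map (Int.castRingHom ℚ))⁄(AlgebraicClosure ℚ)).Point)
    (hQfix : ∀ σ : AlgebraicClosure ℚ ≃ₐ[ℚ] AlgebraicClosure ℚ, σ • Q = Q)
    (hQord : addOrderOf Q = p)
    (h2Δ : (2 : ℤ) ∣ W.Δ) (h2c₄ : ¬ (2 : ℤ) ∣ W.c₄)
    (h2 : ∀ A : ValuationSubring (AlgebraicClosure ℚ), A.LiesOverPrime 2 →
      ¬ W.InZeroComponentAt A Q)
    (h3Δ : (3 : ℤ) ∣ W.Δ) (h3c₄ : ¬ (3 : ℤ) ∣ W.c₄)
    (h3 : ∀ A : ValuationSubring (AlgebraicClosure ℚ), A.LiesOverPrime 3 →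
      ¬ W.InZeroComponentAt A Q)
    {ℓ : ℕ} (hℓ : ℓ.Prime) (hℓp : ℓ ≠ p) (hℓΔ : (ℓ : ℤ) ∣ W.Δ) (hℓc₄ : ¬ (ℓ : ℤ) ∣ W.c₄)
    (A : ValuationSubring (AlgebraicClosure ℚ)) (hA : A.LiesOverPrime ℓ) :
    ¬ W.InZeroComponentAt A Q := by
  intro hin
  by_cases hℓ2 : ℓ = 2
  · subst hℓ2
    exact h2 A hA hin
  by_cases hℓ3 : ℓ = 3
  · subst hℓ3
    exact h3 A hA hin
  obtain ⟨Px, hPx, hdict⟩ := hmod W hΔ Q hQfix hQord
  obtain ⟨t, ht, htors, u, hu, htc⟩ := hfin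
  have hDfix : ∀ σ : GQ, σ • placeDiff p Px P0 = placeDiff p Px P0 := fun σ => by
    rw [smul_placeDiff, hPx, hP0]
  obtain ⟨m, hm0, hm⟩ := htors (placeDiff p Px P0) hDfix
  obtain ⟨A2, hA2'⟩ := hA2
  obtain ⟨A3, hA3'⟩ := hA3
  have hp2' : (2 : ℕ) ≠ p := fun h => hp2 h.symm
  have hp3' : (3 : ℕ) ≠ p := fun h => hp3 h.symm
  have h2red := hred 2 Nat.prime_two hp2' A2 hA2'
  have h3red := hred 3 Nat.prime_three hp3' A3 hA3'
  have hD2 : reductionModL A2 p (placeDiff p Px P0) = 0 :=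
    reductionModL_placeDiff_eq_zero p h2red
      ((hdict 2 Nat.prime_two hp2' h2Δ h2c₄ A2 hA2' h2red).1 (h2 A2 hA2'))
  have hD3 : reductionModL A3 p (placeDiff p Px P0) = 0 :=
    reductionModL_placeDiff_eq_zero p h3red
      ((hdict 3 Nat.prime_three hp3' h3Δ h3c₄ A3 hA3' h3red).1 (h3 A3 hA3'))
  have hy2 : reductionModL A2 p (t (placeDiff p Px P0)) = 0 :=
    heckeAdjoin_red_stable (hHR 2 Nat.prime_two hp2' A2 hA2') ht _ hD2
  have hy3 : reductionModL A3 p (t (placeDiff p Px P0)) = 0 :=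
    heckeAdjoin_red_stable (hHR 3 Nat.prime_three hp3' A3 hA3') ht _ hD3
  have hnd2 : ¬ 2 ∣ p := fun h => hp2 ((Nat.prime_dvd_prime_iff_eq Nat.prime_two hp).mp h).symm
  have hnd3 : ¬ 3 ∣ p := fun h => hp3 ((Nat.prime_dvd_prime_iff_eq Nat.prime_three hp).mp h).symm
  -- the torsion point `t D` vanishes
  have hy : t (placeDiff p Px P0) = 0 := by
    obtain ⟨a, m', hm'odd, rfl⟩ := Nat.exists_eq_two_pow_mul_odd (Nat.pos_iff_ne_zero.mp hm0)
    have : Fact (Nat.Prime 2) := ⟨Nat.prime_two⟩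
    have : Fact (Nat.Prime 3) := ⟨Nat.prime_three⟩
    have h1 : (2 ^ a) • t (placeDiff p Px P0) = 0 := by
      refine Fermat.Agent.S18.result p hnd2 A2 hA2' h2red m'
        (fun h => (Nat.not_even_iff_odd.mpr hm'odd) (even_iff_two_dvd.mpr h)) _ ?_ ?_
      · rw [← mul_smul, mul_comm]
        exact hm
      · rw [map_nsmul, hy2, smul_zero]
    refine Fermat.Agent.S18.result p hnd3 A3 hA3' h3red (2 ^ a) ?_ _ h1 hy3
    intro h
    have := (Nat.Prime.dvd_of_dvd_pow Nat.prime_three h)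
    omega
  -- at `ℓ`
  have hℓred := hred ℓ hℓ hℓp A hA
  have hDinf : reductionModL A p (placeDiff p Px Pinf) = 0 :=
    reductionModL_placeDiff_eq_zero p hℓred ((hdict ℓ hℓ hℓp hℓΔ hℓc₄ A hA hℓred).2 hin)
  have hsub : placeDiff p Px Pinf = placeDiff p Px P0 - placeDiff p Pinf P0 :=
    (placeDiff_sub p Px Pinf P0).symm
  have h1 : reductionModL A p (t (placeDiff p Px P0 - placeDiff p Pinf P0)) = 0 :=
    heckeAdjoin_red_stable (hHR ℓ hℓ hℓp A hA) ht _ (hsub ▸ hDinf)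
  rw [map_sub, hy, zero_sub, htc, map_neg, neg_eq_zero] at h1
  -- `h1 : red_A (u • c) = 0`
  have hnℓp : ¬ ℓ ∣ p := fun h => hℓp ((Nat.prime_dvd_prime_iff_eq hℓ hp).mp h)
  by_cases hℓr : ℓ = r
  · subst hℓr
    have h0 := hinj hℓ2 hℓ3 hℓp A hA u h1
    have hd : (addOrderOf (placeDiff p Pinf P0) : ℤ) ∣ u :=
      (addOrderOf_dvd_iff_zsmul_eq_zero).mpr h0
    exact hu ((Int.natCast_dvd_natCast.mpr hrc).trans hd)
  · have : Fact ℓ.Prime := ⟨hℓ⟩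
    obtain ⟨e, he⟩ := hrc
    have he0 : 0 < e := by
      rcases Nat.eq_zero_or_pos e with h | h
      · rw [h, mul_zero] at he
        exact absurd he (hctors.addOrderOf_pos).ne'
      · exact h
    -- z := e • (u • c) is killed by r and by reduction
    have hz : e • (u • placeDiff p Pinf P0) = 0 := by
      refine Fermat.Agent.S18.result p hnℓp A hA hℓred r ?_ _ ?_ ?_
      · intro h
        exact hℓr ((Nat.prime_dvd_prime_iff_eq hℓ hr).mp h)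
      · rw [← mul_smul, ← he, smul_comm, addOrderOf_nsmul_eq_zero, smul_zero]
      · rw [map_nsmul, h1, smul_zero]
    have hz' : ((e : ℤ) * u) • placeDiff p Pinf P0 = 0 := by
      rw [mul_smul, natCast_zsmul]
      exact hz
    have hd : (addOrderOf (placeDiff p Pinf P0) : ℤ) ∣ (e : ℤ) * u :=
      (addOrderOf_dvd_iff_zsmul_eq_zero).mpr hz'
    rw [he] at hd
    push_cast at hd
    rw [mul_comm (r : ℤ) (e : ℤ)] at hd
    exact hu ((mul_dvd_mul_iff_left (by exact_mod_cast he0.ne')).mp hd)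

end Fermat.Agent.MZ
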