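/-
PROJECT MZ (S15, branch-only) — the assembly — helper6.

**`s15_of_three`**: the statement of S15 from exactly the three remaining blocks, in the literals of
[TOP15] (`TOP15_helper6_Defs/Main`):
* (MOD) `ModDict p (cuspInfP p) (cuspZeroP p)`;
* (HR)  `HeckeRedStable p A` for every `A ∣ ℓ`, `ℓ ≠ p`;
* (FIN) `EisKiller p (cuspClass p) r` for every prime `r` dividing the order of the cuspidal class
  (and `p - 1`).
Everything else of `s15_of_inputs` is discharged here: the cusps are Galois-fixed and the cuspidal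
class is torsion of order `≠ 1` (helper9, `CUSP_helper9_Class`), the reduction inputs and (INJ)
(helper9, `INJL_helper9_Final`), places over `2` and `3` (S54).
-/
import Mathlib
import Fermat.Agent.MZ.TOP15_helper6_Top
import Fermat.Agent.MZ.CUSP_helper9_Class
import Fermat.Agent.MZ.INJL_helper9_Final
import Fermat.Agent.S54_Frobenius

set_option autoImplicit false
set_option linter.unusedSectionVars false
set_option linter.unusedVariables false
set_option linter.style.haveILetI false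

open ModularCurve AlgebraicCurve
open WeierstrassCurve WeierstrassCurve.Affine

namespace Fermat.Agent.MZ

local notation "Ω" => AlgebraicClosure ℚ
local notation "GQ" => (AlgebraicClosure ℚ ≃ₐ[ℚ] AlgebraicClosure ℚ)

/-- **S15 from (MOD), (HR) and (FIN).** -/
theorem s15_of_three {p : ℕ} [NeZero p] (hp : p.Prime)
    (hp' : p ∉ ({2, 3, 5, 7, 13} : Finset ℕ))
    (hmod : ModDict p (cuspInfP p) (cuspZeroP p))
    (hHR : ∀ ℓ : ℕ, ℓ.Prime → ℓ ≠ p → ∀ A : ValuationSubring Ω, A.LiesOverPrime ℓ →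
      HeckeRedStable p A)
    (hfin : ∀ r : ℕ, r.Prime → r ∣ addOrderOf (cuspClass p) → r ∣ p - 1 →
      EisKiller p (cuspClass p) r)
    (W : WeierstrassCurve ℤ) (hΔ : W.Δ ≠ 0)
    (Q : ((W.map (Int.castRingHom ℚ))⁄(AlgebraicClosure ℚ)).Point)
    (hQfix : ∀ σ : AlgebraicClosure ℚ ≃ₐ[ℚ] AlgebraicClosure ℚ, σ • Q = Q)
    (hQord : addOrderOf Q = p)
    (h2Δ : (2 : ℤ) ∣ W.Δ) (h2c₄ : ¬ (2 : ℤ) ∣ W.c₄)
    (h2 : ∀ A : ValuationSubring (AlgebraicClosure ℚ), A.LiesOverPrime 2 →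
      ¬ W.InZeroComponentAt A Q)
    (h3Δ : (3 : ℤ) ∣ W.Δ) (h3c₄ : ¬ (3 : ℤ) ∣ W.c₄)
    (h3 : ∀ A : ValuationSubring (AlgebraicClosure ℚ), A.LiesOverPrime 3 →
      ¬ W.InZeroComponentAt A Q)
    {ℓ : ℕ} (hℓ : ℓ.Prime) (hℓp : ℓ ≠ p) (hℓΔ : (ℓ : ℤ) ∣ W.Δ) (hℓc₄ : ¬ (ℓ : ℤ) ∣ W.c₄)
    (A : ValuationSubring (AlgebraicClosure ℚ)) (hA : A.LiesOverPrime ℓ) :
    ¬ W.InZeroComponentAt A Q := by
  have hp2 : p ≠ 2 := fun h => hp' (by rw [h]; decide)
  have hp3 : p ≠ 3 := fun h => hp' (by rw [h]; decide)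
  obtain ⟨r, hr, hrd, hrp1⟩ := exists_prime_dvd_addOrderOf_cuspClass p hp hp'
  obtain ⟨A2, hA2'⟩ := Fermat.Agent.S54.exists_valuationSubring_liesOver (L := Ω) Nat.prime_two
  obtain ⟨A3, hA3'⟩ := Fermat.Agent.S54.exists_valuationSubring_liesOver (L := Ω) Nat.prime_three
  have hA2 : A2.LiesOverPrime 2 := hA2'
  have hA3 : A3.LiesOverPrime 3 := hA3'
  exact s15_of_inputs hp hp2 hp3 (cuspInfP p) (cuspZeroP p)
    (fun σ => galois_smul_cuspZeroP p hp σ) hmod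
    (fun ℓ' hℓ' hℓ'p A' hA' => reductionInputsModL_of_not_dvd p hℓ'
      (fun h => hℓ'p ((Nat.prime_dvd_prime_iff_eq hℓ' hp).mp h)) A' hA')
    hHR ⟨A2, hA2⟩ ⟨A3, hA3⟩ r hr (isOfFinAddOrder_cuspClass p hp) hrd (hfin r hr hrd hrp1)
    (fun hr2 hr3 hrp A' hA' => cuspInj_cuspClass p hp r hr hr2 hr3 hrp A' hA')
    W hΔ Q hQfix hQord h2Δ h2c₄ h2 h3Δ h3c₄ h3 hℓ hℓp hℓΔ hℓc₄ A hA

end Fermat.Agent.MZ
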