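/-
PROJECT MZ (S15), `r = 2`, the archimedean place — helper7 — **formalism-free inputs.**

* `complexConjugation_apply_of_sq_neg` : complex conjugation (the Prelude `complexConjugation`,
  which is `I.c0` of `GR.stageIData`) negates the square roots of negative rationals;
* `rat_eq_sq_or_neg_sq_of_even` : a nonzero rational all of whose `ℓ`-adic valuations are even is
  `± b ^ 2`;
* `card_le_card_fixed_mul_card_anti` : for a finite abelian group `W` with an involution `c`,
  `card W ≤ card W[2] * (card W⁺ * card W⁻)`, and the consequence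
  `card W ≤ card W[2] * 2 ^ B * (card W⁺) ^ 2` when `card W⁻ ≤ 2 ^ B * card W⁺`;
* `exists_fixed_root_two_nsmul` : (KUM@2) if `n • Q' = P₁` with `P₁` fixed by an involution `c`,
  then `Q := Q' + c • Q'` is fixed by `c` and `n • Q = 2 • P₁`.
-/
import Mathlib
import Fermat.Prelude.Def_GaloisRep_ComplexConjugation

set_option autoImplicit false

namespace Fermat.Agent.MZ

local notation "Ω" => AlgebraicClosure ℚ
local notation "GQ" => (AlgebraicClosure ℚ ≃ₐ[ℚ] AlgebraicClosure ℚ)

/-- complex conjugation negates the square roots of negative rationals. -/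
theorem complexConjugation_apply_of_sq_neg {a : ℚ} (ha : a < 0) {α : Ω}
    (hα : α ^ 2 = algebraMap ℚ Ω a) : complexConjugation α = -α := by
  apply complexEmbedding.toRingHom.injective
  show complexEmbedding (complexConjugation α) = complexEmbedding (-α)
  rw [complexEmbedding_complexConjugation, map_neg]
  set z : ℂ := complexEmbedding α with hz
  have hz2 : z ^ 2 = ((a : ℝ) : ℂ) := by
    rw [hz, ← map_pow, hα, AlgHom.commutes]
    simp
  -- `z ^ 2` is a negative real, so `z` is purely imaginary
  have hre : z.re = 0 := by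
    have h1 := congrArg Complex.re hz2
    have h2 := congrArg Complex.im hz2
    rw [sq, Complex.mul_re, Complex.ofReal_re] at h1
    rw [sq, Complex.mul_im, Complex.ofReal_im] at h2
    have haR : (a : ℝ) < 0 := by exact_mod_cast ha
    by_contra hne
    have him : z.im = 0 := by
      have : z.re * z.im = 0 := by linarith
      rcases mul_eq_zero.mp this with h | h
      · exact absurd h hne
      · exact h
    rw [him] at h1
    nlinarith [mul_self_nonneg z.re]
  apply Complex.ext
  · rw [Complex.conj_re, Complex.neg_re, hre, neg_zero]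
  · rw [Complex.conj_im, Complex.neg_im]

/-- complex conjugation moves the square roots of negative rationals. -/
theorem complexConjugation_apply_ne_of_sq_neg {a : ℚ} (ha : a < 0) {α : Ω}
    (hα : α ^ 2 = algebraMap ℚ Ω a) : complexConjugation α ≠ α := by
  rw [complexConjugation_apply_of_sq_neg ha hα]
  intro h
  have hα0 : α = 0 := by
    have h2 : (2 : Ω) * α = 0 := by linear_combination -h
    rcases mul_eq_zero.mp h2 with h' | h'
    · exact absurd h' two_ne_zero
    · exact h'
  rw [hα0, zero_pow two_ne_zero] at hα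
  have : (a : Ω) = 0 := by simpa using hα.symm
  have : a = 0 := by exact_mod_cast this
  exact ha.ne this

/-! ### rationals with all valuations even -/

/-- a nonzero rational all of whose `ℓ`-adic valuations are even is `± b ^ 2`. -/
theorem rat_eq_sq_or_neg_sq_of_even {a : ℚ} (ha : a ≠ 0)
    (h : ∀ ℓ : ℕ, ℓ.Prime → Even (padicValRat ℓ a)) :
    ∃ b : ℚ, b ≠ 0 ∧ (a = b ^ 2 ∨ a = -(b ^ 2)) := by
  classical
  -- natural numbers with all valuations even are squares
  have key : ∀ n : ℕ, n ≠ 0 → (∀ ℓ : ℕ, ℓ.Prime → Even (padicValNat ℓ n)) →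
      ∃ m : ℕ, m ≠ 0 ∧ n = m ^ 2 := by
    intro n hn hev
    refine ⟨∏ ℓ ∈ n.primeFactors, ℓ ^ (n.factorization ℓ / 2), ?_, ?_⟩
    · exact Finset.prod_ne_zero_iff.mpr fun ℓ hℓ =>
        pow_ne_zero _ (Nat.prime_of_mem_primeFactors hℓ).ne_zero
    · conv_lhs => rw [← Nat.prod_factorization_pow_eq_self hn]
      rw [← Finset.prod_pow, Nat.prod_factorization_eq_prod_primeFactors]
      refine Finset.prod_congr rfl fun ℓ hℓ => ?_
      have hℓp := Nat.prime_of_mem_primeFactors hℓ
      have he : Even (n.factorization ℓ) := by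
        rw [Nat.factorization_def n hℓp]
        exact hev ℓ hℓp
      obtain ⟨k, hk⟩ := he
      rw [← pow_mul, hk]
      congr 1
      omega
  have hnum0 : a.num ≠ 0 := Rat.num_ne_zero.mpr ha
  have hden0 : a.den ≠ 0 := a.den_ne_zero
  have hval : ∀ ℓ : ℕ, ℓ.Prime →
      padicValRat ℓ a = (padicValNat ℓ a.num.natAbs : ℤ) - (padicValNat ℓ a.den : ℤ) := by
    intro ℓ hℓ
    rw [padicValRat_def, padicValInt]
  -- numerator and denominator are coprime, so each has even valuations
  have hcop : Nat.Coprime a.num.natAbs a.den := a.reduced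
  have hevn : ∀ ℓ : ℕ, ℓ.Prime → Even (padicValNat ℓ a.num.natAbs) ∧ Even (padicValNat ℓ a.den) := by
    intro ℓ hℓ
    have := Fact.mk hℓ
    have h1 := h ℓ hℓ
    rw [hval ℓ hℓ] at h1
    by_cases hd : ℓ ∣ a.den
    · have hn : ¬ ℓ ∣ a.num.natAbs := fun hn =>
        hℓ.one_lt.ne' (Nat.eq_one_of_dvd_coprimes hcop hn hd)
      rw [padicValNat.eq_zero_of_not_dvd hn] at h1 ⊢
      refine ⟨⟨0, rfl⟩, ?_⟩
      have : Even ((padicValNat ℓ a.den : ℤ)) := by
        have := h1
        rw [Nat.cast_zero, zero_sub, even_neg] at this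
        exact this
      exact (Int.even_coe_nat _).mp this
    · rw [padicValNat.eq_zero_of_not_dvd hd] at h1 ⊢
      refine ⟨?_, ⟨0, rfl⟩⟩
      rw [Nat.cast_zero, sub_zero] at h1
      exact (Int.even_coe_nat _).mp h1
  obtain ⟨m, hm0, hm⟩ := key a.num.natAbs (Int.natAbs_ne_zero.mpr hnum0) fun ℓ hℓ => (hevn ℓ hℓ).1
  obtain ⟨d, hd0, hd⟩ := key a.den hden0 fun ℓ hℓ => (hevn ℓ hℓ).2
  refine ⟨(m : ℚ) / (d : ℚ), div_ne_zero (Nat.cast_ne_zero.mpr hm0) (Nat.cast_ne_zero.mpr hd0), ?_⟩
  have hdq : (a.den : ℚ) = (d : ℚ) ^ 2 := by exact_mod_cast hd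
  have hmq : ((a.num.natAbs : ℕ) : ℚ) = (m : ℚ) ^ 2 := by exact_mod_cast hm
  have ha' : a = (a.num : ℚ) / (a.den : ℚ) := (Rat.num_div_den a).symm
  rcases Int.natAbs_eq a.num with hpos | hneg
  · left
    have hnum : (a.num : ℚ) = ((a.num.natAbs : ℕ) : ℚ) := by
      conv_lhs => rw [hpos]
      exact Int.cast_natCast _
    rw [div_pow, ← hmq, ← hdq, ← hnum]
    exact ha'
  · right
    have hnum : (a.num : ℚ) = -((a.num.natAbs : ℕ) : ℚ) := by
      conv_lhs => rw [hneg]
      rw [Int.cast_neg, Int.cast_natCast]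
    rw [div_pow, ← hmq, ← hdq, ← neg_div, ← hnum]
    exact ha'

/-! ### counting with an involution -/

section Count

variable {W : Type*} [AddCommGroup W] [Finite W]

/-- for a finite abelian group with an involution `c`:
`card W ≤ card W[2] * (card W⁺ * card W⁻)`. -/
theorem card_le_card_fixed_mul_card_anti (c : W →+ W) (hc : ∀ x, c (c x) = x) :
    Nat.card W ≤ Nat.card {x : W // x + x = 0} *
      (Nat.card {x : W // c x = x} * Nat.card {x : W // c x = -x}) := by
  classical
  -- the map `x ↦ (x + c x, x - c x)` has fibres inside cosets of `W[2]`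
  let F : W → {x : W // c x = x} × {x : W // c x = -x} := fun x =>
    (⟨x + c x, by rw [map_add, hc, add_comm]⟩, ⟨x - c x, by rw [map_sub, hc, neg_sub]⟩)
  have : Finite {x : W // x + x = 0} := Subtype.finite
  have : Finite {x : W // c x = x} := Subtype.finite
  have : Finite {x : W // c x = -x} := Subtype.finite
  haveI := Fintype.ofFinite W
  haveI := Fintype.ofFinite {x : W // x + x = 0}
  haveI := Fintype.ofFinite ({x : W // c x = x} × {x : W // c x = -x})
  rw [← Nat.card_prod, Nat.card_eq_fintype_card, Nat.card_eq_fintype_card,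
    Nat.card_eq_fintype_card]
  -- `W` injects into `W[2] × (W⁺ × W⁻)` after choosing a base point in each fibre
  have hfib : ∀ x y : W, F x = F y → (x - y) + (x - y) = 0 := by
    intro x y hxy
    have h1 : x + c x = y + c y := congrArg (fun t => (t.1 : W)) hxy
    have h2 : x - c x = y - c y := congrArg (fun t => (t.2 : W)) hxy
    have : x + x = y + y := by
      have := congrArg₂ (· + ·) h1 h2
      simpa [add_add_sub_cancel] using this
    calc (x - y) + (x - y) = (x + x) - (y + y) := by abel
      _ = 0 := by rw [this, sub_self]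
  let base : {x : W // c x = x} × {x : W // c x = -x} → W := fun t =>
    if h : ∃ x, F x = t then h.choose else 0
  have hbase : ∀ x : W, F (base (F x)) = F x := by
    intro x
    have h : ∃ y, F y = F x := ⟨x, rfl⟩
    show F (if h : ∃ y, F y = F x then h.choose else 0) = F x
    rw [dif_pos h]
    exact h.choose_spec
  let Φ : W → {x : W // x + x = 0} × ({x : W // c x = x} × {x : W // c x = -x}) := fun x =>
    (⟨x - base (F x), hfib x (base (F x)) (hbase x).symm⟩, F x)
  have hΦ : Function.Injective Φ := by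
    intro x y hxy
    have h2 : F x = F y := congrArg Prod.snd hxy
    have h1 : x - base (F x) = y - base (F y) := congrArg (fun t => (t.1.1 : W)) hxy
    rw [h2] at h1
    exact sub_left_injective h1
  have := Fintype.card_le_of_injective Φ hΦ
  rwa [Fintype.card_prod] at this

/-- if moreover `card W⁻ ≤ 2 ^ B * card W⁺`, then `card W ≤ card W[2] * 2 ^ B * (card W⁺) ^ 2`:
the fixed part of an involution has at least the square root of the order, up to a bounded
factor. -/
theorem card_le_of_card_anti_le (c : W →+ W) (hc : ∀ x, c (c x) = x) (B : ℕ)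
    (hB : Nat.card {x : W // c x = -x} ≤ 2 ^ B * Nat.card {x : W // c x = x}) :
    Nat.card W ≤ Nat.card {x : W // x + x = 0} * 2 ^ B * Nat.card {x : W // c x = x} ^ 2 := by
  refine (card_le_card_fixed_mul_card_anti c hc).trans ?_
  rw [mul_assoc, sq]
  refine Nat.mul_le_mul_left _ ?_
  calc Nat.card {x : W // c x = x} * Nat.card {x : W // c x = -x}
      ≤ Nat.card {x : W // c x = x} * (2 ^ B * Nat.card {x : W // c x = x}) :=
        Nat.mul_le_mul_left _ hB
    _ = 2 ^ B * (Nat.card {x : W // c x = x} * Nat.card {x : W // c x = x}) := by ring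

end Count

/-! ### (KUM@2): roots fixed by an involution -/

/-- if `n • Q' = P₁` and `P₁` is fixed by an involution `c`, then `Q := Q' + c • Q'` is fixed by
`c` and `n • Q = 2 • P₁`.  Hence the Kummer cocycle `σ ↦ σ • Q - Q` of `2 • P₁` vanishes at `c`. -/
theorem exists_fixed_root_two_nsmul {G J : Type*} [Group G] [AddCommGroup J]
    [DistribMulAction G J] (c : G) (hc : c * c = 1) (n : ℕ) (P₁ Q' : J) (hP : c • P₁ = P₁)
    (hQ : n • Q' = P₁) : ∃ Q : J, n • Q = 2 • P₁ ∧ c • Q = Q := by
  refine ⟨Q' + c • Q', ?_, ?_⟩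
  · have h1 : n • c • Q' = c • (n • Q') := (smul_comm c n Q').symm
    rw [nsmul_add, h1, hQ, hP, two_nsmul]
  · rw [smul_add, ← mul_smul, hc, one_smul, add_comm]

end Fermat.Agent.MZ
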