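/-
PROJECT MZ (branch-only) — (FIN-b4), inputs for the type-M base case — helper8.

* `exists_kummer_generator` **(K1)**: Hilbert 90 / Kummer theory at infinite level: every
  level-constant `1`-cocycle `ζ : G_ℚ → μ_r ⊂ Ωˣ` is `σ ↦ σ α / α` with `α ∈ Ωˣ`, `α ^ r ∈ ℚˣ`.
* `dvd_padicValRat_of_inertia_fixed` **(K2)**: if `α ^ r = a ∈ ℚˣ` and the inertia group of
  `padicPlace v` fixes `α`, then `r ∣ v_v(a)`; `dvd_padicValRat_of_forall_inertia_fixed` is the
  version with an arbitrary place over `v`.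
* `exists_eq_pow_mul_of_dvd_padicValRat` **(K3)**: `a ∈ ℚˣ` with `r ∣ v_ℓ(a)` for all `ℓ ≠ p` is
  `± p ^ j * b ^ r`.
-/
import Mathlib
import Fermat.Agent.CFT.Bridge.Hilbert90_helper6
import Fermat.Agent.CFT.S14.Fields_helper5
import Fermat.Agent.TW.FlatLeaf_helper1_UNR
import Fermat.Agent.TW.FlatModelD_helper8
import Fermat.Agent.EC.Conjugacy_helper5
import Fermat.Agent.TW.Kill_helper1_Frob

set_option autoImplicit false
set_option linter.unusedSectionVars false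
set_option linter.unusedVariables false
set_option linter.style.haveILetI false

namespace Fermat.Agent.MZ

open IntermediateField Fermat.Agent.TW Fermat.Agent.TW.Flat

local notation "Ω" => AlgebraicClosure ℚ
local notation "GQ" => (AlgebraicClosure ℚ ≃ₐ[ℚ] AlgebraicClosure ℚ)

section K1

/-- **(K1) Hilbert 90 / Kummer at infinite level.** -/
theorem exists_kummer_generator {r : ℕ} (hr : 0 < r) (ζ : GQ → Ω) (hζr : ∀ σ, ζ σ ^ r = 1)
    (hcoc : ∀ σ τ : GQ, ζ (σ * τ) = ζ σ * σ (ζ τ))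
    (hcont : ∃ F : IntermediateField ℚ Ω, FiniteDimensional ℚ F ∧
      ∀ σ : GQ, ∀ s ∈ F.fixingSubgroup, ζ (σ * s) = ζ σ) :
    ∃ (α : Ω) (a : ℚ), α ≠ 0 ∧ a ≠ 0 ∧ α ^ r = algebraMap ℚ Ω a ∧ ∀ σ : GQ, σ α = ζ σ * α := by
  classical
  obtain ⟨F, hFfin, hF⟩ := hcont
  haveI := hFfin
  set V : Subgroup GQ := F.fixingSubgroup with hV
  have hVopen : IsOpen (V : Set GQ) := IntermediateField.fixingSubgroup_isOpen F
  haveI : Finite (GQ ⧸ V) := Subgroup.quotient_finite_of_isOpen V hVopen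
  haveI : V.FiniteIndex := Subgroup.finiteIndex_of_finite_quotient
  have hζ0 : ∀ σ, ζ σ ≠ 0 := by
    intro σ h0
    have := hζr σ
    rw [h0, zero_pow hr.ne'] at this
    exact zero_ne_one this
  have hVcl : ∀ g : GQ, (∀ x : Ω, (∀ v ∈ V, v • x = x) → g • x = x) → g ∈ V := by
    intro g hg
    rw [hV, IntermediateField.mem_fixingSubgroup_iff]
    intro x hx
    apply hg
    intro v hv
    rw [hV, IntermediateField.mem_fixingSubgroup_iff] at hv
    exact hv x hx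
  obtain ⟨b, hb0, -, hb⟩ := Fermat.Agent.CFT.Bridge.exists_smul_eq_of_smooth_cocycle V hVcl ζ hζ0
    (fun g h => hcoc g h) (fun g v hv => hF g v hv)
  have hσb : ∀ σ : GQ, σ b = b / ζ σ := by
    intro σ
    have := hb σ
    rw [eq_div_iff (hζ0 σ), mul_comm]
    exact this
  set α : Ω := b⁻¹ with hα
  have hα0 : α ≠ 0 := inv_ne_zero hb0
  have hσα : ∀ σ : GQ, σ α = ζ σ * α := by
    intro σ
    rw [hα, map_inv₀, hσb, inv_div, div_eq_mul_inv]
  have hfix : ∀ σ : GQ, σ (α ^ r) = α ^ r := by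
    intro σ
    rw [map_pow, hσα, mul_pow, hζr, one_mul]
  obtain ⟨a, ha⟩ := (InfiniteGalois.mem_range_algebraMap_iff_fixed (k := ℚ) (K := Ω) (α ^ r)).mpr hfix
  refine ⟨α, a, hα0, ?_, ha.symm, hσα⟩
  rintro rfl
  rw [map_zero] at ha
  exact pow_ne_zero r hα0 ha.symm

end K1

section K2

variable {v : ℕ} [Fact v.Prime]

/-- **(K2)** unramified Kummer classes have valuation divisible by `r`. -/
theorem dvd_padicValRat_of_inertia_fixed {r : ℕ} (a : ℚ) (ha : a ≠ 0) (α : Ω)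
    (hα : α ^ r = algebraMap ℚ Ω a) (hfix : ∀ σ ∈ inertiaQ v, σ α = α) :
    (r : ℤ) ∣ padicValRat v a := by
  classical
  have hv : v.Prime := Fact.out
  rcases Nat.eq_zero_or_pos r with rfl | hr
  · -- `r = 0`: then `a = 1`
    rw [pow_zero] at hα
    have h1 : algebraMap ℚ Ω a = algebraMap ℚ Ω 1 := by rw [← hα, map_one]
    have : a = 1 := (algebraMap ℚ Ω).injective h1
    rw [this, padicValRat.one]
    exact dvd_zero _
  have hα0 : α ≠ 0 := by
    rintro rfl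
    rw [zero_pow hr.ne'] at hα
    exact ha ((map_eq_zero (algebraMap ℚ Ω)).mp hα.symm)
  set x : PadicAlgCl v := padicEmbedding v α with hx
  have hx0 : x ≠ 0 := (map_ne_zero_iff _ (padicEmbedding v).injective).mpr hα0
  have hxfix : ∀ τ ∈ unrInertia v, τ x = x := by
    intro τ hτ
    rw [hx, ← padicEmbedding_localGaloisToGlobal,
      hfix _ (localGaloisToGlobal_mem_inertiaSubgroupIn τ hτ)]
  have hxunr : x ∈ unrField v := mem_unrField_of_unrInertia_fixed hxfix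
  obtain ⟨m, hm, hm0, hxm⟩ := exists_coprime_mem_adjoin_of_mem_unrField hxunr
  obtain ⟨k, hk⟩ := exists_zpow_norm_eq_of_mem_adjoin hm hm0 hxm hx0
  -- the norm of `a`
  have hxa : x ^ r = algebraMap ℚ_[v] (PadicAlgCl v) (a : ℚ_[v]) := by
    rw [hx, ← map_pow, hα, AlgHom.commutes]
    rw [IsScalarTower.algebraMap_apply ℚ ℚ_[v] (PadicAlgCl v)]
    rfl
  have ha' : (a : ℚ_[v]) ≠ 0 := by exact_mod_cast ha
  have hna : ‖algebraMap ℚ_[v] (PadicAlgCl v) (a : ℚ_[v])‖ = (v : ℝ) ^ (-(padicValRat v a)) := by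
    rw [PadicAlgCl.norm_extends, Padic.norm_eq_zpow_neg_valuation ha', Padic.valuation_ratCast]
  have hv1 : (1 : ℝ) < v := by exact_mod_cast hv.one_lt
  have hv0 : (0 : ℝ) < v := by linarith
  have hkey : (v : ℝ) ^ (k * r) = (v : ℝ) ^ (-(padicValRat v a)) := by
    rw [← hna, ← hxa, norm_pow, hk, zpow_mul, zpow_natCast]
  have hexp : k * r = -(padicValRat v a) := zpow_right_injective₀ hv0 hv1.ne' hkey
  refine ⟨-k, ?_⟩
  linarith

/-- **(K2), arbitrary place over `v`.** -/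
theorem dvd_padicValRat_of_forall_inertia_fixed {r : ℕ} (a : ℚ) (ha : a ≠ 0) (α : Ω)
    (hα : α ^ r = algebraMap ℚ Ω a) (A : ValuationSubring Ω) (hA : A.LiesOverPrime v)
    (hfix : ∀ σ ∈ A.inertiaSubgroupIn ℚ, σ α = α) :
    (r : ℤ) ∣ padicValRat v a := by
  have hv : v.Prime := Fact.out
  obtain ⟨τ, hτ⟩ := Fermat.Agent.EC.exists_conj_inertia hv A (padicPlace v) hA
    (Fermat.Agent.TW.Kill.padicPlace_liesOverPrime v)
  have hατ : (τ α) ^ r = algebraMap ℚ Ω a := by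
    rw [← map_pow, hα, AlgEquiv.commutes]
  refine dvd_padicValRat_of_inertia_fixed a ha (τ α) hατ ?_
  intro σ hσ
  have h1 := hfix (τ⁻¹ * σ * τ) (hτ σ hσ)
  simp only [AlgEquiv.mul_apply] at h1
  have h2 : τ (τ⁻¹ (σ (τ α))) = τ α := congrArg (fun z => τ z) h1
  rw [← AlgEquiv.mul_apply τ τ⁻¹, mul_inv_cancel, AlgEquiv.one_apply] at h2
  exact h2

end K2

section K3

/-- a natural number all of whose prime exponents are divisible by `r` is an `r`-th power. -/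
theorem nat_exists_eq_pow_of_dvd_factorization {r n : ℕ} (hn : n ≠ 0)
    (h : ∀ ℓ : ℕ, r ∣ n.factorization ℓ) : ∃ m : ℕ, m ≠ 0 ∧ n = m ^ r := by
  classical
  set g : ℕ →₀ ℕ := n.factorization.mapRange (· / r) (Nat.zero_div r) with hg
  have hgsupp : ∀ ℓ ∈ g.support, ℓ.Prime := by
    intro ℓ hℓ
    have h1 : g ℓ ≠ 0 := Finsupp.mem_support_iff.mp hℓ
    have h2 : n.factorization ℓ ≠ 0 := by
      intro h0
      apply h1
      rw [hg, Finsupp.mapRange_apply, h0, Nat.zero_div]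
    exact Nat.prime_of_mem_primeFactors (Nat.support_factorization n ▸ Finsupp.mem_support_iff.mpr h2)
  set m : ℕ := g.prod (· ^ ·) with hm
  have hmfac : m.factorization = g := Nat.prod_pow_factorization_eq_self hgsupp
  have hm0 : m ≠ 0 := by
    rw [hm, Finsupp.prod]
    refine Finset.prod_ne_zero_iff.mpr fun ℓ hℓ => pow_ne_zero _ (hgsupp ℓ hℓ).ne_zero
  refine ⟨m, hm0, ?_⟩
  refine Nat.eq_of_factorization_eq hn (pow_ne_zero r hm0) fun ℓ => ?_
  rw [Nat.factorization_pow, hmfac, Finsupp.smul_apply, hg, Finsupp.mapRange_apply, smul_eq_mul,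
    Nat.mul_div_cancel' (h ℓ)]

/-- **(K3')** a nonzero rational number all of whose valuations are divisible by `r` is, up to
sign, an `r`-th power. -/
theorem rat_exists_eq_pow_of_dvd_padicValRat {r : ℕ} (a : ℚ) (ha : a ≠ 0)
    (h : ∀ ℓ : ℕ, ℓ.Prime → (r : ℤ) ∣ padicValRat ℓ a) :
    ∃ b : ℚ, b ≠ 0 ∧ (a = b ^ r ∨ a = - b ^ r) := by
  classical
  have hnum0 : a.num ≠ 0 := Rat.num_ne_zero.mpr ha
  have hnat0 : a.num.natAbs ≠ 0 := Int.natAbs_ne_zero.mpr hnum0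
  have hden0 : a.den ≠ 0 := a.den_nz
  have hcop : a.num.natAbs.Coprime a.den := a.reduced
  -- valuations of numerator and denominator
  have hboth : ∀ ℓ : ℕ, r ∣ a.num.natAbs.factorization ℓ ∧ r ∣ a.den.factorization ℓ := by
    intro ℓ
    by_cases hℓ : ℓ.Prime
    · haveI : Fact ℓ.Prime := ⟨hℓ⟩
      have h1 := h ℓ hℓ
      have hdef : padicValRat ℓ a = (a.num.natAbs.factorization ℓ : ℤ) - (a.den.factorization ℓ : ℤ) := by
        rw [padicValRat, padicValInt, Nat.factorization_def _ hℓ, Nat.factorization_def _ hℓ]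
      rw [hdef] at h1
      by_cases hd : ℓ ∣ a.den
      · have hn : ¬ ℓ ∣ a.num.natAbs := fun hn =>
          hℓ.one_lt.ne' (Nat.eq_one_of_dvd_coprimes hcop hn hd)
        rw [Nat.factorization_eq_zero_of_not_dvd hn] at h1 ⊢
        refine ⟨dvd_zero _, ?_⟩
        rw [Nat.cast_zero, zero_sub, dvd_neg] at h1
        exact_mod_cast h1
      · rw [Nat.factorization_eq_zero_of_not_dvd hd] at h1 ⊢
        refine ⟨?_, dvd_zero _⟩
        rw [Nat.cast_zero, sub_zero] at h1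
        exact_mod_cast h1
    · rw [Nat.factorization_eq_zero_of_not_prime _ hℓ, Nat.factorization_eq_zero_of_not_prime _ hℓ]
      exact ⟨dvd_zero _, dvd_zero _⟩
  obtain ⟨m₁, hm₁0, hm₁⟩ := nat_exists_eq_pow_of_dvd_factorization hnat0 (fun ℓ => (hboth ℓ).1)
  obtain ⟨m₂, hm₂0, hm₂⟩ := nat_exists_eq_pow_of_dvd_factorization hden0 (fun ℓ => (hboth ℓ).2)
  have hm₁q : (m₁ : ℚ) ≠ 0 := by exact_mod_cast hm₁0
  have hm₂q : (m₂ : ℚ) ≠ 0 := by exact_mod_cast hm₂0
  refine ⟨(m₁ : ℚ) / m₂, div_ne_zero hm₁q hm₂q, ?_⟩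
  have hq : a = (a.num : ℚ) / (a.den : ℚ) := (Rat.num_div_den a).symm
  have hden : (a.den : ℚ) = (m₂ : ℚ) ^ r := by rw [hm₂]; push_cast; rfl
  rcases Int.natAbs_eq a.num with hpos | hneg
  · left
    have hnum : (a.num : ℚ) = (m₁ : ℚ) ^ r := by
      rw [hpos, hm₁]; push_cast; rfl
    rw [div_pow, ← hnum, ← hden]
    exact hq
  · right
    have hnum : (a.num : ℚ) = - (m₁ : ℚ) ^ r := by
      rw [hneg, hm₁]; push_cast; rfl
    rw [div_pow, ← hden, ← neg_div, ← hnum]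
    exact hq

/-- **(K3)** for `r` odd: an `r`-th root of a rational number all of whose valuations are
divisible by `r` is a root of unity times a rational number (so its Kummer cocycle is a
coboundary). -/
theorem exists_root_of_unity_mul_rat {r : ℕ} (hr : Odd r) (a : ℚ) (ha : a ≠ 0) (α : Ω)
    (hα : α ^ r = algebraMap ℚ Ω a)
    (h : ∀ ℓ : ℕ, ℓ.Prime → (r : ℤ) ∣ padicValRat ℓ a) :
    ∃ (ζ₀ : Ω) (c : ℚ), c ≠ 0 ∧ ζ₀ ^ r = 1 ∧ α = ζ₀ * algebraMap ℚ Ω c := by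
  obtain ⟨b, hb0, hb⟩ := rat_exists_eq_pow_of_dvd_padicValRat a ha h
  obtain ⟨c, hc0, hc⟩ : ∃ c : ℚ, c ≠ 0 ∧ a = c ^ r := by
    rcases hb with hb | hb
    · exact ⟨b, hb0, hb⟩
    · exact ⟨-b, neg_ne_zero.mpr hb0, by rw [hr.neg_pow]; exact hb⟩
  have hc0' : algebraMap ℚ Ω c ≠ 0 := (map_ne_zero (algebraMap ℚ Ω)).mpr hc0
  refine ⟨α / algebraMap ℚ Ω c, c, hc0, ?_, ?_⟩
  · rw [div_pow, hα, hc, map_pow, div_self (pow_ne_zero r hc0')]
  · rw [div_mul_cancel₀ _ hc0']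

end K3

end Fermat.Agent.MZ
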