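/-
PROJECT MZ (S15), block (FIN-e), all primes `r` INCLUDING `r = 2` — helper2 —
**étale Hopf orders are unramified.**

`G` a finite `G_ℚ`-module with a Hopf order `H` over `ℤ_(p)` (`FG.IsHopfOrder G p H`).  If `H`
contains the indicator function `δ₀` of the identity (i.e. the unit section is open and closed:
the group scheme `Spec H` is étale), then for every valuation subring `A` of `ℚ̄` over `p` the
inertia group of `A` acts trivially on `G`.

Proof: `δ₀ (x + y) = ∑ aᵢ x · bᵢ y` with `aᵢ, bᵢ ∈ H` is a separability idempotent.  For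
`σ ∈ I_A` with `σ g ≠ g`: `1 = ∑ aᵢ g · bᵢ (-g)` and
`0 = ∑ aᵢ (σ g) · bᵢ (-g) = ∑ σ (aᵢ g) · bᵢ (-g) ≡ ∑ aᵢ g · bᵢ (-g) = 1` modulo `𝔪_A`.
No hypothesis on `p` (works for `p = 2`).
-/
import Mathlib
import Fermat.Agent.FG.HOPF_helper1_Def
import Fermat.Agent.Tate.Inertia

set_option autoImplicit false
set_option linter.unusedSectionVars false
set_option linter.unusedVariables false

namespace Fermat.Agent.MZ

open Fermat.Agent.FG GaloisRep

local notation "Ω" => AlgebraicClosure ℚ
local notation "GQ" => (AlgebraicClosure ℚ ≃ₐ[ℚ] AlgebraicClosure ℚ)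

section Int

variable {p : ℕ} (A : ValuationSubring Ω)

/-- `ℤ_(p) ⊆ A` for every valuation subring `A` of `ℚ̄` over `p`. -/
theorem flat2_algebraMap_ratLoc_mem (hp : p.Prime) (hA : A.LiesOverPrime p)
    (r : ratLocalizedAt p) : algebraMap (ratLocalizedAt p) Ω r ∈ A := by
  change algebraMap ℚ Ω (r : ℚ) ∈ A
  have hden : ((r : ℚ).den).Coprime p := r.2
  -- the denominator is a unit of `A`
  have hdA : (((r : ℚ).den : ℕ) : Ω) ∈ A := natCast_mem A _
  have hdinv : ((((r : ℚ).den : ℕ) : Ω))⁻¹ ∈ A := by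
    have hco : IsCoprime (((r : ℚ).den : ℕ) : ℤ) ((p : ℕ) : ℤ) := Nat.isCoprime_iff_coprime.mpr hden
    obtain ⟨a, b, hab⟩ := hco
    have hpA : ((p : ℕ) : Ω) ∈ A.nonunits := hA
    have hbp : A.valuation ((b : Ω) * ((p : ℕ) : Ω)) < 1 := by
      rw [map_mul]
      have h1 : A.valuation (b : Ω) ≤ 1 := (A.valuation_le_one_iff _).mpr (intCast_mem A b)
      have h2 : A.valuation ((p : ℕ) : Ω) < 1 := hpA
      calc A.valuation (b : Ω) * A.valuation ((p : ℕ) : Ω) ≤ 1 * A.valuation ((p : ℕ) : Ω) := by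
            gcongr
        _ < 1 := by rw [one_mul]; exact h2
    have hprod : (a : Ω) * (((r : ℚ).den : ℕ) : Ω) = 1 - (b : Ω) * ((p : ℕ) : Ω) := by
      have := congrArg (fun z : ℤ => (z : Ω)) hab
      push_cast at this
      linear_combination this
    have hv : A.valuation ((a : Ω) * (((r : ℚ).den : ℕ) : Ω)) = 1 := by
      rw [hprod]
      have := Valuation.map_sub_eq_of_lt_left A.valuation
        (x := (1 : Ω)) (y := (b : Ω) * ((p : ℕ) : Ω)) (by rw [map_one]; exact hbp)
      rw [this, map_one]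
    rw [map_mul] at hv
    have ha1 : A.valuation (a : Ω) ≤ 1 := (A.valuation_le_one_iff _).mpr (intCast_mem A a)
    have hd1 : A.valuation (((r : ℚ).den : ℕ) : Ω) ≤ 1 := (A.valuation_le_one_iff _).mpr hdA
    have hd : A.valuation (((r : ℚ).den : ℕ) : Ω) = 1 := by
      apply le_antisymm hd1
      calc (1 : A.ValueGroup) = A.valuation (a : Ω) * A.valuation (((r : ℚ).den : ℕ) : Ω) := hv.symm
        _ ≤ 1 * A.valuation (((r : ℚ).den : ℕ) : Ω) := by gcongr
        _ = _ := one_mul _
    rw [← A.valuation_le_one_iff, map_inv₀, hd, inv_one]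
  have hq : algebraMap ℚ Ω (r : ℚ) = ((r : ℚ).num : Ω) * ((((r : ℚ).den : ℕ) : Ω))⁻¹ := by
    conv_lhs => rw [← Rat.num_div_den (r : ℚ)]
    rw [map_div₀, map_intCast, map_natCast, div_eq_mul_inv]
  rw [hq]
  exact A.mul_mem _ _ (intCast_mem A _) hdinv

end Int

section Hopf

variable {p : ℕ} {G : Type} [AddCommGroup G] [DistribMulAction GQ G]
  {H : Subalgebra (ratLocalizedAt p) (G → Ω)}

/-- the values of the elements of a Hopf order are integral over `ℤ_(p)`. -/
theorem flat2_isIntegral_apply (hH : IsHopfOrder G p H) {φ : G → Ω} (hφ : φ ∈ H) (g : G) :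
    IsIntegral (ratLocalizedAt p) (φ g) := by
  have h1 : IsIntegral (ratLocalizedAt p) φ := IsIntegral.of_mem_of_fg H hH.fg φ hφ
  exact h1.map (Pi.evalAlgHom (ratLocalizedAt p) (fun _ : G => Ω) g)

/-- the values of the elements of a Hopf order over `ℤ_(p)` lie in every valuation subring of
`ℚ̄` over `p`. -/
theorem flat2_apply_mem (hH : IsHopfOrder G p H) (hp : p.Prime) (A : ValuationSubring Ω)
    (hA : A.LiesOverPrime p) {φ : G → Ω} (hφ : φ ∈ H) (g : G) : φ g ∈ A := by
  have hint := flat2_isIntegral_apply hH hφ g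
  obtain ⟨P, hPm, hP0⟩ := hint
  -- `φ g` is integral over the subring `A`
  have hintA : IsIntegral A.toSubring (φ g) := by
    refine ⟨P.map ((algebraMap (ratLocalizedAt p) Ω).codRestrict A.toSubring
      (fun r => flat2_algebraMap_ratLoc_mem A hp hA r)), hPm.map _, ?_⟩
    rw [Polynomial.eval₂_map]
    have : (algebraMap ↥A.toSubring Ω).comp
        ((algebraMap (ratLocalizedAt p) Ω).codRestrict A.toSubring
          (fun r => flat2_algebraMap_ratLoc_mem A hp hA r)) =
        algebraMap (ratLocalizedAt p) Ω := by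
      ext r
      rfl
    rw [this]
    exact hP0
  have hcl : IsIntegrallyClosed ↥A := inferInstance
  obtain ⟨y, hy⟩ := (IsIntegrallyClosed.isIntegral_iff (R := ↥A) (K := Ω)).mp hintA
  rw [← hy]
  exact y.2

/-- **étale Hopf orders are unramified**: if the Hopf order contains the indicator function of the
identity, the inertia groups over `p` act trivially. -/
theorem inertia_trivial_of_indicator_mem (hH : IsHopfOrder G p H) (hp : p.Prime)
    (hδ : Set.indicator ({0} : Set G) (fun _ => (1 : Ω)) ∈ H)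
    (A : ValuationSubring Ω) (hA : A.LiesOverPrime p) {σ : GQ} (hσ : σ ∈ A.inertiaSubgroupIn ℚ)
    (g : G) : σ • g = g := by
  classical
  by_contra hne
  obtain ⟨n, a, b, ha, hb, hab⟩ := hH.comul_mem _ hδ
  -- the two evaluations
  have h1 : ∑ i, a i g * b i (-g) = 1 := by
    rw [← hab g (-g), add_neg_cancel, Set.indicator_of_mem (Set.mem_singleton _)]
  have h0 : ∑ i, a i (σ • g) * b i (-g) = 0 := by
    rw [← hab (σ • g) (-g), Set.indicator_of_notMem]
    intro h
    apply hne
    rwa [Set.mem_singleton_iff, ← sub_eq_add_neg, sub_eq_zero] at h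
  -- the difference lies in the maximal ideal
  have hdiff : (∑ i, a i (σ • g) * b i (-g)) - ∑ i, a i g * b i (-g) ∈ A.nonunits := by
    rw [← Finset.sum_sub_distrib]
    rw [ValuationSubring.mem_nonunits_iff]
    refine A.valuation.map_sum_lt one_ne_zero fun i _ => ?_
    have hai : a i g ∈ A := flat2_apply_mem hH hp A hA (ha i) g
    have hbi : b i (-g) ∈ A := flat2_apply_mem hH hp A hA (hb i) (-g)
    have heq : a i (σ • g) = σ (a i g) := hH.equivariant _ (ha i) σ g
    have hs := (Fermat.Agent.Tate.inertia_map_mem_and_sub_mem hσ hai).2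
    have e : a i (σ • g) * b i (-g) - a i g * b i (-g) = (σ (a i g) - a i g) * b i (-g) := by
      rw [heq]; ring
    rw [e, map_mul]
    calc A.valuation (σ (a i g) - a i g) * A.valuation (b i (-g))
        ≤ A.valuation (σ (a i g) - a i g) * 1 := by
          gcongr
          exact (A.valuation_le_one_iff _).mpr hbi
      _ < 1 := by rw [mul_one]; exact hs
  rw [h0, h1, zero_sub] at hdiff
  have : A.valuation (-1 : Ω) < 1 := hdiff
  rw [Valuation.map_neg, map_one] at this
  exact lt_irrefl _ this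

end Hopf

end Fermat.Agent.MZ
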