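/-
PROJECT MZ (S15), block (FIN-e) at `r = 2` — helper2 —
**flat extensions with étale quotient are "peu ramifiées" at `2`.**

`G` a `G_ℚ`-module with a Hopf order `H` over `ℤ_(2)`, `m ∈ G` a rational point of order `2`,
`M = {0, m}`, and `1_M ∈ H` (the quotient `G/M` is étale).  Then for every `e ∈ G` there is an
anti-invariant `y ∈ H` (`y (g + m) = - y g`) whose value at `e` is a unit at `2`
(`flat2_exists_antiinvariant_unit`).  Consequently, if the class of `σ ↦ σ e₀ - e₀ ∈ M` is the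
Kummer class of `a ∈ ℚˣ` (`α² = a`), then `v₂(a)` is even (`flat2_kummer_val_even`): the twin at
`r = 2` of the "peu ramifié" lemma for `μ_r`-constituents, valid whatever the type (étale or
multiplicative) of the induced order on `M` is.

Proof.  `I := {φ 0 - φ m : φ ∈ H}` is a nonzero ideal of `ℤ_(2)` (values at rational points are
rational and integral), principal with generator `c₀ = φ₀ 0 - φ₀ m`.  For every `x ∈ H`,
`x - τ_m x = c₀ · y` with `y ∈ H` (comultiplication of `x`).  Apply this to the left factors of the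
comultiplication of `T := (φ₀ - φ₀ m) · 1_M` and evaluate at `(e, -e)`:
`c₀ · ∑ yᵢ e · bᵢ (-e) = T 0 - T m = c₀`.
-/
import Mathlib
import Fermat.Agent.TW.Flat_helper7_RatLoc
import Fermat.Agent.MZ.FLAT2_helper2_Etale

set_option autoImplicit false
set_option linter.unusedSectionVars false
set_option linter.unusedVariables false
set_option linter.style.haveILetI false

namespace Fermat.Agent.MZ

open Fermat.Agent.FG GaloisRep

local notation "Ω" => AlgebraicClosure ℚ
local notation "GQ" => (AlgebraicClosure ℚ ≃ₐ[ℚ] AlgebraicClosure ℚ)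

section Rat

variable {p : ℕ} (A : ValuationSubring Ω)

/-- an element of `ℚ̄` fixed by the whole Galois group is rational. -/
theorem flat2_rat_of_fixed (x : Ω) (hx : ∀ σ : GQ, σ x = x) : ∃ q : ℚ, algebraMap ℚ Ω q = x := by
  haveI : Algebra.IsAlgebraic ℚ Ω := AlgebraicClosure.isAlgebraic ℚ
  haveI : IsAlgClosure ℚ Ω := ⟨inferInstance, inferInstance⟩
  haveI : IsGalois ℚ Ω := IsAlgClosure.isGalois ℚ Ω
  exact (InfiniteGalois.mem_range_algebraMap_iff_fixed (k := ℚ) (K := Ω) x).mpr hx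

/-- integers prime to `p` are units of every valuation subring over `p`. -/
theorem flat2_valuation_intCast_eq_one (hp : p.Prime) (hA : A.LiesOverPrime p) (n : ℤ)
    (hn : IsCoprime n (p : ℤ)) : A.valuation (n : Ω) = 1 := by
  obtain ⟨a, b, hab⟩ := hn
  have hpA : ((p : ℕ) : Ω) ∈ A.nonunits := hA
  have hbp : A.valuation ((b : Ω) * ((p : ℕ) : Ω)) < 1 := by
    rw [map_mul]
    have h1 : A.valuation (b : Ω) ≤ 1 := (A.valuation_le_one_iff _).mpr (intCast_mem A b)
    have h2 : A.valuation ((p : ℕ) : Ω) < 1 := hpA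
    calc A.valuation (b : Ω) * A.valuation ((p : ℕ) : Ω) ≤ 1 * A.valuation ((p : ℕ) : Ω) := by
          gcongr
      _ < 1 := by rw [one_mul]; exact h2
  have hprod : (a : Ω) * (n : Ω) = 1 - (b : Ω) * ((p : ℕ) : Ω) := by
    have := congrArg (fun z : ℤ => (z : Ω)) hab
    push_cast at this
    linear_combination this
  have hv : A.valuation ((a : Ω) * (n : Ω)) = 1 := by
    rw [hprod]
    have := Valuation.map_sub_eq_of_lt_left A.valuation
      (x := (1 : Ω)) (y := (b : Ω) * ((p : ℕ) : Ω)) (by rw [map_one]; exact hbp)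
    rw [this, map_one]
  rw [map_mul] at hv
  have ha1 : A.valuation (a : Ω) ≤ 1 := (A.valuation_le_one_iff _).mpr (intCast_mem A a)
  have hd1 : A.valuation (n : Ω) ≤ 1 := (A.valuation_le_one_iff _).mpr (intCast_mem A n)
  apply le_antisymm hd1
  calc (1 : A.ValueGroup) = A.valuation (a : Ω) * A.valuation (n : Ω) := hv.symm
    _ ≤ 1 * A.valuation (n : Ω) := by gcongr
    _ = _ := one_mul _

/-- integers divisible by `p` are non-units of every valuation subring over `p`. -/
theorem flat2_valuation_intCast_lt_one (hA : A.LiesOverPrime p) (n : ℤ)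
    (hn : (p : ℤ) ∣ n) : A.valuation (n : Ω) < 1 := by
  obtain ⟨k, rfl⟩ := hn
  have hpA : ((p : ℕ) : Ω) ∈ A.nonunits := hA
  have h2 : A.valuation ((p : ℕ) : Ω) < 1 := hpA
  have h1 : A.valuation (k : Ω) ≤ 1 := (A.valuation_le_one_iff _).mpr (intCast_mem A k)
  push_cast
  rw [map_mul]
  calc A.valuation ((p : ℕ) : Ω) * A.valuation (k : Ω) ≤ A.valuation ((p : ℕ) : Ω) * 1 := by
        gcongr
    _ < 1 := by rw [mul_one]; exact h2

/-- a rational number lying in a valuation subring over `p` lies in `ℤ_(p)`. -/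
theorem flat2_ratLoc_of_mem (hp : p.Prime) (hA : A.LiesOverPrime p) (q : ℚ)
    (hq : algebraMap ℚ Ω q ∈ A) : q ∈ ratLocalizedAt p := by
  show q.den.Coprime p
  by_contra hcop
  have hpd : p ∣ q.den := by
    rcases (Nat.coprime_or_dvd_of_prime hp q.den) with h | h
    · exact absurd h.symm hcop
    · exact h
  -- then `p ∤ q.num`
  have hnum : IsCoprime q.num (p : ℤ) := by
    rw [Int.isCoprime_iff_gcd_eq_one]
    have h1 : (q.num.natAbs).Coprime q.den := q.reduced
    have h2 : (q.num.natAbs).Coprime p := Nat.Coprime.coprime_dvd_right hpd h1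
    simpa [Int.gcd] using h2
  have hvnum := flat2_valuation_intCast_eq_one A hp hA q.num hnum
  have hvden : A.valuation ((q.den : ℤ) : Ω) < 1 :=
    flat2_valuation_intCast_lt_one A hA (q.den : ℤ) (by exact_mod_cast hpd)
  have hvq : A.valuation (algebraMap ℚ Ω q) ≤ 1 := (A.valuation_le_one_iff _).mpr hq
  have heq : algebraMap ℚ Ω q * ((q.den : ℤ) : Ω) = (q.num : Ω) := by
    have h := Rat.mul_den_eq_num q
    have := congrArg (algebraMap ℚ Ω) h
    rw [map_mul, map_natCast, map_intCast] at this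
    rw [Int.cast_natCast]
    exact this
  have : A.valuation (q.num : Ω) < 1 := by
    rw [← heq, map_mul]
    calc A.valuation (algebraMap ℚ Ω q) * A.valuation ((q.den : ℤ) : Ω)
        ≤ 1 * A.valuation ((q.den : ℤ) : Ω) := by gcongr
      _ < 1 := by rw [one_mul]; exact hvden
  rw [hvnum] at this
  exact lt_irrefl _ this

/-- a rational number of valuation `1` in a valuation subring over `p` has `p`-adic valuation
`0`. -/
theorem flat2_padicValRat_eq_zero (hp : p.Prime) (hA : A.LiesOverPrime p) (q : ℚ)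
    (hq : A.valuation (algebraMap ℚ Ω q) = 1) : padicValRat p q = 0 := by
  have hq0 : q ≠ 0 := by
    rintro rfl
    rw [map_zero, map_zero] at hq
    exact zero_ne_one hq
  have hmem : algebraMap ℚ Ω q ∈ A := (A.valuation_le_one_iff _).mp hq.le
  have hden : q.den.Coprime p := flat2_ratLoc_of_mem A hp hA q hmem
  have hvden : A.valuation ((q.den : ℤ) : Ω) = 1 :=
    flat2_valuation_intCast_eq_one A hp hA (q.den : ℤ) (Nat.isCoprime_iff_coprime.mpr hden)
  have heq : algebraMap ℚ Ω q * ((q.den : ℤ) : Ω) = (q.num : Ω) := by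
    have h := Rat.mul_den_eq_num q
    have := congrArg (algebraMap ℚ Ω) h
    rw [map_mul, map_natCast, map_intCast] at this
    rw [Int.cast_natCast]
    exact this
  have hvnum : A.valuation (q.num : Ω) = 1 := by
    rw [← heq, map_mul, hq, hvden, one_mul]
  have hnum : ¬ (p : ℤ) ∣ q.num := by
    intro h
    have := flat2_valuation_intCast_lt_one A hA q.num h
    rw [hvnum] at this
    exact lt_irrefl _ this
  haveI : Fact p.Prime := ⟨hp⟩
  rw [padicValRat_def, padicValInt.eq_zero_of_not_dvd hnum,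
    padicValNat.eq_zero_of_not_dvd (fun h => by
      have := Nat.Coprime.eq_one_of_dvd hden.symm h
      exact hp.one_lt.ne' this)]
  simp

end Rat

section Hopf

variable {p : ℕ} {G : Type} [AddCommGroup G] [DistribMulAction GQ G]
  {H : Subalgebra (ratLocalizedAt p) (G → Ω)}

/-- the values of the elements of a Hopf order at rational points lie in `ℤ_(p)`. -/
theorem flat2_apply_fixed (hH : IsHopfOrder G p H) (hp : p.Prime) (A : ValuationSubring Ω)
    (hA : A.LiesOverPrime p) {φ : G → Ω} (hφ : φ ∈ H) (g : G) (hg : ∀ σ : GQ, σ • g = g) :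
    ∃ r : ratLocalizedAt p, algebraMap (ratLocalizedAt p) Ω r = φ g := by
  obtain ⟨q, hq⟩ := flat2_rat_of_fixed (φ g) fun σ => by
    rw [← hH.equivariant φ hφ σ g, hg σ]
  have hmem : algebraMap ℚ Ω q ∈ A := by
    rw [hq]; exact flat2_apply_mem hH hp A hA hφ g
  exact ⟨⟨q, flat2_ratLoc_of_mem A hp hA q hmem⟩, hq⟩

/-- translation by a rational point preserves a Hopf order. -/
theorem flat2_translate_mem (hH : IsHopfOrder G p H) (hp : p.Prime) (A : ValuationSubring Ω)
    (hA : A.LiesOverPrime p) (m : G) (hm : ∀ σ : GQ, σ • m = m) {φ : G → Ω} (hφ : φ ∈ H) :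
    (fun g => φ (g + m)) ∈ H := by
  obtain ⟨n, a, b, ha, hb, hab⟩ := hH.comul_mem φ hφ
  choose r hr using fun i => flat2_apply_fixed hH hp A hA (hb i) m hm
  have : (fun g => φ (g + m)) = ∑ i, r i • a i := by
    funext g
    rw [hab g m, Finset.sum_apply]
    refine Finset.sum_congr rfl fun i _ => ?_
    rw [Pi.smul_apply, Algebra.smul_def, hr i, mul_comm]
  rw [this]
  exact H.sum_mem fun i _ => H.smul_mem (ha i) (r i)

end Hopf

section Two

variable {G : Type} [AddCommGroup G] [DistribMulAction GQ G]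
  {H : Subalgebra (ratLocalizedAt 2) (G → Ω)}

/-- the ideal of `ℤ_(2)` of the differences `φ 0 - φ m`, `φ ∈ H`. -/
def flat2DiffIdeal (H : Subalgebra (ratLocalizedAt 2) (G → Ω)) (m : G) :
    Ideal (ratLocalizedAt 2) where
  carrier := {r | ∃ φ ∈ H, algebraMap (ratLocalizedAt 2) Ω r = φ 0 - φ m}
  add_mem' := by
    rintro r s ⟨φ, hφ, h1⟩ ⟨ψ, hψ, h2⟩
    refine ⟨φ + ψ, H.add_mem hφ hψ, ?_⟩
    rw [map_add, h1, h2, Pi.add_apply, Pi.add_apply]
    ring
  zero_mem' := ⟨0, H.zero_mem, by simp⟩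
  smul_mem' := by
    rintro c r ⟨φ, hφ, h1⟩
    refine ⟨c • φ, H.smul_mem hφ c, ?_⟩
    rw [smul_eq_mul, map_mul, h1, Pi.smul_apply, Pi.smul_apply, Algebra.smul_def, Algebra.smul_def]
    ring

theorem mem_flat2DiffIdeal {m : G} {r : ratLocalizedAt 2} :
    r ∈ flat2DiffIdeal H m ↔ ∃ φ ∈ H, algebraMap (ratLocalizedAt 2) Ω r = φ 0 - φ m := Iff.rfl

/-- every ideal of `ℤ_(2)` is principal. -/
theorem flat2_ideal_principal (I : Ideal (ratLocalizedAt 2)) :
    ∃ c : ratLocalizedAt 2, c ∈ I ∧ ∀ x ∈ I, ∃ s : ratLocalizedAt 2, x = c * s := by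
  haveI : Fact (Nat.Prime 2) := ⟨Nat.prime_two⟩
  have h1 := IsLocalization.map_under (Fermat.Agent.TW.Flat.coprimeSubmonoid 2)
    (ratLocalizedAt 2) I
  obtain ⟨n, hn⟩ := (IsPrincipalIdealRing.principal (Ideal.under ℤ I)).principal
  have hn' : Ideal.under ℤ I = Ideal.span {n} := hn
  rw [hn', Ideal.map_span, Set.image_singleton] at h1
  refine ⟨algebraMap ℤ (ratLocalizedAt 2) n, ?_, ?_⟩
  · rw [← h1]
    exact Ideal.subset_span (Set.mem_singleton _)
  · intro x hx
    rw [← h1, Ideal.mem_span_singleton'] at hx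
    obtain ⟨s, hs⟩ := hx
    exact ⟨s, by rw [← hs, mul_comm]⟩

variable (hH : IsHopfOrder G 2 H) (A : ValuationSubring Ω) (hA : A.LiesOverPrime 2)
  (m : G) (hm2 : m + m = 0) (hmσ : ∀ σ : GQ, σ • m = m)

include hH hA hmσ in
/-- for `c₀` a generator of the difference ideal, `x - τ_m x ∈ c₀ · H` for every `x ∈ H`. -/
theorem flat2_sub_translate_eq (c₀ : ratLocalizedAt 2)
    (hc₀ : ∀ x ∈ flat2DiffIdeal H m, ∃ s : ratLocalizedAt 2, x = c₀ * s)
    {x : G → Ω} (hx : x ∈ H) :
    ∃ y ∈ H, ∀ g, x g - x (g + m) = algebraMap (ratLocalizedAt 2) Ω c₀ * y g := by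
  obtain ⟨n, a, b, ha, hb, hab⟩ := hH.comul_mem x hx
  have h0 : ∀ σ : GQ, σ • (0 : G) = 0 := fun σ => smul_zero σ
  choose r0 hr0 using fun i => flat2_apply_fixed hH Nat.prime_two A hA (hb i) 0 h0
  choose rm hrm using fun i => flat2_apply_fixed hH Nat.prime_two A hA (hb i) m hmσ
  have hmemI : ∀ i, r0 i - rm i ∈ flat2DiffIdeal H m := fun i =>
    ⟨b i, hb i, by rw [map_sub, hr0 i, hrm i]⟩
  choose s hs using fun i => hc₀ _ (hmemI i)
  refine ⟨∑ i, s i • a i, H.sum_mem fun i _ => H.smul_mem (ha i) (s i), fun g => ?_⟩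
  have e1 : x g = ∑ i, a i g * b i 0 := by rw [← hab g 0, add_zero]
  have e2 : x (g + m) = ∑ i, a i g * b i m := hab g m
  rw [e1, e2, ← Finset.sum_sub_distrib, Finset.sum_apply, Finset.mul_sum]
  refine Finset.sum_congr rfl fun i _ => ?_
  rw [Pi.smul_apply, Algebra.smul_def, ← hr0 i, ← hrm i, ← mul_sub, ← map_sub, hs i, map_mul]
  ring

include hH hA hm2 hmσ in
/-- **Lemma B**: a Hopf order over `ℤ_(2)` containing the indicator function of `M = {0, m}`
(`m` rational of order `2`) contains, for every `e`, an anti-invariant function whose value at `e`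
is a unit at `2`. -/
theorem flat2_exists_antiinvariant_unit (hm0 : m ≠ 0)
    (h1M : Set.indicator ({0, m} : Set G) (fun _ => (1 : Ω)) ∈ H) (e : G) :
    ∃ y ∈ H, (∀ g, y (g + m) = - y g) ∧ A.valuation (y e) = 1 := by
  classical
  have hp := Nat.prime_two
  have h0 : ∀ σ : GQ, σ • (0 : G) = 0 := fun σ => smul_zero σ
  obtain ⟨c₀, hc₀I, hc₀⟩ := flat2_ideal_principal (flat2DiffIdeal H m)
  obtain ⟨φ₀, hφ₀, hφ₀c⟩ := hc₀I
  -- `c₀ ≠ 0` by separation
  have hinj : Function.Injective (algebraMap (ratLocalizedAt 2) Ω) := by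
    intro x y hxy
    have h : algebraMap ℚ Ω (x : ℚ) = algebraMap ℚ Ω (y : ℚ) := hxy
    exact Subtype.ext ((algebraMap ℚ Ω).injective h)
  have hc₀ne : algebraMap (ratLocalizedAt 2) Ω c₀ ≠ 0 := by
    intro hzero
    obtain ⟨ψ, hψ, hne⟩ := hH.separates 0 m (Ne.symm hm0)
    obtain ⟨r0, hr0⟩ := flat2_apply_fixed hH hp A hA hψ 0 h0
    obtain ⟨rm, hrm⟩ := flat2_apply_fixed hH hp A hA hψ m hmσ
    obtain ⟨s, hs⟩ := hc₀ (r0 - rm) ⟨ψ, hψ, by rw [map_sub, hr0, hrm]⟩
    have : algebraMap (ratLocalizedAt 2) Ω (r0 - rm) = 0 := by rw [hs, map_mul, hzero, zero_mul]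
    rw [map_sub, hr0, hrm, sub_eq_zero] at this
    exact hne this
  -- the function `T`
  obtain ⟨rm, hrm⟩ := flat2_apply_fixed hH hp A hA hφ₀ m hmσ
  set T : G → Ω := (φ₀ - algebraMap (ratLocalizedAt 2) (G → Ω) rm) *
    Set.indicator ({0, m} : Set G) (fun _ => (1 : Ω)) with hT
  have hTmem : T ∈ H := H.mul_mem (H.sub_mem hφ₀ (H.algebraMap_mem rm)) h1M
  have hT0 : T 0 = algebraMap (ratLocalizedAt 2) Ω c₀ := by
    rw [hT, Pi.mul_apply, Pi.sub_apply, Pi.algebraMap_apply,
      Set.indicator_of_mem (Set.mem_insert _ _), mul_one, hφ₀c, hrm]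
  have hTm : T m = 0 := by
    rw [hT, Pi.mul_apply, Pi.sub_apply, Pi.algebraMap_apply, hrm, sub_self, zero_mul]
  obtain ⟨n, a, b, ha, hb, hab⟩ := hH.comul_mem T hTmem
  choose y hy hya using fun i => flat2_sub_translate_eq hH A hA m hmσ c₀ hc₀ (ha i)
  -- anti-invariance
  have hanti : ∀ i g, y i (g + m) = - y i g := by
    intro i g
    have h1 := hya i g
    have h2 := hya i (g + m)
    rw [add_assoc, hm2, add_zero] at h2
    have : algebraMap (ratLocalizedAt 2) Ω c₀ * (y i (g + m) + y i g) = 0 := by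
      rw [mul_add, ← h1, ← h2]; ring
    rcases mul_eq_zero.mp this with h | h
    · exact absurd h hc₀ne
    · exact eq_neg_of_add_eq_zero_left h
  -- the key identity
  have hsum : ∑ i, y i e * b i (-e) = 1 := by
    have h1 : algebraMap (ratLocalizedAt 2) Ω c₀ * ∑ i, y i e * b i (-e) =
        algebraMap (ratLocalizedAt 2) Ω c₀ := by
      rw [Finset.mul_sum]
      have e1 : T 0 = ∑ i, a i e * b i (-e) := by rw [← hab e (-e), add_neg_cancel]
      have e2 : T m = ∑ i, a i (e + m) * b i (-e) := by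
        rw [← hab (e + m) (-e)]
        congr 1
        abel
      calc ∑ i, algebraMap (ratLocalizedAt 2) Ω c₀ * (y i e * b i (-e))
          = ∑ i, (a i e - a i (e + m)) * b i (-e) := by
            refine Finset.sum_congr rfl fun i _ => ?_
            rw [hya i e]; ring
        _ = T 0 - T m := by
            rw [e1, e2, ← Finset.sum_sub_distrib]
            refine Finset.sum_congr rfl fun i _ => ?_
            ring
        _ = _ := by rw [hT0, hTm, sub_zero]
    have := mul_left_cancel₀ hc₀ne (h1.trans (mul_one _).symm)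
    exact this
  -- some `y i e` is a unit
  by_contra hcon
  push Not at hcon
  have hlt : ∀ i, A.valuation (y i e) < 1 := by
    intro i
    have hle : A.valuation (y i e) ≤ 1 :=
      (A.valuation_le_one_iff _).mpr (flat2_apply_mem hH hp A hA (hy i) e)
    exact lt_of_le_of_ne hle (hcon (y i) (hy i) (hanti i))
  have : A.valuation (∑ i, y i e * b i (-e)) < 1 := by
    refine A.valuation.map_sum_lt one_ne_zero fun i _ => ?_
    rw [map_mul]
    have hbi : A.valuation (b i (-e)) ≤ 1 :=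
      (A.valuation_le_one_iff _).mpr (flat2_apply_mem hH hp A hA (hb i) (-e))
    calc A.valuation (y i e) * A.valuation (b i (-e)) ≤ A.valuation (y i e) * 1 := by gcongr
      _ < 1 := by rw [mul_one]; exact hlt i
  rw [hsum, map_one] at this
  exact lt_irrefl _ this

include hH hA hm2 hmσ in
/-- **flat with étale quotient ⇒ peu ramifié at `2`**: if the extension class `σ ↦ σ e₀ - e₀ ∈ M`
is the Kummer class of `a ∈ ℚˣ`, then `v₂(a)` is even. -/
theorem flat2_kummer_val_even (hm0 : m ≠ 0)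
    (h1M : Set.indicator ({0, m} : Set G) (fun _ => (1 : Ω)) ∈ H) (e₀ : G)
    (a : ℚ) (ha : a ≠ 0) (α : Ω) (hα : α ^ 2 = algebraMap ℚ Ω a)
    (hc0 : ∀ σ : GQ, σ α = α → σ • e₀ = e₀)
    (hc1 : ∀ σ : GQ, σ α ≠ α → σ • e₀ = e₀ + m) : Even (padicValRat 2 a) := by
  obtain ⟨y, hy, hanti, hval⟩ :=
    flat2_exists_antiinvariant_unit hH A hA m hm2 hmσ hm0 h1M e₀
  have hα0 : α ≠ 0 := by
    rintro rfl
    rw [zero_pow two_ne_zero] at hα
    exact ha ((algebraMap ℚ Ω).injective (by rw [← hα, map_zero]))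
  set β := y e₀ with hβ
  have hβ0 : β ≠ 0 := by
    intro h
    rw [h, map_zero] at hval
    exact zero_ne_one hval
  -- `β / α` is rational
  have hfix : ∀ σ : GQ, σ (β / α) = β / α := by
    intro σ
    rw [map_div₀]
    have hyσ : σ β = y (σ • e₀) := (hH.equivariant y hy σ e₀).symm
    by_cases h : σ α = α
    · rw [hyσ, hc0 σ h, h]
    · have hsq : (σ α) ^ 2 = α ^ 2 := by rw [← map_pow, hα, σ.commutes]
      have hneg : σ α = -α := by
        rcases sq_eq_sq_iff_eq_or_eq_neg.mp hsq with h' | h'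
        · exact absurd h' h
        · exact h'
      rw [hyσ, hc1 σ h, hanti, hneg, neg_div_neg_eq]
  obtain ⟨q, hq⟩ := flat2_rat_of_fixed (β / α) hfix
  have hq0 : q ≠ 0 := by
    rintro rfl
    rw [map_zero] at hq
    exact div_ne_zero hβ0 hα0 hq.symm
  have hsq : algebraMap ℚ Ω (q ^ 2 * a) = β ^ 2 := by
    rw [map_mul, map_pow, hq, ← hα, div_pow, div_mul_cancel₀ _ (pow_ne_zero 2 hα0)]
  have hv : A.valuation (algebraMap ℚ Ω (q ^ 2 * a)) = 1 := by
    rw [hsq, map_pow, hval, one_pow]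
  have h0 := flat2_padicValRat_eq_zero A Nat.prime_two hA (q ^ 2 * a) hv
  haveI : Fact (Nat.Prime 2) := ⟨Nat.prime_two⟩
  rw [padicValRat.mul (pow_ne_zero 2 hq0) ha, padicValRat.pow q] at h0
  refine ⟨-padicValRat 2 q, ?_⟩
  push_cast at h0
  linarith

end Two

end Fermat.Agent.MZ
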