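/-
PROJECT MZ (S15), block (FIN-e) at `r = 2` — helper2 —
**"flat with étale quotient"**: the flat clause of the Selmer predicate at `r = 2`.

`HasEtQuotOrder p E W` : the finite Galois module `E` carries a Hopf order over `ℤ_(p)` which
contains the indicator function of the subgroup `W` (so `E/W` is étale).  It is stable under the
two propagations of the dévissage: restriction along an equivariant injection (with `W` replaced
by its preimage) and quotient by an equivariant surjection whose kernel lies in `W` (with `W`
replaced by its image), and under equivariant isomorphisms.  For `p = 2`, `W = {0, m}` of order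
`2`, Kummer classes of such extensions have even `2`-adic valuation
(`HasEtQuotOrder.kummer_val_even`).
-/
import Mathlib
import Fermat.Agent.FG.HOPF_helper8_Closure
import Fermat.Agent.MZ.FLAT2_helper2_Units

set_option autoImplicit false
set_option linter.unusedSectionVars false
set_option linter.unusedVariables false

namespace Fermat.Agent.MZ

open Fermat.Agent.FG GaloisRep

local notation "Ω" => AlgebraicClosure ℚ
local notation "GQ" => (AlgebraicClosure ℚ ≃ₐ[ℚ] AlgebraicClosure ℚ)

/-- `E` carries a Hopf order over `ℤ_(p)` containing the indicator function of the subgroup `W`: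
"`E` is flat at `p` with étale quotient `E/W`". -/
def HasEtQuotOrder (p : ℕ) (E : Type) [AddCommGroup E] [DistribMulAction GQ E]
    (W : AddSubgroup E) : Prop :=
  ∃ H : Subalgebra (ratLocalizedAt p) (E → Ω), IsHopfOrder E p H ∧
    Set.indicator (W : Set E) (fun _ => (1 : Ω)) ∈ H

section

variable {p : ℕ} {E E' : Type} [AddCommGroup E] [AddCommGroup E'] [DistribMulAction GQ E]
  [DistribMulAction GQ E'] {W : AddSubgroup E}

theorem HasEtQuotOrder.hasHopfOrder (h : HasEtQuotOrder p E W) : HasHopfOrder p E := by
  obtain ⟨H, hH, _⟩ := h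
  exact ⟨H, hH⟩

/-- the whole group: every Hopf order has étale quotient by `⊤`. -/
theorem HasHopfOrder.hasEtQuotOrder_top (h : HasHopfOrder p E) :
    HasEtQuotOrder p E (⊤ : AddSubgroup E) := by
  obtain ⟨H, hH⟩ := h
  refine ⟨H, hH, ?_⟩
  have : Set.indicator ((⊤ : AddSubgroup E) : Set E) (fun _ => (1 : Ω)) = 1 := by
    funext x
    rw [Set.indicator_of_mem (by exact AddSubgroup.mem_top x)]
    rfl
  rw [this]
  exact H.one_mem

/-- restriction along an equivariant injection (subobjects) -/
theorem HasEtQuotOrder.of_injective (h : HasEtQuotOrder p E W) (ι : E' →+ E)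
    (hι : Function.Injective ι) (hσ : ∀ (σ : GQ) (g : E'), ι (σ • g) = σ • ι g) :
    HasEtQuotOrder p E' (W.comap ι) := by
  classical
  obtain ⟨H, hH, h1⟩ := h
  refine ⟨_, hH.of_injective ι hι hσ, ⟨_, h1, ?_⟩⟩
  funext x
  show Set.indicator (W : Set E) (fun _ => (1 : Ω)) (ι x) =
    Set.indicator ((W.comap ι : AddSubgroup E') : Set E') (fun _ => (1 : Ω)) x
  by_cases hx : ι x ∈ W
  · rw [Set.indicator_of_mem (by exact hx), Set.indicator_of_mem (by exact hx)]
  · rw [Set.indicator_of_notMem (by exact hx), Set.indicator_of_notMem (by exact hx)]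

/-- quotient by an equivariant surjection whose kernel lies in `W` -/
theorem HasEtQuotOrder.of_surjective [Fact p.Prime] [Finite E] (h : HasEtQuotOrder p E W)
    (π : E →+ E') (hπ : Function.Surjective π)
    (hσ : ∀ (σ : GQ) (g : E), π (σ • g) = σ • π g) (hker : π.ker ≤ W) :
    HasEtQuotOrder p E' (W.map π) := by
  classical
  obtain ⟨H, hH, h1⟩ := h
  refine ⟨_, hH.of_surjective π hπ hσ, ?_⟩
  rw [mem_quotOrder]
  have : (fun g => Set.indicator ((W.map π : AddSubgroup E') : Set E') (fun _ => (1 : Ω)) (π g)) =
      Set.indicator (W : Set E) (fun _ => (1 : Ω)) := by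
    funext x
    by_cases hx : x ∈ W
    · rw [Set.indicator_of_mem (by exact AddSubgroup.mem_map_of_mem π hx),
        Set.indicator_of_mem (by exact hx)]
    · have hx' : π x ∉ W.map π := by
        rintro ⟨w, hw, hwx⟩
        apply hx
        have hk : x - w ∈ π.ker := by
          rw [AddMonoidHom.mem_ker, map_sub, hwx, sub_self]
        have := W.add_mem (hker hk) hw
        rwa [sub_add_cancel] at this
      rw [Set.indicator_of_notMem (by exact hx'), Set.indicator_of_notMem (by exact hx)]
  rw [this]
  exact h1

/-- transport along an equivariant isomorphism -/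
theorem HasEtQuotOrder.of_equiv (h : HasEtQuotOrder p E W) (e : E ≃+ E')
    (hσ : ∀ (σ : GQ) (g : E), e (σ • g) = σ • e g) :
    HasEtQuotOrder p E' (W.map e.toAddMonoidHom) := by
  have h1 := h.of_injective e.symm.toAddMonoidHom e.symm.injective fun σ g => by
    apply e.injective
    show e (e.symm (σ • g)) = e (σ • e.symm g)
    rw [hσ, e.apply_symm_apply, e.apply_symm_apply]
  have h2 : W.comap e.symm.toAddMonoidHom = W.map e.toAddMonoidHom := by
    ext x
    constructor
    · intro hx
      exact ⟨e.symm x, hx, e.apply_symm_apply x⟩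
    · rintro ⟨w, hw, rfl⟩
      show e.symm (e w) ∈ W
      rw [e.symm_apply_apply]
      exact hw
  rw [← h2]
  exact h1

end

section two

variable {E : Type} [AddCommGroup E] [DistribMulAction GQ E] {W : AddSubgroup E}

/-- **the local condition at `2`**: a flat extension with étale quotient of (anything) by the
rational subgroup `W = {0, m}` of order `2`, whose class is the Kummer class of `a ∈ ℚˣ`, has
`v₂(a)` even. -/
theorem HasEtQuotOrder.kummer_val_even (h : HasEtQuotOrder 2 E W) (m : E)
    (hW : (W : Set E) = {0, m}) (hm0 : m ≠ 0) (hmσ : ∀ σ : GQ, σ • m = m)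
    (A : ValuationSubring Ω) (hA : A.LiesOverPrime 2) (e₀ : E)
    (a : ℚ) (ha : a ≠ 0) (α : Ω) (hα : α ^ 2 = algebraMap ℚ Ω a)
    (hc0 : ∀ σ : GQ, σ α = α → σ • e₀ = e₀)
    (hc1 : ∀ σ : GQ, σ α ≠ α → σ • e₀ = e₀ + m) : Even (padicValRat 2 a) := by
  obtain ⟨H, hH, h1⟩ := h
  rw [hW] at h1
  -- `m + m ∈ W = {0, m}` and `m ≠ 0` force `m + m = 0`
  have hmW : m ∈ W := by
    have : m ∈ (W : Set E) := by rw [hW]; exact Set.mem_insert_of_mem _ rfl
    exact this
  have hm2 : m + m = 0 := by
    have h2 : m + m ∈ (W : Set E) := W.add_mem hmW hmW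
    rw [hW] at h2
    rcases h2 with h2 | h2
    · exact h2
    · exfalso
      apply hm0
      have : m + m = m + 0 := by rw [add_zero]; exact h2
      exact add_left_cancel this
  exact flat2_kummer_val_even hH A hA m hm2 hmσ hm0 h1 e₀ a ha α hα hc0 hc1

end two

end Fermat.Agent.MZ
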