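/-
PROJECT MZ (S15), `r = 2` — helper2 — **Good cocycles at `r = 2`**.

Same as helper4's `GoodCoc` (`MZ/GOOD_helper4_Defs.lean`), except that the flat clause records
that the Hopf order on the extension module `ExtMod n f = G × ZMod n` contains the indicator
function of `G × 0` ("flat with étale quotient `ℤ/n`"): `FlatCoc2`, `GoodCoc2`.  Propagation to
submodules and quotient modules (`GoodCoc2.of_injective`, `GoodCoc2.of_surjective`), invariance of
the flat clause under coboundaries (`FlatCoc2.shift`), and the local consequence at `2` for a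
module of order `2` with trivial action (`GoodCoc2.kummer_val_even`): if the quadratic character
`f` is the Kummer character of `a ∈ ℚˣ`, then `v₂(a)` is even.
-/
import Fermat.Agent.MZ.GOOD_helper4_Defs
import Fermat.Agent.MZ.FLAT2_helper2_Pair

set_option autoImplicit false
set_option linter.style.haveILetI false
set_option linter.unusedSectionVars false
set_option linter.unusedVariables false

namespace Fermat.Agent.MZ

open Fermat.Agent.FG

local notation "Ω" => AlgebraicClosure ℚ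
local notation "GQ" => (AlgebraicClosure ℚ ≃ₐ[ℚ] AlgebraicClosure ℚ)

section ExtModRange

variable {Γ : Type*} [Group Γ] {G : Type*} [AddCommGroup G] [DistribMulAction Γ G]
  {n : ℕ} [Module (ZMod n) G] {f : Z1 Γ G}

theorem ExtMod.mem_range_inl {x : ExtMod n f} :
    x ∈ (ExtMod.inl : G →+ ExtMod n f).range ↔ x.snd = 0 := by
  constructor
  · rintro ⟨w, rfl⟩
    rfl
  · intro h
    exact ⟨x.fst, by apply ExtMod.ext <;> simp [h]⟩

variable {G' : Type*} [AddCommGroup G'] [DistribMulAction Γ G'] [Module (ZMod n) G']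

theorem ExtMod.comap_map_range_inl (φ : G →+ G') {f' : Z1 Γ G'}
    (hf' : ∀ σ, f'.1 σ = φ (f.1 σ)) :
    ((ExtMod.inl : G' →+ ExtMod n f').range).comap (ExtMod.map φ hf') =
      (ExtMod.inl : G →+ ExtMod n f).range := by
  ext x
  rw [AddSubgroup.mem_comap, ExtMod.mem_range_inl, ExtMod.mem_range_inl]
  rfl

theorem ExtMod.map_map_range_inl (φ : G →+ G') (hφ : Function.Surjective φ) {f' : Z1 Γ G'}
    (hf' : ∀ σ, f'.1 σ = φ (f.1 σ)) :
    ((ExtMod.inl : G →+ ExtMod n f).range).map (ExtMod.map φ hf') =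
      (ExtMod.inl : G' →+ ExtMod n f').range := by
  ext y
  rw [AddSubgroup.mem_map, ExtMod.mem_range_inl]
  constructor
  · rintro ⟨x, hx, rfl⟩
    have hx' : x.snd = 0 := ExtMod.mem_range_inl.mp hx
    exact hx'
  · intro hy
    obtain ⟨w, hw⟩ := hφ y.fst
    refine ⟨ExtMod.inl w, ⟨w, rfl⟩, ?_⟩
    apply ExtMod.ext
    · exact hw
    · exact hy.symm

theorem ExtMod.ker_map_le_range_inl (φ : G →+ G') {f' : Z1 Γ G'}
    (hf' : ∀ σ, f'.1 σ = φ (f.1 σ)) :
    (ExtMod.map φ hf' : ExtMod n f →+ ExtMod n f').ker ≤ (ExtMod.inl : G →+ ExtMod n f).range := by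
  intro x hx
  rw [ExtMod.mem_range_inl]
  rw [AddMonoidHom.mem_ker] at hx
  exact congrArg (fun z : ExtMod n f' => z.snd) hx

theorem ExtMod.comap_shift_range_inl (g : G) {f' : Z1 Γ G}
    (hf' : ∀ σ, f'.1 σ = f.1 σ + (σ • g - g)) :
    ((ExtMod.inl : G →+ ExtMod n f').range).comap (ExtMod.shift g hf') =
      (ExtMod.inl : G →+ ExtMod n f).range := by
  ext x
  rw [AddSubgroup.mem_comap, ExtMod.mem_range_inl, ExtMod.mem_range_inl]
  rfl

end ExtModRange

section Good2

variable {G : Type} [AddCommGroup G] [DistribMulAction GQ G]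

section general

variable {G' : Type} [AddCommGroup G'] [DistribMulAction GQ G'] {n : ℕ} [Module (ZMod n) G]
  [Module (ZMod n) G']

theorem hasEtQuotOrder_extMod_of_injective {p : ℕ} (i : G' →+ G) (hi : Function.Injective i)
    (hiσ : ∀ (σ : GQ) (g : G'), i (σ • g) = σ • i g) {f : Z1 GQ G} {f' : Z1 GQ G'}
    (hf : ∀ σ, f.1 σ = i (f'.1 σ))
    (h : HasEtQuotOrder p (ExtMod n f) (ExtMod.inl : G →+ ExtMod n f).range) :
    HasEtQuotOrder p (ExtMod n f') (ExtMod.inl : G' →+ ExtMod n f').range := by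
  have h1 := h.of_injective (ExtMod.map i hf)
    (ExtMod.map_injective i hi hf) (fun σ x => ExtMod.map_smul' i hiσ hf σ x)
  rw [ExtMod.comap_map_range_inl] at h1
  exact h1

theorem hasEtQuotOrder_extMod_of_surjective {p : ℕ} [Fact p.Prime] [NeZero n] [Finite G]
    (π : G →+ G') (hπ : Function.Surjective π)
    (hπσ : ∀ (σ : GQ) (g : G), π (σ • g) = σ • π g) {f : Z1 GQ G} {f' : Z1 GQ G'}
    (hf : ∀ σ, f'.1 σ = π (f.1 σ))
    (h : HasEtQuotOrder p (ExtMod n f) (ExtMod.inl : G →+ ExtMod n f).range) :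
    HasEtQuotOrder p (ExtMod n f') (ExtMod.inl : G' →+ ExtMod n f').range := by
  have h1 := h.of_surjective (ExtMod.map π hf)
    (ExtMod.map_surjective π hπ hf) (fun σ x => ExtMod.map_smul' π hπσ hf σ x)
    (ExtMod.ker_map_le_range_inl π hf)
  rw [ExtMod.map_map_range_inl π hπ hf] at h1
  exact h1

theorem hasEtQuotOrder_extMod_shift {p : ℕ} {f f' : Z1 GQ G} (g : G)
    (hf' : ∀ σ, f'.1 σ = f.1 σ + (σ • g - g))
    (h : HasEtQuotOrder p (ExtMod n f') (ExtMod.inl : G →+ ExtMod n f').range) :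
    HasEtQuotOrder p (ExtMod n f) (ExtMod.inl : G →+ ExtMod n f).range := by
  have h1 := h.of_injective (ExtMod.shift g hf') (ExtMod.shift_injective g hf')
    (fun σ x => ExtMod.shift_smul g hf' σ x)
  rw [ExtMod.comap_shift_range_inl] at h1
  exact h1

/-- the local condition at `2` on the extension module of a quadratic character. -/
theorem hasEtQuotOrder_extMod_kummer_val_even {f : Z1 GQ G}
    (h : HasEtQuotOrder 2 (ExtMod n f) (ExtMod.inl : G →+ ExtMod n f).range)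
    (q : G) (hq0 : q ≠ 0) (hG : ∀ g : G, g = 0 ∨ g = q)
    (htriv : ∀ (σ : GQ) (g : G), σ • g = g)
    (A : ValuationSubring Ω) (hA : A.LiesOverPrime 2)
    (a : ℚ) (ha : a ≠ 0) (α : Ω) (hα : α ^ 2 = algebraMap ℚ Ω a)
    (hc0 : ∀ σ : GQ, σ α = α → f.1 σ = 0) (hc1 : ∀ σ : GQ, σ α ≠ α → f.1 σ = q) :
    Even (padicValRat 2 a) := by
  have hW : (((ExtMod.inl : G →+ ExtMod n f).range : AddSubgroup (ExtMod n f)) :
      Set (ExtMod n f)) = {0, ExtMod.inl q} := by
    ext x
    constructor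
    · rintro ⟨w, rfl⟩
      rcases hG w with rfl | rfl
      · left; exact map_zero _
      · right; rfl
    · rintro (rfl | rfl)
      · exact AddSubgroup.zero_mem _
      · exact ⟨q, rfl⟩
  have hm0 : (ExtMod.inl q : ExtMod n f) ≠ 0 := by
    intro h0
    have h1 : (ExtMod.inl q : ExtMod n f) = ExtMod.inl 0 := by rw [h0, map_zero]
    exact hq0 (ExtMod.inl_injective h1)
  have hmσ : ∀ σ : GQ, σ • (ExtMod.inl q : ExtMod n f) = ExtMod.inl q := by
    intro σ
    rw [← ExtMod.inl_smul, htriv]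
  refine h.kummer_val_even (ExtMod.inl q) hW hm0 hmσ A hA ExtMod.e₀ a ha α hα ?_ ?_
  · intro σ hσ
    have := ExtMod.smul_e₀_sub (f := f) (n := n) σ
    rw [hc0 σ hσ, map_zero, sub_eq_zero] at this
    exact this
  · intro σ hσ
    have := ExtMod.smul_e₀_sub (f := f) (n := n) σ
    rw [hc1 σ hσ, sub_eq_iff_eq_add'] at this
    exact this

end general

/-- the extension module of the cocycle carries a Hopf order at `2` containing the indicator
function of `G × 0`. -/
def FlatCoc2 (n : ℕ) (hn : ∀ x : G, n • x = 0) (f : Z1 GQ G) : Prop :=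
  letI : Module (ZMod n) G := AddCommGroup.zmodModule hn
  HasEtQuotOrder 2 (@ExtMod GQ _ G _ _ n (AddCommGroup.zmodModule hn) f)
    (@ExtMod.inl GQ _ G _ _ n (AddCommGroup.zmodModule hn) f).range

theorem FlatCoc2.flatCoc {n : ℕ} {hn : ∀ x : G, n • x = 0} {f : Z1 GQ G}
    (h : FlatCoc2 n hn f) : FlatCoc 2 n hn f :=
  HasEtQuotOrder.hasHopfOrder h

/-- **Good cocycles at `r = 2`.** -/
structure GoodCoc2 (p n : ℕ) (hn : ∀ x : G, n • x = 0) (f : GQ → G) : Prop where
  coc : f ∈ Z1 GQ G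
  cts : IsCtsCoc f
  unr : IsUnrCocOutside {2, p} f
  flat : FlatCoc2 n hn ⟨f, coc⟩

theorem GoodCoc2.goodCoc {p n : ℕ} {hn : ∀ x : G, n • x = 0} {f : GQ → G}
    (h : GoodCoc2 p n hn f) : GoodCoc 2 p n hn f :=
  ⟨h.coc, h.cts, h.unr, h.flat.flatCoc⟩

variable {G' : Type} [AddCommGroup G'] [DistribMulAction GQ G']

/-- pull-back of Good cocycles to a submodule. -/
theorem GoodCoc2.of_injective {p n : ℕ} {hn : ∀ x : G, n • x = 0} (hn' : ∀ x : G', n • x = 0)
    (i : G' →+ G) (hi : Function.Injective i) (hiσ : ∀ (σ : GQ) (g : G'), i (σ • g) = σ • i g)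
    {f' : GQ → G'} (h : GoodCoc2 p n hn (fun σ => i (f' σ))) : GoodCoc2 p n hn' f' := by
  have hcoc : f' ∈ Z1 GQ G' := by
    intro σ τ
    apply hi
    rw [map_add, hiσ]
    exact h.coc σ τ
  refine ⟨hcoc, ?_, ?_, ?_⟩
  · obtain ⟨F, hF, hv⟩ := h.cts
    exact ⟨F, hF, fun σ hσ => hi (by rw [map_zero]; exact hv σ hσ)⟩
  · intro v hv hvS A hA σ hσ
    exact hi (by rw [map_zero]; exact h.unr v hv hvS A hA σ hσ)
  · exact @hasEtQuotOrder_extMod_of_injective G _ _ G' _ _ n (AddCommGroup.zmodModule hn)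
      (AddCommGroup.zmodModule hn') 2 i hi hiσ ⟨fun σ => i (f' σ), h.coc⟩ ⟨f', hcoc⟩
      (fun σ => rfl) h.flat

/-- push-forward of Good cocycles to a quotient module. -/
theorem GoodCoc2.of_surjective {p n : ℕ} [NeZero n] [Finite G]
    {hn : ∀ x : G, n • x = 0} (hn' : ∀ x : G', n • x = 0)
    (π : G →+ G') (hπ : Function.Surjective π) (hπσ : ∀ (σ : GQ) (g : G), π (σ • g) = σ • π g)
    {f : GQ → G} (h : GoodCoc2 p n hn f) : GoodCoc2 p n hn' (fun σ => π (f σ)) := by
  haveI : Fact (Nat.Prime 2) := ⟨Nat.prime_two⟩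
  have hcoc : (fun σ => π (f σ)) ∈ Z1 GQ G' := by
    intro σ τ
    show π (f (σ * τ)) = π (f σ) + σ • π (f τ)
    rw [h.coc σ τ, map_add, hπσ]
  refine ⟨hcoc, ?_, ?_, ?_⟩
  · obtain ⟨F, hF, hv⟩ := h.cts
    exact ⟨F, hF, fun σ hσ => by show π (f σ) = 0; rw [hv σ hσ, map_zero]⟩
  · intro v hv hvS A hA σ hσ
    show π (f σ) = 0
    rw [h.unr v hv hvS A hA σ hσ, map_zero]
  · exact @hasEtQuotOrder_extMod_of_surjective G _ _ G' _ _ n (AddCommGroup.zmodModule hn)
      (AddCommGroup.zmodModule hn') 2 _ _ _ π hπ hπσ ⟨f, h.coc⟩ ⟨fun σ => π (f σ), hcoc⟩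
      (fun σ => rfl) h.flat

/-- the flat clause is invariant under coboundaries. -/
theorem FlatCoc2.shift {n : ℕ} {hn : ∀ x : G, n • x = 0} {f f' : Z1 GQ G} (g : G)
    (hf' : ∀ σ, f'.1 σ = f.1 σ + (σ • g - g)) (h : FlatCoc2 n hn f') : FlatCoc2 n hn f :=
  @hasEtQuotOrder_extMod_shift G _ _ n (AddCommGroup.zmodModule hn) 2 f f' g hf' h

/-- **the local condition at `2`** for a module of order `2` with trivial action: a Good quadratic
character which is the Kummer character of `a ∈ ℚˣ` has `v₂(a)` even. -/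
theorem GoodCoc2.kummer_val_even {p n : ℕ} {hn : ∀ x : G, n • x = 0} {f : GQ → G}
    (h : GoodCoc2 p n hn f) (q : G) (hq0 : q ≠ 0) (hG : ∀ g : G, g = 0 ∨ g = q)
    (htriv : ∀ (σ : GQ) (g : G), σ • g = g)
    (A : ValuationSubring Ω) (hA : A.LiesOverPrime 2)
    (a : ℚ) (ha : a ≠ 0) (α : Ω) (hα : α ^ 2 = algebraMap ℚ Ω a)
    (hc0 : ∀ σ : GQ, σ α = α → f σ = 0) (hc1 : ∀ σ : GQ, σ α ≠ α → f σ = q) :
    Even (padicValRat 2 a) :=
  @hasEtQuotOrder_extMod_kummer_val_even G _ _ n (AddCommGroup.zmodModule hn) ⟨f, h.coc⟩ h.flat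
    q hq0 hG htriv A hA a ha α hα hc0 hc1

end Good2

end Fermat.Agent.MZ
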