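/-
PROJECT MZ (S15), `r = 2`, base case of the dévissage — helper7 — **Kummer data of a Good
character with values in a group of order `2`.**

`Q = {0, q₁}` with trivial `G_ℚ`-action.  A Good₂ cocycle `f : G_ℚ → Q` (a continuous character,
unramified outside `{2, p}`, flat at `2` with étale quotient) is the quadratic character of some
`a ∈ ℚˣ` (`α ^ 2 = a`, `f σ = 0 ↔ σ α = α`) all of whose `ℓ`-adic valuations, `ℓ ≠ p`, are even:
at odd `ℓ` by helper8's (K2), at `ℓ = 2` by helper2's `GoodCoc2.kummer_val_even`.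
-/
import Mathlib
import Fermat.Agent.MZ.GOOD2_helper2_Defs
import Fermat.Agent.MZ.BASE_helper8_Kummer

set_option autoImplicit false
set_option linter.style.haveILetI false
set_option linter.unusedSectionVars false
set_option linter.unusedVariables false

namespace Fermat.Agent.MZ

open Fermat.Agent.FG

local notation "Ω" => AlgebraicClosure ℚ
local notation "GQ" => (AlgebraicClosure ℚ ≃ₐ[ℚ] AlgebraicClosure ℚ)

section Quad

variable {Q : Type} [AddCommGroup Q] [DistribMulAction GQ Q]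

/-- **quadratic Kummer theory**: a continuous character `f : G_ℚ → Q = {0, q₁}` is the quadratic
character of some `a ∈ ℚˣ`. -/
theorem exists_quadratic_kummer (htriv : ∀ (σ : GQ) (q : Q), σ • q = q) (q₁ : Q)
    (hQ : ∀ q : Q, q = 0 ∨ q = q₁) (f : GQ → Q) (hcoc : f ∈ Z1 GQ Q) (hcts : IsCtsCoc f) :
    ∃ (α : Ω) (a : ℚ), α ≠ 0 ∧ a ≠ 0 ∧ α ^ 2 = algebraMap ℚ Ω a ∧
      (∀ σ : GQ, f σ = 0 → σ α = α) ∧ (∀ σ : GQ, f σ ≠ 0 → σ α = -α) := by
  classical
  have hadd : ∀ σ τ : GQ, f (σ * τ) = f σ + f τ := fun σ τ => by rw [hcoc σ τ, htriv]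
  have h2 : ∀ q : Q, q + q = 0 := by
    intro q
    rcases hQ q with h0 | h1
    · rw [h0, add_zero]
    · rw [h1]
      rcases hQ (q₁ + q₁) with h | h
      · exact h
      · have : q₁ = 0 := by
          have h' : q₁ + q₁ = q₁ + 0 := by rw [add_zero]; exact h
          exact add_left_cancel h'
        rw [this, add_zero]
  let ζ : GQ → Ω := fun σ => if f σ = 0 then 1 else -1
  have hζ0 : ∀ σ, f σ = 0 → ζ σ = 1 := fun σ h => if_pos h
  have hζ1 : ∀ σ, f σ ≠ 0 → ζ σ = -1 := fun σ h => if_neg h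
  have hζsq : ∀ σ, ζ σ ^ 2 = 1 := by
    intro σ
    by_cases h : f σ = 0
    · rw [hζ0 σ h, one_pow]
    · rw [hζ1 σ h]; norm_num
  have hζfix : ∀ σ τ : GQ, σ (ζ τ) = ζ τ := by
    intro σ τ
    by_cases h : f τ = 0
    · rw [hζ0 τ h, map_one]
    · rw [hζ1 τ h, map_neg, map_one]
  have hζmul : ∀ σ τ : GQ, ζ (σ * τ) = ζ σ * σ (ζ τ) := by
    intro σ τ
    rw [hζfix]
    by_cases hs : f σ = 0
    · by_cases ht : f τ = 0
      · rw [hζ0 σ hs, hζ0 τ ht, hζ0 _ (by rw [hadd, hs, ht, add_zero]), one_mul]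
      · rw [hζ0 σ hs, hζ1 τ ht, hζ1 _ (by rw [hadd, hs, zero_add]; exact ht), one_mul]
    · by_cases ht : f τ = 0
      · rw [hζ1 σ hs, hζ0 τ ht, hζ1 _ (by rw [hadd, ht, add_zero]; exact hs), mul_one]
      · have hs' : f σ = q₁ := (hQ _).resolve_left hs
        have ht' : f τ = q₁ := (hQ _).resolve_left ht
        rw [hζ1 σ hs, hζ1 τ ht, hζ0 _ (by rw [hadd, hs', ht', h2]), neg_mul_neg, one_mul]
  obtain ⟨F, hFfin, hF⟩ := hcts
  have hcont : ∃ F : IntermediateField ℚ Ω, FiniteDimensional ℚ F ∧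
      ∀ σ : GQ, ∀ s ∈ F.fixingSubgroup, ζ (σ * s) = ζ σ := by
    refine ⟨F, hFfin, fun σ s hs => ?_⟩
    have hfs : f s = 0 := hF s fun a ha => by
      have := (IntermediateField.mem_fixingSubgroup_iff F s).mp hs a ha
      exact this
    have : f (σ * s) = f σ := by rw [hadd, hfs, add_zero]
    show (if f (σ * s) = 0 then (1 : Ω) else -1) = if f σ = 0 then 1 else -1
    rw [this]
  obtain ⟨α, a, hα0, ha0, hαa, hσα⟩ :=
    exists_kummer_generator (r := 2) (by norm_num) ζ hζsq hζmul hcont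
  refine ⟨α, a, hα0, ha0, hαa, fun σ h => ?_, fun σ h => ?_⟩
  · rw [hσα, hζ0 σ h, one_mul]
  · rw [hσα, hζ1 σ h, neg_one_mul]

end Quad

section Val

variable {Q : Type} [AddCommGroup Q] [DistribMulAction GQ Q]

/-- a quadratic character vanishing on one inertia group over `ℓ`: `v_ℓ(a)` is even. -/
theorem even_padicValRat_of_inertia {ℓ : ℕ} (hℓ : ℓ.Prime) (f : GQ → Q) (α : Ω) (a : ℚ)
    (ha : a ≠ 0) (hαa : α ^ 2 = algebraMap ℚ Ω a) (h0 : ∀ σ : GQ, f σ = 0 → σ α = α)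
    (A : ValuationSubring Ω) (hA : A.LiesOverPrime ℓ)
    (hI : ∀ σ ∈ A.inertiaSubgroupIn ℚ, f σ = 0) : Even (padicValRat ℓ a) := by
  haveI := Fact.mk hℓ
  have h := dvd_padicValRat_of_forall_inertia_fixed (v := ℓ) (r := 2) a ha α hαa A hA
    (fun σ hσ => h0 σ (hI σ hσ))
  exact even_iff_two_dvd.mpr (by exact_mod_cast h)

end Val

end Fermat.Agent.MZ
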