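/-
PROJECT MZ (S15), `r = 2`, base case of the dévissage — helper7.

`Q = {0, q₁}` with trivial `G_ℚ`-action, `p` a prime.  For Good₂ cocycles `f : G_ℚ → Q`:

* `good2_kummer_data` : `f` is the quadratic character of some `a ∈ ℚˣ` with `v_ℓ(a)` even for
  every prime `ℓ ≠ p`;
* `good2_eq_zero_of_res` : **injectivity of the restriction to `I_p ∪ {c}`**: if `f` vanishes on
  one inertia group over `p` and at the complex conjugation, then `f = 0`;
* `good2_apply_eq_zero_of_fix` : `f σ = 0` as soon as `σ` fixes a square root of `-1` and a square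
  root of `p` (hence the group of Good₂ cocycles is finite, `good2_finite`);
* `base2` : the base case in the form consumed by helper4's `devissage` with `u = v = 1`:
  `Finite 𝒵 ∧ Nat.card 𝒵 ≤ Nat.card (𝒵.map (resTo (archInertiaSet A₀)))`.
-/
import Mathlib
import Fermat.Agent.MZ.BASE2_helper7_Kummer
import Fermat.Agent.MZ.ARCH2_helper7_Basic

set_option autoImplicit false
set_option linter.style.haveILetI false
set_option linter.unusedSectionVars false
set_option linter.unusedVariables false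

namespace Fermat.Agent.MZ

open Fermat.Agent.FG

local notation "Ω" => AlgebraicClosure ℚ
local notation "GQ" => (AlgebraicClosure ℚ ≃ₐ[ℚ] AlgebraicClosure ℚ)

/-- the subset `I_p ∪ {c}` of `G_ℚ` to which the cocycles are restricted at `r = 2`: one inertia
group over `p` and the complex conjugation. -/
def archInertiaSet (A₀ : ValuationSubring Ω) : Set GQ :=
  (A₀.inertiaSubgroupIn ℚ : Set GQ) ∪ {complexConjugation}

section Base

variable {Q : Type} [AddCommGroup Q] [DistribMulAction GQ Q]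

/-- **Kummer data of a Good₂ character.** -/
theorem good2_kummer_data {p n : ℕ} (hn : ∀ x : Q, n • x = 0)
    (htriv : ∀ (σ : GQ) (q : Q), σ • q = q) (q₁ : Q) (hq₁ : q₁ ≠ 0)
    (hQ : ∀ q : Q, q = 0 ∨ q = q₁) (f : GQ → Q) (hf : GoodCoc2 p n hn f) :
    ∃ (α : Ω) (a : ℚ), α ≠ 0 ∧ a ≠ 0 ∧ α ^ 2 = algebraMap ℚ Ω a ∧
      (∀ σ : GQ, f σ = 0 → σ α = α) ∧ (∀ σ : GQ, f σ ≠ 0 → σ α = -α) ∧
      ∀ ℓ : ℕ, ℓ.Prime → ℓ ≠ p → Even (padicValRat ℓ a) := by
  obtain ⟨α, a, hα0, ha0, hαa, h0, h1⟩ := exists_quadratic_kummer htriv q₁ hQ f hf.coc hf.cts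
  refine ⟨α, a, hα0, ha0, hαa, h0, h1, fun ℓ hℓ hℓp => ?_⟩
  by_cases h2 : ℓ = 2
  · subst h2
    haveI : Fact (Nat.Prime 2) := ⟨Nat.prime_two⟩
    have hneg : -α ≠ α := by
      intro h
      have h2 : (2 : Ω) * α = 0 := by linear_combination -h
      rcases mul_eq_zero.mp h2 with h' | h'
      · exact two_ne_zero h'
      · exact hα0 h'
    refine hf.kummer_val_even q₁ hq₁ hQ htriv (padicPlace 2)
      (Fermat.Agent.TW.Kill.padicPlace_liesOverPrime 2) a ha0 α hαa (fun σ hσ => ?_)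
      (fun σ hσ => ?_)
    · by_contra hne
      exact hneg ((h1 σ hne).symm.trans hσ)
    · rcases hQ (f σ) with h | h
      · exact absurd (h0 σ h) hσ
      · exact h
  · haveI := Fact.mk hℓ
    refine even_padicValRat_of_inertia hℓ f α a ha0 hαa h0 (padicPlace ℓ)
      (Fermat.Agent.TW.Kill.padicPlace_liesOverPrime ℓ) (fun σ hσ => ?_)
    refine hf.unr ℓ hℓ ?_ (padicPlace ℓ) (Fermat.Agent.TW.Kill.padicPlace_liesOverPrime ℓ) σ hσ
    intro hmem
    rcases hmem with h | h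
    · exact h2 h
    · exact hℓp h

/-- a square root of a square of a fixed element is fixed. -/
theorem apply_eq_of_sq_eq_sq {σ : GQ} {α γ : Ω} (h : α ^ 2 = γ ^ 2) (hγ : σ γ = γ) : σ α = α := by
  rcases sq_eq_sq_iff_eq_or_eq_neg.mp h with h' | h'
  · rw [h', hγ]
  · rw [h', map_neg, hγ]

/-- **injectivity of the restriction to `I_p ∪ {c}`** on Good₂ characters. -/
theorem good2_eq_zero_of_res {p n : ℕ} (hp : p.Prime) (hn : ∀ x : Q, n • x = 0)
    (htriv : ∀ (σ : GQ) (q : Q), σ • q = q) (q₁ : Q) (hq₁ : q₁ ≠ 0)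
    (hQ : ∀ q : Q, q = 0 ∨ q = q₁) (f : GQ → Q) (hf : GoodCoc2 p n hn f)
    (A₀ : ValuationSubring Ω) (hA₀ : A₀.LiesOverPrime p)
    (hres : ∀ σ ∈ archInertiaSet A₀, f σ = 0) : ∀ σ : GQ, f σ = 0 := by
  obtain ⟨α, a, hα0, ha0, hαa, h0, h1, hev⟩ := good2_kummer_data hn htriv q₁ hq₁ hQ f hf
  have hevp : Even (padicValRat p a) :=
    even_padicValRat_of_inertia hp f α a ha0 hαa h0 A₀ hA₀
      (fun σ hσ => hres σ (Or.inl hσ))
  have hall : ∀ ℓ : ℕ, ℓ.Prime → Even (padicValRat ℓ a) := by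
    intro ℓ hℓ
    by_cases h : ℓ = p
    · rw [h]; exact hevp
    · exact hev ℓ hℓ h
  obtain ⟨b, hb0, hb⟩ := rat_eq_sq_or_neg_sq_of_even ha0 hall
  rcases hb with hb | hb
  · -- `a = b ^ 2`: `α = ± b` is rational
    intro σ
    by_contra hne
    have hfix : σ α = α := by
      refine apply_eq_of_sq_eq_sq (γ := algebraMap ℚ Ω b) ?_ (σ.commutes b)
      rw [hαa, hb, map_pow]
    have hneg := h1 σ hne
    rw [hfix] at hneg
    have h2 : (2 : Ω) * α = 0 := by linear_combination hneg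
    rcases mul_eq_zero.mp h2 with h' | h'
    · exact two_ne_zero h'
    · exact hα0 h'
  · -- `a = - b ^ 2 < 0`: the complex conjugation moves `α`
    exfalso
    have haneg : a < 0 := by
      rw [hb, neg_lt_zero]
      positivity
    have hc : f complexConjugation = 0 := hres _ (Or.inr rfl)
    exact complexConjugation_apply_ne_of_sq_neg haneg hαa (h0 _ hc)

/-- a Good₂ character vanishes on every `σ` fixing a square root of `-1` and a square root of
`p`. -/
theorem good2_apply_eq_zero_of_fix {p n : ℕ} (hp : p.Prime) (hn : ∀ x : Q, n • x = 0)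
    (htriv : ∀ (σ : GQ) (q : Q), σ • q = q) (q₁ : Q) (hq₁ : q₁ ≠ 0)
    (hQ : ∀ q : Q, q = 0 ∨ q = q₁) (f : GQ → Q) (hf : GoodCoc2 p n hn f)
    (ι π₀ : Ω) (hι : ι ^ 2 = -1) (hπ : π₀ ^ 2 = (p : Ω))
    (σ : GQ) (hσι : σ ι = ι) (hσπ : σ π₀ = π₀) : f σ = 0 := by
  obtain ⟨α, a, hα0, ha0, hαa, h0, h1, hev⟩ := good2_kummer_data hn htriv q₁ hq₁ hQ f hf
  haveI := Fact.mk hp
  have hp0 : (p : ℚ) ≠ 0 := Nat.cast_ne_zero.mpr hp.ne_zero
  have hπ0 : π₀ ≠ 0 := by
    intro h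
    rw [h, zero_pow two_ne_zero] at hπ
    exact (Nat.cast_ne_zero.mpr hp.ne_zero : (p : Ω) ≠ 0) hπ.symm
  -- it suffices to find a fixed `γ` with `γ ^ 2 = a`
  suffices hγ : ∃ γ : Ω, σ γ = γ ∧ α ^ 2 = γ ^ 2 by
    obtain ⟨γ, hγfix, hγsq⟩ := hγ
    have hfix : σ α = α := apply_eq_of_sq_eq_sq hγsq hγfix
    by_contra hne
    have hneg := h1 σ hne
    rw [hfix] at hneg
    have h2 : (2 : Ω) * α = 0 := by linear_combination hneg
    rcases mul_eq_zero.mp h2 with h' | h'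
    · exact two_ne_zero h'
    · exact hα0 h'
  -- make the valuation at `p` even
  obtain ⟨a', ha'0, ha', hall⟩ : ∃ a' : ℚ, a' ≠ 0 ∧ (a' = a ∨ a' = a * p) ∧
      ∀ ℓ : ℕ, ℓ.Prime → Even (padicValRat ℓ a') := by
    by_cases hevp : Even (padicValRat p a)
    · refine ⟨a, ha0, Or.inl rfl, fun ℓ hℓ => ?_⟩
      by_cases h : ℓ = p
      · rw [h]; exact hevp
      · exact hev ℓ hℓ h
    · refine ⟨a * p, mul_ne_zero ha0 hp0, Or.inr rfl, fun ℓ hℓ => ?_⟩
      haveI := Fact.mk hℓ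
      rw [padicValRat.mul ha0 hp0]
      by_cases h : ℓ = p
      · subst h
        have h1 : padicValRat ℓ (ℓ : ℚ) = 1 := padicValRat.self hℓ.one_lt
        rw [h1]
        exact (Int.not_even_iff_odd.mp hevp).add_one
      · have h1 : padicValRat ℓ (p : ℚ) = 0 := by
          have : padicValRat ℓ ((p : ℕ) : ℚ) = padicValNat ℓ p := padicValRat.of_nat
          rw [this, Nat.cast_eq_zero]
          apply padicValNat.eq_zero_of_not_dvd
          intro hd
          exact h ((Nat.prime_dvd_prime_iff_eq hℓ hp).mp hd)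
        rw [h1, add_zero]
        exact hev ℓ hℓ h
  obtain ⟨b, hb0, hb⟩ := rat_eq_sq_or_neg_sq_of_even ha'0 hall
  have hbfix : σ (algebraMap ℚ Ω b) = algebraMap ℚ Ω b := σ.commutes b
  have hb0' : algebraMap ℚ Ω b ≠ 0 := (map_ne_zero (algebraMap ℚ Ω)).mpr hb0
  have hcastp : algebraMap ℚ Ω (p : ℚ) = (p : Ω) := map_natCast _ _
  rcases ha' with rfl | rfl
  · rcases hb with hb | hb
    · exact ⟨algebraMap ℚ Ω b, hbfix, by rw [hαa, hb, map_pow]⟩
    · refine ⟨algebraMap ℚ Ω b * ι, by rw [map_mul, hbfix, hσι], ?_⟩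
      rw [hαa, hb, mul_pow, hι, map_neg, map_pow]
      ring
  · -- `a * p = ± b ^ 2`, so `a = ± (b / π₀) ^ 2`
    have hap : algebraMap ℚ Ω a * π₀ ^ 2 = algebraMap ℚ Ω (a * p) := by
      rw [map_mul, hcastp, hπ]
    rcases hb with hb | hb
    · refine ⟨algebraMap ℚ Ω b / π₀, by rw [map_div₀, hbfix, hσπ], ?_⟩
      rw [hαa, div_pow, eq_div_iff (pow_ne_zero 2 hπ0), hap, hb, map_pow]
    · refine ⟨algebraMap ℚ Ω b * ι / π₀, by rw [map_div₀, map_mul, hbfix, hσι, hσπ], ?_⟩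
      rw [hαa, div_pow, eq_div_iff (pow_ne_zero 2 hπ0), hap, hb, mul_pow, hι, map_neg, map_pow]
      ring

end Base

end Fermat.Agent.MZ
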