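/-
PROJECT MZ (S15), `r = 2`, base case of the dévissage — helper7 — **finiteness and the base case
in `devissage` form.**

* `good2_finite` : a group of Good₂ characters with values in `Q = {0, q₁}` is finite (they all
  vanish on the fixing subgroup of `ℚ(√-1, √p)`);
* `base2` : `Finite 𝒵 ∧ Nat.card 𝒵 ≤ Nat.card (𝒵.map (resTo (archInertiaSet A₀)))`;
* `trivial_action_of_simple_two_group` / `order_two_of_simple_two_group` : a finite `G_ℚ`-module of
  `2`-power order on which every `σ` has `2`-power order and which has no proper stable subgroup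
  has trivial action and at most two elements.
-/
import Mathlib
import Fermat.Agent.MZ.BASE2_helper7_Main

set_option autoImplicit false
set_option linter.style.haveILetI false
set_option linter.unusedSectionVars false
set_option linter.unusedVariables false

namespace Fermat.Agent.MZ

open Fermat.Agent.FG IntermediateField

local notation "Ω" => AlgebraicClosure ℚ
local notation "GQ" => (AlgebraicClosure ℚ ≃ₐ[ℚ] AlgebraicClosure ℚ)

section Fin

variable {Q : Type} [AddCommGroup Q] [DistribMulAction GQ Q]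

/-- **finiteness of the group of Good₂ characters.** -/
theorem good2_finite {p n : ℕ} (hp : p.Prime) (hn : ∀ x : Q, n • x = 0)
    (htriv : ∀ (σ : GQ) (q : Q), σ • q = q) (q₁ : Q) (hq₁ : q₁ ≠ 0)
    (hQ : ∀ q : Q, q = 0 ∨ q = q₁) [Finite Q] (𝒵 : AddSubgroup (GQ → Q))
    (h𝒵 : ∀ f ∈ 𝒵, GoodCoc2 p n hn f) : Finite 𝒵 := by
  classical
  obtain ⟨ι, hι⟩ := IsAlgClosed.exists_pow_nat_eq (-1 : Ω) (n := 2) (by norm_num)
  obtain ⟨π₀, hπ⟩ := IsAlgClosed.exists_pow_nat_eq (p : Ω) (n := 2) (by norm_num)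
  haveI : Algebra.IsAlgebraic ℚ Ω := AlgebraicClosure.isAlgebraic ℚ
  have hιint : IsIntegral ℚ ι := (Algebra.IsAlgebraic.isAlgebraic ι).isIntegral
  have hπint : IsIntegral ℚ π₀ := (Algebra.IsAlgebraic.isAlgebraic π₀).isIntegral
  let F₀ : IntermediateField ℚ Ω := ℚ⟮ι, π₀⟯
  haveI : FiniteDimensional ℚ F₀ := finiteDimensional_adjoin_pair hιint hπint
  set V : Subgroup GQ := F₀.fixingSubgroup with hV
  have hVopen : IsOpen (V : Set GQ) := IntermediateField.fixingSubgroup_isOpen F₀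
  haveI : Finite (GQ ⧸ V) := Subgroup.quotient_finite_of_isOpen V hVopen
  have hιF : ι ∈ F₀ := subset_adjoin ℚ _ (by simp)
  have hπF : π₀ ∈ F₀ := subset_adjoin ℚ _ (by simp)
  -- every element of `𝒵` vanishes on `V`
  have hvan : ∀ f ∈ 𝒵, ∀ s ∈ V, f s = 0 := by
    intro f hf s hs
    have hs' := (IntermediateField.mem_fixingSubgroup_iff F₀ s).mp hs
    exact good2_apply_eq_zero_of_fix hp hn htriv q₁ hq₁ hQ f (h𝒵 f hf) ι π₀ hι hπ s
      (hs' ι hιF) (hs' π₀ hπF)
  have hadd : ∀ f ∈ 𝒵, ∀ σ τ : GQ, f (σ * τ) = f σ + f τ := fun f hf σ τ => by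
    rw [(h𝒵 f hf).coc σ τ, htriv]
  -- `f` is determined by its values on coset representatives
  let Φ : ↥𝒵 → (GQ ⧸ V → Q) := fun f x => f.1 x.out
  have hΦ : Function.Injective Φ := by
    intro f g hfg
    apply Subtype.ext
    funext σ
    have hrep : ∀ h : ↥𝒵, h.1 σ = h.1 ((QuotientGroup.mk σ : GQ ⧸ V).out) := by
      intro h
      set τ := (QuotientGroup.mk σ : GQ ⧸ V).out with hτ
      have hmem : τ⁻¹ * σ ∈ V := by
        have : (QuotientGroup.mk τ : GQ ⧸ V) = QuotientGroup.mk σ := QuotientGroup.out_eq' _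
        exact QuotientGroup.eq.mp this
      have : σ = τ * (τ⁻¹ * σ) := by group
      conv_lhs => rw [this]
      rw [hadd h.1 h.2, hvan h.1 h.2 _ hmem, add_zero]
    rw [hrep f, hrep g]
    exact congrFun hfg _
  exact Finite.of_injective Φ hΦ

/-- **the base case of the dévissage at `r = 2`** (`u = v = 1`, `I = I_p ∪ {c}`). -/
theorem base2 {p n : ℕ} (hp : p.Prime) (hn : ∀ x : Q, n • x = 0)
    (htriv : ∀ (σ : GQ) (q : Q), σ • q = q) (q₁ : Q) (hq₁ : q₁ ≠ 0)
    (hQ : ∀ q : Q, q = 0 ∨ q = q₁) [Finite Q] (A₀ : ValuationSubring Ω)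
    (hA₀ : A₀.LiesOverPrime p) (𝒵 : AddSubgroup (GQ → Q))
    (h𝒵 : ∀ f ∈ 𝒵, GoodCoc2 p n hn f) :
    Finite 𝒵 ∧ Nat.card 𝒵 ≤ Nat.card (𝒵.map (resTo (archInertiaSet A₀))) := by
  have hfin : Finite 𝒵 := good2_finite hp hn htriv q₁ hq₁ hQ 𝒵 h𝒵
  refine ⟨hfin, ?_⟩
  have hsurj : Function.Surjective ((resTo (archInertiaSet A₀)).addSubgroupMap 𝒵) :=
    (resTo (archInertiaSet A₀)).addSubgroupMap_surjective 𝒵
  haveI : Finite (𝒵.map (resTo (G := Q) (archInertiaSet A₀))) := Finite.of_surjective _ hsurj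
  refine Nat.card_le_card_of_injective ((resTo (archInertiaSet A₀)).addSubgroupMap 𝒵) ?_
  rw [injective_iff_map_eq_zero]
  intro f hf
  apply Subtype.ext
  funext σ
  have h0 : resTo (archInertiaSet A₀) f.1 = 0 := congrArg Subtype.val hf
  refine good2_eq_zero_of_res hp hn htriv q₁ hq₁ hQ f.1 (h𝒵 f.1 f.2) A₀ hA₀ (fun τ hτ => ?_) σ
  exact congrFun h0 ⟨τ, hτ⟩

end Fin

section Simple

variable {G : Type} [AddCommGroup G] [Finite G] [DistribMulAction GQ G]

/-- a nontrivial finite `G_ℚ`-module of `2`-power order on which every `σ` has `2`-power order has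
a nonzero fixed element. -/
theorem exists_ne_zero_fixed_of_two_group (hcard : ∃ e : ℕ, Nat.card G = 2 ^ e)
    [Nontrivial G] (hpow : ∀ σ : GQ, ∃ j : ℕ, ∀ g : G, σ ^ (2 ^ j) • g = g) :
    ∃ g : G, g ≠ 0 ∧ ∀ σ : GQ, σ • g = g := by
  classical
  haveI : Fact (Nat.Prime 2) := ⟨Nat.prime_two⟩
  let P : Subgroup (Equiv.Perm G) := (MulAction.toPermHom GQ G).range
  have hP : IsPGroup 2 P := by
    rintro ⟨τ, σ, rfl⟩
    obtain ⟨j, hj⟩ := hpow σ
    refine ⟨j, ?_⟩
    apply Subtype.ext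
    show (MulAction.toPermHom GQ G σ) ^ (2 ^ j) = 1
    rw [← map_pow]
    ext g
    exact hj g
  obtain ⟨e, he⟩ := hcard
  have he0 : e ≠ 0 := by
    rintro rfl
    rw [pow_zero] at he
    exact (Finite.one_lt_card (α := G)).ne' he
  have hdvd : 2 ∣ Nat.card G := by rw [he]; exact dvd_pow_self 2 he0
  have h0 : (0 : G) ∈ MulAction.fixedPoints P G := by
    rintro ⟨τ, σ, rfl⟩
    show σ • (0 : G) = 0
    exact smul_zero σ
  obtain ⟨b, hb, hb0⟩ := hP.exists_fixed_point_of_prime_dvd_card_of_fixed_point G hdvd h0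
  refine ⟨b, fun h => hb0 h.symm, fun σ => ?_⟩
  exact hb ⟨MulAction.toPermHom GQ G σ, σ, rfl⟩

/-- no proper stable subgroup ⇒ trivial action. -/
theorem trivial_action_of_simple_two_group (hcard : ∃ e : ℕ, Nat.card G = 2 ^ e)
    (hpow : ∀ σ : GQ, ∃ j : ℕ, ∀ g : G, σ ^ (2 ^ j) • g = g)
    (hsimple : ∀ A : AddSubgroup G, (∀ σ : GQ, ∀ a ∈ A, σ • a ∈ A) → A = ⊥ ∨ A = ⊤) :
    ∀ (σ : GQ) (g : G), σ • g = g := by
  rcases subsingleton_or_nontrivial G with hs | hnt
  · intro σ g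
    exact Subsingleton.elim _ _
  · obtain ⟨g₀, hg₀, hfix⟩ := exists_ne_zero_fixed_of_two_group hcard hpow
    let A : AddSubgroup G :=
      { carrier := {g | ∀ σ : GQ, σ • g = g}
        zero_mem' := fun σ => smul_zero σ
        add_mem' := fun {a b} ha hb σ => by rw [smul_add, ha σ, hb σ]
        neg_mem' := fun {a} ha σ => by rw [smul_neg, ha σ] }
    have hA : ∀ σ : GQ, ∀ a ∈ A, σ • a ∈ A := fun σ a ha => by
      have : σ • a = a := ha σ
      rw [this]; exact ha
    rcases hsimple A hA with h | h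
    · exfalso
      have : g₀ ∈ A := hfix
      rw [h, AddSubgroup.mem_bot] at this
      exact hg₀ this
    · intro σ g
      have : g ∈ A := by rw [h]; exact AddSubgroup.mem_top g
      exact this σ

/-- no proper stable subgroup ⇒ at most two elements. -/
theorem order_two_of_simple_two_group (hcard : ∃ e : ℕ, Nat.card G = 2 ^ e)
    (hpow : ∀ σ : GQ, ∃ j : ℕ, ∀ g : G, σ ^ (2 ^ j) • g = g)
    (hsimple : ∀ A : AddSubgroup G, (∀ σ : GQ, ∀ a ∈ A, σ • a ∈ A) → A = ⊥ ∨ A = ⊤)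
    [Nontrivial G] : ∃ q₁ : G, q₁ ≠ 0 ∧ ∀ q : G, q = 0 ∨ q = q₁ := by
  classical
  have htriv := trivial_action_of_simple_two_group hcard hpow hsimple
  have hstable : ∀ A : AddSubgroup G, A = ⊥ ∨ A = ⊤ := fun A =>
    hsimple A fun σ a ha => by rw [htriv]; exact ha
  -- an element of order two
  haveI : Fact (Nat.Prime 2) := ⟨Nat.prime_two⟩
  obtain ⟨e, he⟩ := hcard
  have he0 : e ≠ 0 := by
    rintro rfl
    rw [pow_zero] at he
    exact (Finite.one_lt_card (α := G)).ne' he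
  have hdvd : 2 ∣ Nat.card G := by rw [he]; exact dvd_pow_self 2 he0
  obtain ⟨q₁, hq₁⟩ := exists_prime_addOrderOf_dvd_card' (G := G) 2 hdvd
  have hq₁0 : q₁ ≠ 0 := by
    rintro rfl
    rw [addOrderOf_zero] at hq₁
    norm_num at hq₁
  refine ⟨q₁, hq₁0, fun q => ?_⟩
  rcases hstable (AddSubgroup.zmultiples q₁) with h | h
  · exfalso
    have : q₁ ∈ AddSubgroup.zmultiples q₁ := AddSubgroup.mem_zmultiples q₁
    rw [h, AddSubgroup.mem_bot] at this
    exact hq₁0 this
  · have hq : q ∈ AddSubgroup.zmultiples q₁ := by rw [h]; exact AddSubgroup.mem_top q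
    obtain ⟨k, rfl⟩ := AddSubgroup.mem_zmultiples_iff.mp hq
    have h2 : (2 : ℤ) • q₁ = 0 := by
      have := addOrderOf_nsmul_eq_zero q₁
      rw [hq₁] at this
      exact_mod_cast this
    rcases Int.emod_two_eq_zero_or_one k with hk | hk
    · left
      obtain ⟨m, rfl⟩ : (2 : ℤ) ∣ k := Int.dvd_of_emod_eq_zero hk
      rw [mul_comm, mul_smul, h2, smul_zero]
    · right
      have : k = 2 * (k / 2) + 1 := by omega
      rw [this, add_smul, mul_comm, mul_smul, h2, smul_zero, zero_add, one_smul]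

end Simple

end Fermat.Agent.MZ
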