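/-
MZ (S15 gamble) — helper4 — block (FIN-b), abstract part: **the dévissage**.

`Γ` a group, `I ⊆ Γ` a subset ("inertia at `p`").  For pairs `(G, 𝒵)`, `G` a finite `Γ`-module and
`𝒵 ≤ (Γ → G)` a group of cocycles, an abstract admissibility predicate `Adm` which propagates along
short exact sequences (`subCoc`, `quotCoc`), two weights `u` (sub-multiplicative) and `v`
(super-multiplicative), and the base case for modules without proper stable subgroups give

`card 𝒵 * u G ≤ v G * card (res_I 𝒵)` for every admissible pair.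
-/
import Fermat.Agent.MZ.D1_helper4_Coc

set_option autoImplicit false
set_option linter.style.haveILetI false
set_option linter.unusedSectionVars false
set_option linter.unusedVariables false

namespace Fermat.Agent.MZ

section Stable

variable {Γ : Type*} [Group Γ] {G : Type*} [AddCommGroup G] [DistribMulAction Γ G]

/-- the action on a stable subgroup. -/
@[reducible] def stableSubAction (A : AddSubgroup G) (hA : ∀ σ : Γ, ∀ a ∈ A, σ • a ∈ A) :
    DistribMulAction Γ ↥A where
  smul σ a := ⟨σ • a.1, hA σ a.1 a.2⟩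
  one_smul a := Subtype.ext (one_smul _ _)
  mul_smul σ τ a := Subtype.ext (mul_smul _ _ _)
  smul_zero σ := Subtype.ext (smul_zero _)
  smul_add σ a b := Subtype.ext (smul_add _ _ _)

/-- the action on the quotient by a stable subgroup. -/
@[reducible] def stableQuotAction (A : AddSubgroup G) (hA : ∀ σ : Γ, ∀ a ∈ A, σ • a ∈ A) :
    DistribMulAction Γ (G ⧸ A) where
  smul σ := QuotientAddGroup.map A A (DistribSMul.toAddMonoidHom G σ) (fun a ha => hA σ a ha)
  one_smul x := by
    induction x using QuotientAddGroup.induction_on with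
    | H g => exact congrArg (QuotientAddGroup.mk) (one_smul Γ g)
  mul_smul σ τ x := by
    induction x using QuotientAddGroup.induction_on with
    | H g => exact congrArg (QuotientAddGroup.mk) (mul_smul σ τ g)
  smul_zero σ := map_zero _
  smul_add σ x y := map_add _ x y

theorem stableQuotAction_mk (A : AddSubgroup G) (hA : ∀ σ : Γ, ∀ a ∈ A, σ • a ∈ A) (σ : Γ)
    (g : G) :
    letI := stableQuotAction A hA
    σ • (QuotientAddGroup.mk g : G ⧸ A) = QuotientAddGroup.mk (σ • g) := rfl

end Stable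

section Dev

variable {Γ : Type} [Group Γ] (I : Set Γ)

/-- **the abstract dévissage.** -/
theorem devissage
    (Adm : ∀ (G : Type) [AddCommGroup G] [DistribMulAction Γ G], AddSubgroup (Γ → G) → Prop)
    (u v : ∀ (G : Type) [AddCommGroup G] [DistribMulAction Γ G], ℕ)
    (hses : ∀ (G' G G'' : Type) [AddCommGroup G'] [AddCommGroup G] [AddCommGroup G'']
      [DistribMulAction Γ G'] [DistribMulAction Γ G] [DistribMulAction Γ G'']
      (i : G' →+ G) (π : G →+ G''), Function.Injective i → Function.Surjective π →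
      (∀ g, π g = 0 ↔ g ∈ i.range) → (∀ (σ : Γ) (g : G'), i (σ • g) = σ • i g) →
      (∀ (σ : Γ) (g : G), π (σ • g) = σ • π g) →
      ∀ 𝒵 : AddSubgroup (Γ → G), Adm G 𝒵 →
        Adm G' (subCoc i 𝒵) ∧ Adm G'' (quotCoc π 𝒵) ∧ u G ≤ u G' * u G'' ∧ v G' * v G'' ≤ v G)
    (hbase : ∀ (G : Type) [AddCommGroup G] [DistribMulAction Γ G] (𝒵 : AddSubgroup (Γ → G)),
      Adm G 𝒵 → (∀ A : AddSubgroup G, (∀ σ : Γ, ∀ a ∈ A, σ • a ∈ A) → A = ⊥ ∨ A = ⊤) →
      Finite 𝒵 ∧ Nat.card 𝒵 * u G ≤ v G * Nat.card (𝒵.map (resTo I)))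
    (G : Type) [AddCommGroup G] [Finite G] [DistribMulAction Γ G] (𝒵 : AddSubgroup (Γ → G))
    (h : Adm G 𝒵) :
    Finite 𝒵 ∧ Nat.card 𝒵 * u G ≤ v G * Nat.card (𝒵.map (resTo I)) := by
  -- strong induction on the cardinality
  suffices H : ∀ (n : ℕ) (G : Type) [AddCommGroup G] [Finite G] [DistribMulAction Γ G]
      (𝒵 : AddSubgroup (Γ → G)), Nat.card G = n → Adm G 𝒵 →
      Finite 𝒵 ∧ Nat.card 𝒵 * u G ≤ v G * Nat.card (𝒵.map (resTo I)) from
    H _ G 𝒵 rfl h
  intro n
  induction n using Nat.strong_induction_on with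
  | _ n ih =>
    intro G _ _ _ 𝒵 hn hAdm
    by_cases hsimple : ∀ A : AddSubgroup G, (∀ σ : Γ, ∀ a ∈ A, σ • a ∈ A) → A = ⊥ ∨ A = ⊤
    · exact hbase G 𝒵 hAdm hsimple
    · push Not at hsimple
      obtain ⟨A, hA, hAbot, hAtop⟩ := hsimple
      letI actA : DistribMulAction Γ ↥A := stableSubAction A hA
      letI actQ : DistribMulAction Γ (G ⧸ A) := stableQuotAction A hA
      have hi : Function.Injective A.subtype := Subtype.val_injective
      have hπ : Function.Surjective (QuotientAddGroup.mk' A) := QuotientAddGroup.mk'_surjective A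
      have hex : ∀ g : G, QuotientAddGroup.mk' A g = 0 ↔ g ∈ A.subtype.range := by
        intro g
        rw [QuotientAddGroup.mk'_apply, QuotientAddGroup.eq_zero_iff, AddSubgroup.range_subtype]
      obtain ⟨hA1, hA2, hu, hv⟩ := hses ↥A G (G ⧸ A) A.subtype (QuotientAddGroup.mk' A) hi hπ hex
        (fun σ g => rfl) (fun σ g => rfl) 𝒵 hAdm
      -- cardinalities drop
      have hcardA : Nat.card ↥A < n := by
        rw [← hn]
        refine lt_of_le_of_ne (Nat.card_le_card_of_injective _ hi) ?_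
        intro hc
        exact hAtop (AddSubgroup.card_eq_iff_eq_top A |>.mp hc)
      have hcardQ : Nat.card (G ⧸ A) < n := by
        rw [← hn, AddSubgroup.card_eq_card_quotient_mul_card_addSubgroup A]
        have h1 : 1 < Nat.card ↥A := by
          rw [Nat.one_lt_iff_ne_zero_and_ne_one]
          refine ⟨Nat.card_pos.ne', ?_⟩
          intro hc
          exact hAbot (AddSubgroup.eq_bot_of_card_eq A hc)
        have h2 : 0 < Nat.card (G ⧸ A) := Nat.card_pos
        nlinarith
      obtain ⟨hf1, hb1⟩ := ih _ hcardA ↥A (subCoc A.subtype 𝒵) rfl hA1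
      obtain ⟨hf2, hb2⟩ := ih _ hcardQ (G ⧸ A) (quotCoc (QuotientAddGroup.mk' A) 𝒵) rfl hA2
      have hfin : Finite 𝒵 := finite_of_finite_subCoc_quotCoc A.subtype _ hi hex 𝒵 hf1 hf2
      refine ⟨hfin, ?_⟩
      have hcard := card_eq_card_subCoc_mul_card_quotCoc A.subtype _ hi hex 𝒵
      have hfinR : Finite (𝒵.map (resTo I)) := by
        have : Function.Surjective ((resTo I).addSubgroupMap 𝒵) :=
          (resTo I).addSubgroupMap_surjective 𝒵
        exact Finite.of_surjective _ this
      have hres := card_res_mul_le A.subtype (QuotientAddGroup.mk' A) hi hex I 𝒵 hfinR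
      set z := Nat.card 𝒵
      set z1 := Nat.card (subCoc A.subtype 𝒵)
      set z2 := Nat.card (quotCoc (QuotientAddGroup.mk' A) 𝒵)
      set r := Nat.card (𝒵.map (resTo I))
      set r1 := Nat.card ((subCoc A.subtype 𝒵).map (resTo I))
      set r2 := Nat.card ((quotCoc (QuotientAddGroup.mk' A) 𝒵).map (resTo I))
      calc z * u G = z1 * z2 * u G := by rw [hcard]
        _ ≤ z1 * z2 * (u ↥A * u (G ⧸ A)) := Nat.mul_le_mul_left _ hu
        _ = (z1 * u ↥A) * (z2 * u (G ⧸ A)) := by ring
        _ ≤ (v ↥A * r1) * (v (G ⧸ A) * r2) := Nat.mul_le_mul hb1 hb2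
        _ = (v ↥A * v (G ⧸ A)) * (r1 * r2) := by ring
        _ ≤ v G * r := Nat.mul_le_mul hv hres

end Dev

end Fermat.Agent.MZ
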