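/-
PROJECT MZ (S15), `r = 2` — helper7 — **the dévissage at `r = 2`**: instantiation of helper4's
abstract `devissage` with `Γ = G_ℚ`, `I = I_p ∪ {c}` (`archInertiaSet A₀`), `u = v = 1`.

`Adm2 p n G 𝒵` : `G` is a finite `G_ℚ`-module of `2`-power order, killed by `n`, on which every
`σ` has `2`-power order, and `𝒵` consists of Good₂ cocycles.  Then

`sel2_card_le : Finite 𝒵 ∧ Nat.card 𝒵 ≤ Nat.card (𝒵.map (resTo (archInertiaSet A₀)))`,

i.e. a group of Good₂ cocycles is controlled by its restriction to one inertia group at `p` and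
to the complex conjugation.
-/
import Mathlib
import Fermat.Agent.MZ.DEV_helper4_Abstract
import Fermat.Agent.MZ.BASE2_helper7_Fin

set_option autoImplicit false
set_option linter.style.haveILetI false
set_option linter.unusedSectionVars false
set_option linter.unusedVariables false

namespace Fermat.Agent.MZ

open Fermat.Agent.FG

local notation "Ω" => AlgebraicClosure ℚ
local notation "GQ" => (AlgebraicClosure ℚ ≃ₐ[ℚ] AlgebraicClosure ℚ)

/-- **admissible pairs at `r = 2`.** -/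
def Adm2 (p n : ℕ) (G : Type) [AddCommGroup G] [DistribMulAction GQ G]
    (𝒵 : AddSubgroup (GQ → G)) : Prop :=
  Finite G ∧ (∃ e : ℕ, Nat.card G = 2 ^ e) ∧
    (∀ σ : GQ, ∃ j : ℕ, ∀ g : G, σ ^ (2 ^ j) • g = g) ∧
    ∃ hn : ∀ x : G, n • x = 0, ∀ f ∈ 𝒵, GoodCoc2 p n hn f

section Propag

variable {p n : ℕ}

/-- propagation of admissibility along a short exact sequence. -/
theorem Adm2.ses [NeZero n] {G' G G'' : Type} [AddCommGroup G'] [AddCommGroup G]
    [AddCommGroup G''] [DistribMulAction GQ G'] [DistribMulAction GQ G] [DistribMulAction GQ G'']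
    (i : G' →+ G) (π : G →+ G'') (hi : Function.Injective i) (hπ : Function.Surjective π)
    (hex : ∀ g, π g = 0 ↔ g ∈ i.range) (hiσ : ∀ (σ : GQ) (g : G'), i (σ • g) = σ • i g)
    (hπσ : ∀ (σ : GQ) (g : G), π (σ • g) = σ • π g) (𝒵 : AddSubgroup (GQ → G))
    (h : Adm2 p n G 𝒵) : Adm2 p n G' (subCoc i 𝒵) ∧ Adm2 p n G'' (quotCoc π 𝒵) := by
  obtain ⟨hfin, ⟨e, he⟩, hpow, hn, hgood⟩ := h
  haveI := hfin
  haveI hfin' : Finite G' := Finite.of_injective i hi
  haveI hfin'' : Finite G'' := Finite.of_surjective π hπ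
  -- cardinalities
  have hcard : Nat.card G = Nat.card G' * Nat.card G'' := by
    rw [card_eq_card_ker_mul_card_range π]
    congr 1
    · have hker : π.ker = i.range := by
        ext g
        rw [AddMonoidHom.mem_ker]
        exact hex g
      rw [hker]
      exact (Nat.card_congr (Equiv.ofInjective i hi)).symm
    · rw [AddMonoidHom.range_eq_top.mpr hπ]
      exact Nat.card_congr (Equiv.Set.univ _)
  have hc' : ∃ e' : ℕ, Nat.card G' = 2 ^ e' := by
    have hd : Nat.card G' ∣ 2 ^ e := by rw [← he, hcard]; exact dvd_mul_right _ _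
    obtain ⟨m, -, hm⟩ := (Nat.dvd_prime_pow Nat.prime_two).mp hd
    exact ⟨m, hm⟩
  have hc'' : ∃ e'' : ℕ, Nat.card G'' = 2 ^ e'' := by
    have hd : Nat.card G'' ∣ 2 ^ e := by rw [← he, hcard]; exact dvd_mul_left _ _
    obtain ⟨m, -, hm⟩ := (Nat.dvd_prime_pow Nat.prime_two).mp hd
    exact ⟨m, hm⟩
  have hn' : ∀ x : G', n • x = 0 := fun x => hi (by rw [map_nsmul, hn, map_zero])
  have hn'' : ∀ x : G'', n • x = 0 := fun x => by
    obtain ⟨g, rfl⟩ := hπ x
    rw [← map_nsmul, hn, map_zero]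
  refine ⟨⟨hfin', hc', fun σ => ?_, hn', fun f' hf' => ?_⟩,
    ⟨hfin'', hc'', fun σ => ?_, hn'', fun f'' hf'' => ?_⟩⟩
  · obtain ⟨j, hj⟩ := hpow σ
    exact ⟨j, fun g => hi (by rw [hiσ, hj])⟩
  · exact GoodCoc2.of_injective hn' i hi hiσ (hgood _ ((mem_subCoc i).mp hf'))
  · obtain ⟨j, hj⟩ := hpow σ
    refine ⟨j, fun x => ?_⟩
    obtain ⟨g, rfl⟩ := hπ x
    rw [← hπσ, hj]
  · obtain ⟨g, hg, rfl⟩ := (mem_quotCoc π).mp hf''
    exact GoodCoc2.of_surjective hn'' π hπ hπσ (hgood g hg)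

/-- **the base case**: admissible pairs without proper stable subgroups. -/
theorem Adm2.base (hp : p.Prime) (A₀ : ValuationSubring Ω) (hA₀ : A₀.LiesOverPrime p)
    {G : Type} [AddCommGroup G] [DistribMulAction GQ G] (𝒵 : AddSubgroup (GQ → G))
    (h : Adm2 p n G 𝒵)
    (hsimple : ∀ A : AddSubgroup G, (∀ σ : GQ, ∀ a ∈ A, σ • a ∈ A) → A = ⊥ ∨ A = ⊤) :
    Finite 𝒵 ∧ Nat.card 𝒵 ≤ Nat.card (𝒵.map (resTo (archInertiaSet A₀))) := by
  obtain ⟨hfin, hcard, hpow, hn, hgood⟩ := h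
  haveI := hfin
  rcases subsingleton_or_nontrivial G with hs | hnt
  · haveI : Subsingleton (GQ → G) := inferInstance
    haveI : Subsingleton ↥𝒵 := ⟨fun a b => Subtype.ext (Subsingleton.elim _ _)⟩
    haveI : Subsingleton ↥(𝒵.map (resTo (G := G) (archInertiaSet A₀))) :=
      ⟨fun a b => Subtype.ext (funext fun s => Subsingleton.elim _ _)⟩
    refine ⟨inferInstance, ?_⟩
    rw [Nat.card_unique, Nat.card_unique]
  · have htriv := trivial_action_of_simple_two_group hcard hpow hsimple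
    obtain ⟨q₁, hq₁, hQ⟩ := order_two_of_simple_two_group hcard hpow hsimple
    exact base2 hp hn htriv q₁ hq₁ hQ A₀ hA₀ 𝒵 hgood

/-- **the Selmer estimate at `r = 2`, cocycle form**: a group of Good₂ cocycles with values in an
admissible module injects, up to cardinality, into its restriction to `I_p ∪ {c}`. -/
theorem sel2_card_le [NeZero n] (hp : p.Prime) (A₀ : ValuationSubring Ω)
    (hA₀ : A₀.LiesOverPrime p) (G : Type) [AddCommGroup G] [Finite G] [DistribMulAction GQ G]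
    (𝒵 : AddSubgroup (GQ → G)) (h : Adm2 p n G 𝒵) :
    Finite 𝒵 ∧ Nat.card 𝒵 ≤ Nat.card (𝒵.map (resTo (archInertiaSet A₀))) := by
  have key := devissage (Γ := GQ) (archInertiaSet A₀)
    (fun G _ _ 𝒵 => Adm2 p n G 𝒵) (fun _ _ _ => 1) (fun _ _ _ => 1)
    (fun G' G G'' _ _ _ _ _ _ i π hi hπ hex hiσ hπσ 𝒵 hAdm => by
      obtain ⟨h1, h2⟩ := Adm2.ses i π hi hπ hex hiσ hπσ 𝒵 hAdm
      exact ⟨h1, h2, le_refl _, le_refl _⟩)
    (fun G _ _ 𝒵 hAdm hsimple => by
      obtain ⟨h1, h2⟩ := Adm2.base hp A₀ hA₀ 𝒵 hAdm hsimple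
      exact ⟨h1, by rw [mul_one, one_mul]; exact h2⟩)
    G 𝒵 h
  obtain ⟨h1, h2⟩ := key
  exact ⟨h1, by rw [mul_one, one_mul] at h2; exact h2⟩

end Propag

end Fermat.Agent.MZ
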