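/-
PROJECT MZ (branch-only) — (FIN-e), `r` odd — helper8 — **(L4), core form** (no `ι`).

Same statement and proof as `flat_kummer_val_dvd'` (FLATLOC_helper8_Mult) but the link between the
module `E` and the Kummer extension is the bare hypothesis actually used:
every `σ ∈ G_ℚ` acting trivially on `E` fixes a primitive `r`-th root of unity `ζ₀` and the
Kummer generator `α`.  This is the form consumed by the type-M base case (bM).
-/
import Mathlib
import Fermat.Agent.MZ.FLATLOC_helper8_Mult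

set_option autoImplicit false
set_option linter.unusedSectionVars false
set_option linter.unusedVariables false
set_option linter.style.haveILetI false

namespace Fermat.Agent.MZ

open GaloisRep Fermat.Agent.Ram Fermat.Agent.TW Fermat.Agent.TW.Flat Fermat.Agent.FG
  IntermediateField

local notation "Ω" => AlgebraicClosure ℚ
local notation "GQ" => (AlgebraicClosure ℚ ≃ₐ[ℚ] AlgebraicClosure ℚ)

section MultCore

variable {r : ℕ} [Fact r.Prime] {E : Type} [AddCommGroup E] [Finite E] [DistribMulAction GQ E]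

/-- **(L4), core flat-module form.** -/
theorem flat_kummer_val_dvd_core' (hr2 : r ≠ 2)
    (hflat : IsFlatGaloisModule r E (fun σ m => σ • m)) (hrE : ∀ e : E, r • e = 0)
    (ζ₀ : Ω) (hζ₀ : IsPrimitiveRoot ζ₀ r)
    (a : ℚ) (ha : a ≠ 0) (α : Ω) (hα : α ^ r = algebraMap ℚ Ω a)
    (hfix : ∀ σ : GQ, (∀ e : E, σ • e = e) → σ ζ₀ = ζ₀ ∧ σ α = α) :
    (r : ℤ) ∣ padicValRat r a := by
  classical
  have hr : r.Prime := Fact.out
  haveI : NeZero r := ⟨hr.ne_zero⟩
  have hα0 : α ≠ 0 := by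
    rintro rfl
    rw [zero_pow hr.ne_zero] at hα
    exact ha ((map_eq_zero (algebraMap ℚ Ω)).mp hα.symm)
  -- the Fontaine-bounded field
  obtain ⟨L, hL1, hL2, hL3, hL4⟩ := exists_fontaineBdd_field_of_isFlatGaloisModule r
    (fun σ m => σ • m) hflat hrE
  haveI := hL1
  haveI := hL2
  have hζ : IsPrimitiveRoot (padicEmbedding r ζ₀) r :=
    hζ₀.map_of_injective (padicEmbedding r).injective
  have hfixζ : ∀ τ : PadicAlgCl r ≃ₐ[ℚ_[r]] PadicAlgCl r, (∀ z ∈ L, τ z = z) →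
      localGaloisToGlobal r τ ζ₀ = ζ₀ := by
    intro τ hτ
    exact (hfix _ ((hL4 τ).mp hτ)).1
  have hζL : padicEmbedding r ζ₀ ∈ L := by
    refine mem_of_forall_fixing L fun τ hτ => ?_
    rw [← padicEmbedding_localGaloisToGlobal, hfixζ τ hτ]
  -- the Kummer generator
  have hfixα : ∀ τ : PadicAlgCl r ≃ₐ[ℚ_[r]] PadicAlgCl r, (∀ z ∈ L, τ z = z) →
      localGaloisToGlobal r τ α = α := by
    intro τ hτ
    exact (hfix _ ((hL4 τ).mp hτ)).2
  have hαL : padicEmbedding r α ∈ L := by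
    refine mem_of_forall_fixing L fun τ hτ => ?_
    rw [← padicEmbedding_localGaloisToGlobal, hfixα τ hτ]
  -- the cyclotomic field
  set L₀ : IntermediateField ℚ_[r] (PadicAlgCl r) := ℚ_[r]⟮padicEmbedding r ζ₀⟯ with hL₀
  haveI : FiniteDimensional ℚ_[r] L₀ :=
    IntermediateField.adjoin.finiteDimensional ((hζ.isIntegral hr.pos).tower_top)
  haveI : IsGalois ℚ_[r] L₀ := isGalois_adjoin_zeta hζ
  have htame : ¬ r ∣ Module.finrank ℚ_[r] L₀ := not_dvd_finrank_adjoin_zeta hζ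
  have hζL₀ : padicEmbedding r ζ₀ ∈ L₀ := mem_adjoin_simple_self ℚ_[r] _
  have hL₀L : L₀ ≤ L := by
    rw [hL₀, adjoin_simple_le_iff]
    exact hζL
  -- the element `a` in `L₀`
  have hua : padicEmbedding r α ^ r = algebraMap ℚ_[r] (PadicAlgCl r) (a : ℚ_[r]) := by
    rw [← map_pow, hα, AlgHom.commutes]
    rw [IsScalarTower.algebraMap_apply ℚ ℚ_[r] (PadicAlgCl r)]
    rfl
  have hu : algebraMap ℚ_[r] (PadicAlgCl r) (a : ℚ_[r]) ∈ L₀ := L₀.algebraMap_mem _
  have ha' : (a : ℚ_[r]) ≠ 0 := by exact_mod_cast ha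
  have hu0 : algebraMap ℚ_[r] (PadicAlgCl r) (a : ℚ_[r]) ≠ 0 :=
    (map_ne_zero (algebraMap ℚ_[r] (PadicAlgCl r))).mpr ha'
  obtain ⟨y, hyL₀, hy0, hy⟩ := bddKummer L₀ L hL₀L htame hr2 hζ hζL₀ (hL3.fontaineP_two hr2)
    hu hu0 hαL hua
  have hlam1 : ‖padicEmbedding r ζ₀ - 1‖ < 1 :=
    norm_sub_one_lt_one hr norm_natCast_p_lt_one hζ
  have hunit : ‖algebraMap ℚ_[r] (PadicAlgCl r) (a : ℚ_[r]) * y ^ r‖ = 1 :=
    norm_eq_one_of_norm_sub_one_lt (hy.trans hlam1)
  -- the norm of `y`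
  obtain ⟨n, σ, hn, -, hN, -⟩ := exists_norm_family r ⊥ L₀ bot_le
  obtain ⟨c, hc'⟩ := IntermediateField.mem_bot.mp (hN y hyL₀)
  have hnormc : ‖c‖ = ‖y‖ ^ n := by
    rw [← PadicAlgCl.norm_extends, hc', norm_prod]
    simp only [norm_galP_apply]
    rw [Finset.prod_const, Finset.card_univ, Fintype.card_fin]
  have hy0' : 0 < ‖y‖ := norm_pos_iff.mpr hy0
  have hc0 : c ≠ 0 := by
    intro h0
    rw [h0, norm_zero] at hnormc
    exact absurd hnormc.symm (pow_pos hy0' n).ne'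
  have hrn : ¬ r ∣ n := fun h => htame (h.trans hn)
  -- valuations
  have hr1 : (1 : ℝ) < r := by exact_mod_cast hr.one_lt
  have hr0 : (0 : ℝ) < r := by linarith
  have hna : ‖algebraMap ℚ_[r] (PadicAlgCl r) (a : ℚ_[r])‖ = (r : ℝ) ^ (-(padicValRat r a)) := by
    rw [PadicAlgCl.norm_extends, Padic.norm_eq_zpow_neg_valuation ha', Padic.valuation_ratCast]
  have hnc : ‖c‖ = (r : ℝ) ^ (-c.valuation) := Padic.norm_eq_zpow_neg_valuation hc0
  have hkey : (r : ℝ) ^ (-(padicValRat r a) * n + -c.valuation * r) = 1 := by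
    have h1 : (‖algebraMap ℚ_[r] (PadicAlgCl r) (a : ℚ_[r])‖ * ‖y‖ ^ r) ^ n = 1 := by
      rw [← norm_pow, ← norm_mul, hunit, one_pow]
    rw [mul_pow, ← pow_mul, mul_comm r n, pow_mul, ← hnormc, hna, hnc] at h1
    rw [zpow_add₀ hr0.ne', zpow_mul, zpow_mul, zpow_natCast, zpow_natCast]
    exact h1
  have hexp : -(padicValRat r a) * n + -c.valuation * r = 0 := by
    by_contra hne
    rcases lt_or_gt_of_ne hne with h | h
    · have := zpow_lt_one_of_neg₀ hr1 h
      rw [hkey] at this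
      exact lt_irrefl _ this
    · have := one_lt_zpow₀ hr1 h
      rw [hkey] at this
      exact lt_irrefl _ this
  have hdvd : (r : ℤ) ∣ padicValRat r a * n := by
    refine ⟨-c.valuation, ?_⟩
    linarith
  have hcop : IsCoprime (r : ℤ) (n : ℤ) := by
    rw [Nat.isCoprime_iff_coprime]
    exact (Nat.Prime.coprime_iff_not_dvd hr).mpr hrn
  exact hcop.dvd_of_dvd_mul_right hdvd

/-- **(L4), core Hopf-order form.** -/
theorem flat_kummer_val_dvd_core (hr2 : r ≠ 2) (hflat : HasHopfOrder r E)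
    (hrE : ∀ e : E, r • e = 0) (ζ₀ : Ω) (hζ₀ : IsPrimitiveRoot ζ₀ r)
    (a : ℚ) (ha : a ≠ 0) (α : Ω) (hα : α ^ r = algebraMap ℚ Ω a)
    (hfix : ∀ σ : GQ, (∀ e : E, σ • e = e) → σ ζ₀ = ζ₀ ∧ σ α = α) :
    (r : ℤ) ∣ padicValRat r a :=
  flat_kummer_val_dvd_core' hr2 hflat.isFlatGaloisModule hrE ζ₀ hζ₀ a ha α hα hfix

end MultCore

end Fermat.Agent.MZ
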