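/-
PROJECT MZ (branch-only) — (FIN-b4), **type-M base case (bM)** in helper4's (D1) literals — helper8.

`G` a `G_ℚ`-module of prime order `r` (odd) on which `G_ℚ` acts through the mod `r` cyclotomic
character; a Good cocycle (`GoodCoc r p r`) which vanishes on the inertia group of ONE place over
`p` is a coboundary: Hilbert 90 (K1) writes it as the Kummer cocycle of `α`, `α ^ r = a ∈ ℚˣ`;
Good ⇒ `r ∣ v_ℓ(a)` for `ℓ ∉ {r, p}` (K2), the hypothesis at `p` ⇒ `r ∣ v_p(a)` (K2), flat ⇒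
`r ∣ v_r(a)` (L4, core form); hence `α = ζ₁ c`, `c ∈ ℚˣ` (K3), and `f` is the coboundary of the
element corresponding to `ζ₁`.
-/
import Mathlib
import Fermat.Agent.MZ.GOOD_helper4_Defs
import Fermat.Agent.MZ.FLATLOC_helper8_MultCore
import Fermat.Agent.MZ.BASE_helper8_Kummer
import Fermat.Agent.TW.Kill_helper1_Cyc

set_option autoImplicit false
set_option linter.unusedSectionVars false
set_option linter.unusedVariables false
set_option linter.style.haveILetI false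

namespace Fermat.Agent.MZ

open Fermat.Agent.FG Fermat.Agent.TW.Kill

local notation "Ω" => AlgebraicClosure ℚ
local notation "GQ" => (AlgebraicClosure ℚ ≃ₐ[ℚ] AlgebraicClosure ℚ)

section TypeM

variable {r p : ℕ} [Fact r.Prime] [NeZero r] {G : Type} [AddCommGroup G] [Finite G]
  [DistribMulAction GQ G]

/-- the value of the mod `r` cyclotomic character as a natural number. -/
noncomputable def cycNat (r : ℕ) [NeZero r] (σ : GQ) : ℕ := ((cyc r σ : (ZMod r)ˣ) : ZMod r).val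

theorem cycNat_spec {t : Ω} (ht : t ^ r = 1) (σ : GQ) : σ t = t ^ cycNat r σ :=
  cyc_spec' r σ ht

/-- powers of an `r`-th root of unity only depend on the exponent modulo `r`. -/
theorem pow_eq_pow_of_modEq {t : Ω} (ht : t ^ r = 1) {a b : ℕ} (hab : a ≡ b [MOD r]) :
    t ^ a = t ^ b := by
  rw [← Nat.div_add_mod a r, ← Nat.div_add_mod b r, pow_add, pow_add, pow_mul, pow_mul, ht,
    one_pow, one_pow, one_mul, one_mul, hab]

/-- multiples of an element killed by `r` only depend on the coefficient modulo `r`. -/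
theorem nsmul_eq_nsmul_of_modEq {g : G} (hg : r • g = 0) {a b : ℕ} (hab : a ≡ b [MOD r]) :
    a • g = b • g := by
  rw [← Nat.div_add_mod a r, ← Nat.div_add_mod b r, add_nsmul, add_nsmul,
    mul_nsmul, mul_nsmul, hg, smul_zero, smul_zero, zero_add, zero_add, hab]

/-- in a group of prime order `r`, equal multiples of a nonzero element have congruent
coefficients. -/
theorem modEq_of_nsmul_eq_nsmul (hn : ∀ x : G, r • x = 0) {g : G} (hg : g ≠ 0) {a b : ℕ}
    (hab : a • g = b • g) : a ≡ b [MOD r] := by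
  have hord : addOrderOf g = r := addOrderOf_eq_prime (hn g) hg
  rw [← hord]
  exact nsmul_eq_nsmul_iff_modEq.mp hab

/-- a nonzero element of a group of prime order generates it. -/
theorem exists_nsmul_eq_of_card_eq_prime (hn : ∀ x : G, r • x = 0) (hcard : Nat.card G = r)
    {g₀ : G} (hg₀ : g₀ ≠ 0) (g : G) : ∃ k : ℕ, g = k • g₀ := by
  have hord : addOrderOf g₀ = r := addOrderOf_eq_prime (hn g₀) hg₀
  have htop : AddSubgroup.zmultiples g₀ = ⊤ := by
    apply AddSubgroup.eq_top_of_card_eq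
    rw [Nat.card_zmultiples, hord, hcard]
  have hmem : g ∈ AddSubgroup.zmultiples g₀ := htop ▸ AddSubgroup.mem_top g
  have hfin : IsOfFinAddOrder g₀ := isOfFinAddOrder_of_finite g₀
  obtain ⟨k, hk⟩ := (hfin.mem_multiples_iff_mem_zmultiples).mpr hmem
  exact ⟨k, hk.symm⟩

/-- **(bM), instance form.** -/
theorem goodExt_mem_B1_of_cyclotomic [Module (ZMod r) G] (hr2 : r ≠ 2) (hp : p.Prime)
    (hn : ∀ x : G, r • x = 0) (hcard : Nat.card G = r)
    (hχ : ∀ (σ : GQ) (g : G), σ • g = cycNat r σ • g)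
    (f : Z1 GQ G) (hcts : IsCtsCoc f.1) (hunr : IsUnrCocOutside {r, p} f.1)
    (hflat : HasHopfOrder r (ExtMod r f))
    (Ap : ValuationSubring Ω) (hAp : Ap.LiesOverPrime p)
    (hfp : ∀ σ ∈ Ap.inertiaSubgroupIn ℚ, f.1 σ = 0) : f.1 ∈ B1 GQ G := by
  classical
  have hr : r.Prime := Fact.out
  -- a generator
  haveI : Nontrivial G := by
    rw [← Finite.one_lt_card_iff_nontrivial, hcard]
    exact hr.one_lt
  obtain ⟨g₀, hg₀⟩ := exists_ne (0 : G)
  have hgen := exists_nsmul_eq_of_card_eq_prime hn hcard hg₀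
  choose k hk using fun σ : GQ => hgen (f.1 σ)
  have hmod : ∀ {a b : ℕ}, a • g₀ = b • g₀ → a ≡ b [MOD r] := fun h =>
    modEq_of_nsmul_eq_nsmul hn hg₀ h
  have hsm : ∀ {a b : ℕ}, a ≡ b [MOD r] → a • g₀ = b • g₀ := fun h =>
    nsmul_eq_nsmul_of_modEq (hn g₀) h
  -- the root of unity
  obtain ⟨ζ₀, hζ₀⟩ := exists_primitiveRoot r
  have hζ₀r : ζ₀ ^ r = 1 := hζ₀.pow_eq_one
  have hpow : ∀ {a b : ℕ}, a ≡ b [MOD r] → ζ₀ ^ a = ζ₀ ^ b := fun h => pow_eq_pow_of_modEq hζ₀r h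
  have hpowinj : ∀ {a b : ℕ}, ζ₀ ^ a = ζ₀ ^ b → a ≡ b [MOD r] := by
    intro a b h
    have ha : ζ₀ ^ a = ζ₀ ^ (a % r) := hpow (Nat.mod_modEq a r).symm
    have hb : ζ₀ ^ b = ζ₀ ^ (b % r) := hpow (Nat.mod_modEq b r).symm
    rw [ha, hb] at h
    exact hζ₀.pow_inj (Nat.mod_lt _ hr.pos) (Nat.mod_lt _ hr.pos) h
  -- the multiplicative cocycle
  set ζ : GQ → Ω := fun σ => ζ₀ ^ k σ with hζdef
  have hζr : ∀ σ, ζ σ ^ r = 1 := by
    intro σ
    rw [hζdef, ← pow_mul, mul_comm, pow_mul, hζ₀r, one_pow]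
  have hkcoc : ∀ σ τ : GQ, k (σ * τ) ≡ k σ + cycNat r σ * k τ [MOD r] := by
    intro σ τ
    apply hmod
    rw [← hk, f.2 σ τ, hχ, hk σ, hk τ, add_nsmul, mul_nsmul']
  have hcoc : ∀ σ τ : GQ, ζ (σ * τ) = ζ σ * σ (ζ τ) := by
    intro σ τ
    have h1 : σ (ζ τ) = (ζ τ) ^ cycNat r σ := cycNat_spec (hζr τ) σ
    rw [h1, hζdef]
    simp only
    rw [hpow (hkcoc σ τ), pow_add, ← pow_mul, mul_comm (k τ)]
  have hk0 : ∀ σ, f.1 σ = 0 → ζ σ = 1 := by
    intro σ h0
    have : k σ ≡ 0 [MOD r] := by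
      apply hmod
      rw [← hk, h0, zero_nsmul]
    rw [hζdef]
    simp only
    rw [hpow this, pow_zero]
  have hcont : ∃ F : IntermediateField ℚ Ω, FiniteDimensional ℚ F ∧
      ∀ σ : GQ, ∀ s ∈ F.fixingSubgroup, ζ (σ * s) = ζ σ := by
    obtain ⟨F, hF, hv⟩ := hcts
    refine ⟨F, hF, fun σ s hs => ?_⟩
    have hs0 : f.1 s = 0 := hv s ((IntermediateField.mem_fixingSubgroup_iff F s).mp hs)
    rw [hcoc, hk0 s hs0, map_one, mul_one]
  obtain ⟨α, a, hα0, ha, hα, hσα⟩ := exists_kummer_generator hr.pos ζ hζr hcoc hcont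
  have hfixα : ∀ σ, f.1 σ = 0 → σ α = α := by
    intro σ h0
    rw [hσα, hk0 σ h0, one_mul]
  -- valuations
  have hval : ∀ ℓ : ℕ, ℓ.Prime → (r : ℤ) ∣ padicValRat ℓ a := by
    intro ℓ hℓ
    haveI : Fact ℓ.Prime := ⟨hℓ⟩
    by_cases hℓr : ℓ = r
    · subst hℓr
      have hrE : ∀ e : ExtMod ℓ f, ℓ • e = 0 := by
        intro e
        apply ExtMod.ext
        · show ℓ • e.fst = 0
          exact hn _
        · show ℓ • e.snd = 0
          rw [nsmul_eq_mul, ZMod.natCast_self, zero_mul]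
      refine flat_kummer_val_dvd_core hr2 hflat hrE ζ₀ hζ₀ a ha α hα ?_
      intro σ hσ
      constructor
      · have h1 := hσ (ExtMod.inl g₀)
        rw [← ExtMod.inl_smul] at h1
        have h2 : σ • g₀ = g₀ := ExtMod.inl_injective h1
        rw [hχ] at h2
        have h3 : cycNat ℓ σ ≡ 1 [MOD ℓ] := hmod (by rw [h2, one_nsmul])
        rw [cycNat_spec hζ₀r σ, hpow h3, pow_one]
      · apply hfixα
        have h1 := ExtMod.smul_e₀_sub (f := f) (n := ℓ) σ
        rw [hσ, sub_self] at h1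
        exact ExtMod.inl_injective (h1.symm.trans (map_zero _).symm)
    by_cases hℓp : ℓ = p
    · subst hℓp
      exact dvd_padicValRat_of_forall_inertia_fixed a ha α hα Ap hAp
        (fun σ hσ => hfixα σ (hfp σ hσ))
    · refine dvd_padicValRat_of_inertia_fixed a ha α hα fun σ hσ => hfixα σ ?_
      refine hunr ℓ hℓ ?_ _ (Fermat.Agent.TW.Kill.padicPlace_liesOverPrime ℓ) σ hσ
      simp only [Set.mem_insert_iff, Set.mem_singleton_iff, not_or]
      exact ⟨hℓr, hℓp⟩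
  -- `α` is a root of unity times a rational number
  have hodd : Odd r := hr.odd_of_ne_two hr2
  obtain ⟨ζ₁, c, hc0, hζ₁, hαc⟩ := exists_root_of_unity_mul_rat hodd a ha α hα hval
  obtain ⟨m, -, hm⟩ := hζ₀.eq_pow_of_pow_eq_one hζ₁
  have hc0' : algebraMap ℚ Ω c ≠ 0 := (map_ne_zero (algebraMap ℚ Ω)).mpr hc0
  -- the coboundary
  refine ⟨m • g₀, ?_⟩
  funext σ
  show σ • (m • g₀) - m • g₀ = f.1 σ
  rw [hχ, hk σ, sub_eq_iff_eq_add, ← mul_nsmul', ← add_nsmul]
  apply hsm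
  apply hpowinj
  -- compare the two expressions of `σ α`
  have h1 : σ α = ζ₀ ^ (m * cycNat r σ) * algebraMap ℚ Ω c := by
    rw [hαc, map_mul, AlgEquiv.commutes, cycNat_spec hζ₁ σ, ← hm, ← pow_mul]
  have h2 : σ α = ζ₀ ^ (k σ + m) * algebraMap ℚ Ω c := by
    rw [hσα, hαc, ← hm, hζdef]
    simp only
    rw [pow_add, mul_assoc]
  have h3 := mul_right_cancel₀ hc0' (h1.symm.trans h2)
  rw [mul_comm (cycNat r σ) m]
  exact h3

/-- **(bM)**: type-M base case, in the literals of `GoodCoc`. -/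
theorem goodCoc_mem_B1_of_cyclotomic (hr2 : r ≠ 2) (hp : p.Prime) (hn : ∀ x : G, r • x = 0)
    (hcard : Nat.card G = r) (hχ : ∀ (σ : GQ) (g : G), σ • g = cycNat r σ • g)
    {f : GQ → G} (h : GoodCoc r p r hn f)
    (Ap : ValuationSubring Ω) (hAp : Ap.LiesOverPrime p)
    (hfp : ∀ σ ∈ Ap.inertiaSubgroupIn ℚ, f σ = 0) : f ∈ B1 GQ G :=
  @goodExt_mem_B1_of_cyclotomic r p _ _ G _ _ _ (AddCommGroup.zmodModule hn) hr2 hp hn hcard hχ
    ⟨f, h.coc⟩ h.cts h.unr h.flat Ap hAp hfp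

end TypeM

end Fermat.Agent.MZ
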