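/-
PROJECT MZ (branch-only) — (FIN-a), part (a2): **simple Eisenstein modules** — helper8.

`IsEisMod r Q` (helper4's message 1913): every `σ ∈ G_ℚ` acting on the `r`-th roots of unity by
`ζ ↦ ζ ^ a` satisfies `((σ - 1)(σ - a)) ^ m = 0` on `Q` for some `m`.  The property passes to
submodules and quotients.  A finite simple `G_ℚ`-module killed by the prime `r` with `IsEisMod`
has order `r`, and `G_ℚ` acts on it either trivially (type E) or through the mod `r` cyclotomic
character (type M) — exactly the two cases of the base case `goodCoc_eq_zero_base`.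
-/
import Mathlib
import Fermat.Agent.MZ.BASE_helper8_TypeM

set_option autoImplicit false
set_option linter.unusedSectionVars false
set_option linter.unusedVariables false
set_option linter.style.haveILetI false

namespace Fermat.Agent.MZ

open Fermat.Agent.TW.Kill

local notation "Ω" => AlgebraicClosure ℚ
local notation "GQ" => (AlgebraicClosure ℚ ≃ₐ[ℚ] AlgebraicClosure ℚ)

section Def

variable (r : ℕ) (Q : Type*) [AddCommGroup Q] [DistribMulAction GQ Q]

/-- the endomorphism `q ↦ σ • q`. -/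
noncomputable abbrev actEnd (σ : GQ) : AddMonoid.End Q := DistribMulAction.toAddMonoidEnd GQ Q σ

/-- **Eisenstein modules**: `((σ - 1)(σ - a)) ^ m = 0` whenever `σ` raises the `r`-th roots of
unity to the `a`-th power. -/
def IsEisMod : Prop :=
  ∀ (σ : GQ) (a : ℕ), (∀ ζ : Ω, ζ ^ r = 1 → σ ζ = ζ ^ a) →
    ∃ m : ℕ, ((actEnd Q σ - 1) * (actEnd Q σ - (a : AddMonoid.End Q))) ^ m = 0

end Def

section Propagate

variable {r : ℕ} {Q Q' : Type*} [AddCommGroup Q] [DistribMulAction GQ Q] [AddCommGroup Q']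
  [DistribMulAction GQ Q']

theorem actEnd_apply (σ : GQ) (q : Q) : actEnd Q σ q = σ • q := rfl

theorem endMul_apply (f g : AddMonoid.End Q) (q : Q) : (f * g) q = f (g q) := rfl

theorem endSub_apply (f g : AddMonoid.End Q) (q : Q) : (f - g) q = f q - g q := rfl

/-- an equivariant map intertwines the polynomial expressions in `σ`. -/
theorem map_eisPoly_pow (φ : Q →+ Q') (hφ : ∀ (σ : GQ) (q : Q), φ (σ • q) = σ • φ q) (σ : GQ)
    (a m : ℕ) (q : Q) :
    φ ((((actEnd Q σ - 1) * (actEnd Q σ - (a : AddMonoid.End Q))) ^ m) q) =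
      (((actEnd Q' σ - 1) * (actEnd Q' σ - (a : AddMonoid.End Q'))) ^ m) (φ q) := by
  have h1 : ∀ q : Q, φ (((actEnd Q σ - 1) * (actEnd Q σ - (a : AddMonoid.End Q))) q) =
      ((actEnd Q' σ - 1) * (actEnd Q' σ - (a : AddMonoid.End Q'))) (φ q) := by
    intro q
    simp only [endMul_apply, endSub_apply, AddMonoid.End.one_apply,
      actEnd_apply, AddMonoid.End.natCast_apply, map_sub, hφ, map_nsmul, smul_sub]
  generalize (actEnd Q σ - 1) * (actEnd Q σ - (a : AddMonoid.End Q)) = S at h1 ⊢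
  generalize (actEnd Q' σ - 1) * (actEnd Q' σ - (a : AddMonoid.End Q')) = S' at h1 ⊢
  induction m generalizing q with
  | zero => simp
  | succ m ih =>
    rw [pow_succ, pow_succ, endMul_apply, endMul_apply, ih, h1]

/-- submodules -/
theorem IsEisMod.of_injective (h : IsEisMod r Q) (i : Q' →+ Q) (hi : Function.Injective i)
    (hiσ : ∀ (σ : GQ) (q : Q'), i (σ • q) = σ • i q) : IsEisMod r Q' := by
  intro σ a ha
  obtain ⟨m, hm⟩ := h σ a ha
  refine ⟨m, ?_⟩
  ext q
  apply hi
  rw [map_eisPoly_pow i hiσ, hm]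
  simp

/-- quotients -/
theorem IsEisMod.of_surjective (h : IsEisMod r Q) (π : Q →+ Q') (hπ : Function.Surjective π)
    (hπσ : ∀ (σ : GQ) (q : Q), π (σ • q) = σ • π q) : IsEisMod r Q' := by
  intro σ a ha
  obtain ⟨m, hm⟩ := h σ a ha
  refine ⟨m, ?_⟩
  ext q'
  obtain ⟨q, rfl⟩ := hπ q'
  rw [← map_eisPoly_pow π hπσ, hm]
  simp

end Propagate

section Simple

variable {r : ℕ} [Fact r.Prime] [NeZero r] {Q : Type} [AddCommGroup Q] [Finite Q]
  [DistribMulAction GQ Q]

/-- the endomorphism ring of a nontrivial group killed by the prime `r` has characteristic `r`. -/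
theorem charP_addMonoidEnd (hrQ : ∀ q : Q, r • q = 0) [Nontrivial Q] :
    CharP (AddMonoid.End Q) r := by
  refine ⟨fun n => ⟨fun h => ?_, fun h => ?_⟩⟩
  · obtain ⟨q, hq⟩ := exists_ne (0 : Q)
    have hord : addOrderOf q = r := addOrderOf_eq_prime (hrQ q) hq
    have h1 : n • q = 0 := by
      have := congrArg (fun f : AddMonoid.End Q => f q) h
      simpa [AddMonoid.End.natCast_apply] using this
    rw [← hord]
    exact addOrderOf_dvd_of_nsmul_eq_zero h1
  · obtain ⟨k, rfl⟩ := h
    ext q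
    rw [AddMonoid.End.natCast_apply, mul_comm, mul_nsmul, hrQ]
    rfl

/-- `cycNat` is multiplicative modulo `r`. -/
theorem cycNat_mul (σ τ : GQ) : cycNat r (σ * τ) ≡ cycNat r σ * cycNat r τ [MOD r] := by
  unfold cycNat
  rw [map_mul, Units.val_mul, ZMod.val_mul]
  exact Nat.mod_modEq _ _

/-- elements of the kernel of the cyclotomic character act unipotently, hence with `r`-power
order. -/
theorem exists_pow_smul_eq_of_cyc_eq_one (hQ : IsEisMod r Q) (hrQ : ∀ q : Q, r • q = 0)
    [Nontrivial Q] {σ : GQ} (hσ : cyc r σ = 1) : ∃ j : ℕ, ∀ q : Q, (σ ^ r ^ j) • q = q := by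
  have hr : r.Prime := Fact.out
  haveI := charP_addMonoidEnd hrQ
  obtain ⟨m, hm⟩ := hQ σ 1 (fun ζ hζ => by
    have := cyc_spec' r σ hζ
    rw [hσ] at this
    rw [this, pow_one]
    exact pow_val_one hζ)
  set T := actEnd Q σ with hT
  have h1 : (T - 1) ^ (2 * m) = 0 := by
    rw [Nat.cast_one, ← pow_two, ← pow_mul] at hm
    exact hm
  have hlt : 2 * m < r ^ (2 * m) := Nat.lt_pow_self hr.one_lt
  have h2 : (T - 1) ^ (r ^ (2 * m)) = 0 := by
    rw [← Nat.sub_add_cancel hlt.le, pow_add, h1, mul_zero]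
  rw [sub_pow_char_pow_of_commute _ _ (Commute.one_right T), one_pow, sub_eq_zero] at h2
  refine ⟨2 * m, fun q => ?_⟩
  have h3 := congrArg (fun f : AddMonoid.End Q => f q) h2
  simp only [AddMonoid.End.one_apply] at h3
  rw [hT, actEnd, ← map_pow] at h3
  exact h3

/-- the kernel of the cyclotomic character acts trivially on a simple Eisenstein module. -/
theorem smul_eq_of_cyc_eq_one_of_simple (hQ : IsEisMod r Q) (hrQ : ∀ q : Q, r • q = 0)
    (hsimple : ∀ B : AddSubgroup Q, (∀ σ : GQ, ∀ b ∈ B, σ • b ∈ B) → B = ⊥ ∨ B = ⊤)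
    [Nontrivial Q] {σ : GQ} (hσ : cyc r σ = 1) (q : Q) : σ • q = q := by
  classical
  have hr : r.Prime := Fact.out
  -- the image of the kernel in the permutation group
  set H : Subgroup GQ := (cyc r).ker with hH
  set P : GQ →* Equiv.Perm Q := MulAction.toPermHom GQ Q with hP
  set Hbar : Subgroup (Equiv.Perm Q) := H.map P with hHbar
  have hpg : IsPGroup r Hbar := by
    rintro ⟨g, h, hh, rfl⟩
    obtain ⟨j, hj⟩ := exists_pow_smul_eq_of_cyc_eq_one hQ hrQ (MonoidHom.mem_ker.mp hh)
    refine ⟨j, ?_⟩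
    apply Subtype.ext
    show (P h) ^ r ^ j = 1
    rw [← map_pow]
    ext q
    exact hj q
  -- fixed points
  have hmod := hpg.card_modEq_card_fixedPoints Q
  have hdvd : r ∣ Nat.card Q := by
    obtain ⟨q₀, hq₀⟩ := exists_ne (0 : Q)
    have hord : addOrderOf q₀ = r := addOrderOf_eq_prime (hrQ q₀) hq₀
    rw [← hord]
    exact addOrderOf_dvd_natCard q₀
  have hdvd' : r ∣ Nat.card (MulAction.fixedPoints Hbar Q) :=
    (Nat.modEq_zero_iff_dvd.mp ((hmod.symm.trans (Nat.modEq_zero_iff_dvd.mpr hdvd))))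
  have hfix0 : (0 : Q) ∈ MulAction.fixedPoints Hbar Q := by
    rintro ⟨g, h, hh, rfl⟩
    show h • (0 : Q) = 0
    exact smul_zero h
  have hcard2 : 1 < Nat.card (MulAction.fixedPoints Hbar Q) := by
    have hpos : 0 < Nat.card (MulAction.fixedPoints Hbar Q) :=
      Nat.card_pos_iff.mpr ⟨⟨⟨0, hfix0⟩⟩, inferInstance⟩
    have := Nat.le_of_dvd hpos hdvd'
    exact lt_of_lt_of_le hr.one_lt this
  haveI hnt : Nontrivial (MulAction.fixedPoints Hbar Q) :=
    Finite.one_lt_card_iff_nontrivial.mp hcard2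
  obtain ⟨⟨q₁, hq₁⟩, hne⟩ := exists_ne (⟨0, hfix0⟩ : MulAction.fixedPoints Hbar Q)
  have hq₁0 : q₁ ≠ 0 := fun h => hne (Subtype.ext h)
  -- the subgroup of `H`-invariants
  let B : AddSubgroup Q :=
    { carrier := {q | ∀ h ∈ H, h • q = q}
      zero_mem' := fun h _ => smul_zero h
      add_mem' := fun {a b} ha hb h hh => by rw [smul_add, ha h hh, hb h hh]
      neg_mem' := fun {a} ha h hh => by rw [smul_neg, ha h hh] }
  have hBstable : ∀ τ : GQ, ∀ b ∈ B, τ • b ∈ B := by
    intro τ b hb h hh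
    have hconj : τ⁻¹ * h * τ ∈ H := by
      rw [hH, MonoidHom.mem_ker] at hh ⊢
      rw [map_mul, map_mul, hh, mul_one, map_inv, inv_mul_cancel]
    have h1 := hb _ hconj
    have h2 : h • τ • b = τ • ((τ⁻¹ * h * τ) • b) := by
      rw [← mul_smul, ← mul_smul, ← mul_assoc, ← mul_assoc, mul_inv_cancel, one_mul]
    rw [h2, h1]
  have hq₁B : q₁ ∈ B := by
    intro h hh
    exact hq₁ ⟨P h, h, hh, rfl⟩
  rcases hsimple B hBstable with hbot | htop
  · exfalso
    rw [hbot, AddSubgroup.mem_bot] at hq₁B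
    exact hq₁0 hq₁B
  · have : q ∈ B := htop ▸ AddSubgroup.mem_top q
    exact this σ (MonoidHom.mem_ker.mpr hσ)

/-- on a simple Eisenstein module the actions of any two elements commute. -/
theorem smul_comm_of_simple (hQ : IsEisMod r Q) (hrQ : ∀ q : Q, r • q = 0)
    (hsimple : ∀ B : AddSubgroup Q, (∀ σ : GQ, ∀ b ∈ B, σ • b ∈ B) → B = ⊥ ∨ B = ⊤)
    [Nontrivial Q] (σ τ : GQ) (q : Q) : σ • τ • q = τ • σ • q := by
  have hc : cyc r (σ⁻¹ * τ⁻¹ * σ * τ) = 1 := by
    rw [map_mul, map_mul, map_mul, map_inv, map_inv]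
    rw [mul_comm ((cyc r σ)⁻¹), mul_assoc, mul_assoc, ← mul_assoc ((cyc r σ)⁻¹), inv_mul_cancel,
      one_mul, inv_mul_cancel]
  have h1 := smul_eq_of_cyc_eq_one_of_simple hQ hrQ hsimple hc q
  have h2 : σ • τ • q = τ • σ • ((σ⁻¹ * τ⁻¹ * σ * τ) • q) := by
    rw [← mul_smul, ← mul_smul, ← mul_smul]
    congr 1
    group
  rw [h2, h1]

/-- **every element acts on a simple Eisenstein module as the scalar `1` or `χ(σ)`.** -/
theorem smul_eq_or_of_simple (hQ : IsEisMod r Q) (hrQ : ∀ q : Q, r • q = 0)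
    (hsimple : ∀ B : AddSubgroup Q, (∀ σ : GQ, ∀ b ∈ B, σ • b ∈ B) → B = ⊥ ∨ B = ⊤)
    [Nontrivial Q] (σ : GQ) :
    (∀ q : Q, σ • q = q) ∨ (∀ q : Q, σ • q = cycNat r σ • q) := by
  classical
  set a := cycNat r σ with ha
  obtain ⟨m, hm⟩ := hQ σ a (fun ζ hζ => cycNat_spec hζ σ)
  -- the two eigen-subgroups
  let K₁ : AddSubgroup Q :=
    { carrier := {q | σ • q = q}
      zero_mem' := smul_zero σ
      add_mem' := fun {x y} hx hy => by
        show σ • (x + y) = x + y
        rw [smul_add, hx, hy]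
      neg_mem' := fun {x} hx => by
        show σ • (-x) = -x
        rw [smul_neg, hx] }
  let K₂ : AddSubgroup Q :=
    { carrier := {q | σ • q = a • q}
      zero_mem' := by
        show σ • (0 : Q) = a • (0 : Q)
        rw [smul_zero, smul_zero]
      add_mem' := fun {x y} hx hy => by
        show σ • (x + y) = a • (x + y)
        rw [smul_add, hx, hy, smul_add]
      neg_mem' := fun {x} hx => by
        show σ • (-x) = a • (-x)
        rw [smul_neg, hx, smul_neg] }
  have hK₁ : ∀ τ : GQ, ∀ b ∈ K₁, τ • b ∈ K₁ := by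
    intro τ b hb
    show σ • τ • b = τ • b
    rw [smul_comm_of_simple hQ hrQ hsimple σ τ b, hb]
  have hK₂ : ∀ τ : GQ, ∀ b ∈ K₂, τ • b ∈ K₂ := by
    intro τ b hb
    show σ • τ • b = a • τ • b
    rw [smul_comm_of_simple hQ hrQ hsimple σ τ b, hb, smul_comm]
  rcases hsimple K₁ hK₁ with h1bot | h1top
  · rcases hsimple K₂ hK₂ with h2bot | h2top
    · -- both kernels trivial: the product is injective, contradiction with nilpotence
      exfalso
      set S : AddMonoid.End Q := (actEnd Q σ - 1) * (actEnd Q σ - (a : AddMonoid.End Q)) with hS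
      have hSinj : Function.Injective S := by
        rw [injective_iff_map_eq_zero]
        intro q hq
        have h3 : (actEnd Q σ - (a : AddMonoid.End Q)) q ∈ K₁ := by
          show σ • _ = _
          have : (actEnd Q σ - 1) ((actEnd Q σ - (a : AddMonoid.End Q)) q) = 0 := hq
          rw [endSub_apply, AddMonoid.End.one_apply, actEnd_apply, sub_eq_zero] at this
          exact this
        rw [h1bot, AddSubgroup.mem_bot] at h3
        have h4 : q ∈ K₂ := by
          show σ • q = a • q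
          rw [endSub_apply, actEnd_apply, AddMonoid.End.natCast_apply, sub_eq_zero] at h3
          exact h3
        rw [h2bot, AddSubgroup.mem_bot] at h4
        exact h4
      have hSm : ∀ n : ℕ, Function.Injective (S ^ n) := by
        intro n
        induction n with
        | zero =>
          intro x y h
          rw [pow_zero, AddMonoid.End.one_apply, AddMonoid.End.one_apply] at h
          exact h
        | succ n ih =>
          intro x y h
          rw [pow_succ, endMul_apply, endMul_apply] at h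
          exact hSinj (ih h)
      obtain ⟨q₀, hq₀⟩ := exists_ne (0 : Q)
      apply hq₀
      apply hSm m
      rw [hm, map_zero]
      rfl
    · right
      intro q
      have : q ∈ K₂ := h2top ▸ AddSubgroup.mem_top q
      exact this
  · left
    intro q
    have : q ∈ K₁ := h1top ▸ AddSubgroup.mem_top q
    exact this

/-- **(FIN-a), part (a2)**: a finite simple `G_ℚ`-module killed by `r` which is Eisenstein has
order `r` and is of type E (trivial action) or of type M (cyclotomic action). -/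
theorem IsEisMod.card_eq_and_type (hQ : IsEisMod r Q) (hrQ : ∀ q : Q, r • q = 0)
    (hsimple : ∀ B : AddSubgroup Q, (∀ σ : GQ, ∀ b ∈ B, σ • b ∈ B) → B = ⊥ ∨ B = ⊤)
    [Nontrivial Q] :
    Nat.card Q = r ∧
      ((∀ (σ : GQ) (q : Q), σ • q = q) ∨ (∀ (σ : GQ) (q : Q), σ • q = cycNat r σ • q)) := by
  classical
  have hr : r.Prime := Fact.out
  have hD := smul_eq_or_of_simple hQ hrQ hsimple
  -- every subgroup is stable
  have hstable : ∀ B : AddSubgroup Q, ∀ σ : GQ, ∀ b ∈ B, σ • b ∈ B := by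
    intro B σ b hb
    rcases hD σ with h | h
    · rw [h]; exact hb
    · rw [h]; exact B.nsmul_mem hb _
  constructor
  · obtain ⟨q₀, hq₀⟩ := exists_ne (0 : Q)
    have hord : addOrderOf q₀ = r := addOrderOf_eq_prime (hrQ q₀) hq₀
    rcases hsimple (AddSubgroup.zmultiples q₀) (hstable _) with hbot | htop
    · exfalso
      have : q₀ ∈ AddSubgroup.zmultiples q₀ := AddSubgroup.mem_zmultiples q₀
      rw [hbot, AddSubgroup.mem_bot] at this
      exact hq₀ this
    · have h1 : Nat.card (AddSubgroup.zmultiples q₀) = r := by rw [Nat.card_zmultiples, hord]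
      rw [htop, AddSubgroup.card_top] at h1
      exact h1
  · by_contra hcon
    rw [not_or] at hcon
    obtain ⟨h1, h2⟩ := hcon
    push_neg at h1 h2
    obtain ⟨σ₁, q₁, hq₁⟩ := h1
    obtain ⟨σ₂, q₂, hq₂⟩ := h2
    -- `σ₁` acts as `χ(σ₁)`, `σ₂` acts trivially
    have hσ₁ : ∀ q : Q, σ₁ • q = cycNat r σ₁ • q := by
      rcases hD σ₁ with h | h
      · exact absurd (h q₁) hq₁
      · exact h
    have hσ₂ : ∀ q : Q, σ₂ • q = q := by
      rcases hD σ₂ with h | h
      · exact h
      · exact absurd (h q₂) hq₂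
    have hprod : ∀ q : Q, (σ₁ * σ₂) • q = cycNat r σ₁ • q := by
      intro q
      rw [mul_smul, hσ₂, hσ₁]
    rcases hD (σ₁ * σ₂) with h | h
    · -- then `σ₁` acts trivially
      apply hq₁
      rw [hσ₁, ← hprod, h]
    · -- then `χ(σ₂) q₂ = q₂`
      apply hq₂
      have h3 : cycNat r σ₁ • q₂ = cycNat r σ₁ • (cycNat r σ₂ • q₂) := by
        rw [← hprod, h, ← mul_nsmul']
        exact nsmul_eq_nsmul_of_modEq (hrQ q₂) (cycNat_mul σ₁ σ₂)
      rw [← hσ₁, ← hσ₁] at h3
      have h4 := congrArg (fun x => σ₁⁻¹ • x) h3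
      simp only [inv_smul_smul] at h4
      rw [hσ₂]
      exact h4

end Simple

end Fermat.Agent.MZ
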