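/-
PROJECT MZ (S15), `r = 2` — helper7 — **the dévissage at `r = 2` for Eisenstein modules**
(helper8's `IsEisMod 2`), and the base case in the shape of helper8's `goodCoc_eq_zero_base`.

* `goodCoc2_eq_zero_base` : `G` of order `2` with trivial action, `f` Good₂, `f = 0` on one inertia
  group over `p` and at the complex conjugation ⇒ `f = 0`;
* `goodCoc2_finite_base` : a group of Good₂ cocycles with values in such a `G` is finite;
* `Adm2E p k G 𝒵` : `G` finite, `IsEisMod 2 G`, killed by `2 ^ k`, `𝒵` consists of Good₂ cocycles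
  (`n = 2 ^ k`); `sel2_card_le_eis` : `Finite 𝒵 ∧ card 𝒵 ≤ card (res_{I_p ∪ {c}} 𝒵)`.
-/
import Mathlib
import Fermat.Agent.MZ.FINA_helper8_Simple
import Fermat.Agent.MZ.DEV2_helper7_Main

set_option autoImplicit false
set_option linter.style.haveILetI false
set_option linter.unusedSectionVars false
set_option linter.unusedVariables false

namespace Fermat.Agent.MZ

open Fermat.Agent.FG

local notation "Ω" => AlgebraicClosure ℚ
local notation "GQ" => (AlgebraicClosure ℚ ≃ₐ[ℚ] AlgebraicClosure ℚ)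

section Base

variable {G : Type} [AddCommGroup G] [DistribMulAction GQ G] {p n : ℕ}

/-- a group with two elements: the nonzero element. -/
theorem exists_unique_ne_zero_of_card_two (hcard : Nat.card G = 2) :
    ∃ q₁ : G, q₁ ≠ 0 ∧ ∀ q : G, q = 0 ∨ q = q₁ := by
  obtain ⟨q₁, hq₁, huniq⟩ := (Nat.card_eq_two_iff' (0 : G)).mp hcard
  refine ⟨q₁, hq₁, fun q => ?_⟩
  by_cases h : q = 0
  · exact Or.inl h
  · exact Or.inr (huniq q h)

/-- **the base case of the dévissage at `r = 2`**, in the shape of helper8's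
`goodCoc_eq_zero_base`. -/
theorem goodCoc2_eq_zero_base (hp : p.Prime) (hn : ∀ x : G, n • x = 0)
    (hcard : Nat.card G = 2) (htriv : ∀ (σ : GQ) (g : G), σ • g = g)
    {f : GQ → G} (h : GoodCoc2 p n hn f)
    (Ap : ValuationSubring Ω) (hAp : Ap.LiesOverPrime p)
    (hfp : ∀ σ ∈ Ap.inertiaSubgroupIn ℚ, f σ = 0) (hfc : f complexConjugation = 0) : f = 0 := by
  obtain ⟨q₁, hq₁, hQ⟩ := exists_unique_ne_zero_of_card_two hcard
  funext σ
  refine good2_eq_zero_of_res hp hn htriv q₁ hq₁ hQ f h Ap hAp (fun τ hτ => ?_) σ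
  rcases hτ with hτ | hτ
  · exact hfp τ hτ
  · rw [Set.mem_singleton_iff.mp hτ]; exact hfc

/-- finiteness of a group of Good₂ cocycles with values in a group of order `2` with trivial
action. -/
theorem goodCoc2_finite_base (hp : p.Prime) (hn : ∀ x : G, n • x = 0)
    (hcard : Nat.card G = 2) (htriv : ∀ (σ : GQ) (g : G), σ • g = g)
    (𝒵 : AddSubgroup (GQ → G)) (h𝒵 : ∀ f ∈ 𝒵, GoodCoc2 p n hn f) : Finite 𝒵 := by
  obtain ⟨q₁, hq₁, hQ⟩ := exists_unique_ne_zero_of_card_two hcard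
  haveI : Finite G := Nat.finite_of_card_ne_zero (by rw [hcard]; norm_num)
  exact good2_finite hp hn htriv q₁ hq₁ hQ 𝒵 h𝒵

end Base

section Eis

variable {p k : ℕ}

/-- **admissible pairs at `r = 2`, Eisenstein form.** -/
def Adm2E (p k : ℕ) (G : Type) [AddCommGroup G] [DistribMulAction GQ G]
    (𝒵 : AddSubgroup (GQ → G)) : Prop :=
  Finite G ∧ IsEisMod 2 G ∧
    ∃ hn : ∀ x : G, (2 ^ k) • x = 0, ∀ f ∈ 𝒵, GoodCoc2 p (2 ^ k) hn f

/-- the mod `2` cyclotomic character is trivial. -/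
theorem cycNat_two (σ : GQ) : cycNat 2 σ = 1 := by
  unfold cycNat
  generalize (Fermat.Agent.TW.Kill.cyc 2 σ : (ZMod 2)ˣ) = u
  revert u
  decide

theorem Adm2E.ses {G' G G'' : Type} [AddCommGroup G'] [AddCommGroup G]
    [AddCommGroup G''] [DistribMulAction GQ G'] [DistribMulAction GQ G] [DistribMulAction GQ G'']
    (i : G' →+ G) (π : G →+ G'') (hi : Function.Injective i) (hπ : Function.Surjective π)
    (hex : ∀ g, π g = 0 ↔ g ∈ i.range) (hiσ : ∀ (σ : GQ) (g : G'), i (σ • g) = σ • i g)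
    (hπσ : ∀ (σ : GQ) (g : G), π (σ • g) = σ • π g) (𝒵 : AddSubgroup (GQ → G))
    (h : Adm2E p k G 𝒵) : Adm2E p k G' (subCoc i 𝒵) ∧ Adm2E p k G'' (quotCoc π 𝒵) := by
  obtain ⟨hfin, heis, hn, hgood⟩ := h
  haveI := hfin
  haveI hfin' : Finite G' := Finite.of_injective i hi
  haveI hfin'' : Finite G'' := Finite.of_surjective π hπ
  have hn' : ∀ x : G', (2 ^ k) • x = 0 := fun x => hi (by rw [map_nsmul, hn, map_zero])
  have hn'' : ∀ x : G'', (2 ^ k) • x = 0 := fun x => by
    obtain ⟨g, rfl⟩ := hπ x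
    rw [← map_nsmul, hn, map_zero]
  refine ⟨⟨hfin', heis.of_injective i hi hiσ, hn', fun f' hf' => ?_⟩,
    ⟨hfin'', heis.of_surjective π hπ hπσ, hn'', fun f'' hf'' => ?_⟩⟩
  · exact GoodCoc2.of_injective hn' i hi hiσ (hgood _ ((mem_subCoc i).mp hf'))
  · obtain ⟨g, hg, rfl⟩ := (mem_quotCoc π).mp hf''
    exact GoodCoc2.of_surjective hn'' π hπ hπσ (hgood g hg)

theorem Adm2E.base (hp : p.Prime) (A₀ : ValuationSubring Ω) (hA₀ : A₀.LiesOverPrime p)
    {G : Type} [AddCommGroup G] [DistribMulAction GQ G] (𝒵 : AddSubgroup (GQ → G))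
    (h : Adm2E p k G 𝒵)
    (hsimple : ∀ A : AddSubgroup G, (∀ σ : GQ, ∀ a ∈ A, σ • a ∈ A) → A = ⊥ ∨ A = ⊤) :
    Finite 𝒵 ∧ Nat.card 𝒵 ≤ Nat.card (𝒵.map (resTo (archInertiaSet A₀))) := by
  obtain ⟨hfin, heis, hn, hgood⟩ := h
  haveI := hfin
  haveI : Fact (Nat.Prime 2) := ⟨Nat.prime_two⟩
  rcases subsingleton_or_nontrivial G with hs | hnt
  · haveI : Subsingleton (GQ → G) := inferInstance
    haveI : Subsingleton ↥𝒵 := ⟨fun a b => Subtype.ext (Subsingleton.elim _ _)⟩
    haveI : Subsingleton ↥(𝒵.map (resTo (G := G) (archInertiaSet A₀))) :=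
      ⟨fun a b => Subtype.ext (funext fun s => Subsingleton.elim _ _)⟩
    refine ⟨inferInstance, ?_⟩
    rw [Nat.card_unique, Nat.card_unique]
  · -- `2 • G` is a stable subgroup, and it is not everything
    have h2 : ∀ q : G, 2 • q = 0 := by
      let B : AddSubgroup G := (nsmulAddMonoidHom (α := G) 2).range
      have hB : ∀ σ : GQ, ∀ b ∈ B, σ • b ∈ B := by
        rintro σ _ ⟨g, rfl⟩
        refine ⟨σ • g, ?_⟩
        show 2 • (σ • g) = σ • (2 • g)
        exact (smul_comm σ 2 g).symm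
      rcases hsimple B hB with hbot | htop
      · intro q
        have : 2 • q ∈ B := ⟨q, rfl⟩
        rw [hbot, AddSubgroup.mem_bot] at this
        exact this
      · exfalso
        -- then `G = 2 ^ j • G` for all `j`, in particular `G = 2 ^ k • G = 0`
        have hall : ∀ j : ℕ, ∀ q : G, ∃ g : G, (2 ^ j) • g = q := by
          intro j
          induction j with
          | zero => exact fun q => ⟨q, by rw [pow_zero, one_nsmul]⟩
          | succ j ih =>
            intro q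
            have hq : q ∈ B := htop ▸ AddSubgroup.mem_top q
            obtain ⟨g, rfl⟩ := hq
            obtain ⟨g', rfl⟩ := ih g
            refine ⟨g', ?_⟩
            show (2 ^ (j + 1)) • g' = 2 • ((2 ^ j) • g')
            rw [pow_succ, mul_comm, mul_nsmul]
            exact smul_comm (2 ^ j) 2 g'
        obtain ⟨q, hq⟩ := exists_ne (0 : G)
        obtain ⟨g, rfl⟩ := hall k q
        exact hq (hn g)
    obtain ⟨hcard, htype⟩ := heis.card_eq_and_type h2 hsimple
    have htriv : ∀ (σ : GQ) (g : G), σ • g = g := by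
      rcases htype with h | h
      · exact h
      · intro σ g
        rw [h σ g, cycNat_two, one_nsmul]
    obtain ⟨q₁, hq₁, hQ⟩ := exists_unique_ne_zero_of_card_two hcard
    exact base2 hp hn htriv q₁ hq₁ hQ A₀ hA₀ 𝒵 hgood

/-- **the Selmer estimate at `r = 2`, cocycle form, for Eisenstein modules.** -/
theorem sel2_card_le_eis (hp : p.Prime) (A₀ : ValuationSubring Ω)
    (hA₀ : A₀.LiesOverPrime p) (G : Type) [AddCommGroup G] [Finite G] [DistribMulAction GQ G]
    (𝒵 : AddSubgroup (GQ → G)) (h : Adm2E p k G 𝒵) :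
    Finite 𝒵 ∧ Nat.card 𝒵 ≤ Nat.card (𝒵.map (resTo (archInertiaSet A₀))) := by
  have key := devissage (Γ := GQ) (archInertiaSet A₀)
    (fun G _ _ 𝒵 => Adm2E p k G 𝒵) (fun _ _ _ => 1) (fun _ _ _ => 1)
    (fun G' G G'' _ _ _ _ _ _ i π hi hπ hex hiσ hπσ 𝒵 hAdm => by
      obtain ⟨h1, h2⟩ := Adm2E.ses i π hi hπ hex hiσ hπσ 𝒵 hAdm
      exact ⟨h1, h2, le_refl _, le_refl _⟩)
    (fun G _ _ 𝒵 hAdm hsimple => by
      obtain ⟨h1, h2⟩ := Adm2E.base hp A₀ hA₀ 𝒵 hAdm hsimple
      exact ⟨h1, by rw [mul_one, one_mul]; exact h2⟩)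
    G 𝒵 h
  obtain ⟨h1, h2⟩ := key
  exact ⟨h1, by rw [mul_one, one_mul] at h2; exact h2⟩

end Eis

end Fermat.Agent.MZ
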