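/-
PROJECT MZ (branch-only) — (FIN-b4), input for the type-E base case — helper8.

**Minkowski for characters of `G_ℚ`**: a continuous additive character of `G_ℚ` which vanishes on
all inertia groups is trivial (`ℚ` has no nontrivial everywhere unramified extension:
Mathlib `NumberField.exists_not_isUnramifiedAt_int_of_isGalois` + lifting of inertia
`CFT/Arith/Unr_lead`).
-/
import Mathlib
import Fermat.Agent.CFT.Arith.Unr_lead
import Fermat.Agent.CFT.S14.Fields_helper5

set_option autoImplicit false
set_option linter.unusedSectionVars false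
set_option linter.unusedVariables false
set_option linter.style.haveILetI false

namespace Fermat.Agent.MZ

open IntermediateField
open scoped NumberField

local notation "Ω" => AlgebraicClosure ℚ
local notation "GQ" => (AlgebraicClosure ℚ ≃ₐ[ℚ] AlgebraicClosure ℚ)

/-- **Minkowski**: a finite Galois subfield of `Ω` unramified everywhere (Prelude sense) is `ℚ`. -/
theorem finrank_eq_one_of_isUnramifiedOutside_empty (K : IntermediateField ℚ Ω)
    [FiniteDimensional ℚ K] [IsGalois ℚ K] (hK : K.IsUnramifiedOutside ∅) :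
    Module.finrank ℚ K = 1 := by
  classical
  haveI : NumberField K := NumberField.mk
  by_contra H
  have H1 : 1 < Module.finrank ℚ K := by
    have : 0 < Module.finrank ℚ K := Module.finrank_pos
    omega
  obtain ⟨p, hp, hram⟩ :=
    NumberField.exists_not_isUnramifiedAt_int_of_isGalois (K := K) (𝒪 := 𝓞 K) H1
  -- a prime above `p`
  haveI hpprime : (Ideal.span {(p : ℤ)}).IsPrime :=
    (Ideal.span_singleton_prime (by exact_mod_cast hp.ne_zero)).mpr (Nat.prime_iff_prime_int.mp hp)
  obtain ⟨P, -, hPprime, hPover⟩ := Ideal.exists_ideal_over_prime_of_isIntegral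
    (Ideal.span {(p : ℤ)}) (⊥ : Ideal (𝓞 K)) (by
      rw [← RingHom.ker_eq_comap_bot]
      have : Function.Injective (algebraMap ℤ (𝓞 K)) := FaithfulSMul.algebraMap_injective _ _
      rw [(RingHom.injective_iff_ker_eq_bot _).mp this]
      exact bot_le)
  haveI := hPprime
  have hpP : ((p : ℕ) : 𝓞 K) ∈ P := by
    have h1 : (p : ℤ) ∈ P.comap (algebraMap ℤ (𝓞 K)) := by
      rw [hPover]
      exact Ideal.mem_span_singleton_self _
    have := Ideal.mem_comap.mp h1
    simpa using this
  apply hram P hPprime hpP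
  -- the inertia group of `P` is trivial
  haveI : IsGaloisGroup Gal(K/ℚ) ℤ (𝓞 K) := inferInstance
  haveI : P.LiesOver (Ideal.span {(p : ℤ)}) := ⟨hPover.symm⟩
  have hcard : Nat.card (P.inertia Gal(K/ℚ)) = 1 := by
    rw [Nat.card_eq_one_iff_unique]
    refine ⟨⟨fun a b => ?_⟩, ⟨1⟩⟩
    have ha : (a : Gal(K/ℚ)) = 1 :=
      Fermat.Agent.CFT.Arith.inertia_eq_one_of_isUnramifiedOutside hK ⟨p, hp⟩
        (Finset.notMem_empty _) P hPprime hpP a (fun x => by have := a.2 x; exact this)
    have hb : (b : Gal(K/ℚ)) = 1 :=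
      Fermat.Agent.CFT.Arith.inertia_eq_one_of_isUnramifiedOutside hK ⟨p, hp⟩
        (Finset.notMem_empty _) P hPprime hpP b (fun x => by have := b.2 x; exact this)
    exact Subtype.ext (ha.trans hb.symm)
  have hperf : PerfectField (Ideal.span {(p : ℤ)}).ResidueField := by
    infer_instance
  rw [Ideal.card_inertia_eq_ramificationIdxIn (G := Gal(K/ℚ)) (Ideal.span {(p : ℤ)}) P,
    Ideal.ramificationIdxIn_eq_ramificationIdx (Ideal.span {(p : ℤ)}) P Gal(K/ℚ)] at hcard
  rw [← Ideal.ramificationIdx_eq_one_iff]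
  exact hcard

/-- an open subgroup of `G_ℚ`: one containing the fixing subgroup of a finite extension. -/
theorem isOpen_of_fixingSubgroup_le (N : Subgroup GQ) (F : IntermediateField ℚ Ω)
    [FiniteDimensional ℚ F] (hF : F.fixingSubgroup ≤ N) : IsOpen (N : Set GQ) :=
  Subgroup.isOpen_mono hF (IntermediateField.fixingSubgroup_isOpen F)

/-- **(E0) Minkowski for characters of `G_ℚ`**: an additive character of `G_ℚ`, trivial on an
open subgroup, which vanishes on every inertia group, is trivial. -/
theorem char_eq_zero_of_unramified {Q : Type*} [AddGroup Q] (f : GQ → Q)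
    (hadd : ∀ σ τ : GQ, f (σ * τ) = f σ + f τ)
    (hcont : ∃ F : IntermediateField ℚ Ω, FiniteDimensional ℚ F ∧
      ∀ σ ∈ F.fixingSubgroup, f σ = 0)
    (hunr : ∀ v : ℕ, v.Prime → ∀ A : ValuationSubring Ω, A.LiesOverPrime v →
      ∀ σ ∈ A.inertiaSubgroupIn ℚ, f σ = 0) :
    ∀ σ : GQ, f σ = 0 := by
  classical
  have h1 : f 1 = 0 := by
    have := hadd 1 1
    rw [mul_one] at this
    have h2 : f 1 + 0 = f 1 + f 1 := by rw [add_zero]; exact this
    exact (add_left_cancel h2).symm
  have hinv : ∀ σ : GQ, f σ⁻¹ = - f σ := by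
    intro σ
    have := hadd σ σ⁻¹
    rw [mul_inv_cancel, h1] at this
    exact (neg_eq_of_add_eq_zero_right this.symm).symm
  -- the kernel
  let N : Subgroup GQ :=
    { carrier := {σ | f σ = 0}
      mul_mem' := fun {a b} ha hb => by
        change f (a * b) = 0
        rw [hadd, ha, hb, add_zero]
      one_mem' := h1
      inv_mem' := fun {a} ha => by
        change f a⁻¹ = 0
        rw [hinv, ha, neg_zero] }
  have hN : ∀ σ : GQ, σ ∈ N ↔ f σ = 0 := fun σ => Iff.rfl
  haveI : N.Normal := ⟨fun n hn g => by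
    rw [hN] at hn ⊢
    rw [hadd, hadd, hn, add_zero, hinv, add_neg_cancel]⟩
  obtain ⟨F, hFfin, hF⟩ := hcont
  haveI := hFfin
  have hNopen : IsOpen (N : Set GQ) := isOpen_of_fixingSubgroup_le N F (fun σ hσ => hF σ hσ)
  set K : IntermediateField ℚ Ω := IntermediateField.fixedField N with hKdef
  have hKfix : K.fixingSubgroup = N :=
    Fermat.Agent.CFT.S14.fixingSubgroup_fixedField_of_isOpen N hNopen
  haveI : FiniteDimensional ℚ K := Fermat.Agent.CFT.S14.finiteDimensional_fixedField N hNopen
  haveI : IsGalois ℚ K := Fermat.Agent.CFT.S14.isGalois_fixedField N hNopen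
  have hKunr : K.IsUnramifiedOutside ∅ := by
    refine ⟨inferInstance, fun q _ A hA σ hσ => ?_⟩
    rw [hKfix, hN]
    exact hunr q q.2 A hA σ hσ
  have hrank := finrank_eq_one_of_isUnramifiedOutside_empty K hKunr
  have hKbot : K = ⊥ := IntermediateField.finrank_eq_one_iff.mp hrank
  intro σ
  rw [← hN, ← hKfix, hKbot]
  rw [IntermediateField.fixingSubgroup_bot]
  exact Subgroup.mem_top σ

end Fermat.Agent.MZ
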