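/-
PROJECT MZ (branch-only) — (FIN-a), part (a1), abstract half — helper8.

`IsEisMod.of_frobenius`: a finite `G_ℚ`-module `Q` killed by `r ^ k`, with open stabilisers, on
which some Frobenius element `φ_ℓ` at every prime `ℓ` outside a finite set satisfies
`((φ_ℓ - 1)(φ_ℓ - ℓ)) ^ m = 0`, is an Eisenstein module (`IsEisMod r Q`).  Proof: Frobenius density
theorem in the cyclic-subgroup form (`exists_prime_frobenius_conj_algClosure`): every `σ` is, modulo
the kernel of the action and of the mod `r` cyclotomic character, conjugate to a power `φ_ℓ ^ j`;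
then `(X - 1)(X - ℓ)` divides `(X ^ j - 1)(X ^ j - ℓ ^ j)` and `a ≡ ℓ ^ j` modulo the nilpotent `r`.
-/
import Mathlib
import Fermat.Agent.MZ.FINA_helper8_Simple
import Fermat.Agent.MZ.BASE_helper8_Mink
import Fermat.Agent.Density.Open_helper4
import Fermat.Agent.GR.DET_lead_Cyc

set_option autoImplicit false
set_option linter.unusedSectionVars false
set_option linter.unusedVariables false
set_option linter.style.haveILetI false

namespace Fermat.Agent.MZ

open Fermat.Agent.TW.Kill Polynomial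

local notation "Ω" => AlgebraicClosure ℚ
local notation "GQ" => (AlgebraicClosure ℚ ≃ₐ[ℚ] AlgebraicClosure ℚ)

section Poly

/-- the polynomial identity behind the density argument, evaluated in a (noncommutative) ring:
if `(F - 1)(F - ℓ)` is nilpotent, `r` is nilpotent and `a ≡ ℓ ^ j` modulo `r`, then
`(F ^ j - 1)(F ^ j - a)` is nilpotent. -/
theorem isNilpotent_eis_pow {E : Type*} [Ring E] (F : E) (ℓ a r k j : ℕ)
    (hr : (r : E) ^ k = 0) (hnil : IsNilpotent ((F - 1) * (F - (ℓ : E))))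
    (hmod : a ≡ ℓ ^ j [MOD r]) :
    IsNilpotent ((F ^ j - 1) * (F ^ j - (a : E))) := by
  classical
  set ev : ℤ[X] →ₐ[ℤ] E := Polynomial.aeval F with hev
  have hcomm : ∀ f g : ℤ[X], Commute (ev f) (ev g) := fun f g => (Commute.all f g).map ev
  have hevX : ev X = F := by rw [hev, aeval_X]
  have hevC : ∀ n : ℕ, ev (C (n : ℤ)) = (n : E) := by
    intro n
    rw [hev, aeval_C]
    simp
  have h1 : IsNilpotent (ev ((X - 1) * (X - C (ℓ : ℤ)))) := by
    rw [map_mul, map_sub, map_sub, map_one, hevX, hevC]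
    exact hnil
  have h2 : IsNilpotent (ev (C (r : ℤ))) := ⟨k, by rw [hevC]; exact hr⟩
  obtain ⟨c, hc⟩ : ∃ c : ℤ, ((ℓ : ℤ) ^ j - (a : ℤ)) = (r : ℤ) * c := by
    have := (Nat.modEq_iff_dvd.1 hmod)
    push_cast at this
    exact this
  obtain ⟨g₁, hg₁⟩ : (X - 1 : ℤ[X]) ∣ X ^ j - 1 := by
    simpa using sub_dvd_pow_sub_pow (X : ℤ[X]) 1 j
  obtain ⟨g₂, hg₂⟩ : (X - C (ℓ : ℤ) : ℤ[X]) ∣ X ^ j - (C (ℓ : ℤ)) ^ j :=
    sub_dvd_pow_sub_pow _ _ j
  have hCa : (C (a : ℤ) : ℤ[X]) = C (ℓ : ℤ) ^ j - C (r : ℤ) * C c := by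
    rw [← C_pow, ← C_mul, ← C_sub]
    congr 1
    linarith
  have key : (X ^ j - 1 : ℤ[X]) * (X ^ j - C (a : ℤ)) =
      ((X - 1) * (X - C (ℓ : ℤ))) * (g₁ * g₂) + C (r : ℤ) * (C c * (X ^ j - 1)) := by
    rw [hCa]
    linear_combination (X ^ j - C (ℓ : ℤ) ^ j) * hg₁ + (X - 1) * g₁ * hg₂
  have h3 : IsNilpotent (ev ((X ^ j - 1 : ℤ[X]) * (X ^ j - C (a : ℤ)))) := by
    rw [key, map_add, map_mul, map_mul _ (C (r : ℤ))]
    refine Commute.isNilpotent_add ?_ ?_ ?_
    · rw [← map_mul, ← map_mul]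
      exact hcomm _ _
    · exact Commute.isNilpotent_mul_right (hcomm _ _) h1
    · exact Commute.isNilpotent_mul_right (hcomm _ _) h2
  rw [map_mul, map_sub, map_sub, map_one, map_pow, hevX, hevC] at h3
  exact h3

end Poly

section Twisted

variable {Q Q' : Type*} [AddCommGroup Q] [DistribMulAction GQ Q] [AddCommGroup Q']
  [DistribMulAction GQ Q']

/-- a map intertwining `σ` on the source with `σ'` on the target intertwines the polynomial
expressions. -/
theorem map_eisPoly_pow_twisted (φ : Q →+ Q') (σ σ' : GQ)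
    (hφ : ∀ q : Q, φ (σ • q) = σ' • φ q) (a m : ℕ) (q : Q) :
    φ ((((actEnd Q σ - 1) * (actEnd Q σ - (a : AddMonoid.End Q))) ^ m) q) =
      (((actEnd Q' σ' - 1) * (actEnd Q' σ' - (a : AddMonoid.End Q'))) ^ m) (φ q) := by
  have h1 : ∀ q : Q, φ (((actEnd Q σ - 1) * (actEnd Q σ - (a : AddMonoid.End Q))) q) =
      ((actEnd Q' σ' - 1) * (actEnd Q' σ' - (a : AddMonoid.End Q'))) (φ q) := by
    intro q
    simp only [endMul_apply, endSub_apply, AddMonoid.End.one_apply,
      actEnd_apply, AddMonoid.End.natCast_apply, map_sub, hφ, map_nsmul, smul_sub]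
  generalize (actEnd Q σ - 1) * (actEnd Q σ - (a : AddMonoid.End Q)) = S at h1 ⊢
  generalize (actEnd Q' σ' - 1) * (actEnd Q' σ' - (a : AddMonoid.End Q')) = S' at h1 ⊢
  induction m generalizing q with
  | zero => simp
  | succ m ih =>
    rw [pow_succ, pow_succ, endMul_apply, endMul_apply, ih, h1]

end Twisted

section Density

variable {r : ℕ} [Fact r.Prime] {Q : Type*} [AddCommGroup Q] [Finite Q] [DistribMulAction GQ Q]

/-- **Eisenstein modules from Frobenius elements** (Frobenius density theorem). -/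
theorem IsEisMod.of_frobenius (k : ℕ) (hk : ∀ q : Q, r ^ k • q = 0)
    (hfix : ∀ q : Q, ∃ L : IntermediateField ℚ Ω, FiniteDimensional ℚ L ∧
      ∀ σ : GQ, (∀ a ∈ L, σ a = a) → σ • q = q)
    (T : Finset ℕ)
    (hfrob : ∀ ℓ : ℕ, ℓ.Prime → ℓ ∉ T → ∃ (P : ValuationSubring Ω) (φ : GQ),
      P.LiesOverPrime ℓ ∧ P.IsFrobeniusAt φ ℓ ∧
        IsNilpotent ((actEnd Q φ - 1) * (actEnd Q φ - (ℓ : AddMonoid.End Q)))) :
    IsEisMod r Q := by
  classical
  have hr : r.Prime := Fact.out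
  haveI : NeZero r := ⟨hr.ne_zero⟩
  intro σ a ha
  -- the open normal subgroup
  let N : Subgroup GQ := (MulAction.toPermHom GQ Q).ker ⊓ (cyc r).ker
  haveI : N.Normal := inferInstance
  have hNo : IsOpen (N : Set GQ) := by
    choose L hLfin hLfix using hfix
    obtain ⟨F, hF, hFcyc⟩ := exists_finiteDimensional_cyc_eq_one r
    haveI := Fintype.ofFinite Q
    haveI : ∀ q, FiniteDimensional ℚ (L q) := hLfin
    let K : IntermediateField ℚ Ω := (⨆ q : Q, L q) ⊔ F
    haveI : FiniteDimensional ℚ K := by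
      haveI : FiniteDimensional ℚ (⨆ q : Q, L q : IntermediateField ℚ Ω) :=
        IntermediateField.finiteDimensional_iSup_of_finite
      exact IntermediateField.finiteDimensional_sup _ _
    refine isOpen_of_fixingSubgroup_le N K ?_
    intro τ hτ
    have hτ' : ∀ x ∈ K, τ x = x := fun x hx =>
      (IntermediateField.mem_fixingSubgroup_iff K τ).mp hτ x hx
    refine Subgroup.mem_inf.mpr ⟨?_, ?_⟩
    · rw [MonoidHom.mem_ker]
      ext q
      refine hLfix q τ (fun x hx => hτ' x ?_)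
      exact (le_sup_left : (⨆ q : Q, L q) ≤ K) ((le_iSup L q) hx)
    · rw [MonoidHom.mem_ker]
      refine hFcyc τ ?_
      rw [IntermediateField.mem_fixingSubgroup_iff]
      intro x hx
      exact hτ' x ((le_sup_right : F ≤ K) hx)
  obtain ⟨ℓ, hℓ, hℓT, hall⟩ :=
    Fermat.Agent.Density.exists_prime_frobenius_conj_algClosure N hNo σ (insert r T)
  have hℓr : ℓ ≠ r := fun h => hℓT (by rw [h]; exact Finset.mem_insert_self _ _)
  have hℓT' : ℓ ∉ T := fun h => hℓT (Finset.mem_insert_of_mem h)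
  have hℓr' : ¬ ℓ ∣ r := fun h => hℓr ((Nat.prime_dvd_prime_iff_eq hℓ hr).mp h)
  obtain ⟨P, φ, hP, hφ, hnil⟩ := hfrob ℓ hℓ hℓT'
  obtain ⟨τ, hτ⟩ := (hall P hP).2 φ hφ
  set σ' : GQ := τ * σ * τ⁻¹ with hσ'
  -- a natural exponent
  haveI : Finite (GQ ⧸ N) := N.quotient_finite_of_isOpen hNo
  obtain ⟨j, -, hj⟩ := Fermat.Agent.Density.exists_coprime_pow_eq_of_zpowers_eq
    (isOfFinOrder_of_finite (QuotientGroup.mk' N φ)) hτ.symm
  have hn : (φ ^ j)⁻¹ * σ' ∈ N := by
    rw [← QuotientGroup.eq]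
    rw [← map_pow] at hj
    exact hj.symm
  set n : GQ := (φ ^ j)⁻¹ * σ' with hn_def
  have hσn : σ' = φ ^ j * n := by rw [hn_def, mul_inv_cancel_left]
  have hnQ : ∀ q : Q, n • q = q := by
    intro q
    have h1 : MulAction.toPermHom GQ Q n = 1 := MonoidHom.mem_ker.mp hn.1
    have h2 := congrArg (fun e : Equiv.Perm Q => e q) h1
    exact h2
  have hncyc : cyc r n = 1 := MonoidHom.mem_ker.mp hn.2
  -- the congruence `a ≡ ℓ ^ j`
  have hcycσ : (cyc r σ : ZMod r) = (a : ZMod r) := by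
    refine cyc_unique r σ (fun t ht => ?_)
    rw [ha t ht, ZMod.val_natCast]
    conv_lhs => rw [← Nat.mod_add_div a r]
    rw [pow_add, pow_mul, ht, one_pow, mul_one]
  have hcycφ : (cyc r φ : ZMod r) = (ℓ : ZMod r) := by
    refine cyc_unique r φ (fun t ht => ?_)
    rw [Fermat.Agent.GR.frobenius_apply_rootOfUnity hℓ hℓr' hP hφ ht, ZMod.val_natCast]
    conv_lhs => rw [← Nat.mod_add_div ℓ r]
    rw [pow_add, pow_mul, ht, one_pow, mul_one]
  have hcycσ' : cyc r σ' = cyc r σ := by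
    rw [hσ', map_mul, map_mul, map_inv, mul_comm, ← mul_assoc, inv_mul_cancel, one_mul]
  have hmod : a ≡ ℓ ^ j [MOD r] := by
    rw [← ZMod.natCast_eq_natCast_iff, ← hcycσ, ← hcycσ', hσn, map_mul, hncyc, mul_one, map_pow,
      Units.val_pow_eq_pow_val, hcycφ, Nat.cast_pow]
  -- the action of `σ'`
  have hactσ' : actEnd Q σ' = actEnd Q φ ^ j := by
    rw [← map_pow]
    ext q
    rw [actEnd_apply, actEnd_apply, hσn, mul_smul, hnQ]
  have hrk : ((r : ℕ) : AddMonoid.End Q) ^ k = 0 := by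
    ext q
    rw [← Nat.cast_pow, AddMonoid.End.natCast_apply, hk]
    rfl
  obtain ⟨m, hm⟩ := isNilpotent_eis_pow (actEnd Q φ) ℓ a r k j hrk hnil hmod
  rw [← hactσ'] at hm
  refine ⟨m, ?_⟩
  ext q
  have h1 := map_eisPoly_pow_twisted (DistribSMul.toAddMonoidHom Q τ) σ σ' (fun q => by
    show τ • σ • q = σ' • τ • q
    rw [hσ', mul_smul, mul_smul, inv_smul_smul]) a m q
  rw [hm] at h1
  have h2 : τ • ((((actEnd Q σ - 1) * (actEnd Q σ - (a : AddMonoid.End Q))) ^ m) q) = 0 := h1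
  have h3 := congrArg (fun x => τ⁻¹ • x) h2
  simp only [inv_smul_smul, smul_zero] at h3
  exact h3

end Density

end Fermat.Agent.MZ
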