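/-
MZ (S15 gamble) — helper4 — block (D3) = (ALG-0): the primary part of a finite module under a
family of commuting operators, and the **projector word**.

For a finite abelian group `X` with pairwise commuting endomorphisms `θ i` and integers `e i`
(`i : ι`), `primPart θ e` is the simultaneous generalised eigen-part
`⋂ i, ⋃ m, ker (θ i − e i)^m`.  The main result `exists_projWord` produces a *word*
`t : FreeAlgebra ℤ ι` with `ε t = 1` (`ε : X_i ↦ e i`) whose evaluation at `θ` is the projector of
`X` onto `primPart θ e` (identity on it, image inside it).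
-/
import Mathlib

set_option autoImplicit false
set_option linter.style.haveILetI false

namespace Fermat.Agent.MZ

section Idem

/-- in a finite monoid every element has an idempotent power with positive exponent. -/
theorem exists_pos_pow_idempotent {M : Type*} [Monoid M] [Finite M] (a : M) :
    ∃ N : ℕ, 0 < N ∧ a ^ N * a ^ N = a ^ N := by
  obtain ⟨m, m', hne, h⟩ := Finite.exists_ne_map_eq_of_infinite (fun n : ℕ => a ^ n)
  wlog hlt : m < m' generalizing m m'
  · exact this m' m hne.symm h.symm (lt_of_le_of_ne (not_lt.mp hlt) hne.symm)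
  obtain ⟨n, rfl⟩ : ∃ n, m' = m + n := ⟨m' - m, by omega⟩
  have hn : 0 < n := by omega
  have h' : a ^ (m + n) = a ^ m := h.symm
  have hstep : ∀ j, m ≤ j → a ^ (j + n) = a ^ j := by
    intro j hj
    obtain ⟨i, rfl⟩ := Nat.exists_eq_add_of_le hj
    calc a ^ (m + i + n) = a ^ (m + n) * a ^ i := by
          rw [← pow_add]; congr 1; omega
      _ = a ^ m * a ^ i := by rw [h']
      _ = a ^ (m + i) := by rw [pow_add]
  have hmul : ∀ c j, m ≤ j → a ^ (j + c * n) = a ^ j := by
    intro c
    induction c with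
    | zero => intro j _; simp
    | succ c ih =>
      intro j hj
      rw [Nat.succ_mul, ← add_assoc, hstep _ (by omega), ih j hj]
  refine ⟨(m + 1) * n, Nat.mul_pos (Nat.succ_pos m) hn, ?_⟩
  rw [← pow_add]
  exact hmul (m + 1) _ (by nlinarith)

variable {R : Type*} [Ring R]

/-- `P * L.prod = 0` if `1 - P` occurs in `L`, `P` is idempotent and commutes with the members. -/
theorem mul_list_prod_eq_zero {P : R} (hP : P * P = P) (L : List R) (hmem : (1 - P) ∈ L)
    (hcomm : ∀ a ∈ L, Commute P a) : P * L.prod = 0 := by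
  induction L with
  | nil => simp at hmem
  | cons a L ih =>
    rw [List.prod_cons, ← mul_assoc]
    rcases List.mem_cons.mp hmem with h | h
    · rw [← h, mul_sub, mul_one, hP, sub_self, zero_mul]
    · rw [(hcomm a List.mem_cons_self).eq, mul_assoc,
        ih h (fun b hb => hcomm b (List.mem_cons_of_mem _ hb)), mul_zero]

end Idem

section PrimPart

variable {X : Type*} [AddCommGroup X] {ι : Type*}

/-- the simultaneous generalised eigen-part of the operators `θ i` for the eigenvalues `e i`. -/
def primPart (θ : ι → Module.End ℤ X) (e : ι → ℤ) : Submodule ℤ X :=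
  ⨅ i, (θ i).maxGenEigenspace (e i)

theorem mem_primPart {θ : ι → Module.End ℤ X} {e : ι → ℤ} {x : X} :
    x ∈ primPart θ e ↔ ∀ i, ∃ m : ℕ, ((θ i - e i • (1 : Module.End ℤ X)) ^ m) x = 0 := by
  unfold primPart
  rw [Submodule.mem_iInf]
  exact forall_congr' fun i => Module.End.mem_maxGenEigenspace _ _ _

/-- an endomorphism commuting with all `θ i` preserves the primary part. -/
theorem map_mem_primPart {θ : ι → Module.End ℤ X} {e : ι → ℤ} (φ : Module.End ℤ X)
    (hφ : ∀ i, Commute φ (θ i)) {x : X} (hx : x ∈ primPart θ e) : φ x ∈ primPart θ e := by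
  rw [mem_primPart] at hx ⊢
  intro i
  obtain ⟨m, hm⟩ := hx i
  refine ⟨m, ?_⟩
  have hc : Commute φ ((θ i - e i • (1 : Module.End ℤ X)) ^ m) :=
    ((hφ i).sub_right ((Commute.one_right φ).smul_right (e i))).pow_right m
  have : ((θ i - e i • (1 : Module.End ℤ X)) ^ m * φ) x = 0 := by
    rw [← hc.eq, Module.End.mul_apply, hm, map_zero]
  simpa [Module.End.mul_apply] using this

/-- the evaluation of words at the operators -/
noncomputable abbrev evWord (θ : ι → Module.End ℤ X) : FreeAlgebra ℤ ι →ₐ[ℤ] Module.End ℤ X :=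
  FreeAlgebra.lift ℤ θ

/-- the augmentation `X_i ↦ e i` -/
noncomputable abbrev epsWord (e : ι → ℤ) : FreeAlgebra ℤ ι →ₐ[ℤ] ℤ :=
  FreeAlgebra.lift ℤ e

/-- an endomorphism commuting with all `θ i` commutes with every word in them. -/
theorem commute_evWord {θ : ι → Module.End ℤ X} (φ : Module.End ℤ X)
    (hφ : ∀ i, Commute φ (θ i)) (t : FreeAlgebra ℤ ι) : Commute φ (evWord θ t) := by
  induction t using FreeAlgebra.induction with
  | grade0 n =>
    rw [AlgHom.commutes]
    exact (Algebra.commutes n φ).symm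
  | grade1 i => simpa [evWord] using hφ i
  | mul a b ha hb => rw [map_mul]; exact ha.mul_right hb
  | add a b ha hb => rw [map_add]; exact ha.add_right hb

/-- **the projector word.** -/
theorem exists_projWord [Finite X] (θ : ι → Module.End ℤ X) (e : ι → ℤ)
    (hθ : ∀ i j, Commute (θ i) (θ j)) :
    ∃ t : FreeAlgebra ℤ ι, epsWord e t = 1 ∧
      (∀ x ∈ primPart θ e, evWord θ t x = x) ∧ ∀ x, evWord θ t x ∈ primPart θ e := by
  classical
  have : Finite (Module.End ℤ X) := Finite.of_injective (fun f => (f : X → X))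
    DFunLike.coe_injective
  set H : ι → Module.End ℤ X := fun i => θ i - e i • (1 : Module.End ℤ X) with hH
  have hHc : ∀ i j, Commute (H i) (H j) := fun i j =>
    (((hθ i j).sub_left ((Commute.one_left (θ j)).smul_left (e i))).sub_right
      (((Commute.one_right (θ i)).smul_right (e j)).sub_left
        ((Commute.one_left _).smul_left (e i) |>.smul_right (e j))))
  -- finitely many distinct operators
  haveI : Fintype (Set.range H) := (Set.toFinite (Set.range H)).fintype
  let S : Finset ι := Finset.univ.image (fun a : Set.range H => a.2.choose)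
  have hS : ∀ i, ∃ j ∈ S, H j = H i := by
    intro i
    refine ⟨(⟨H i, i, rfl⟩ : Set.range H).2.choose, ?_, (⟨H i, i, rfl⟩ : Set.range H).2.choose_spec⟩
    exact Finset.mem_image.mpr ⟨⟨H i, i, rfl⟩, Finset.mem_univ _, rfl⟩
  choose N hN0 hNid using fun i => exists_pos_pow_idempotent (H i)
  set t : FreeAlgebra ℤ ι :=
    (S.toList.map (fun j => 1 - (FreeAlgebra.ι ℤ j - algebraMap ℤ _ (e j)) ^ N j)).prod with ht
  have hev : evWord θ t = (S.toList.map (fun j => 1 - H j ^ N j)).prod := by
    rw [ht, map_list_prod, List.map_map]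
    congr 1
    apply List.map_congr_left
    intro j _
    simp only [Function.comp_apply, map_sub, map_one, map_pow, FreeAlgebra.lift_ι_apply,
      AlgHom.commutes, hH]
    rw [Algebra.algebraMap_eq_smul_one]
  refine ⟨t, ?_, ?_, ?_⟩
  · rw [ht, map_list_prod, List.map_map]
    apply List.prod_eq_one
    intro a ha
    obtain ⟨j, -, rfl⟩ := List.mem_map.mp ha
    simp only [Function.comp_apply, map_sub, map_one, map_pow, FreeAlgebra.lift_ι_apply,
      AlgHom.commutes, Algebra.algebraMap_self, RingHom.id_apply, sub_self,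
      zero_pow (hN0 j).ne', sub_zero]
  · intro x hx
    rw [mem_primPart] at hx
    have hkill : ∀ j, (H j ^ N j) x = 0 := by
      intro j
      obtain ⟨m, hm⟩ := hx j
      rcases Nat.eq_zero_or_pos m with rfl | hmpos
      · have hx0 : x = 0 := by simpa using hm
        rw [hx0, map_zero]
      · -- `P = P ^ m = H ^ (N m - m) * H ^ m`
        have hPm : (H j ^ N j) ^ m = H j ^ N j := by
          have : IsIdempotentElem (H j ^ N j) := hNid j
          exact this.pow_eq hmpos.ne' |>.symm ▸ rfl
        have hle : m ≤ N j * m := Nat.le_mul_of_pos_left m (hN0 j)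
        have : H j ^ N j = H j ^ (N j * m - m) * H j ^ m := by
          rw [← pow_add, Nat.sub_add_cancel hle, pow_mul, hPm]
        rw [this, Module.End.mul_apply, hm, map_zero]
    rw [hev]
    have : ∀ L : List ι, ((L.map (fun j => 1 - H j ^ N j)).prod) x = x := by
      intro L
      induction L with
      | nil => simp
      | cons j L ih =>
        rw [List.map_cons, List.prod_cons, Module.End.mul_apply, ih, LinearMap.sub_apply,
          Module.End.one_apply, hkill j, sub_zero]
    exact this _
  · intro x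
    rw [mem_primPart]
    intro i
    obtain ⟨j, hjS, hji⟩ := hS i
    refine ⟨N j, ?_⟩
    show ((H i) ^ N j) (evWord θ t x) = 0
    rw [← hji, hev, ← Module.End.mul_apply]
    have h0 : H j ^ N j * (S.toList.map (fun j => 1 - H j ^ N j)).prod = 0 := by
      apply mul_list_prod_eq_zero (hNid j)
      · exact List.mem_map.mpr ⟨j, Finset.mem_toList.mpr hjS, rfl⟩
      · intro a ha
        obtain ⟨j', -, rfl⟩ := List.mem_map.mp ha
        exact ((Commute.one_right _).sub_right (((hHc j j').pow_right (N j')).pow_left (N j)))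
    rw [h0, LinearMap.zero_apply]

end PrimPart

section Ambient

variable {J : Type*} [AddCommGroup J] {ι : Type*}

/-- the submodule of `n`-torsion. -/
def torsSub (J : Type*) [AddCommGroup J] (n : ℕ) : Submodule ℤ J where
  carrier := {x | n • x = 0}
  zero_mem' := smul_zero n
  add_mem' := by
    intro a b ha hb
    show n • (a + b) = 0
    rw [smul_add, ha, hb, add_zero]
  smul_mem' := by
    intro c a ha
    show n • (c • a) = 0
    rw [smul_comm, ha, smul_zero]

theorem mem_torsSub {n : ℕ} {x : J} : x ∈ torsSub J n ↔ n • x = 0 := Iff.rfl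

theorem map_mem_torsSub (f : Module.End ℤ J) {n : ℕ} {x : J} (hx : x ∈ torsSub J n) :
    f x ∈ torsSub J n := by
  show n • f x = 0
  rw [← map_nsmul, hx, map_zero]

/-- the restriction of an endomorphism of `J` to the `n`-torsion. -/
def restrTors (n : ℕ) (f : Module.End ℤ J) : Module.End ℤ ↥(torsSub J n) :=
  f.restrict (fun _ hx => map_mem_torsSub f hx)

@[simp] theorem coe_restrTors (n : ℕ) (f : Module.End ℤ J) (x : ↥(torsSub J n)) :
    ((restrTors n f x : ↥(torsSub J n)) : J) = f x := rfl

/-- words evaluated at the restricted operators are the restrictions of the words. -/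
theorem coe_evWord_restrTors (T : ι → Module.End ℤ J) (n : ℕ) (t : FreeAlgebra ℤ ι)
    (x : ↥(torsSub J n)) :
    ((evWord (fun i => restrTors n (T i)) t x : ↥(torsSub J n)) : J) = evWord T t x := by
  induction t using FreeAlgebra.induction generalizing x with
  | grade0 c =>
    rw [AlgHom.commutes, AlgHom.commutes, Algebra.algebraMap_eq_smul_one,
      Algebra.algebraMap_eq_smul_one]
    simp
  | grade1 i => simp [evWord]
  | mul a b ha hb => rw [map_mul, map_mul, Module.End.mul_apply, Module.End.mul_apply, ha, hb]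
  | add a b ha hb =>
    rw [map_add, map_add, LinearMap.add_apply, LinearMap.add_apply, Submodule.coe_add, ha, hb]

/-- the primary part of the `n`-torsion of `J`, as a submodule of `J`. -/
def primTors (T : ι → Module.End ℤ J) (e : ι → ℤ) (n : ℕ) : Submodule ℤ J :=
  torsSub J n ⊓ ⨅ i, (T i).maxGenEigenspace (e i)

theorem mem_primTors {T : ι → Module.End ℤ J} {e : ι → ℤ} {n : ℕ} {x : J} :
    x ∈ primTors T e n ↔
      n • x = 0 ∧ ∀ i, ∃ m : ℕ, ((T i - e i • (1 : Module.End ℤ J)) ^ m) x = 0 := by
  unfold primTors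
  rw [Submodule.mem_inf, Submodule.mem_iInf]
  exact and_congr Iff.rfl (forall_congr' fun i => Module.End.mem_maxGenEigenspace _ _ _)

theorem coe_pow_restrTors (T : ι → Module.End ℤ J) (e : ι → ℤ) (n : ℕ) (i : ι) (m : ℕ)
    (x : ↥(torsSub J n)) :
    ((((restrTors n (T i) - e i • (1 : Module.End ℤ ↥(torsSub J n))) ^ m) x :
      ↥(torsSub J n)) : J) = ((T i - e i • (1 : Module.End ℤ J)) ^ m) x := by
  have h := coe_evWord_restrTors T n ((FreeAlgebra.ι ℤ i - algebraMap ℤ _ (e i)) ^ m) x
  simpa [evWord, Algebra.algebraMap_eq_smul_one] using h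

theorem mem_primPart_restrTors {T : ι → Module.End ℤ J} {e : ι → ℤ} {n : ℕ}
    (x : ↥(torsSub J n)) :
    x ∈ primPart (fun i => restrTors n (T i)) e ↔ (x : J) ∈ primTors T e n := by
  rw [mem_primPart, mem_primTors]
  constructor
  · intro h
    refine ⟨x.2, fun i => ?_⟩
    obtain ⟨m, hm⟩ := h i
    exact ⟨m, by rw [← coe_pow_restrTors, hm]; rfl⟩
  · rintro ⟨-, h⟩ i
    obtain ⟨m, hm⟩ := h i
    exact ⟨m, Subtype.ext (by rw [coe_pow_restrTors, hm]; rfl)⟩

/-- **the projector word for the primary part of the `n`-torsion of `J`**: if the `n`-torsion is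
finite and the operators commute on it, there is a word `t` with `ε t = 1` which is the identity
on `primTors T e n` and maps the `n`-torsion into it. -/
theorem exists_projWord_tors (T : ι → Module.End ℤ J) (e : ι → ℤ) (n : ℕ)
    (hfin : Finite ↥(torsSub J n))
    (hcomm : ∀ i j, ∀ x : J, n • x = 0 → T i (T j x) = T j (T i x)) :
    ∃ t : FreeAlgebra ℤ ι, epsWord e t = 1 ∧
      (∀ x ∈ primTors T e n, evWord T t x = x) ∧
      ∀ x : J, n • x = 0 → evWord T t x ∈ primTors T e n := by
  have hθ : ∀ i j, Commute (restrTors n (T i)) (restrTors n (T j)) := by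
    intro i j
    apply LinearMap.ext
    intro x
    apply Subtype.ext
    exact hcomm i j x x.2
  obtain ⟨t, ht1, ht2, ht3⟩ := exists_projWord (fun i => restrTors n (T i)) e hθ
  refine ⟨t, ht1, ?_, ?_⟩
  · intro x hx
    have hxn : x ∈ torsSub J n := (mem_primTors.mp hx).1
    have := ht2 ⟨x, hxn⟩ ((mem_primPart_restrTors _).mpr hx)
    rw [← coe_evWord_restrTors T n t ⟨x, hxn⟩, this]
  · intro x hx
    have := ht3 ⟨x, hx⟩
    rw [mem_primPart_restrTors, coe_evWord_restrTors] at this
    exact this

/-- an endomorphism of `J` commuting with all `T i` commutes with every word. -/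
theorem commute_evWord_amb {T : ι → Module.End ℤ J} (φ : Module.End ℤ J)
    (hφ : ∀ i, Commute φ (T i)) (t : FreeAlgebra ℤ ι) : Commute φ (evWord T t) :=
  commute_evWord φ hφ t

/-- an endomorphism commuting with all `T i` preserves `primTors`. -/
theorem map_mem_primTors {T : ι → Module.End ℤ J} {e : ι → ℤ} {n : ℕ} (φ : Module.End ℤ J)
    (hφ : ∀ i, Commute φ (T i)) {x : J} (hx : x ∈ primTors T e n) :
    φ x ∈ primTors T e n := by
  unfold primTors at hx ⊢
  rw [Submodule.mem_inf] at hx ⊢
  exact ⟨map_mem_torsSub φ hx.1, map_mem_primPart φ hφ hx.2⟩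

/-- eigenvectors: a word acts on a simultaneous eigenvector by its augmentation. -/
theorem evWord_eigen {T : ι → Module.End ℤ J} {e : ι → ℤ} {c : J}
    (hc : ∀ i, T i c = e i • c) (t : FreeAlgebra ℤ ι) : evWord T t c = epsWord e t • c := by
  induction t using FreeAlgebra.induction with
  | grade0 n =>
    rw [AlgHom.commutes, AlgHom.commutes, Algebra.algebraMap_eq_smul_one]
    simp
  | grade1 i => simpa [evWord, epsWord] using hc i
  | mul a b ha hb =>
    rw [map_mul, map_mul, Module.End.mul_apply, hb, map_zsmul, ha, smul_smul, mul_comm]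
  | add a b ha hb => rw [map_add, map_add, LinearMap.add_apply, ha, hb, add_smul]

end Ambient

section StableSub

variable {J : Type*} [AddCommGroup J] {ι : Type*}

/-- the restriction of an endomorphism of `J` to a stable submodule. -/
def restrSub (X : Submodule ℤ J) (f : Module.End ℤ J) (hf : ∀ x ∈ X, f x ∈ X) :
    Module.End ℤ ↥X :=
  f.restrict hf

@[simp] theorem coe_restrSub (X : Submodule ℤ J) (f : Module.End ℤ J) (hf : ∀ x ∈ X, f x ∈ X)
    (x : ↥X) : ((restrSub X f hf x : ↥X) : J) = f x := rfl

theorem coe_evWord_restrSub (T : ι → Module.End ℤ J) (X : Submodule ℤ J)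
    (hX : ∀ i, ∀ x ∈ X, T i x ∈ X) (t : FreeAlgebra ℤ ι) (x : ↥X) :
    ((evWord (fun i => restrSub X (T i) (hX i)) t x : ↥X) : J) = evWord T t x := by
  induction t using FreeAlgebra.induction generalizing x with
  | grade0 c =>
    rw [AlgHom.commutes, AlgHom.commutes, Algebra.algebraMap_eq_smul_one,
      Algebra.algebraMap_eq_smul_one]
    simp
  | grade1 i => simp [evWord]
  | mul a b ha hb => rw [map_mul, map_mul, Module.End.mul_apply, Module.End.mul_apply, ha, hb]
  | add a b ha hb =>
    rw [map_add, map_add, LinearMap.add_apply, LinearMap.add_apply, Submodule.coe_add, ha, hb]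

/-- every word preserves a submodule stable under the operators. -/
theorem evWord_mem_of_stable (T : ι → Module.End ℤ J) (X : Submodule ℤ J)
    (hX : ∀ i, ∀ x ∈ X, T i x ∈ X) (t : FreeAlgebra ℤ ι) {x : J} (hx : x ∈ X) :
    evWord T t x ∈ X := by
  rw [← coe_evWord_restrSub T X hX t ⟨x, hx⟩]
  exact Subtype.mem _

/-- the primary part of a submodule `X` of `J`, as a submodule of `J`. -/
def primIn (T : ι → Module.End ℤ J) (e : ι → ℤ) (X : Submodule ℤ J) : Submodule ℤ J :=
  X ⊓ ⨅ i, (T i).maxGenEigenspace (e i)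

theorem mem_primIn {T : ι → Module.End ℤ J} {e : ι → ℤ} {X : Submodule ℤ J} {x : J} :
    x ∈ primIn T e X ↔
      x ∈ X ∧ ∀ i, ∃ m : ℕ, ((T i - e i • (1 : Module.End ℤ J)) ^ m) x = 0 := by
  unfold primIn
  rw [Submodule.mem_inf, Submodule.mem_iInf]
  exact and_congr Iff.rfl (forall_congr' fun i => Module.End.mem_maxGenEigenspace _ _ _)

theorem primIn_le (T : ι → Module.End ℤ J) (e : ι → ℤ) (X : Submodule ℤ J) :
    primIn T e X ≤ X := inf_le_left

theorem coe_pow_restrSub (T : ι → Module.End ℤ J) (e : ι → ℤ) (X : Submodule ℤ J)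
    (hX : ∀ i, ∀ x ∈ X, T i x ∈ X) (i : ι) (m : ℕ) (x : ↥X) :
    ((((restrSub X (T i) (hX i) - e i • (1 : Module.End ℤ ↥X)) ^ m) x : ↥X) : J) =
      ((T i - e i • (1 : Module.End ℤ J)) ^ m) x := by
  have h := coe_evWord_restrSub T X hX ((FreeAlgebra.ι ℤ i - algebraMap ℤ _ (e i)) ^ m) x
  simpa [evWord, Algebra.algebraMap_eq_smul_one] using h

theorem mem_primPart_restrSub {T : ι → Module.End ℤ J} {e : ι → ℤ} {X : Submodule ℤ J}
    (hX : ∀ i, ∀ x ∈ X, T i x ∈ X) (x : ↥X) :
    x ∈ primPart (fun i => restrSub X (T i) (hX i)) e ↔ (x : J) ∈ primIn T e X := by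
  rw [mem_primPart, mem_primIn]
  constructor
  · intro h
    refine ⟨x.2, fun i => ?_⟩
    obtain ⟨m, hm⟩ := h i
    exact ⟨m, by rw [← coe_pow_restrSub T e X hX, hm]; rfl⟩
  · rintro ⟨-, h⟩ i
    obtain ⟨m, hm⟩ := h i
    exact ⟨m, Subtype.ext (by rw [coe_pow_restrSub T e X hX, hm]; rfl)⟩

/-- **the projector word for the primary part of a finite stable submodule `X ≤ J`** on which the
operators commute: a word `t` with `ε t = 1`, identity on `primIn T e X`, mapping `X` into it. -/
theorem exists_projWord_in (T : ι → Module.End ℤ J) (e : ι → ℤ) (X : Submodule ℤ J)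
    (hX : ∀ i, ∀ x ∈ X, T i x ∈ X) (hfin : Finite ↥X)
    (hcomm : ∀ i j, ∀ x ∈ X, T i (T j x) = T j (T i x)) :
    ∃ t : FreeAlgebra ℤ ι, epsWord e t = 1 ∧
      (∀ x ∈ primIn T e X, evWord T t x = x) ∧
      ∀ x ∈ X, evWord T t x ∈ primIn T e X := by
  have hθ : ∀ i j, Commute (restrSub X (T i) (hX i)) (restrSub X (T j) (hX j)) := by
    intro i j
    apply LinearMap.ext
    intro x
    apply Subtype.ext
    exact hcomm i j x x.2
  obtain ⟨t, ht1, ht2, ht3⟩ := exists_projWord (fun i => restrSub X (T i) (hX i)) e hθ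
  refine ⟨t, ht1, ?_, ?_⟩
  · intro x hx
    have hxX : x ∈ X := (mem_primIn.mp hx).1
    have := ht2 ⟨x, hxX⟩ ((mem_primPart_restrSub hX _).mpr hx)
    rw [← coe_evWord_restrSub T X hX t ⟨x, hxX⟩, this]
  · intro x hx
    have := ht3 ⟨x, hx⟩
    rw [mem_primPart_restrSub hX, coe_evWord_restrSub] at this
    exact this

/-- an endomorphism preserving `X` and commuting with all `T i` preserves `primIn`. -/
theorem map_mem_primIn {T : ι → Module.End ℤ J} {e : ι → ℤ} {X : Submodule ℤ J}
    (φ : Module.End ℤ J) (hφX : ∀ x ∈ X, φ x ∈ X) (hφ : ∀ i, Commute φ (T i)) {x : J}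
    (hx : x ∈ primIn T e X) : φ x ∈ primIn T e X := by
  unfold primIn at hx ⊢
  rw [Submodule.mem_inf] at hx ⊢
  exact ⟨hφX x hx.1, map_mem_primPart φ hφ hx.2⟩

end StableSub

end Fermat.Agent.MZ
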