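/-
MZ (S15 gamble) — helper4 — **the literal of `W_k`**.

`J := JZero p`.  `tateTors p r k ≤ J` is the group of `k`-th components of `r`-adic Tate sequences
of `J` (the `r^k`-torsion of the maximal divisible subgroup of `J[r^∞]`; in reality all of
`J[r^k]`, but `card J[r^k] = r^(2gk)` is not on main).  `Wk p r k := primIn (heckeFam p) (eisVal p)
(tateTors p r k)` is its Eisenstein-primary part for the operators `T_ℓ`, `ℓ ≠ p`, with the
eigenvalues `1 + ℓ`.  Both are stable under `G_ℚ` and under every additive endomorphism of `J`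
commuting with the `T_ℓ`.
-/
import Fermat.Agent.GR.ASM_helper8_Done
import Fermat.Agent.MZ.D3_helper4_PrimPart

set_option autoImplicit false
set_option linter.style.haveILetI false
set_option linter.unusedSectionVars false
set_option linter.unusedVariables false

namespace Fermat.Agent.MZ

open ModularCurve Fermat.Agent.GR

local notation "Ω" => AlgebraicClosure ℚ
local notation "GQ" => (AlgebraicClosure ℚ ≃ₐ[ℚ] AlgebraicClosure ℚ)

section Defs

variable (p : ℕ) [NeZero p]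

/-- the primes different from `p`. -/
abbrev HeckeIdx (p : ℕ) : Type := {ℓ : Nat.Primes // (ℓ : ℕ) ≠ p}

/-- the Hecke operators `T_ℓ`, `ℓ ≠ p`, on `J₀(p)`. -/
noncomputable def heckeFam : HeckeIdx p → Module.End ℤ (JZero p) :=
  fun ℓ => heckeOperatorBar p ℓ.1

/-- the Eisenstein eigenvalues `1 + ℓ`. -/
def eisVal : HeckeIdx p → ℤ := fun ℓ => 1 + ((ℓ.1 : ℕ) : ℤ)

/-- the `k`-th components of the `r`-adic Tate sequences of `J₀(p)`. -/
def tateTors (r k : ℕ) : Submodule ℤ (JZero p) where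
  carrier := {x | ∃ s : ↥(TateSeq (JZero p) r), s.1 k = x}
  zero_mem' := ⟨0, rfl⟩
  add_mem' := by
    rintro _ _ ⟨s, rfl⟩ ⟨s', rfl⟩
    exact ⟨s + s', rfl⟩
  smul_mem' := by
    rintro c _ ⟨s, rfl⟩
    exact ⟨c • s, rfl⟩

variable {p}

theorem mem_tateTors {r k : ℕ} {x : JZero p} :
    x ∈ tateTors p r k ↔ ∃ s : ↥(TateSeq (JZero p) r), s.1 k = x := Iff.rfl

theorem pow_smul_eq_zero_of_mem_tateTors {r k : ℕ} {x : JZero p} (hx : x ∈ tateTors p r k) :
    r ^ k • x = 0 := by
  obtain ⟨s, rfl⟩ := hx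
  exact TateSeq.pow_smul s k

/-- every additive endomorphism of `J` preserves `tateTors`. -/
theorem map_mem_tateTors {r k : ℕ} (f : JZero p →+ JZero p) {x : JZero p}
    (hx : x ∈ tateTors p r k) : f x ∈ tateTors p r k := by
  obtain ⟨s, rfl⟩ := hx
  exact ⟨TateSeq.map r f s, rfl⟩

theorem end_mem_tateTors {r k : ℕ} (f : Module.End ℤ (JZero p)) {x : JZero p}
    (hx : x ∈ tateTors p r k) : f x ∈ tateTors p r k :=
  map_mem_tateTors f.toAddMonoidHom hx

theorem smul_mem_tateTors {r k : ℕ} (σ : GQ) {x : JZero p} (hx : x ∈ tateTors p r k) :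
    σ • x ∈ tateTors p r k :=
  map_mem_tateTors (DistribSMul.toAddMonoidHom (JZero p) σ) hx

/-- multiplication by `r` maps level `k + 1` onto level `k`. -/
theorem exists_smul_eq_of_mem_tateTors {r k : ℕ} {x : JZero p} (hx : x ∈ tateTors p r k) :
    ∃ y ∈ tateTors p r (k + 1), r • y = x := by
  obtain ⟨s, rfl⟩ := hx
  exact ⟨s.1 (k + 1), ⟨s, rfl⟩, TateSeq.smul_succ s k⟩

theorem smul_mem_tateTors_pred {r k : ℕ} {y : JZero p} (hy : y ∈ tateTors p r (k + 1)) :
    r • y ∈ tateTors p r k := by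
  obtain ⟨s, rfl⟩ := hy
  exact ⟨s, (TateSeq.smul_succ s k).symm⟩

variable (p)

/-- **`W_k`**: the Eisenstein-primary part of `tateTors p r k`. -/
noncomputable def Wk (r k : ℕ) : Submodule ℤ (JZero p) :=
  primIn (heckeFam p) (eisVal p) (tateTors p r k)

variable {p}

theorem mem_Wk {r k : ℕ} {x : JZero p} :
    x ∈ Wk p r k ↔ x ∈ tateTors p r k ∧
      ∀ ℓ : HeckeIdx p, ∃ m : ℕ,
        ((heckeOperatorBar p ℓ.1 - (1 + ((ℓ.1 : ℕ) : ℤ)) • (1 : Module.End ℤ (JZero p))) ^ m) x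
          = 0 :=
  mem_primIn

theorem Wk_le_tateTors (r k : ℕ) : Wk p r k ≤ tateTors p r k := primIn_le _ _ _

theorem pow_smul_eq_zero_of_mem_Wk {r k : ℕ} {x : JZero p} (hx : x ∈ Wk p r k) :
    r ^ k • x = 0 :=
  pow_smul_eq_zero_of_mem_tateTors (Wk_le_tateTors r k hx)

end Defs

section Galois

variable {p : ℕ} [NeZero p]

/-- the Galois action as an endomorphism. -/
noncomputable def galEnd (σ : GQ) : Module.End ℤ (JZero p) :=
  (DistribSMul.toAddMonoidHom (JZero p) σ).toIntLinearMap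

@[simp] theorem galEnd_apply (σ : GQ) (x : JZero p) : galEnd σ x = σ • x := rfl

/-- **the Hecke operators `T_ℓ`, `ℓ ≠ p`, commute with the Galois action** (`p` prime). -/
theorem heckeFam_smul (hp : p.Prime) (ℓ : HeckeIdx p) (σ : GQ) (x : JZero p) :
    heckeFam p ℓ (σ • x) = σ • heckeFam p ℓ x := by
  haveI : Fact (Nat.Prime 2) := ⟨Nat.prime_two⟩
  have I := stageIData p 2
  have hℓ : ¬ ((ℓ.1 : ℕ) ∣ p) := by
    intro h
    exact ℓ.2 ((Nat.prime_dvd_prime_iff_eq ℓ.1.2 hp).mp h)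
  show heckeOperatorBar p ℓ.1 (σ • x) = σ • heckeOperatorBar p ℓ.1 x
  rw [← I.hT' ℓ.1 hℓ, ← I.hT' ℓ.1 hℓ, I.gal]

theorem commute_galEnd_heckeFam (hp : p.Prime) (σ : GQ) (ℓ : HeckeIdx p) :
    Commute (galEnd σ) (heckeFam p ℓ) := by
  apply LinearMap.ext
  intro x
  show σ • heckeFam p ℓ x = heckeFam p ℓ (σ • x)
  rw [heckeFam_smul hp]

theorem smul_mem_Wk (hp : p.Prime) {r k : ℕ} (σ : GQ) {x : JZero p} (hx : x ∈ Wk p r k) :
    σ • x ∈ Wk p r k :=
  map_mem_primIn (galEnd σ) (fun y hy => smul_mem_tateTors σ hy)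
    (fun ℓ => commute_galEnd_heckeFam hp σ ℓ) hx

/-- the `G_ℚ`-action on `W_k`. -/
noncomputable instance instDistribMulActionWk [hp : Fact p.Prime] (r k : ℕ) :
    DistribMulAction GQ ↥(Wk p r k) where
  smul σ x := ⟨σ • x.1, smul_mem_Wk hp.out σ x.2⟩
  one_smul x := Subtype.ext (one_smul _ _)
  mul_smul σ τ x := Subtype.ext (mul_smul _ _ _)
  smul_zero σ := Subtype.ext (smul_zero _)
  smul_add σ x y := Subtype.ext (smul_add _ _ _)

@[simp] theorem coe_smul_Wk [Fact p.Prime] {r k : ℕ} (σ : GQ) (x : ↥(Wk p r k)) :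
    ((σ • x : ↥(Wk p r k)) : JZero p) = σ • (x : JZero p) := rfl

/-- the `G_ℚ`-action on `tateTors`. -/
noncomputable instance instDistribMulActionTateTors (r k : ℕ) :
    DistribMulAction GQ ↥(tateTors p r k) where
  smul σ x := ⟨σ • x.1, smul_mem_tateTors σ x.2⟩
  one_smul x := Subtype.ext (one_smul _ _)
  mul_smul σ τ x := Subtype.ext (mul_smul _ _ _)
  smul_zero σ := Subtype.ext (smul_zero _)
  smul_add σ x y := Subtype.ext (smul_add _ _ _)

@[simp] theorem coe_smul_tateTors {r k : ℕ} (σ : GQ) (x : ↥(tateTors p r k)) :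
    ((σ • x : ↥(tateTors p r k)) : JZero p) = σ • (x : JZero p) := rfl

/-- finiteness. -/
theorem finite_tateTors (r : ℕ) [Fact r.Prime] (k : ℕ) : Finite ↥(tateTors p r k) := by
  haveI : Finite ↥(torsionNat (JZero p) (r ^ k)) := (stageIData p r).D.finite_torsion k
  exact Finite.of_injective
    (fun x : ↥(tateTors p r k) =>
      (⟨x.1, pow_smul_eq_zero_of_mem_tateTors x.2⟩ : ↥(torsionNat (JZero p) (r ^ k))))
    (fun x y h => Subtype.ext (by
      have := congrArg (fun z : ↥(torsionNat (JZero p) (r ^ k)) => (z : JZero p)) h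
      exact this))

theorem finite_Wk (r : ℕ) [Fact r.Prime] (k : ℕ) : Finite ↥(Wk p r k) := by
  haveI := finite_tateTors (p := p) r k
  exact Finite.of_injective
    (fun x : ↥(Wk p r k) => (⟨x.1, Wk_le_tateTors r k x.2⟩ : ↥(tateTors p r k)))
    (fun x y h => Subtype.ext (by
      have := congrArg (fun z : ↥(tateTors p r k) => (z : JZero p)) h
      exact this))

end Galois

end Fermat.Agent.MZ
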