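/-
PROJECT MZ (branch-only) — (FIN-a), part (a1) — helper8.

**`isEisMod_Wk : IsEisMod r ↥(Wk p r k)`**: the Eisenstein-primary part `W_k` of the `r^k`-torsion
of `J₀(p)` is an Eisenstein module: every `σ ∈ G_ℚ` acting on `μ_r` by `ζ ↦ ζ ^ a` satisfies
`((σ - 1)(σ - a)) ^ m = 0` on `W_k`.  Proof: Eichler–Shimura (`StageIData.frobenius_quadratic`)
gives `(φ - 1)(φ - ℓ) = φ (T_ℓ - (1 + ℓ))` on `r`-power torsion for a Frobenius element `φ` at
`ℓ ∤ p r`, and `T_ℓ - (1 + ℓ)` is nilpotent on `W_k`; then `IsEisMod.of_frobenius`.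
-/
import Mathlib
import Fermat.Agent.MZ.WK_helper4_Def
import Fermat.Agent.MZ.FINA_helper8_Dens
import Fermat.Agent.TW.Kill_helper1_Frob

set_option autoImplicit false
set_option linter.unusedSectionVars false
set_option linter.unusedVariables false
set_option linter.style.haveILetI false

namespace Fermat.Agent.MZ

open ModularCurve Fermat.Agent.GR Fermat.Agent.TW.Kill

local notation "Ω" => AlgebraicClosure ℚ
local notation "GQ" => (AlgebraicClosure ℚ ≃ₐ[ℚ] AlgebraicClosure ℚ)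

section ES

variable {p : ℕ} [NeZero p] {r : ℕ} [Fact r.Prime]

/-- **Eichler–Shimura on `r`-power torsion**: `(φ - 1)(φ - ℓ) = φ (T_ℓ - (1 + ℓ))` for a Frobenius
element `φ` at `ℓ ∤ p r`. -/
theorem galEnd_eis_apply (hp : p.Prime) {ℓ : ℕ} (hℓ : ℓ.Prime) (hℓpr : ¬ ℓ ∣ p * r)
    {P : ValuationSubring Ω} (hP : P.LiesOverPrime ℓ) {φ : GQ} (hφ : P.IsFrobeniusAt φ ℓ)
    {x : JZero p} (hx : ∃ n : ℕ, r ^ n • x = 0) :
    (((galEnd φ - 1) * (galEnd φ - ((ℓ : ℕ) : Module.End ℤ (JZero p))) :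
        Module.End ℤ (JZero p)) x : JZero p) =
      ((galEnd φ * (heckeOperatorBar p ⟨ℓ, hℓ⟩ -
        (1 + ((ℓ : ℕ) : ℤ)) • (1 : Module.End ℤ (JZero p))) : Module.End ℤ (JZero p)) x :
          JZero p) := by
  have I := stageIData p r
  have hℓp : ¬ ((⟨ℓ, hℓ⟩ : Nat.Primes) : ℕ) ∣ p := fun h => hℓpr (Dvd.dvd.mul_right h r)
  have h1 := I.frobenius_quadratic hℓ hℓpr hP hφ hx
  rw [I.hT' ⟨ℓ, hℓ⟩ hℓp] at h1
  have h2 : heckeOperatorBar p ⟨ℓ, hℓ⟩ (φ • x) = φ • heckeOperatorBar p ⟨ℓ, hℓ⟩ x := by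
    rw [← I.hT' ⟨ℓ, hℓ⟩ hℓp, ← I.hT' ⟨ℓ, hℓ⟩ hℓp, I.gal]
  simp only [Module.End.mul_apply, LinearMap.sub_apply, Module.End.one_apply, galEnd_apply,
    Module.End.natCast_apply, LinearMap.smul_apply]
  simp only [smul_sub, add_smul, one_smul, natCast_zsmul, smul_add]
  have h5 : φ • (ℓ • x) = ℓ • (φ • x) := map_nsmul (DistribSMul.toAddMonoidHom (JZero p) φ) ℓ x
  rw [← h2, h5]
  have h3 : φ • φ • x = heckeOperatorBar p ⟨ℓ, hℓ⟩ (φ • x) - ℓ • x := by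
    rw [eq_sub_iff_add_eq, ← sub_eq_zero, ← h1]
    abel
  rw [h3]
  abel

end ES

section Main

variable {p : ℕ} [NeZero p] [hp : Fact p.Prime] {r : ℕ} [Fact r.Prime]

/-- a Frobenius element `φ` at `ℓ ∤ p r` satisfies `((φ - 1)(φ - ℓ)) ^ m = 0` on `W_k`. -/
theorem isNilpotent_frobenius_Wk (k : ℕ) {ℓ : ℕ} (hℓ : ℓ.Prime) (hℓp : ℓ ≠ p) (hℓr : ℓ ≠ r)
    {P : ValuationSubring Ω} (hP : P.LiesOverPrime ℓ) {φ : GQ} (hφ : P.IsFrobeniusAt φ ℓ) :
    IsNilpotent ((actEnd ↥(Wk p r k) φ - 1) *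
      (actEnd ↥(Wk p r k) φ - ((ℓ : ℕ) : AddMonoid.End ↥(Wk p r k)))) := by
  classical
  have hr : r.Prime := Fact.out
  have hℓpr : ¬ ℓ ∣ p * r := by
    intro h
    rcases (Nat.Prime.dvd_mul hℓ).mp h with h | h
    · exact hℓp ((Nat.prime_dvd_prime_iff_eq hℓ hp.out).mp h)
    · exact hℓr ((Nat.prime_dvd_prime_iff_eq hℓ hr).mp h)
  set idx : HeckeIdx p := ⟨⟨ℓ, hℓ⟩, hℓp⟩ with hidx
  set S : AddMonoid.End ↥(Wk p r k) := (actEnd ↥(Wk p r k) φ - 1) *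
      (actEnd ↥(Wk p r k) φ - ((ℓ : ℕ) : AddMonoid.End ↥(Wk p r k))) with hS
  set ν : Module.End ℤ (JZero p) := heckeOperatorBar p ⟨ℓ, hℓ⟩ -
        (1 + ((ℓ : ℕ) : ℤ)) • (1 : Module.End ℤ (JZero p)) with hν
  set U : Module.End ℤ (JZero p) := galEnd φ * ν with hU
  have htors : ∀ x : ↥(Wk p r k), ∃ n : ℕ, r ^ n • (x : JZero p) = 0 :=
    fun x => ⟨k, pow_smul_eq_zero_of_mem_Wk x.2⟩
  -- one step
  have h1 : ∀ x : ↥(Wk p r k), ((S x : ↥(Wk p r k)) : JZero p) = U (x : JZero p) := by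
    intro x
    rw [hU, hν, ← galEnd_eis_apply hp.out hℓ hℓpr hP hφ (htors x)]
    simp only [hS, endMul_apply, endSub_apply, AddMonoid.End.one_apply, actEnd_apply,
      AddMonoid.End.natCast_apply, Module.End.mul_apply, LinearMap.sub_apply,
      Module.End.one_apply, galEnd_apply, Module.End.natCast_apply, Submodule.coe_sub,
      coe_smul_Wk, Submodule.coe_smul_of_tower, smul_sub]
  -- powers
  have h2 : ∀ (m : ℕ) (x : ↥(Wk p r k)),
      (((S ^ m) x : ↥(Wk p r k)) : JZero p) = (U ^ m) (x : JZero p) := by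
    intro m
    induction m with
    | zero => intro x; simp
    | succ m ih =>
      intro x
      rw [pow_succ, pow_succ, endMul_apply, ih, h1]
      rfl
  -- commutation
  have hc : Commute (galEnd φ) ν := by
    have h := commute_galEnd_heckeFam hp.out φ idx
    exact Commute.sub_right h (Commute.smul_right (Commute.one_right _) _)
  -- local nilpotency of `ν`
  have h3 : ∀ x : ↥(Wk p r k), ∃ m : ℕ, (ν ^ m) (x : JZero p) = 0 := fun x => (mem_Wk.mp x.2).2 idx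
  choose mx hmx using h3
  haveI : Finite ↥(Wk p r k) := finite_Wk r k
  haveI := Fintype.ofFinite ↥(Wk p r k)
  refine ⟨Finset.univ.sup mx, ?_⟩
  ext x
  have hle : mx x ≤ Finset.univ.sup mx := Finset.le_sup (Finset.mem_univ x)
  have h4 : (ν ^ Finset.univ.sup mx) (x : JZero p) = 0 := by
    obtain ⟨d, hd⟩ := Nat.exists_eq_add_of_le hle
    rw [hd, add_comm, pow_add, Module.End.mul_apply, hmx, map_zero]
  rw [h2, hU, hc.mul_pow, Module.End.mul_apply, h4, map_zero]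
  rfl

variable (p r)

/-- **(FIN-a)(a1): `W_k` is an Eisenstein module.** -/
theorem isEisMod_Wk (k : ℕ) : IsEisMod r ↥(Wk p r k) := by
  have hr : r.Prime := Fact.out
  have I := stageIData p r
  haveI : Finite ↥(Wk p r k) := finite_Wk r k
  refine IsEisMod.of_frobenius k ?_ ?_ {p, r} ?_
  · intro x
    exact Subtype.ext (pow_smul_eq_zero_of_mem_Wk x.2)
  · intro x
    obtain ⟨L, hL, hfix⟩ := I.fix (x : JZero p)
    exact ⟨L, hL, fun σ hσ => Subtype.ext (hfix σ hσ)⟩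
  · intro ℓ hℓ hℓT
    haveI : Fact ℓ.Prime := ⟨hℓ⟩
    have hℓp : ℓ ≠ p := fun h => hℓT (by rw [h]; simp)
    have hℓr : ℓ ≠ r := fun h => hℓT (by rw [h]; simp)
    have hP : (padicPlace ℓ).LiesOverPrime ℓ := padicPlace_liesOverPrime ℓ
    obtain ⟨φ, hφ⟩ := exists_isFrobeniusAt (padicPlace ℓ) hℓ hP
    exact ⟨padicPlace ℓ, φ, hP, hφ, isNilpotent_frobenius_Wk k hℓ hℓp hℓr hP hφ⟩

end Main

end Fermat.Agent.MZ
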