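/-
MZ (branch-only), block (FIN-c)/(ES±), part 1 (helper5): **rational descent of an invertible
intertwiner.**  If `X₀ ∈ M_n(L)` is invertible and intertwines two families of matrices with entries
in a subfield `K` (infinite), then some invertible `X ∈ M_n(K)` intertwines them as well; for
`K = ℚ`, `L = ℂ` and integral families one may even take `X ∈ M_n(ℤ)` with `det X ≠ 0`.
(No Noether–Deuring machinery: expand the entries of `X₀` in a `K`-basis of their span and use
that a non-zero polynomial over an infinite field has a non-root.)  Mathlib only.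
-/
import Mathlib

set_option autoImplicit false
set_option linter.unusedSectionVars false

namespace Fermat.Agent.MZ

open Matrix

section Field

variable {K L : Type*} [Field K] [Field L] [Algebra K L]
variable {n : Type*} [Fintype n] [DecidableEq n] {I : Type*}

/-- expansion of a matrix over `L` along a `K`-linearly independent family. -/
theorem exists_matrix_expansion (X₀ : Matrix n n L) :
    ∃ (m : ℕ) (u : Fin m → L) (X : Fin m → Matrix n n K), LinearIndependent K u ∧
      X₀ = ∑ k, u k • (X k).map (algebraMap K L) := by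
  classical
  set S : Submodule K L := Submodule.span K (Set.range fun ab : n × n => X₀ ab.1 ab.2) with hS
  have : FiniteDimensional K S := FiniteDimensional.span_of_finite K (Set.finite_range _)
  set bS := Module.finBasis K S with hbS
  have hmem : ∀ a b, X₀ a b ∈ S := fun a b => Submodule.subset_span ⟨(a, b), rfl⟩
  refine ⟨Module.finrank K S, fun k => (bS k : L),
    fun k => Matrix.of fun a b => bS.repr ⟨X₀ a b, hmem a b⟩ k, ?_, ?_⟩
  · have h := bS.linearIndependent.map' S.subtype (Submodule.ker_subtype S)
    exact h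
  · ext a b
    have h := bS.sum_repr ⟨X₀ a b, hmem a b⟩
    have h' := congrArg (fun x : S => (x : L)) h
    simp only [Submodule.coe_sum, Submodule.coe_smul] at h'
    rw [Matrix.sum_apply]
    rw [← h']
    refine Finset.sum_congr rfl fun k _ => ?_
    simp only [Matrix.smul_apply, Matrix.map_apply, Matrix.of_apply, smul_eq_mul]
    rw [Algebra.smul_def, mul_comm]

/-- the pieces of the expansion of an intertwiner are intertwiners. -/
theorem intertwiner_of_expansion (A B : I → Matrix n n K) {m : ℕ} (u : Fin m → L)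
    (X : Fin m → Matrix n n K) (hu : LinearIndependent K u)
    (h : ∀ i, (∑ k, u k • (X k).map (algebraMap K L)) * (A i).map (algebraMap K L) =
      (B i).map (algebraMap K L) * ∑ k, u k • (X k).map (algebraMap K L)) :
    ∀ i k, X k * A i = B i * X k := by
  classical
  intro i k
  have hsum : ∑ k, u k • ((X k * A i - B i * X k).map (algebraMap K L)) = 0 := by
    have h1 := h i
    rw [Finset.sum_mul, Finset.mul_sum] at h1
    have h2 : ∀ k, u k • ((X k * A i - B i * X k).map (algebraMap K L)) =
        (u k • (X k).map (algebraMap K L)) * (A i).map (algebraMap K L) -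
          (B i).map (algebraMap K L) * (u k • (X k).map (algebraMap K L)) := by
      intro k
      rw [Matrix.map_sub (f := (algebraMap K L)) (fun a b => map_sub _ a b), smul_sub,
        Matrix.map_mul, Matrix.map_mul, Matrix.smul_mul, Matrix.mul_smul]
    simp_rw [h2]
    rw [Finset.sum_sub_distrib, h1, sub_self]
  ext a b
  have hab := congrFun (congrFun hsum a) b
  rw [Matrix.sum_apply, Matrix.zero_apply] at hab
  have hab' : ∑ k, ((X k * A i - B i * X k) a b) • u k = 0 := by
    rw [← hab]
    refine Finset.sum_congr rfl fun k _ => ?_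
    simp only [Matrix.smul_apply, Matrix.map_apply, smul_eq_mul]
    rw [Algebra.smul_def, mul_comm]
  have h0 := Fintype.linearIndependent_iff.mp hu (fun k => (X k * A i - B i * X k) a b) hab' k
  have h1 : (X k * A i - B i * X k) a b = 0 := h0
  rw [Matrix.sub_apply, sub_eq_zero] at h1
  exact h1

/-- **rational descent of an invertible intertwiner.** -/
theorem exists_rat_intertwiner [Infinite K] (A B : I → Matrix n n K) (X₀ : Matrix n n L)
    (hX₀ : ∀ i, X₀ * (A i).map (algebraMap K L) = (B i).map (algebraMap K L) * X₀)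
    (hdet : X₀.det ≠ 0) :
    ∃ X : Matrix n n K, (∀ i, X * A i = B i * X) ∧ X.det ≠ 0 := by
  classical
  obtain ⟨m, u, X, hu, hexp⟩ := exists_matrix_expansion (K := K) X₀
  have hint := intertwiner_of_expansion A B u X hu (fun i => by rw [← hexp]; exact hX₀ i)
  -- the generic combination
  set Mgen : Matrix n n (MvPolynomial (Fin m) K) :=
    ∑ k, (MvPolynomial.X k : MvPolynomial (Fin m) K) • (X k).map (MvPolynomial.C) with hMgen
  set P : MvPolynomial (Fin m) K := Mgen.det with hP
  have hPu : MvPolynomial.aeval u P = X₀.det := by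
    rw [hP, AlgHom.map_det, hexp]
    congr 1
    rw [hMgen, map_sum]
    refine Finset.sum_congr rfl fun k _ => ?_
    ext a b
    simp [AlgHom.mapMatrix_apply, Matrix.map_apply, Matrix.smul_apply]
  have hP0 : P ≠ 0 := by
    intro h0
    rw [h0, map_zero] at hPu
    exact hdet hPu.symm
  have hx : ∃ x : Fin m → K, MvPolynomial.eval x P ≠ 0 := by
    by_contra hcon
    refine hP0 (MvPolynomial.funext fun x => ?_)
    rw [map_zero]
    by_contra hx
    exact hcon ⟨x, hx⟩
  obtain ⟨x, hx⟩ := hx
  refine ⟨∑ k, x k • X k, fun i => ?_, ?_⟩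
  · rw [Finset.sum_mul, Finset.mul_sum]
    refine Finset.sum_congr rfl fun k _ => ?_
    rw [Matrix.smul_mul, Matrix.mul_smul, hint i k]
  · have h1 : MvPolynomial.eval x P = (∑ k, x k • X k).det := by
      rw [hP, RingHom.map_det]
      congr 1
      rw [hMgen, map_sum]
      refine Finset.sum_congr rfl fun k _ => ?_
      ext a b
      simp [RingHom.mapMatrix_apply, Matrix.map_apply, Matrix.smul_apply]
    rw [← h1]
    exact hx

end Field

section Int

variable {n : Type*} [Fintype n] [DecidableEq n] {I : Type*}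

/-- **integral descent**: an invertible complex intertwiner of two families of integral matrices
can be replaced by an integral one with non-zero determinant. -/
theorem exists_int_intertwiner (A B : I → Matrix n n ℤ) (X₀ : Matrix n n ℂ)
    (hX₀ : ∀ i, X₀ * (A i).map (Int.cast : ℤ → ℂ) = (B i).map (Int.cast : ℤ → ℂ) * X₀)
    (hdet : X₀.det ≠ 0) :
    ∃ X : Matrix n n ℤ, (∀ i, X * A i = B i * X) ∧ X.det ≠ 0 := by
  classical
  have hmap : ∀ M : Matrix n n ℤ, (M.map (Int.cast : ℤ → ℚ)).map (algebraMap ℚ ℂ) =
      M.map (Int.cast : ℤ → ℂ) := by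
    intro M
    ext a b
    simp [Matrix.map_apply]
  obtain ⟨Y, hY, hYdet⟩ := exists_rat_intertwiner (K := ℚ) (L := ℂ)
    (fun i => (A i).map (Int.cast : ℤ → ℚ)) (fun i => (B i).map (Int.cast : ℤ → ℚ)) X₀
    (fun i => by rw [hmap, hmap]; exact hX₀ i) hdet
  -- clear denominators
  obtain ⟨d, hd⟩ := IsLocalization.exist_integer_multiples_of_finset (nonZeroDivisors ℤ)
    (Finset.univ.image fun ab : n × n => Y ab.1 ab.2)
  have hd0 : ((d : ℤ) : ℚ) ≠ 0 := by
    have := nonZeroDivisors.coe_ne_zero d
    exact_mod_cast this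
  have hent : ∀ a b, ∃ z : ℤ, (z : ℚ) = (d : ℤ) * Y a b := by
    intro a b
    obtain ⟨z, hz⟩ := hd (Y a b) (Finset.mem_image.mpr ⟨(a, b), Finset.mem_univ _, rfl⟩)
    refine ⟨z, ?_⟩
    have h1 : ((d : ℤ) : ℚ) * Y a b = (d : ℤ) • Y a b := by rw [zsmul_eq_mul]
    rw [h1, ← hz]
    rfl
  choose Z hZ using hent
  have hZY : (Matrix.of Z).map (Int.cast : ℤ → ℚ) = ((d : ℤ) : ℚ) • Y := by
    ext a b
    rw [Matrix.map_apply, Matrix.of_apply, hZ, Matrix.smul_apply, smul_eq_mul]
  have hinj : Function.Injective fun M : Matrix n n ℤ => M.map (Int.cast : ℤ → ℚ) := by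
    intro M M' h
    ext a b
    have := congrFun (congrFun h a) b
    simpa [Matrix.map_apply] using this
  refine ⟨Matrix.of Z, fun i => ?_, ?_⟩
  · apply hinj
    show (Matrix.of Z * A i).map (Int.cast : ℤ → ℚ) = (B i * Matrix.of Z).map (Int.cast : ℤ → ℚ)
    have e1 : (Matrix.of Z * A i).map (Int.cast : ℤ → ℚ) =
        (Matrix.of Z).map (Int.cast : ℤ → ℚ) * (A i).map (Int.cast : ℤ → ℚ) :=
      Matrix.map_mul (f := Int.castRingHom ℚ)
    have e2 : (B i * Matrix.of Z).map (Int.cast : ℤ → ℚ) =
        (B i).map (Int.cast : ℤ → ℚ) * (Matrix.of Z).map (Int.cast : ℤ → ℚ) :=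
      Matrix.map_mul (f := Int.castRingHom ℚ)
    rw [e1, e2, hZY, Matrix.smul_mul, Matrix.mul_smul, hY i]
  · intro h0
    have h1 : ((Matrix.of Z).map (Int.cast : ℤ → ℚ)).det = 0 := by
      have := (Int.castRingHom ℚ).map_det (Matrix.of Z)
      rw [RingHom.mapMatrix_apply] at this
      rw [show ((Matrix.of Z).map (Int.cast : ℤ → ℚ)) = (Matrix.of Z).map ⇑(Int.castRingHom ℚ) from rfl,
        ← this, h0, map_zero]
    rw [hZY, Matrix.det_smul] at h1
    rcases mul_eq_zero.mp h1 with h2 | h2
    · exact hd0 (pow_eq_zero_iff (M₀ := ℚ) (a := ((d : ℤ) : ℚ)) (n := Fintype.card n)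
        (fun hc => by
          rw [hc, pow_zero] at h2
          exact one_ne_zero h2) |>.mp h2)
    · exact hYdet h2

end Int

end Fermat.Agent.MZ
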