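/-
MZ (branch-only), block (FIN-c)/(ES±), part 2 (helper5): the descent of `ESPM_helper5_Desc` in
linear-map form.  `H` a finite free `ℤ`-module, `V = ℂ ⊗ H`; an injective `ℂ`-linear `Φ : V → V`
intertwining the complexifications of two families of endomorphisms of `H` can be replaced by an
injective `ℤ`-linear `E : H → H` intertwining the families themselves.  Mathlib only.
-/
import Mathlib
import Fermat.Agent.MZ.ESPM_helper5_Desc

set_option autoImplicit false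
set_option linter.unusedSectionVars false

namespace Fermat.Agent.MZ

open Module TensorProduct

theorem exists_int_intertwiner_lin {H V : Type*} [AddCommGroup H] [Module.Free ℤ H]
    [Module.Finite ℤ H] [AddCommGroup V] [Module ℂ V] (e : ℂ ⊗[ℤ] H ≃ₗ[ℂ] V) {I : Type*}
    (g h : I → Module.End ℤ H) (g' h' : I → Module.End ℂ V)
    (hg : ∀ i x, g' i (e ((1 : ℂ) ⊗ₜ[ℤ] x)) = e ((1 : ℂ) ⊗ₜ[ℤ] g i x))
    (hh : ∀ i x, h' i (e ((1 : ℂ) ⊗ₜ[ℤ] x)) = e ((1 : ℂ) ⊗ₜ[ℤ] h i x))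
    (Φ : V →ₗ[ℂ] V) (hΦ : Function.Injective Φ) (hΦg : ∀ i, Φ ∘ₗ g' i = h' i ∘ₗ Φ) :
    ∃ E : H →ₗ[ℤ] H, Function.Injective E ∧ ∀ i, E ∘ₗ g i = h i ∘ₗ E := by
  classical
  let b : Basis (Module.Free.ChooseBasisIndex ℤ H) ℤ H := Module.Free.chooseBasis ℤ H
  let bC : Basis (Module.Free.ChooseBasisIndex ℤ H) ℂ V :=
    (Algebra.TensorProduct.basis ℂ b).map e
  have hbC : ∀ k, bC k = e ((1 : ℂ) ⊗ₜ[ℤ] b k) := by
    intro k
    show e ((Algebra.TensorProduct.basis ℂ b) k) = _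
    rw [Algebra.TensorProduct.basis_apply]
  have hrepr : ∀ (x : H) a, bC.repr (e ((1 : ℂ) ⊗ₜ[ℤ] x)) a = ((b.repr x a : ℤ) : ℂ) := by
    intro x a
    show ((Algebra.TensorProduct.basis ℂ b).map e).repr (e ((1 : ℂ) ⊗ₜ[ℤ] x)) a = _
    rw [Basis.map_repr, LinearEquiv.trans_apply, LinearEquiv.symm_apply_apply,
      Algebra.TensorProduct.basis_repr_tmul, one_smul]
    simp
  have hmat : ∀ (f : Module.End ℤ H) (f' : Module.End ℂ V),
      (∀ x, f' (e ((1 : ℂ) ⊗ₜ[ℤ] x)) = e ((1 : ℂ) ⊗ₜ[ℤ] f x)) →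
      LinearMap.toMatrix bC bC f' = (LinearMap.toMatrix b b f).map (Int.cast : ℤ → ℂ) := by
    intro f f' hf
    ext a c
    rw [LinearMap.toMatrix_apply, Matrix.map_apply, LinearMap.toMatrix_apply, hbC, hf, hrepr]
  haveI : FiniteDimensional ℂ V := Module.Finite.of_basis bC
  have hdet : (LinearMap.toMatrix bC bC Φ).det ≠ 0 := by
    rw [LinearMap.det_toMatrix]
    have := LinearEquiv.isUnit_det' (LinearEquiv.ofInjectiveEndo Φ hΦ)
    have h2 : ((LinearEquiv.ofInjectiveEndo Φ hΦ : V ≃ₗ[ℂ] V) : V →ₗ[ℂ] V) = Φ := by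
      ext x; rfl
    rw [h2] at this
    exact this.ne_zero
  obtain ⟨X, hX, hXdet⟩ := exists_int_intertwiner
    (fun i => LinearMap.toMatrix b b (g i)) (fun i => LinearMap.toMatrix b b (h i))
    (LinearMap.toMatrix bC bC Φ)
    (fun i => by
      show (LinearMap.toMatrix bC bC Φ) * ((LinearMap.toMatrix b b (g i)).map (Int.cast : ℤ → ℂ)) =
        ((LinearMap.toMatrix b b (h i)).map (Int.cast : ℤ → ℂ)) * (LinearMap.toMatrix bC bC Φ)
      rw [← hmat (g i) (g' i) (hg i), ← hmat (h i) (h' i) (hh i), ← LinearMap.toMatrix_comp,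
        ← LinearMap.toMatrix_comp, hΦg i])
    hdet
  refine ⟨Matrix.toLin b b X, ?_, fun i => ?_⟩
  · rw [injective_iff_map_eq_zero]
    intro x hx
    have h1 := LinearMap.toMatrix_mulVec_repr b b (Matrix.toLin b b X) x
    rw [LinearMap.toMatrix_toLin, hx, map_zero] at h1
    have h2 : (⇑(b.repr x) : _ → ℤ) = 0 := Matrix.eq_zero_of_mulVec_eq_zero hXdet h1
    have h3 : b.repr x = 0 := by
      ext a
      exact congrFun h2 a
    exact b.repr.map_eq_zero_iff.mp h3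
  · have e1 : Matrix.toLin b b X ∘ₗ g i = Matrix.toLin b b (X * LinearMap.toMatrix b b (g i)) := by
      rw [Matrix.toLin_mul b b b, Matrix.toLin_toMatrix]
    have e2 : h i ∘ₗ Matrix.toLin b b X = Matrix.toLin b b (LinearMap.toMatrix b b (h i) * X) := by
      rw [Matrix.toLin_mul b b b, Matrix.toLin_toMatrix]
    rw [e1, e2, hX i]

end Fermat.Agent.MZ
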