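/-
MZ (branch-only), block (FIN-c)/(ES±), part 3 (helper5): **(ES±)**.  On the lattice
`H = parabolicHoms ℤ (Gamma0 N) ℤ` there is an injective `ℤ`-linear endomorphism `E` commuting with
all Hecke operators `heckeParP N ℓ ℤ ℤ` (all primes `ℓ`, including `U_ℓ` for `ℓ ∣ N`) and
ANTI-commuting with the involution `charInvPar N ℤ`; in particular `E` maps the `-1`-eigenlattice
of the involution injectively and Hecke-equivariantly into the `+1`-eigenlattice (and vice versa).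

Over `ℂ` this is the swap of the two copies of `S₂(Γ₀(N))` in the Eichler–Shimura isomorphism
`periodHomPair` (S21); the descent to `ℤ` is `exists_int_intertwiner_lin`.
-/
import Mathlib
import Fermat.Agent.MZ.ESPM_helper5_Lin
import Fermat.Agent.GR.LATTICE_lead_Gal

set_option autoImplicit false
set_option linter.unusedSectionVars false
set_option linter.style.haveILetI false

namespace Fermat.Agent.MZ

open CongruenceSubgroup ModularCurve.Period TensorProduct Fermat.Agent.GR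
open scoped MatrixGroups

section Complex

variable (N : ℕ) [NeZero N]

/-- the Eichler–Shimura isomorphism `S₂ × S₂ ≃ Hom_par(Γ₀(N), ℂ)` (S21), bundled. -/
noncomputable def phpEquiv :
    (CuspForm (Gamma0 N) 2 × CuspForm (Gamma0 N) 2) ≃ₗ[ℂ] ↥(parabolicHoms ℂ (Gamma0 N) ℂ) :=
  LinearEquiv.ofBijective
    ((ModularCurve.periodHomPair N).codRestrict (parabolicHoms ℂ (Gamma0 N) ℂ)
      (fun fg => periodHomPair_mem_parabolicHoms fg.1 fg.2))
    ⟨fun x y hxy => periodHomPair_injective N (congrArg Subtype.val hxy), fun ψ => by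
      obtain ⟨f, g, hfg⟩ := exists_periodHomPair_eq N ψ.2
      exact ⟨(f, g), Subtype.ext hfg⟩⟩

@[simp] theorem coe_phpEquiv (f g : CuspForm (Gamma0 N) 2) :
    ((phpEquiv N (f, g) : ↥(parabolicHoms ℂ (Gamma0 N) ℂ)) : Additive (Gamma0 N) →+ ℂ) =
      ModularCurve.periodHomPair N (f, g) := rfl

/-- the swap of the two Eichler–Shimura factors, on `Hom_par(Γ₀(N), ℂ)`. -/
noncomputable def esSwap :
    ↥(parabolicHoms ℂ (Gamma0 N) ℂ) →ₗ[ℂ] ↥(parabolicHoms ℂ (Gamma0 N) ℂ) :=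
  ((phpEquiv N).symm.trans ((LinearEquiv.prodComm ℂ _ _).trans (phpEquiv N))).toLinearMap

theorem esSwap_phpEquiv (f g : CuspForm (Gamma0 N) 2) :
    esSwap N (phpEquiv N (f, g)) = phpEquiv N (g, f) := by
  show phpEquiv N ((LinearEquiv.prodComm ℂ _ _) ((phpEquiv N).symm (phpEquiv N (f, g)))) = _
  rw [LinearEquiv.symm_apply_apply]
  rfl

theorem esSwap_injective : Function.Injective (esSwap N) :=
  ((phpEquiv N).symm.trans ((LinearEquiv.prodComm ℂ _ _).trans (phpEquiv N))).injective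

theorem heckeParP_phpEquiv (ℓ : Nat.Primes) (f g : CuspForm (Gamma0 N) 2) :
    heckeParP N ℓ ℂ ℂ (phpEquiv N (f, g)) = phpEquiv N (heckeOpP N ℓ f, heckeOpP N ℓ g) := by
  apply Subtype.ext
  rw [coe_heckeParP, coe_phpEquiv, coe_phpEquiv, periodHomPair_heckeOpP]

theorem charInvPar_phpEquiv (f g : CuspForm (Gamma0 N) 2) :
    charInvPar N ℂ (phpEquiv N (f, g)) = phpEquiv N (f, -g) := by
  apply Subtype.ext
  rw [coe_charInvPar, coe_phpEquiv, coe_phpEquiv, charInvolution_periodHomPair]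

/-- the swap commutes with the Hecke operators. -/
theorem esSwap_heckeParP (ℓ : Nat.Primes) :
    esSwap N ∘ₗ heckeParP N ℓ ℂ ℂ = heckeParP N ℓ ℂ ℂ ∘ₗ esSwap N := by
  apply LinearMap.ext
  intro ψ
  obtain ⟨⟨f, g⟩, rfl⟩ := (phpEquiv N).surjective ψ
  rw [LinearMap.comp_apply, LinearMap.comp_apply, heckeParP_phpEquiv, esSwap_phpEquiv,
    esSwap_phpEquiv, heckeParP_phpEquiv]

/-- the swap anti-commutes with the involution. -/
theorem esSwap_charInvPar :
    esSwap N ∘ₗ charInvPar N ℂ = (-charInvPar N ℂ) ∘ₗ esSwap N := by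
  apply LinearMap.ext
  intro ψ
  obtain ⟨⟨f, g⟩, rfl⟩ := (phpEquiv N).surjective ψ
  rw [LinearMap.comp_apply, LinearMap.comp_apply, charInvPar_phpEquiv, esSwap_phpEquiv,
    esSwap_phpEquiv, LinearMap.neg_apply, charInvPar_phpEquiv, ← map_neg]
  congr 1
  ext <;> simp

end Complex

section Integral

variable (N : ℕ) [NeZero N]

/-- **(ES±), strong form**: an injective `ℤ`-linear endomorphism of `Hom_par(Γ₀(N), ℤ)` commuting
with all Hecke operators and anti-commuting with the involution `ι`. -/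
theorem exists_hecke_antiInvolutive :
    ∃ E : ↥(parabolicHoms ℤ (Gamma0 N) ℤ) →ₗ[ℤ] ↥(parabolicHoms ℤ (Gamma0 N) ℤ),
      Function.Injective E ∧
      (∀ (ℓ : Nat.Primes) (ψ : ↥(parabolicHoms ℤ (Gamma0 N) ℤ)),
        E (heckeParP N ℓ ℤ ℤ ψ) = heckeParP N ℓ ℤ ℤ (E ψ)) ∧
      (∀ ψ : ↥(parabolicHoms ℤ (Gamma0 N) ℤ), E (charInvPar N ℤ ψ) = -charInvPar N ℤ (E ψ)) := by
  have hmap : ∀ x : ↥(parabolicHoms ℤ (Gamma0 N) ℤ),
      parBC ℤ ℂ (Gamma0 N) ((1 : ℂ) ⊗ₜ[ℤ] x) = parMapAlg ℤ ℂ (Gamma0 N) x := by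
    intro x
    rw [parBC_tmul, one_smul]
  obtain ⟨E, hE, hEg⟩ := exists_int_intertwiner_lin (parBC ℤ ℂ (Gamma0 N))
    (I := Option Nat.Primes)
    (fun i => i.elim (charInvPar N ℤ) (fun ℓ => heckeParP N ℓ ℤ ℤ))
    (fun i => i.elim (-charInvPar N ℤ) (fun ℓ => heckeParP N ℓ ℤ ℤ))
    (fun i => i.elim (charInvPar N ℂ) (fun ℓ => heckeParP N ℓ ℂ ℂ))
    (fun i => i.elim (-charInvPar N ℂ) (fun ℓ => heckeParP N ℓ ℂ ℂ))
    (fun i x => by
      rw [hmap, hmap]
      cases i with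
      | none =>
        show charInvPar N ℂ (parMapAlg ℤ ℂ (Gamma0 N) x) = parMapAlg ℤ ℂ (Gamma0 N) (charInvPar N ℤ x)
        rw [← parExt_charInvPar N ℤ ℂ, parExt_parMapAlg]
      | some ℓ =>
        show heckeParP N ℓ ℂ ℂ (parMapAlg ℤ ℂ (Gamma0 N) x) =
          parMapAlg ℤ ℂ (Gamma0 N) (heckeParP N ℓ ℤ ℤ x)
        rw [← parExt_heckeParP N ℤ ℂ, parExt_parMapAlg])
    (fun i x => by
      rw [hmap, hmap]
      cases i with
      | none =>
        show (-charInvPar N ℂ) (parMapAlg ℤ ℂ (Gamma0 N) x) =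
          parMapAlg ℤ ℂ (Gamma0 N) ((-charInvPar N ℤ) x)
        rw [LinearMap.neg_apply, LinearMap.neg_apply, map_neg, ← parExt_charInvPar N ℤ ℂ,
          parExt_parMapAlg]
      | some ℓ =>
        show heckeParP N ℓ ℂ ℂ (parMapAlg ℤ ℂ (Gamma0 N) x) =
          parMapAlg ℤ ℂ (Gamma0 N) (heckeParP N ℓ ℤ ℤ x)
        rw [← parExt_heckeParP N ℤ ℂ, parExt_parMapAlg])
    (esSwap N) (esSwap_injective N)
    (fun i => by
      cases i with
      | none => exact esSwap_charInvPar N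
      | some ℓ => exact esSwap_heckeParP N ℓ)
  refine ⟨E, hE, fun ℓ ψ => ?_, fun ψ => ?_⟩
  · exact LinearMap.congr_fun (hEg (some ℓ)) ψ
  · exact LinearMap.congr_fun (hEg none) ψ

end Integral

end Fermat.Agent.MZ
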