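/-
MZ (S15, branch-only) — helper5 — block (FIN-c), part 1: **the abstract counts** (Mathlib only).

* `nMul H n` : the submodule `n H` of a `ℤ`-module `H`; endomorphisms descend to `H ⧸ nMul H n`
  (`quotEnd`);
* `card_ker_quotEnd_le` (Lemma T): for a torsion-free `H` and an injective endomorphism `E` with
  finite cokernel, the kernel of the induced endomorphism of `H / n H` has at most
  `card (H / E H)` elements, uniformly in `n`;
* `card_fixed_sq_le` (Lemma A): a finite subgroup `V` of an abelian group `X` stable under an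
  endomorphism `ε` which anti-commutes with an endomorphism `ι`:
  `card {v ∈ V | ι v = v} ^ 2 ≤ card (V ∩ ker ε) * card (V ∩ X[2]) * card V`.
-/
import Mathlib

set_option autoImplicit false
set_option linter.unusedSectionVars false
set_option linter.style.haveILetI false

namespace Fermat.Agent.MZ

section NMul

variable (H : Type*) [AddCommGroup H]

/-- the submodule `n H`. -/
def nMul (n : ℕ) : Submodule ℤ H :=
  LinearMap.range ((n : ℤ) • (LinearMap.id : H →ₗ[ℤ] H))

variable {H}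

theorem mem_nMul {n : ℕ} {x : H} : x ∈ nMul H n ↔ ∃ y : H, n • y = x := by
  unfold nMul
  rw [LinearMap.mem_range]
  constructor
  · rintro ⟨y, rfl⟩
    exact ⟨y, by simp⟩
  · rintro ⟨y, rfl⟩
    exact ⟨y, by simp⟩

theorem nMul_le_comap (n : ℕ) (f : H →ₗ[ℤ] H) : nMul H n ≤ (nMul H n).comap f := by
  intro x hx
  rw [mem_nMul] at hx
  obtain ⟨y, rfl⟩ := hx
  rw [Submodule.mem_comap, mem_nMul]
  exact ⟨f y, by rw [map_nsmul]⟩

/-- the endomorphism of `H / n H` induced by an endomorphism of `H`. -/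
def quotEnd (n : ℕ) (f : H →ₗ[ℤ] H) : (H ⧸ nMul H n) →ₗ[ℤ] (H ⧸ nMul H n) :=
  (nMul H n).mapQ (nMul H n) f (nMul_le_comap n f)

@[simp] theorem quotEnd_mk (n : ℕ) (f : H →ₗ[ℤ] H) (x : H) :
    quotEnd n f (Submodule.Quotient.mk x) = Submodule.Quotient.mk (f x) := rfl

theorem quotEnd_comp (n : ℕ) (f g : H →ₗ[ℤ] H) :
    quotEnd n (f ∘ₗ g) = quotEnd n f ∘ₗ quotEnd n g := by
  apply LinearMap.ext
  intro ξ
  obtain ⟨x, rfl⟩ := Submodule.Quotient.mk_surjective _ ξ
  rfl

theorem quotEnd_neg (n : ℕ) (f : H →ₗ[ℤ] H) : quotEnd n (-f) = -quotEnd n f := by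
  apply LinearMap.ext
  intro ξ
  obtain ⟨x, rfl⟩ := Submodule.Quotient.mk_surjective _ ξ
  rfl

theorem quotEnd_sub (n : ℕ) (f g : H →ₗ[ℤ] H) : quotEnd n (f - g) = quotEnd n f - quotEnd n g := by
  apply LinearMap.ext
  intro ξ
  obtain ⟨x, rfl⟩ := Submodule.Quotient.mk_surjective _ ξ
  rfl

theorem quotEnd_smul_one (n : ℕ) (e : ℤ) :
    quotEnd n (e • (1 : Module.End ℤ H)) = e • (1 : Module.End ℤ (H ⧸ nMul H n)) := by
  apply LinearMap.ext
  intro ξ
  obtain ⟨x, rfl⟩ := Submodule.Quotient.mk_surjective _ ξ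
  rfl

theorem quotEnd_pow (n : ℕ) (f : Module.End ℤ H) (m : ℕ) :
    quotEnd n (f ^ m) = (quotEnd n f : Module.End ℤ (H ⧸ nMul H n)) ^ m := by
  induction m with
  | zero =>
    apply LinearMap.ext
    intro ξ
    obtain ⟨x, rfl⟩ := Submodule.Quotient.mk_surjective _ ξ
    rfl
  | succ m ih =>
    rw [pow_succ, pow_succ, ← ih]
    exact quotEnd_comp n (f ^ m) f

/-- **Lemma T**: the kernel of the endomorphism of `H / n H` induced by an injective `E` with
finite cokernel is bounded by the cokernel, uniformly in `n`. -/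
theorem card_ker_quotEnd_le [IsAddTorsionFree H] (E : H →ₗ[ℤ] H) (hE : Function.Injective E)
    [Finite (H ⧸ LinearMap.range E)] (n : ℕ) :
    Nat.card (LinearMap.ker (quotEnd n E)) ≤ Nat.card (H ⧸ LinearMap.range E) := by
  have h1 : ∀ ξ : LinearMap.ker (quotEnd n E), ∃ x y : H,
      (Submodule.Quotient.mk x : H ⧸ nMul H n) = ξ.1 ∧ n • y = E x := by
    intro ξ
    obtain ⟨x, hx⟩ := Submodule.Quotient.mk_surjective _ ξ.1
    have h2 : quotEnd n E ξ.1 = 0 := ξ.2
    rw [← hx, quotEnd_mk, Submodule.Quotient.mk_eq_zero, mem_nMul] at h2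
    obtain ⟨y, hy⟩ := h2
    exact ⟨x, y, hx, hy⟩
  choose x y hx hy using h1
  refine Nat.card_le_card_of_injective
    (fun ξ => (Submodule.Quotient.mk (y ξ) : H ⧸ LinearMap.range E)) ?_
  intro ξ ξ' h
  have h2 : y ξ - y ξ' ∈ LinearMap.range E := (Submodule.Quotient.eq _).mp h
  obtain ⟨h', hh'⟩ := h2
  have h3 : E (x ξ - x ξ') = E (n • h') := by
    rw [map_sub, ← hy, ← hy, map_nsmul, hh', smul_sub]
  have h4 : x ξ - x ξ' = n • h' := hE h3
  apply Subtype.ext
  rw [← hx ξ, ← hx ξ', Submodule.Quotient.eq, mem_nMul]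
  exact ⟨h', h4.symm⟩

end NMul

section LemmaA

variable {X : Type*} [AddCommGroup X]

/-- **Lemma A.** -/
theorem card_fixed_sq_le (V : AddSubgroup X) [Finite V] (ι ε : X →+ X)
    (hεV : ∀ v ∈ V, ε v ∈ V) (hει : ∀ v ∈ V, ε (ι v) = -ι (ε v))
    (c c₂ : ℕ) (hc : Nat.card {v : V // ε v.1 = 0} ≤ c)
    (hc₂ : Nat.card {v : V // (2 : ℕ) • v.1 = 0} ≤ c₂) :
    Nat.card {v : V // ι v.1 = v.1} ^ 2 ≤ c * c₂ * Nat.card V := by
  classical
  -- the subgroups `V⁺`, `V⁻` of `V`
  let Vp : AddSubgroup V :=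
    { carrier := {v | ι v.1 = v.1}
      zero_mem' := by simp
      add_mem' := fun {a b} ha hb => by
        show ι ((a + b : V) : X) = ((a + b : V) : X)
        rw [AddSubgroup.coe_add, map_add, ha, hb]
      neg_mem' := fun {a} ha => by
        show ι ((-a : V) : X) = ((-a : V) : X)
        rw [AddSubgroup.coe_neg, map_neg, ha] }
  let Vm : AddSubgroup V :=
    { carrier := {v | ι v.1 = -v.1}
      zero_mem' := by simp
      add_mem' := fun {a b} ha hb => by
        show ι ((a + b : V) : X) = -((a + b : V) : X)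
        rw [AddSubgroup.coe_add, map_add, ha, hb, neg_add]
      neg_mem' := fun {a} ha => by
        show ι ((-a : V) : X) = -((-a : V) : X)
        rw [AddSubgroup.coe_neg, map_neg, ha] }
  have hcardp : Nat.card {v : V // ι v.1 = v.1} = Nat.card Vp := rfl
  -- `ε : V⁺ → V⁻`
  let εp : Vp →+ Vm :=
    { toFun := fun v => ⟨⟨ε v.1.1, hεV _ v.1.2⟩, by
        show ι (ε v.1.1) = -ε v.1.1
        have h1 := hει v.1.1 v.1.2
        have h2 : ι v.1.1 = v.1.1 := v.2
        rw [h2] at h1
        exact (neg_eq_iff_eq_neg.mpr h1).symm⟩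
      map_zero' := by
        apply Subtype.ext; apply Subtype.ext
        show ε ((0 : V) : X) = 0
        rw [AddSubgroup.coe_zero, map_zero]
      map_add' := fun a b => by
        apply Subtype.ext; apply Subtype.ext
        show ε (((a + b : Vp) : V) : X) = ε a.1.1 + ε b.1.1
        rw [AddSubgroup.coe_add, AddSubgroup.coe_add, map_add] }
  have hker : Nat.card εp.ker ≤ c := by
    refine le_trans (Nat.card_le_card_of_injective
      (fun z : εp.ker => (⟨z.1.1, by
        have h := z.2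
        rw [AddMonoidHom.mem_ker] at h
        exact congrArg (fun w : Vm => (w.1 : X)) h⟩ : {v : V // ε v.1 = 0})) ?_) hc
    intro z z' h
    apply Subtype.ext; apply Subtype.ext
    exact congrArg (fun w : {v : V // ε v.1 = 0} => w.1) h
  have h1 : Nat.card Vp ≤ c * Nat.card Vm := by
    have h2 : Nat.card Vp = Nat.card εp.ker * Nat.card εp.range := by
      rw [← AddSubgroup.index_ker, AddSubgroup.card_mul_index]
    rw [h2]
    exact Nat.mul_le_mul hker (Nat.card_le_card_of_injective _ Subtype.val_injective)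
  -- the sum map `V⁺ × V⁻ → V`
  let μ : Vp × Vm →+ V := (Vp.subtype).coprod (Vm.subtype)
  have hμker : Nat.card μ.ker ≤ c₂ := by
    refine le_trans (Nat.card_le_card_of_injective
      (fun z : μ.ker => (⟨z.1.1.1, by
        have h := z.2
        rw [AddMonoidHom.mem_ker] at h
        have h3 : (z.1.1.1 : V) + z.1.2.1 = 0 := h
        have h4 : ι (z.1.1.1 : X) = z.1.1.1 := z.1.1.2
        have h5 : ι (z.1.2.1 : X) = -z.1.2.1 := z.1.2.2
        have h6 : (z.1.2.1 : V) = -z.1.1.1 := eq_neg_of_add_eq_zero_right h3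
        rw [h6, AddSubgroup.coe_neg, map_neg, h4, neg_neg] at h5
        rw [two_nsmul]
        nth_rewrite 1 [← h5]
        exact neg_add_cancel _⟩ : {v : V // (2 : ℕ) • v.1 = 0})) ?_) hc₂
    intro z z' h
    have h1 : z.1.1.1 = z'.1.1.1 := congrArg (fun w : {v : V // (2 : ℕ) • v.1 = 0} => w.1) h
    have hz := z.2
    have hz' := z'.2
    rw [AddMonoidHom.mem_ker] at hz hz'
    have h3 : (z.1.1.1 : V) + z.1.2.1 = 0 := hz
    have h3' : (z'.1.1.1 : V) + z'.1.2.1 = 0 := hz'
    have h2 : z.1.2.1 = z'.1.2.1 := by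
      rw [eq_neg_of_add_eq_zero_right h3, eq_neg_of_add_eq_zero_right h3', h1]
    apply Subtype.ext
    exact Prod.ext (Subtype.ext h1) (Subtype.ext h2)
  have h2 : Nat.card Vp * Nat.card Vm ≤ c₂ * Nat.card V := by
    have h3 : Nat.card (Vp × Vm) = Nat.card μ.ker * Nat.card μ.range := by
      rw [← AddSubgroup.index_ker, AddSubgroup.card_mul_index]
    rw [← Nat.card_prod, h3]
    exact Nat.mul_le_mul hμker (Nat.card_le_card_of_injective _ Subtype.val_injective)
  rw [hcardp, sq]
  calc Nat.card Vp * Nat.card Vp ≤ Nat.card Vp * (c * Nat.card Vm) := Nat.mul_le_mul_left _ h1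
    _ = c * (Nat.card Vp * Nat.card Vm) := by ring
    _ ≤ c * (c₂ * Nat.card V) := Nat.mul_le_mul_left _ h2
    _ = c * c₂ * Nat.card V := by ring

end LemmaA

end Fermat.Agent.MZ
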