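/-
MZ (S15, branch-only) — helper5 — block (FIN-c), part 2: **the lattice count** (Mathlib + D3).

`H` a free `ℤ`-module of finite rank with commuting-type data: operators `θ i`, an endomorphism
`inv` and an **injective** endomorphism `E` commuting with the `θ i` and anti-commuting with `inv`.
Then, uniformly in `n ≠ 0`, on the `e`-primary part `Y_n` of `H / n H`:
`card {y ∈ Y_n | inv y = y} ^ 2 ≤ r ^ B * card Y_n`.
-/
import Fermat.Agent.MZ.FINC_helper5_Count
import Fermat.Agent.MZ.D3_helper4_PrimPart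

set_option autoImplicit false
set_option linter.unusedSectionVars false
set_option linter.style.haveILetI false

namespace Fermat.Agent.MZ

section Lattice

variable {H : Type*} [AddCommGroup H] [Module.Free ℤ H] [Module.Finite ℤ H]

theorem finite_quot_range_of_injective (E : Module.End ℤ H) (hE : Function.Injective E) :
    Finite (H ⧸ LinearMap.range E) :=
  Submodule.finiteQuotientOfFreeOfRankEq _ (LinearMap.finrank_range_of_inj hE)

theorem injective_zsmul_id (m : ℤ) (hm : m ≠ 0) :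
    Function.Injective ((m • (LinearMap.id : H →ₗ[ℤ] H)) : H →ₗ[ℤ] H) := by
  intro x y h
  have h1 : m • x = m • y := h
  exact smul_right_injective H hm h1

theorem finite_quot_nMul (n : ℕ) (hn : n ≠ 0) : Finite (H ⧸ nMul H n) :=
  finite_quot_range_of_injective _ (injective_zsmul_id (n : ℤ) (by exact_mod_cast hn))

theorem commute_quotEnd (n : ℕ) (f g : Module.End ℤ H) (h : ∀ x, f (g x) = g (f x)) :
    Commute (quotEnd n f : Module.End ℤ (H ⧸ nMul H n)) (quotEnd n g) := by
  apply LinearMap.ext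
  intro ξ
  obtain ⟨x, rfl⟩ := Submodule.Quotient.mk_surjective _ ξ
  show quotEnd n f (quotEnd n g (Submodule.Quotient.mk x)) =
    quotEnd n g (quotEnd n f (Submodule.Quotient.mk x))
  rw [quotEnd_mk, quotEnd_mk, quotEnd_mk, quotEnd_mk, h]

/-- **Lemma L** (the lattice count). -/
theorem lattice_count {ι : Type*} (θ : ι → Module.End ℤ H) (e : ι → ℤ) (inv E : Module.End ℤ H)
    (hE : Function.Injective E) (hEθ : ∀ i x, E (θ i x) = θ i (E x))
    (hEinv : ∀ x, E (inv x) = -inv (E x)) (r : ℕ) (hr : 2 ≤ r) :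
    ∃ B : ℕ, ∀ n : ℕ, n ≠ 0 →
      Nat.card {y : ↥(primPart (fun i => (quotEnd n (θ i) : Module.End ℤ (H ⧸ nMul H n))) e) //
        quotEnd n inv y.1 = y.1} ^ 2 ≤
        r ^ B * Nat.card ↥(primPart (fun i => (quotEnd n (θ i) : Module.End ℤ (H ⧸ nMul H n))) e) := by
  classical
  haveI hfinE : Finite (H ⧸ LinearMap.range E) := finite_quot_range_of_injective E hE
  have h2inj : Function.Injective ((((2 : ℕ) : ℤ) • (LinearMap.id : H →ₗ[ℤ] H)) : H →ₗ[ℤ] H) :=
    injective_zsmul_id _ (by norm_num)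
  haveI hfin2 : Finite (H ⧸ LinearMap.range
      ((((2 : ℕ) : ℤ) • (LinearMap.id : H →ₗ[ℤ] H)) : H →ₗ[ℤ] H)) :=
    finite_quot_range_of_injective _ h2inj
  haveI : IsAddTorsionFree H := Module.isTorsionFree_int_iff_isAddTorsionFree.mp inferInstance
  set c := Nat.card (H ⧸ LinearMap.range E) with hc
  set c₂ := Nat.card (H ⧸ LinearMap.range
      ((((2 : ℕ) : ℤ) • (LinearMap.id : H →ₗ[ℤ] H)) : H →ₗ[ℤ] H)) with hc₂
  refine ⟨c * c₂, fun n hn => ?_⟩
  haveI : Finite (H ⧸ nMul H n) := finite_quot_nMul n hn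
  set Y := primPart (fun i => (quotEnd n (θ i) : Module.End ℤ (H ⧸ nMul H n))) e with hY
  have hcomm : ∀ i, Commute (quotEnd n E : Module.End ℤ (H ⧸ nMul H n)) (quotEnd n (θ i)) :=
    fun i => commute_quotEnd n E (θ i) (hEθ i)
  have hA := card_fixed_sq_le (X := H ⧸ nMul H n) Y.toAddSubgroup
    (quotEnd n inv).toAddMonoidHom (quotEnd n E).toAddMonoidHom
    (fun v hv => map_mem_primPart (quotEnd n E) hcomm hv)
    (fun v _ => by
      obtain ⟨x, rfl⟩ := Submodule.Quotient.mk_surjective _ v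
      show quotEnd n E (quotEnd n inv (Submodule.Quotient.mk x)) =
        -quotEnd n inv (quotEnd n E (Submodule.Quotient.mk x))
      rw [quotEnd_mk, quotEnd_mk, quotEnd_mk, quotEnd_mk, hEinv]
      rfl)
    c c₂ ?_ ?_
  · refine le_trans hA (Nat.mul_le_mul_right _ ?_)
    calc c * c₂ ≤ 2 ^ (c * c₂) := (Nat.lt_pow_self (by norm_num)).le
      _ ≤ r ^ (c * c₂) := Nat.pow_le_pow_left hr _
  · refine le_trans ?_ (card_ker_quotEnd_le E hE n)
    refine Nat.card_le_card_of_injective
      (fun v => (⟨v.1.1, v.2⟩ : LinearMap.ker (quotEnd n E))) ?_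
    intro v v' h
    apply Subtype.ext; apply Subtype.ext
    exact congrArg (fun w : LinearMap.ker (quotEnd n E) => (w : H ⧸ nMul H n)) h
  · have h3 := card_ker_quotEnd_le (((2 : ℕ) : ℤ) • (LinearMap.id : H →ₗ[ℤ] H)) h2inj n
    refine le_trans ?_ h3
    refine Nat.card_le_card_of_injective
      (fun v => (⟨v.1.1, ?_⟩ : LinearMap.ker
        (quotEnd n (((2 : ℕ) : ℤ) • (LinearMap.id : H →ₗ[ℤ] H))))) ?_
    · rw [LinearMap.mem_ker]
      have h4 := v.2
      obtain ⟨x, hx⟩ := Submodule.Quotient.mk_surjective _ v.1.1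
      rw [← hx] at h4 ⊢
      rw [quotEnd_mk]
      rw [← h4]
      simp
    · intro v v' h
      apply Subtype.ext; apply Subtype.ext
      exact congrArg (fun w : LinearMap.ker
        (quotEnd n (((2 : ℕ) : ℤ) • (LinearMap.id : H →ₗ[ℤ] H))) => (w : H ⧸ nMul H n)) h

end Lattice

end Fermat.Agent.MZ
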