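/-
MZ (S15, branch-only) — helper5 — block (FIN-c), part 3: **abstract transport** (Mathlib + D3).

Two injections `κ : U → A`, `ρ : X → A` with the same range, intertwining operators `T i` (on the
ambient `J ⊇ U`) resp. `Θ i` (on `X`) with the same operators on `A`, and an endomorphism `cc`
resp. `ιX` with `-𝕀` resp. `𝕀`.  Then the `e`-primary parts and their `cc = -1` resp. `ιX = 1`
eigen-subsets have the same cardinalities.
-/
import Fermat.Agent.MZ.D3_helper4_PrimPart

set_option autoImplicit false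
set_option linter.unusedSectionVars false
set_option linter.style.haveILetI false

namespace Fermat.Agent.MZ

section Transport

variable {J X A : Type*} [AddCommGroup J] [AddCommGroup X] [AddCommGroup A] {ι : Type*}

/-- the comparison isomorphism. -/
noncomputable def transEquiv (U : Submodule ℤ J) (κ : ↥U →+ A) (ρ : X →+ A)
    (hκ : Function.Injective κ) (hρ : Function.Injective ρ) (hr : κ.range = ρ.range) : ↥U ≃+ X :=
  (AddMonoidHom.ofInjective hκ).trans
    ((AddEquiv.addSubgroupCongr hr).trans (AddMonoidHom.ofInjective hρ).symm)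

theorem rho_transEquiv (U : Submodule ℤ J) (κ : ↥U →+ A) (ρ : X →+ A)
    (hκ : Function.Injective κ) (hρ : Function.Injective ρ) (hr : κ.range = ρ.range) (u : ↥U) :
    ρ (transEquiv U κ ρ hκ hρ hr u) = κ u := by
  unfold transEquiv
  rw [AddEquiv.trans_apply, AddEquiv.trans_apply, AddMonoidHom.apply_ofInjective_symm]
  rfl

/-- a semiconjugacy passes to powers. -/
theorem semiconj_pow {M N : Type*} [AddCommGroup M] [AddCommGroup N] (β : M →+ N)
    (f : Module.End ℤ M) (g : Module.End ℤ N) (h : ∀ x, β (f x) = g (β x)) (m : ℕ) (x : M) :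
    β ((f ^ m) x) = (g ^ m) (β x) := by
  induction m generalizing x with
  | zero => rfl
  | succ m ih =>
    rw [pow_succ, pow_succ, Module.End.mul_apply, Module.End.mul_apply, ih, h]

/-- **transport of the primary part and of the eigen-subsets**. -/
theorem transport_card (U : Submodule ℤ J) (T : ι → Module.End ℤ J)
    (hT : ∀ i, ∀ u ∈ U, T i u ∈ U) (cc : J →+ J) (hcc : ∀ u ∈ U, cc u ∈ U)
    (Θ : ι → Module.End ℤ X) (ιX : X →+ X) (𝕋 : ι → A →+ A) (𝕀 : A →+ A)
    (κ : ↥U →+ A) (ρ : X →+ A) (hκ : Function.Injective κ) (hρ : Function.Injective ρ)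
    (hr : κ.range = ρ.range)
    (hκT : ∀ i (u : ↥U), κ ⟨T i u.1, hT i u.1 u.2⟩ = 𝕋 i (κ u))
    (hρT : ∀ i x, ρ (Θ i x) = 𝕋 i (ρ x))
    (hκc : ∀ u : ↥U, κ ⟨cc u.1, hcc u.1 u.2⟩ = -𝕀 (κ u))
    (hρι : ∀ x, ρ (ιX x) = 𝕀 (ρ x)) (e : ι → ℤ) :
    Nat.card ↥(primIn T e U) = Nat.card ↥(primPart Θ e) ∧
      Nat.card {w : ↥(primIn T e U) // cc w.1 = -w.1} =
        Nat.card {y : ↥(primPart Θ e) // ιX y.1 = y.1} := by
  classical
  set β := transEquiv U κ ρ hκ hρ hr with hβ
  have hρβ : ∀ u, ρ (β u) = κ u := rho_transEquiv U κ ρ hκ hρ hr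
  -- `β` intertwines the operators
  have hβT : ∀ i (u : ↥U), β (restrSub U (T i) (hT i) u) = Θ i (β u) := by
    intro i u
    apply hρ
    rw [hρβ, hρT, hρβ]
    exact hκT i u
  have hβc : ∀ u : ↥U, β ⟨cc u.1, hcc u.1 u.2⟩ = -ιX (β u) := by
    intro u
    apply hρ
    rw [hρβ, map_neg, hρι, hρβ]
    exact hκc u
  have hβsub : ∀ i (u : ↥U), β ((restrSub U (T i) (hT i) - e i • (1 : Module.End ℤ ↥U)) u) =
      (Θ i - e i • (1 : Module.End ℤ X)) (β u) := by
    intro i u
    rw [LinearMap.sub_apply, LinearMap.sub_apply, map_sub, hβT, LinearMap.smul_apply,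
      LinearMap.smul_apply, map_zsmul]
    rfl
  have hmem : ∀ u : ↥U, (u : J) ∈ primIn T e U ↔ β u ∈ primPart Θ e := by
    intro u
    rw [← mem_primPart_restrSub hT u, mem_primPart, mem_primPart]
    refine forall_congr' fun i => exists_congr fun m => ?_
    have h1 : β (((restrSub U (T i) (hT i) - e i • (1 : Module.End ℤ ↥U)) ^ m) u) =
        ((Θ i - e i • (1 : Module.End ℤ X)) ^ m) (β u) :=
      semiconj_pow β.toAddMonoidHom
        (restrSub U (T i) (hT i) - e i • (1 : Module.End ℤ ↥U))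
        (Θ i - e i • (1 : Module.End ℤ X)) (hβsub i) m u
    constructor
    · intro h
      rw [h] at h1
      rw [← h1]
      exact map_zero _
    · intro h
      apply β.injective
      rw [map_zero]
      exact h1.trans h
  -- the bijection of the primary parts
  let f : ↥(primIn T e U) → ↥(primPart Θ e) :=
    fun w => ⟨β ⟨w.1, primIn_le T e U w.2⟩, (hmem ⟨w.1, primIn_le T e U w.2⟩).mp w.2⟩
  have hfinj : Function.Injective f := by
    intro w w' h
    have h1 : β ⟨w.1, primIn_le T e U w.2⟩ = β ⟨w'.1, primIn_le T e U w'.2⟩ :=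
      congrArg Subtype.val h
    have h2 := β.injective h1
    exact Subtype.ext (congrArg (fun z : ↥U => (z : J)) h2)
  have hfsurj : Function.Surjective f := by
    intro y
    have h1 : ((β.symm y.1 : ↥U) : J) ∈ primIn T e U := by
      rw [hmem, AddEquiv.apply_symm_apply]
      exact y.2
    refine ⟨⟨(β.symm y.1 : ↥U).1, h1⟩, ?_⟩
    apply Subtype.ext
    show β ⟨(β.symm y.1 : ↥U).1, _⟩ = y.1
    exact AddEquiv.apply_symm_apply β y.1
  have hfc : ∀ w : ↥(primIn T e U), cc w.1 = -w.1 ↔ ιX (f w).1 = (f w).1 := by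
    intro w
    have h1 := hβc ⟨w.1, primIn_le T e U w.2⟩
    constructor
    · intro h
      have h2 : (⟨cc w.1, hcc w.1 (primIn_le T e U w.2)⟩ : ↥U) = -⟨w.1, primIn_le T e U w.2⟩ :=
        Subtype.ext h
      rw [h2, map_neg, neg_inj] at h1
      exact h1.symm
    · intro h
      have h3 : ιX (β ⟨w.1, primIn_le T e U w.2⟩) = β ⟨w.1, primIn_le T e U w.2⟩ := h
      rw [h3, ← map_neg] at h1
      have h4 := β.injective h1
      exact congrArg Subtype.val h4
  refine ⟨Nat.card_eq_of_bijective f ⟨hfinj, hfsurj⟩, ?_⟩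
  refine Nat.card_eq_of_bijective
    (fun w => (⟨f w.1, (hfc w.1).mp w.2⟩ : {y : ↥(primPart Θ e) // ιX y.1 = y.1})) ⟨?_, ?_⟩
  · intro w w' h
    apply Subtype.ext
    apply hfinj
    exact congrArg Subtype.val h
  · intro y
    obtain ⟨w, hw⟩ := hfsurj y.1
    refine ⟨⟨w, (hfc w).mpr ?_⟩, ?_⟩
    · rw [hw]
      exact y.2
    · apply Subtype.ext
      exact hw

end Transport

end Fermat.Agent.MZ
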