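/-
MZ (S15, branch-only) — helper5 — block (FIN-c), part 4: **the bridge** `tateTors p r k ≅ H / r^k H`,
`H = parabolicHoms ℤ (Gamma0 p) ℤ`, through the Kummer pairing data `KapData` of `stageIData`.
-/
import Mathlib
import Fermat.Agent.MZ.ESPM_helper5_Main
import Fermat.Agent.MZ.WK_helper4_Def
import Fermat.Agent.MZ.FINC_helper5_Lattice
import Fermat.Agent.MZ.FINC_helper5_Transport

set_option autoImplicit false
set_option linter.unusedSectionVars false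
set_option linter.unusedVariables false
set_option linter.style.haveILetI false

namespace Fermat.Agent.MZ

open CongruenceSubgroup ModularCurve ModularCurve.Period TensorProduct Fermat.Agent.GR
open scoped MatrixGroups

local notation "Ω" => AlgebraicClosure ℚ
local notation "GQ" => (AlgebraicClosure ℚ ≃ₐ[ℚ] AlgebraicClosure ℚ)

section Red

variable (p : ℕ) [NeZero p] (n : ℕ)

/-- reduction mod `n` of the integral parabolic homomorphisms. -/
def redPar : ↥(parabolicHoms ℤ (Gamma0 p) ℤ) →ₗ[ℤ] (Additive (Gamma0 p) →+ ZMod n) where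
  toFun ψ := (Int.castAddHom (ZMod n)).comp ψ.1
  map_add' ψ ψ' := by
    refine AddMonoidHom.ext fun γ => ?_
    show ((ψ.1 γ + ψ'.1 γ : ℤ) : ZMod n) = (ψ.1 γ : ZMod n) + (ψ'.1 γ : ZMod n)
    push_cast
    rfl
  map_smul' c ψ := by
    refine AddMonoidHom.ext fun γ => ?_
    show ((c • ψ.1 γ : ℤ) : ZMod n) = c • ((ψ.1 γ : ℤ) : ZMod n)
    rw [smul_eq_mul, zsmul_eq_mul]
    push_cast
    rfl

@[simp] theorem redPar_apply (ψ : ↥(parabolicHoms ℤ (Gamma0 p) ℤ)) (γ : Additive (Gamma0 p)) :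
    redPar p n ψ γ = ((ψ.1 γ : ℤ) : ZMod n) := rfl

theorem redPar_eq_zero_iff (hn : n ≠ 0) (ψ : ↥(parabolicHoms ℤ (Gamma0 p) ℤ)) :
    redPar p n ψ = 0 ↔ ψ ∈ nMul ↥(parabolicHoms ℤ (Gamma0 p) ℤ) n := by
  constructor
  · intro h
    have hinj : Function.Injective fun a : ℤ => ((n : ℕ) : ℤ) • a := by
      intro a b hab
      have hn' : ((n : ℕ) : ℤ) ≠ 0 := by exact_mod_cast hn
      exact mul_left_cancel₀ hn' hab
    obtain ⟨ψ', hψ'⟩ := exists_eq_smul_of_comp_eq_zero ℤ (Gamma0 p) ℤ (Int.castAddHom (ZMod n))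
      ((n : ℕ) : ℤ) hinj (fun a ha => by
        have h1 : ((a : ℤ) : ZMod n) = 0 := ha
        rw [ZMod.intCast_zmod_eq_zero_iff_dvd] at h1
        obtain ⟨b, hb⟩ := h1
        exact ⟨b, by rw [hb]; rfl⟩) ψ h
    rw [mem_nMul]
    refine ⟨ψ', ?_⟩
    rw [hψ']
    exact (natCast_zsmul ψ' n).symm
  · intro h
    rw [mem_nMul] at h
    obtain ⟨ψ', rfl⟩ := h
    rw [map_nsmul]
    refine AddMonoidHom.ext fun γ => ?_
    show (n • redPar p n ψ') γ = 0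
    rw [AddMonoidHom.nsmul_apply, nsmul_eq_mul, ZMod.natCast_self, zero_mul]

/-- the induced injection `H / n H → Hom(Γ₀(p), ℤ/n)`. -/
def redQuot : (↥(parabolicHoms ℤ (Gamma0 p) ℤ) ⧸ nMul ↥(parabolicHoms ℤ (Gamma0 p) ℤ) n) →+
    (Additive (Gamma0 p) →+ ZMod n) :=
  ((nMul ↥(parabolicHoms ℤ (Gamma0 p) ℤ) n).liftQ (redPar p n) (by
    intro ψ hψ
    rw [LinearMap.mem_ker]
    by_cases hn : n = 0
    · subst hn
      rw [mem_nMul] at hψ
      obtain ⟨y, rfl⟩ := hψ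
      rw [zero_smul, map_zero]
    · exact (redPar_eq_zero_iff p n hn ψ).mpr hψ)).toAddMonoidHom

@[simp] theorem redQuot_mk (ψ : ↥(parabolicHoms ℤ (Gamma0 p) ℤ)) :
    redQuot p n (Submodule.Quotient.mk ψ) = redPar p n ψ := rfl

theorem redQuot_injective (hn : n ≠ 0) : Function.Injective (redQuot p n) := by
  rw [injective_iff_map_eq_zero]
  intro ξ hξ
  obtain ⟨ψ, rfl⟩ := Submodule.Quotient.mk_surjective _ ξ
  rw [redQuot_mk, redPar_eq_zero_iff p n hn] at hξ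
  exact (Submodule.Quotient.mk_eq_zero _).mpr hξ

end Red

section Padic

variable (p : ℕ) [NeZero p] (r : ℕ) [hr : Fact r.Prime] (k : ℕ)

/-- (R1) the reduction mod `r^k` of a `ℤ_r`-valued parabolic hom is the reduction of an integral
one. -/
theorem exists_redPar_eq_of_tensor (x : ℤ_[r] ⊗[ℤ] ↥(parabolicHoms ℤ (Gamma0 p) ℤ)) :
    ∃ ψ : ↥(parabolicHoms ℤ (Gamma0 p) ℤ),
      (PadicInt.toZModPow k).toAddMonoidHom.comp (parTheta ℤ_[r] (Gamma0 p) ℤ_[r] x).1 =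
        redPar p (r ^ k) ψ := by
  induction x using TensorProduct.induction_on with
  | zero =>
    refine ⟨0, ?_⟩
    rw [map_zero, map_zero]
    refine AddMonoidHom.ext fun γ => ?_
    show PadicInt.toZModPow k ((0 : ↥(parabolicHoms ℤ_[r] (Gamma0 p) ℤ_[r])).1 γ) = 0
    exact map_zero _
  | tmul a ψ₀ =>
    obtain ⟨m, hm⟩ := ZMod.intCast_surjective (PadicInt.toZModPow k a)
    refine ⟨m • ψ₀, ?_⟩
    refine AddMonoidHom.ext fun γ => ?_
    show PadicInt.toZModPow k ((parTheta ℤ_[r] (Gamma0 p) ℤ_[r] (a ⊗ₜ ψ₀)).1 γ) =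
      (((m • ψ₀ : ↥(parabolicHoms ℤ (Gamma0 p) ℤ)).1 γ : ℤ) : ZMod (r ^ k))
    rw [parTheta_tmul_apply, map_zsmul, ← hm]
    show ψ₀.1 γ • ((m : ℤ) : ZMod (r ^ k)) = ((m • ψ₀.1 γ : ℤ) : ZMod (r ^ k))
    rw [zsmul_eq_mul, smul_eq_mul]
    push_cast
    ring
  | add x y hx hy =>
    obtain ⟨ψ₁, h₁⟩ := hx
    obtain ⟨ψ₂, h₂⟩ := hy
    refine ⟨ψ₁ + ψ₂, ?_⟩
    rw [map_add, map_add, ← h₁, ← h₂]
    refine AddMonoidHom.ext fun γ => ?_
    show PadicInt.toZModPow k ((parTheta ℤ_[r] (Gamma0 p) ℤ_[r] x).1 γ +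
      (parTheta ℤ_[r] (Gamma0 p) ℤ_[r] y).1 γ) = _
    rw [map_add]
    rfl

theorem exists_redPar_eq (ψ' : ↥(parabolicHoms ℤ_[r] (Gamma0 p) ℤ_[r])) :
    ∃ ψ : ↥(parabolicHoms ℤ (Gamma0 p) ℤ),
      (PadicInt.toZModPow k).toAddMonoidHom.comp ψ'.1 = redPar p (r ^ k) ψ := by
  obtain ⟨x, rfl⟩ := (parTheta ℤ_[r] (Gamma0 p) ℤ_[r]).surjective ψ'
  exact exists_redPar_eq_of_tensor p r k x

/-- (R2) conversely. -/
theorem exists_padic_lift (ψ : ↥(parabolicHoms ℤ (Gamma0 p) ℤ)) :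
    ∃ ψ' : ↥(parabolicHoms ℤ_[r] (Gamma0 p) ℤ_[r]),
      (PadicInt.toZModPow k).toAddMonoidHom.comp ψ'.1 = redPar p (r ^ k) ψ := by
  refine ⟨parTheta ℤ_[r] (Gamma0 p) ℤ_[r] ((1 : ℤ_[r]) ⊗ₜ ψ), ?_⟩
  refine AddMonoidHom.ext fun γ => ?_
  show PadicInt.toZModPow k ((parTheta ℤ_[r] (Gamma0 p) ℤ_[r] ((1 : ℤ_[r]) ⊗ₜ ψ)).1 γ) =
    ((ψ.1 γ : ℤ) : ZMod (r ^ k))
  rw [parTheta_tmul_apply, map_zsmul, map_one, zsmul_one]

end Padic

section Kap

variable (p : ℕ) [NeZero p] (r : ℕ) [hr : Fact r.Prime] (k : ℕ)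

/-- `tateTors p r k → J[r^k]`. -/
def tateTorsIncl : ↥(tateTors p r k) →+ ↥(torsionNat (JZero p) (r ^ k)) where
  toFun u := ⟨u.1, pow_smul_eq_zero_of_mem_tateTors u.2⟩
  map_zero' := rfl
  map_add' _ _ := rfl

@[simp] theorem coe_tateTorsIncl (u : ↥(tateTors p r k)) :
    ((tateTorsIncl p r k u : ↥(torsionNat (JZero p) (r ^ k))) : JZero p) = u.1 := rfl

/-- the Kummer pairing restricted to `tateTors p r k`. -/
noncomputable def kapTate : ↥(tateTors p r k) →+ (Additive (Gamma0 p) →+ ZMod (r ^ k)) :=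
  ((stageIData p r).D.kap k).comp (tateTorsIncl p r k)

theorem kapTate_injective : Function.Injective (kapTate p r k) := by
  intro u u' h
  have h1 := (stageIData p r).D.inj k h
  exact Subtype.ext (congrArg (fun z : ↥(torsionNat (JZero p) (r ^ k)) => (z : JZero p)) h1)

theorem kapTate_comp (s : ↥(TateSeq (JZero p) r)) :
    kapTate p r k ⟨s.1 k, ⟨s, rfl⟩⟩ =
      (PadicInt.toZModPow k).toAddMonoidHom.comp ((stageIData p r).D.phi s).1 :=
  ((stageIData p r).D.toZModPow_comp_phi s k).symm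

theorem kapTate_range :
    (kapTate p r k).range = (redQuot p (r ^ k)).range := by
  apply le_antisymm
  · rintro _ ⟨u, rfl⟩
    obtain ⟨s, hs⟩ := u.2
    have hu : u = ⟨s.1 k, ⟨s, rfl⟩⟩ := Subtype.ext hs.symm
    rw [hu, kapTate_comp]
    obtain ⟨ψ, hψ⟩ := exists_redPar_eq p r k ((stageIData p r).D.phi s)
    exact ⟨Submodule.Quotient.mk ψ, by rw [redQuot_mk, hψ]⟩
  · rintro _ ⟨ξ, rfl⟩
    obtain ⟨ψ, rfl⟩ := Submodule.Quotient.mk_surjective _ ξ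
    obtain ⟨ψ', hψ'⟩ := exists_padic_lift p r k ψ
    obtain ⟨s, hs⟩ := (stageIData p r).D.phi_surjective ψ'
    refine ⟨⟨s.1 k, ⟨s, rfl⟩⟩, ?_⟩
    rw [kapTate_comp, hs, hψ', redQuot_mk]

/-- Hecke equivariance on the Kummer side. -/
theorem kapTate_hecke (hp : p.Prime) (ℓ : HeckeIdx p) (u : ↥(tateTors p r k)) :
    kapTate p r k ⟨heckeFam p ℓ u.1, end_mem_tateTors (heckeFam p ℓ) u.2⟩ =
      heckeGrpP p ℓ.1 (ZMod (r ^ k)) (kapTate p r k u) := by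
  have hℓ : ¬ ((ℓ.1 : ℕ) ∣ p) := by
    intro h
    exact ℓ.2 ((Nat.prime_dvd_prime_iff_eq ℓ.1.2 hp).mp h)
  have h1 := (stageIData p r).hecke ℓ.1 k (tateTorsIncl p r k u)
  have h2 : torsionNat.map (r ^ k) ((stageIData p r).T' ℓ.1) (tateTorsIncl p r k u) =
      tateTorsIncl p r k ⟨heckeFam p ℓ u.1, end_mem_tateTors (heckeFam p ℓ) u.2⟩ := by
    apply Subtype.ext
    rw [torsionNat.map_coe, coe_tateTorsIncl, coe_tateTorsIncl]
    exact (stageIData p r).hT' ℓ.1 hℓ u.1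
  rw [h2] at h1
  exact h1

/-- complex conjugation on the Kummer side. -/
theorem kapTate_conj (u : ↥(tateTors p r k)) :
    kapTate p r k ⟨DistribMulAction.toAddMonoidEnd GQ (JZero p) complexConjugation u.1,
        smul_mem_tateTors complexConjugation u.2⟩ =
      -charInvolution p ℤ (ZMod (r ^ k)) (kapTate p r k u) :=
  (stageIData p r).conj k (tateTorsIncl p r k u)

/-- Hecke equivariance on the lattice side. -/
theorem redQuot_hecke (ℓ : Nat.Primes) (n : ℕ)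
    (ξ : ↥(parabolicHoms ℤ (Gamma0 p) ℤ) ⧸ nMul ↥(parabolicHoms ℤ (Gamma0 p) ℤ) n) :
    redQuot p n (quotEnd n (heckeParP p ℓ ℤ ℤ) ξ) = heckeGrpP p ℓ (ZMod n) (redQuot p n ξ) := by
  obtain ⟨ψ, rfl⟩ := Submodule.Quotient.mk_surjective _ ξ
  rw [quotEnd_mk, redQuot_mk, redQuot_mk]
  exact (heckeGrpP_comp p ℓ (Int.castAddHom (ZMod n)) ψ.1).symm

theorem redQuot_charInv (n : ℕ)
    (ξ : ↥(parabolicHoms ℤ (Gamma0 p) ℤ) ⧸ nMul ↥(parabolicHoms ℤ (Gamma0 p) ℤ) n) :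
    redQuot p n (quotEnd n (charInvPar p ℤ) ξ) = charInvolution p ℤ (ZMod n) (redQuot p n ξ) := by
  obtain ⟨ψ, rfl⟩ := Submodule.Quotient.mk_surjective _ ξ
  rfl

end Kap

section Final

variable (p : ℕ) [NeZero p] (r : ℕ) [hr : Fact r.Prime]

/-- the transport of `W_k` to the lattice side. -/
theorem card_Wk_eq (hp : p.Prime) (k : ℕ) :
    Nat.card ↥(Wk p r k) =
      Nat.card ↥(primPart (fun ℓ : HeckeIdx p =>
        (quotEnd (r ^ k) (heckeParP p ℓ.1 ℤ ℤ) :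
          Module.End ℤ (↥(parabolicHoms ℤ (Gamma0 p) ℤ) ⧸
            nMul ↥(parabolicHoms ℤ (Gamma0 p) ℤ) (r ^ k)))) (eisVal p)) ∧
    Nat.card {w : ↥(Wk p r k) //
        DistribMulAction.toAddMonoidEnd GQ (JZero p) complexConjugation w.1 = -w.1} =
      Nat.card {y : ↥(primPart (fun ℓ : HeckeIdx p =>
        (quotEnd (r ^ k) (heckeParP p ℓ.1 ℤ ℤ) :
          Module.End ℤ (↥(parabolicHoms ℤ (Gamma0 p) ℤ) ⧸
            nMul ↥(parabolicHoms ℤ (Gamma0 p) ℤ) (r ^ k)))) (eisVal p)) //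
        (quotEnd (r ^ k) (charInvPar p ℤ)).toAddMonoidHom y.1 = y.1} := by
  have hrk : r ^ k ≠ 0 := pow_ne_zero k hr.out.ne_zero
  exact transport_card (tateTors p r k) (heckeFam p)
    (fun ℓ u hu => end_mem_tateTors (heckeFam p ℓ) hu)
    (DistribMulAction.toAddMonoidEnd GQ (JZero p) complexConjugation)
    (fun u hu => smul_mem_tateTors complexConjugation hu)
    (fun ℓ : HeckeIdx p => (quotEnd (r ^ k) (heckeParP p ℓ.1 ℤ ℤ) :
      Module.End ℤ (↥(parabolicHoms ℤ (Gamma0 p) ℤ) ⧸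
        nMul ↥(parabolicHoms ℤ (Gamma0 p) ℤ) (r ^ k))))
    (quotEnd (r ^ k) (charInvPar p ℤ)).toAddMonoidHom
    (fun ℓ : HeckeIdx p => heckeGrpP p ℓ.1 (ZMod (r ^ k)))
    (charInvolution p ℤ (ZMod (r ^ k))).toAddMonoidHom
    (kapTate p r k) (redQuot p (r ^ k)) (kapTate_injective p r k)
    (redQuot_injective p (r ^ k) hrk) (kapTate_range p r k)
    (fun ℓ u => kapTate_hecke p r k hp ℓ u)
    (fun ℓ ξ => redQuot_hecke p ℓ.1 (r ^ k) ξ)
    (fun u => kapTate_conj p r k u)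
    (fun ξ => redQuot_charInv p (r ^ k) ξ) (eisVal p)

/-- **(FIN-c)**: the `complexConjugation = -1` part of `W_k` has at most `r^(B/2) (card W_k)^(1/2)`
elements, uniformly in `k` (every prime `r`, including `r = 2` and `r = p`). -/
theorem card_Wk_minus_sq_le [hp : Fact p.Prime] :
    ∃ B : ℕ, ∀ k : ℕ,
      (Nat.card {w : ↥(Wk p r k) // complexConjugation • w = -w}) ^ 2 ≤
        r ^ B * Nat.card ↥(Wk p r k) := by
  obtain ⟨E, hEinj, hEθ, hEι⟩ := exists_hecke_antiInvolutive p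
  obtain ⟨B, hB⟩ := lattice_count (fun ℓ : HeckeIdx p => heckeParP p ℓ.1 ℤ ℤ) (eisVal p)
    (charInvPar p ℤ) E hEinj (fun ℓ ψ => hEθ ℓ.1 ψ) hEι r hr.out.two_le
  refine ⟨B, fun k => ?_⟩
  have hrk : r ^ k ≠ 0 := pow_ne_zero k hr.out.ne_zero
  obtain ⟨h1, h2⟩ := card_Wk_eq p r hp.out k
  have h3 : Nat.card {w : ↥(Wk p r k) // complexConjugation • w = -w} =
      Nat.card {w : ↥(Wk p r k) //
        DistribMulAction.toAddMonoidEnd GQ (JZero p) complexConjugation w.1 = -w.1} :=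
    Nat.card_congr (Equiv.subtypeEquivRight (fun w => Subtype.ext_iff))
  rw [h3, h2, h1]
  exact hB (r ^ k) hrk

end Final

end Fermat.Agent.MZ
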