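/-
PROJECT MZ (S15), block (FIN-d) — helper6.  **Lemma A: the local count at `p`.**

`W` a finite `G_ℚ`-module of finite level on which the inertia group `I` at a place `A ∣ p` acts
unipotently (`(σ - 1)² = 0`) and which is killed by a number prime to `p`; `φ` a Frobenius element
at `A`.  Then for every finite group `𝒵` of continuous cocycles `G_ℚ → W`

  `card (res_I 𝒵) ≤ card (W^I) * card {w | φ w = p² w}`.

Proof: the affine action `Ψ σ : v ↦ σ • v + (f ↦ f σ)` on `𝒵 → W` is a monoid homomorphism of finite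
level whose values on `I` have order prime to `p`; `TW.exists_generator_of_inertia` gives a generator
`τ₀`, `S35.map_conj_frobenius_eq_pow` gives `Ψ (φ τ₀ φ⁻¹) = Ψ τ₀ ^ p`, i.e. `φ N = p N φ`
(`N = τ₀ - 1`) and `φ (f τ₀) - p (f τ₀) ∈ W^I`.
-/
import Mathlib
import Fermat.Agent.S35.TAME_helper8_Main
import Fermat.Agent.MZ.D1_helper4_Coc

set_option autoImplicit false
set_option linter.unusedSectionVars false
set_option linter.unusedVariables false
set_option linter.style.haveILetI false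

namespace Fermat.Agent.MZ

local notation "Ω" => AlgebraicClosure ℚ
local notation "GQ" => (AlgebraicClosure ℚ ≃ₐ[ℚ] AlgebraicClosure ℚ)

section Unip

variable {Γ : Type*} [Group Γ] {W : Type*} [AddCommGroup W] [DistribMulAction Γ W]

/-- powers of a unipotent operator of level two. -/
theorem pow_smul_of_unip {σ : Γ} (h : ∀ w : W, σ • σ • w - 2 • σ • w + w = 0) (n : ℕ) (w : W) :
    σ ^ n • w = w + n • (σ • w - w) := by
  induction n generalizing w with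
  | zero => simp
  | succ n ih =>
    rw [pow_succ, mul_smul, ih (σ • w)]
    have h1 : σ • σ • w = 2 • σ • w - w := by
      have := h w
      rw [sub_add_eq_add_sub, sub_eq_zero] at this
      rw [← this]; abel
    have h2 : (2 • σ • w - w - σ • w) = σ • w - w := by
      rw [two_nsmul]; abel
    rw [h1, h2, succ_nsmul]
    abel

/-- a cocycle is additive on the powers of an element acting trivially. -/
theorem Z1_map_pow_of_trivial {f : Γ → W} (hf : f ∈ Z1 Γ W) {σ : Γ} (hσ : ∀ w : W, σ • w = w)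
    (n : ℕ) : f (σ ^ n) = n • f σ := by
  induction n with
  | zero => rw [pow_zero, Z1_map_one hf, zero_nsmul]
  | succ n ih =>
    rw [pow_succ', hf σ (σ ^ n), ih, hσ, succ_nsmul, add_comm]

end Unip

section Aff

variable {Γ : Type*} [Group Γ] {W : Type*} [AddCommGroup W] [DistribMulAction Γ W]

/-- the affine action attached to a group of cocycles. -/
def affAct (𝒵 : AddSubgroup (Γ → W)) (h𝒵 : 𝒵 ≤ Z1 Γ W) : Γ →* Function.End (↥𝒵 → W) where
  toFun σ := fun v f => σ • v f + f.1 σ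
  map_one' := by
    funext v f
    show (1 : Γ) • v f + f.1 1 = v f
    rw [one_smul, Z1_map_one (h𝒵 f.2), add_zero]
  map_mul' σ τ := by
    funext v f
    show (σ * τ) • v f + f.1 (σ * τ) = σ • (τ • v f + f.1 τ) + f.1 σ
    rw [h𝒵 f.2 σ τ, mul_smul, smul_add]
    abel

theorem affAct_apply (𝒵 : AddSubgroup (Γ → W)) (h𝒵 : 𝒵 ≤ Z1 Γ W) (σ : Γ) (v : ↥𝒵 → W) (f : ↥𝒵) :
    affAct 𝒵 h𝒵 σ v f = σ • v f + f.1 σ := rfl

/-- `Ψ σ = 1` as soon as `σ` acts trivially and kills all cocycles of `𝒵`. -/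
theorem affAct_eq_one (𝒵 : AddSubgroup (Γ → W)) (h𝒵 : 𝒵 ≤ Z1 Γ W) {σ : Γ}
    (h1 : ∀ w : W, σ • w = w) (h2 : ∀ f ∈ 𝒵, f σ = 0) : affAct 𝒵 h𝒵 σ = 1 := by
  funext v f
  show σ • v f + f.1 σ = v f
  rw [h1, h2 f.1 f.2, add_zero]

/-- powers of an affine map: linear part and translation part. -/
theorem affAct_pow_apply (𝒵 : AddSubgroup (Γ → W)) (h𝒵 : 𝒵 ≤ Z1 Γ W) (σ : Γ) (n : ℕ)
    (v : ↥𝒵 → W) (f : ↥𝒵) :
    (affAct 𝒵 h𝒵 σ ^ n) v f = σ ^ n • v f + (affAct 𝒵 h𝒵 σ ^ n) 0 f := by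
  rw [← map_pow, affAct_apply, affAct_apply, Pi.zero_apply, smul_zero, zero_add]

/-- the linear part of `Ψ σ`. -/
theorem affAct_sub (𝒵 : AddSubgroup (Γ → W)) (h𝒵 : 𝒵 ≤ Z1 Γ W) (σ : Γ) (v : ↥𝒵 → W) (f : ↥𝒵) :
    affAct 𝒵 h𝒵 σ v f - affAct 𝒵 h𝒵 σ 0 f = σ • v f := by
  rw [affAct_apply, affAct_apply, Pi.zero_apply, smul_zero, zero_add, add_sub_cancel_right]

/-- equal affine maps have equal linear parts. -/
theorem smul_eq_of_affAct_eq (𝒵 : AddSubgroup (Γ → W)) (h𝒵 : 𝒵 ≤ Z1 Γ W) {σ : Γ}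
    {m : Function.End (↥𝒵 → W)} {τ : Γ} (n : ℕ) (h : affAct 𝒵 h𝒵 σ = affAct 𝒵 h𝒵 τ ^ n) (w : W) :
    σ • w = τ ^ n • w := by
  have h1 := affAct_sub 𝒵 h𝒵 σ (fun _ => w) 0
  rw [h, affAct_pow_apply 𝒵 h𝒵 τ n (fun _ => w) 0, add_sub_cancel_right] at h1
  exact h1.symm

end Aff

section Main

variable {W : Type*} [AddCommGroup W] [DistribMulAction GQ W]

/-- the points of `W` fixed by the inertia group at `A`. -/
def inertiaFixed (A : ValuationSubring Ω) (W : Type*) [AddCommGroup W] [DistribMulAction GQ W] :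
    AddSubgroup W where
  carrier := {w | ∀ σ ∈ A.inertiaSubgroupIn ℚ, σ • w = w}
  zero_mem' := fun σ _ => smul_zero σ
  add_mem' := by
    intro a b ha hb σ hσ
    rw [smul_add, ha σ hσ, hb σ hσ]
  neg_mem' := by
    intro a ha σ hσ
    rw [smul_neg, ha σ hσ]

theorem mem_inertiaFixed {A : ValuationSubring Ω} {w : W} :
    w ∈ inertiaFixed A W ↔ ∀ σ ∈ A.inertiaSubgroupIn ℚ, σ • w = w := Iff.rfl

/-- a common finite normal level for a finite-level module and a finite group of continuous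
cocycles. -/
theorem exists_common_level
    (hcts : ∃ F : IntermediateField ℚ Ω, FiniteDimensional ℚ F ∧
      ∀ σ : GQ, (∀ a ∈ F, σ a = a) → ∀ w : W, σ • w = w)
    (𝒵 : AddSubgroup (GQ → W)) [Finite 𝒵]
    (hc : ∀ f ∈ 𝒵, ∃ F : IntermediateField ℚ Ω, FiniteDimensional ℚ F ∧
      ∀ σ : GQ, (∀ a ∈ F, σ a = a) → f σ = 0) :
    ∃ F : IntermediateField ℚ Ω, FiniteDimensional ℚ F ∧ Normal ℚ F ∧
      ∀ σ : GQ, (∀ a ∈ F, σ a = a) → (∀ w : W, σ • w = w) ∧ ∀ f ∈ 𝒵, f σ = 0 := by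
  classical
  obtain ⟨FW, hFW, hW⟩ := hcts
  have hc' : ∀ f : ↥𝒵, ∃ F : IntermediateField ℚ Ω, FiniteDimensional ℚ F ∧
      ∀ σ : GQ, (∀ a ∈ F, σ a = a) → f.1 σ = 0 := fun f => hc f.1 f.2
  choose Ff hFf hf using hc'
  haveI := hFW
  haveI : ∀ f : ↥𝒵, FiniteDimensional ℚ (Ff f) := hFf
  set F₀ : IntermediateField ℚ Ω := FW ⊔ ⨆ f : ↥𝒵, Ff f with hF₀
  haveI : FiniteDimensional ℚ (⨆ f : ↥𝒵, Ff f : IntermediateField ℚ Ω) :=
    IntermediateField.finiteDimensional_iSup_of_finite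
  haveI : FiniteDimensional ℚ F₀ := IntermediateField.finiteDimensional_sup _ _
  refine ⟨IntermediateField.normalClosure ℚ ↥F₀ Ω, normalClosure.is_finiteDimensional ℚ ↥F₀ Ω,
    normalClosure.normal ℚ ↥F₀ Ω, ?_⟩
  intro σ hσ
  have h0 : ∀ a ∈ F₀, σ a = a := fun a ha => hσ a (F₀.le_normalClosure ha)
  refine ⟨hW σ (fun a ha => h0 a ((le_sup_left : FW ≤ F₀) ha)), fun f hf' => ?_⟩
  refine hf ⟨f, hf'⟩ σ (fun a ha => h0 a ?_)
  exact (le_sup_right : (⨆ f : ↥𝒵, Ff f) ≤ F₀) ((le_iSup Ff ⟨f, hf'⟩) ha)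

/-- **Lemma A**: the number of restrictions to the inertia group at `A ∣ p` of a finite group of
continuous cocycles with values in a unipotent module of finite level killed by a number prime to
`p` is at most `card (W^I) * card {w | φ w = p² w}`. -/
theorem card_res_inertia_le {p : ℕ} (hp : p.Prime) {A : ValuationSubring Ω}
    (hA : A.LiesOverPrime p) [Finite W] (m : ℕ) (hmp : m.Coprime p) (hm : ∀ w : W, m • w = 0)
    (hcts : ∃ F : IntermediateField ℚ Ω, FiniteDimensional ℚ F ∧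
      ∀ σ : GQ, (∀ a ∈ F, σ a = a) → ∀ w : W, σ • w = w)
    (hunip : ∀ σ ∈ A.inertiaSubgroupIn ℚ, ∀ w : W, σ • σ • w - 2 • σ • w + w = 0)
    {φ : GQ} (hφ : A.IsFrobeniusAt φ p)
    (𝒵 : AddSubgroup (GQ → W)) (h𝒵 : 𝒵 ≤ Z1 GQ W) [Finite 𝒵]
    (hc : ∀ f ∈ 𝒵, ∃ F : IntermediateField ℚ Ω, FiniteDimensional ℚ F ∧
      ∀ σ : GQ, (∀ a ∈ F, σ a = a) → f σ = 0) :
    Nat.card (𝒵.map (resTo (A.inertiaSubgroupIn ℚ : Set GQ))) ≤
      Nat.card (inertiaFixed A W) * Nat.card {w : W // φ • w = (p ^ 2) • w} := by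
  classical
  obtain ⟨F, hFfd, hFn, hF⟩ := exists_common_level hcts 𝒵 hc
  haveI := hFfd
  haveI := hFn
  set Ψ := affAct 𝒵 h𝒵 with hΨ
  have hF1 : ∀ σ : GQ, (∀ x ∈ F, σ x = x) → Ψ σ = 1 := fun σ hσ =>
    affAct_eq_one 𝒵 h𝒵 (hF σ hσ).1 (hF σ hσ).2
  have hcop : ∀ σ ∈ A.inertiaSubgroupIn ℚ, ∃ n : ℕ, n.Coprime p ∧ Ψ σ ^ n = 1 := by
    intro σ hσ
    refine ⟨m * m, Nat.Coprime.mul_left hmp hmp, ?_⟩
    rw [← map_pow, pow_mul]
    have h1 : ∀ w : W, σ ^ m • w = w := fun w => by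
      rw [pow_smul_of_unip (hunip σ hσ) m w, hm, add_zero]
    apply affAct_eq_one 𝒵 h𝒵
    · intro w
      have h2 := pow_smul_of_unip (σ := σ ^ m) (W := W) (fun w => by
        rw [h1, h1, two_nsmul]; abel) m w
      rw [h2, hm, add_zero]
    · intro f hf
      rw [Z1_map_pow_of_trivial (h𝒵 hf) h1 m, hm]
  obtain ⟨τ₀, hτ₀, hgen⟩ := Fermat.Agent.TW.exists_generator_of_inertia hp hA Ψ F hF1 hcop
  have hconj : Ψ (φ * τ₀ * φ⁻¹) = Ψ τ₀ ^ p :=
    Fermat.Agent.S35.map_conj_frobenius_eq_pow hp hA Ψ F hF1 hcop hφ hτ₀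
  have hu := hunip τ₀ hτ₀
  set K := inertiaFixed A W with hK
  -- (F1) every element of the inertia group acts as a power of `τ₀`
  have F1 : ∀ τ ∈ A.inertiaSubgroupIn ℚ, ∃ n : ℕ, ∀ w : W, τ • w = τ₀ ^ n • w := by
    intro τ hτ
    obtain ⟨n, hn⟩ := hgen τ hτ
    exact ⟨n, fun w => smul_eq_of_affAct_eq (m := 1) 𝒵 h𝒵 n hn w⟩
  -- (F2) `N W ⊆ W^I`
  have F2 : ∀ w : W, τ₀ • w - w ∈ K := by
    intro w τ hτ
    obtain ⟨n, hn⟩ := F1 τ hτ
    rw [hn, pow_smul_of_unip hu]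
    have : τ₀ • (τ₀ • w - w) - (τ₀ • w - w) = 0 := by
      have := hu w
      rw [smul_sub, two_nsmul] at *
      rw [← this]; abel
    rw [this, smul_zero, add_zero]
  -- (F3) the kernel of `N` is `W^I`
  have F3 : ∀ w : W, τ₀ • w = w → w ∈ K := by
    intro w hw τ hτ
    obtain ⟨n, hn⟩ := F1 τ hτ
    rw [hn, pow_smul_of_unip hu, hw, sub_self, smul_zero, add_zero]
  -- (F4) the translation parts of the powers of `Ψ τ₀`, modulo `W^I`
  have F4 : ∀ (f : ↥𝒵) (n : ℕ), (Ψ τ₀ ^ n) 0 f - n • f.1 τ₀ ∈ K := by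
    intro f n
    induction n with
    | zero =>
      rw [pow_zero, zero_nsmul, sub_zero]
      exact K.zero_mem
    | succ n ih =>
      rw [pow_succ']
      show Ψ τ₀ ((Ψ τ₀ ^ n) 0) f - (n + 1) • f.1 τ₀ ∈ K
      rw [hΨ, affAct_apply, ← hΨ]
      have : τ₀ • (Ψ τ₀ ^ n) 0 f + f.1 τ₀ - (n + 1) • f.1 τ₀ =
          (τ₀ • (Ψ τ₀ ^ n) 0 f - (Ψ τ₀ ^ n) 0 f) + ((Ψ τ₀ ^ n) 0 f - n • f.1 τ₀) := by
        rw [succ_nsmul]; abel
      rw [this]
      exact K.add_mem (F2 _) ih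
  -- (F5) cocycles killing `τ₀`
  have F5 : ∀ (f : ↥𝒵), f.1 τ₀ = 0 → ∀ n : ℕ, (Ψ τ₀ ^ n) 0 f = 0 := by
    intro f hf n
    induction n with
    | zero => rw [pow_zero]; rfl
    | succ n ih =>
      rw [pow_succ']
      show Ψ τ₀ ((Ψ τ₀ ^ n) 0) f = 0
      rw [hΨ, affAct_apply, ← hΨ, ih, smul_zero, hf, add_zero]
  -- (F6) a cocycle of `𝒵` killing `τ₀` vanishes on the inertia group
  have F6 : ∀ f ∈ 𝒵, f τ₀ = 0 → ∀ τ ∈ A.inertiaSubgroupIn ℚ, f τ = 0 := by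
    intro f hf hf0 τ hτ
    obtain ⟨n, hn⟩ := hgen τ hτ
    have h1 : Ψ τ 0 ⟨f, hf⟩ = f τ := by
      rw [hΨ, affAct_apply, Pi.zero_apply, smul_zero, zero_add]
    rw [← h1, hn]
    exact F5 ⟨f, hf⟩ hf0 n
  -- (F8) `φ N = p N φ`
  have F8 : ∀ y : W, φ • (τ₀ • y - y) = p • (τ₀ • φ • y - φ • y) := by
    intro y
    have h1 := smul_eq_of_affAct_eq (m := 1) 𝒵 h𝒵 p hconj (φ • y)
    rw [mul_smul, mul_smul, inv_smul_smul, pow_smul_of_unip hu] at h1
    rw [smul_sub, h1]; abel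
  -- (F7) the values at `τ₀`
  have F7 : ∀ f ∈ 𝒵, φ • f τ₀ - p • f τ₀ ∈ K := by
    intro f hf
    have h1 : Ψ (φ * τ₀ * φ⁻¹) (Ψ φ 0) ⟨f, hf⟩ = f φ + φ • f τ₀ := by
      have : Ψ (φ * τ₀ * φ⁻¹) (Ψ φ 0) = Ψ (φ * τ₀) 0 := by
        have h2 : Ψ (φ * τ₀ * φ⁻¹) * Ψ φ = Ψ (φ * τ₀) := by
          rw [← map_mul, inv_mul_cancel_right]
        exact congrFun h2 0
      rw [this, hΨ, affAct_apply, Pi.zero_apply, smul_zero, zero_add]
      exact h𝒵 hf φ τ₀
    have h2 : (Ψ τ₀ ^ p) (Ψ φ 0) ⟨f, hf⟩ = τ₀ ^ p • f φ + (Ψ τ₀ ^ p) 0 ⟨f, hf⟩ := by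
      rw [hΨ, affAct_pow_apply, ← hΨ]
      congr 2
      rw [hΨ, affAct_apply, Pi.zero_apply, smul_zero, zero_add]
    rw [hconj, h2, pow_smul_of_unip hu] at h1
    have h3 : φ • f τ₀ - p • f τ₀ =
        p • (τ₀ • f φ - f φ) + ((Ψ τ₀ ^ p) 0 ⟨f, hf⟩ - p • f τ₀) := by
      have h4 : φ • f τ₀ = p • (τ₀ • f φ - f φ) + (Ψ τ₀ ^ p) 0 ⟨f, hf⟩ := by
        have h5 := congrArg (fun z => z - f φ) h1
        simp only [add_sub_cancel_left] at h5
        rw [← h5]; abel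
      rw [h4]; abel
    rw [h3]
    exact K.add_mem (K.nsmul_mem (F2 _) p) (F4 ⟨f, hf⟩ p)
  -- the group `E`
  let E : AddSubgroup W :=
    { carrier := {w | φ • w - p • w ∈ K}
      zero_mem' := by
        show φ • (0 : W) - p • (0 : W) ∈ K
        rw [smul_zero, smul_zero, sub_zero]; exact K.zero_mem
      add_mem' := by
        intro a b ha hb
        show φ • (a + b) - p • (a + b) ∈ K
        have : φ • (a + b) - p • (a + b) = (φ • a - p • a) + (φ • b - p • b) := by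
          rw [smul_add, smul_add]; abel
        rw [this]; exact K.add_mem ha hb
      neg_mem' := by
        intro a ha
        show φ • (-a) - p • (-a) ∈ K
        have : φ • (-a) - p • (-a) = -(φ • a - p • a) := by
          rw [smul_neg, smul_neg]; abel
        rw [this]; exact K.neg_mem ha }
  have hE : ∀ w : W, w ∈ E ↔ φ • w - p • w ∈ K := fun w => Iff.rfl
  -- step 1: `res_I 𝒵` injects into `E`
  have step1 : Nat.card (𝒵.map (resTo (A.inertiaSubgroupIn ℚ : Set GQ))) ≤ Nat.card E := by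
    have hmem : ∀ x : ↥(𝒵.map (resTo (A.inertiaSubgroupIn ℚ : Set GQ))),
        x.1 ⟨τ₀, hτ₀⟩ ∈ E := by
      rintro ⟨_, f, hf, rfl⟩
      exact F7 f hf
    apply Nat.card_le_card_of_injective (fun x => (⟨x.1 ⟨τ₀, hτ₀⟩, hmem x⟩ : ↥E))
    rintro ⟨_, f, hf, rfl⟩ ⟨_, g, hg, rfl⟩ hxy
    have h0 : f τ₀ = g τ₀ := congrArg Subtype.val hxy
    apply Subtype.ext
    funext s
    have h1 := F6 (f - g) (𝒵.sub_mem hf hg) (by
      show f τ₀ - g τ₀ = 0
      rw [h0, sub_self]) s.1 s.2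
    have h2 : f s.1 - g s.1 = 0 := h1
    exact sub_eq_zero.mp h2
  -- step 2: `card E ≤ card K * card {φ = p²}`
  let Nhom : ↥E →+ W :=
    { toFun := fun w => τ₀ • w.1 - w.1
      map_zero' := by
        show τ₀ • (0 : W) - 0 = 0
        rw [smul_zero, sub_zero]
      map_add' := by
        intro a b
        show τ₀ • (a.1 + b.1) - (a.1 + b.1) = (τ₀ • a.1 - a.1) + (τ₀ • b.1 - b.1)
        rw [smul_add]; abel }
  have hN : ∀ w : ↥E, Nhom w = τ₀ • w.1 - w.1 := fun w => rfl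
  have step2 : Nat.card E ≤ Nat.card K * Nat.card {w : W // φ • w = (p ^ 2) • w} := by
    rw [card_eq_card_ker_mul_card_range Nhom]
    apply Nat.mul_le_mul
    · have hk : ∀ x : ↥Nhom.ker, x.1.1 ∈ K := by
        intro x
        have h1 : Nhom x.1 = 0 := x.2
        rw [hN, sub_eq_zero] at h1
        exact F3 _ h1
      apply Nat.card_le_card_of_injective (fun x => (⟨x.1.1, hk x⟩ : ↥K))
      intro x y hxy
      apply Subtype.ext
      apply Subtype.ext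
      have h := Subtype.ext_iff.mp hxy
      exact h
    · have hr : ∀ x : ↥Nhom.range, φ • x.1 = (p ^ 2) • x.1 := by
        rintro ⟨_, w, rfl⟩
        show φ • Nhom w = (p ^ 2) • Nhom w
        rw [hN, F8]
        have hw : φ • w.1 - p • w.1 ∈ K := w.2
        have h1 : φ • w.1 = p • w.1 + (φ • w.1 - p • w.1) := by abel
        have h2 : τ₀ • (φ • w.1 - p • w.1) = φ • w.1 - p • w.1 := hw τ₀ hτ₀
        have h3 : τ₀ • φ • w.1 - φ • w.1 = p • (τ₀ • w.1 - w.1) := by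
          rw [h1, smul_add, h2, smul_comm τ₀ p w.1, smul_sub]
          abel
        rw [h3, smul_smul, sq]
      apply Nat.card_le_card_of_injective
        (fun x => (⟨x.1, hr x⟩ : {w : W // φ • w = (p ^ 2) • w}))
      intro x y hxy
      apply Subtype.ext
      have h := Subtype.ext_iff.mp hxy
      exact h
  exact step1.trans step2

end Main

end Fermat.Agent.MZ
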