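/-
PROJECT MZ (S15), block (FIN-d) — helper6.  **The inputs of Lemma A for `W_k`, from main.**

* `jzero_one_torsion_eq_zero` : `J₀(1)` has no `r`-power torsion (parabolic homomorphisms of `SL₂(ℤ)`
  vanish, `KapData` is injective);
* `keyFrob_level` : `S35.KeyFrobStatement` at `(M, q, p) := (1, p, r)`, transported to `JZero p`:
  `r ^ c • (φ ^ s - p ^ s) (φ ² - 1) (φ - 1) x = 0` on `J₀(p)[r^∞]`;
* `unip_tateTors` : `(σ - 1)² = 0` on `tateTors p r k` for `σ` in an inertia group at `p`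
  (`SSWStatement` + divisibility of Tate sequences);
* `exists_card_frob_eq_le` : `card {w ∈ W_k | φ w = p² w} ≤ T₂`, uniformly in `k`;
* `wk_finite_level` : `W_k` has finite level.
-/
import Mathlib
import Fermat.Agent.MZ.WK_helper4_Def
import Fermat.Agent.MZ.FIND_helper6_Local
import Fermat.Agent.S35.T3B_helper4_Main
import Fermat.Agent.S35.NORMF_helper8_Main
import Fermat.Agent.SS.TOPB_lead_Main
import Fermat.Agent.SS.MODELS_helper7_AtBases
import Fermat.Agent.CFT.LocForm.FrobAt_helper4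

set_option autoImplicit false
set_option linter.unusedSectionVars false
set_option linter.unusedVariables false
set_option linter.style.haveILetI false

namespace Fermat.Agent.MZ

open ModularCurve Fermat.Agent.GR CongruenceSubgroup
open scoped MatrixGroups

local notation "Ω" => AlgebraicClosure ℚ
local notation "GQ" => (AlgebraicClosure ℚ ≃ₐ[ℚ] AlgebraicClosure ℚ)

section LevelOne

/-- the lower unipotent generator of `SL₂(ℤ)`. -/
def lowerU : SL(2, ℤ) := ⟨!![1, 0; 1, 1], by simp [Matrix.det_fin_two]⟩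

theorem modS_eq : (ModularGroup.S : SL(2, ℤ)) = ModularGroup.T⁻¹ * lowerU * ModularGroup.T⁻¹ := by
  ext i j
  fin_cases i <;> fin_cases j <;>
    simp [lowerU, ModularGroup.S, ModularGroup.T, Matrix.SpecialLinearGroup.coe_inv,
      Matrix.adjugate_fin_two, Matrix.mul_apply, Fin.sum_univ_two]

theorem mem_Gamma0_one (g : SL(2, ℤ)) : g ∈ Gamma0 1 := by
  rw [Gamma0_mem]
  exact Subsingleton.elim _ _

/-- a parabolic homomorphism of `Γ₀(1) = SL₂(ℤ)` vanishes. -/
theorem parabolicHom_level_one_eq_zero {B : Type*} [AddCommGroup B]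
    (ψ : Additive (Gamma0 1) →+ B) (h : ModularCurve.Period.IsParabolicHom (Gamma0 1) ψ) :
    ψ = 0 := by
  let χ : SL(2, ℤ) →* Multiplicative B :=
    { toFun := fun g => Multiplicative.ofAdd (ψ (Additive.ofMul ⟨g, mem_Gamma0_one g⟩))
      map_one' := by
        show Multiplicative.ofAdd (ψ (Additive.ofMul (1 : Gamma0 1))) = 1
        rw [ofMul_one, map_zero]; rfl
      map_mul' := by
        intro a b
        show Multiplicative.ofAdd (ψ (Additive.ofMul
          ((⟨a, mem_Gamma0_one a⟩ : Gamma0 1) * ⟨b, mem_Gamma0_one b⟩))) = _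
        rw [ofMul_mul, map_add]; rfl }
  have hχ : ∀ g : SL(2, ℤ), χ g = Multiplicative.ofAdd (ψ (Additive.ofMul ⟨g, mem_Gamma0_one g⟩)) :=
    fun g => rfl
  have hT : χ ModularGroup.T = 1 := by
    rw [hχ, h ⟨ModularGroup.T, mem_Gamma0_one _⟩ (by
      simp [ModularGroup.T, Matrix.trace_fin_two])]
    rfl
  have hU : χ lowerU = 1 := by
    rw [hχ, h ⟨lowerU, mem_Gamma0_one _⟩ (by
      simp [lowerU, Matrix.trace_fin_two])]
    rfl
  have hS : χ ModularGroup.S = 1 := by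
    rw [modS_eq, map_mul, map_mul, map_inv, hT, hU]; simp
  have hker : χ.ker = ⊤ := by
    rw [eq_top_iff, ← SpecialLinearGroup.SL2Z_generators, Subgroup.closure_le]
    rintro g (rfl | rfl)
    · exact hS
    · exact hT
  ext γ
  obtain ⟨g, hg⟩ := γ
  have h1 : χ g = 1 := by
    have : g ∈ χ.ker := by rw [hker]; trivial
    exact this
  rw [hχ] at h1
  exact h1

/-- `J₀(1)` has no `r`-power torsion. -/
theorem jzero_one_torsion_eq_zero (r : ℕ) [Fact r.Prime] (k : ℕ) (y : JZero 1)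
    (hy : r ^ k • y = 0) : y = 0 := by
  have D := (stageIData 1 r).D
  have h1 : D.kap k ⟨y, hy⟩ = 0 := parabolicHom_level_one_eq_zero _ (D.par k ⟨y, hy⟩)
  have h2 : (⟨y, hy⟩ : ↥(torsionNat (JZero 1) (r ^ k))) = 0 :=
    D.inj k (by rw [h1, map_zero])
  exact congrArg Subtype.val h2

end LevelOne

section KeyFrob

/-- **`KeyFrob` at prime level**, transported to `JZero N`, `N = 1 * p`. -/
theorem keyFrob_level {p r : ℕ} (hp : p.Prime) [hr : Fact r.Prime] (hpr : p ≠ r)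
    (N : ℕ) [NeZero N] (hN : N = 1 * p) :
    ∃ c s : ℕ, 0 < s ∧ ∀ A : ValuationSubring Ω, A.LiesOverPrime p →
      ∀ φ : GQ, A.IsFrobeniusAt φ p → ∀ (k : ℕ) (x : JZero N), r ^ k • x = 0 →
        r ^ c • Fermat.Agent.S35.frobPolyAct p s φ x = 0 := by
  subst hN
  haveI : NeZero p := ⟨hp.ne_zero⟩
  have H := Fermat.Agent.S35.keyFrobStatement_of_bases Fermat.Agent.S35.legFrobBase
    Fermat.Agent.S35.hesFrobBase 1 p r hp hr.out hpr (by
      intro h
      exact hp.one_lt.ne' (Nat.dvd_one.mp h))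
  obtain ⟨c, s, hs, h⟩ := H
  refine ⟨c, s, hs, fun A hA φ hφ k x hx => h A hA φ hφ k x hx ?_ ?_⟩
  · apply jzero_one_torsion_eq_zero r k
    rw [← map_nsmul, hx, map_zero]
  · apply jzero_one_torsion_eq_zero r k
    rw [← map_nsmul, hx, map_zero]

end KeyFrob

section Unip

variable {p : ℕ} [NeZero p]

/-- `r ^ a • s_{k + a} = s_k` for a Tate sequence. -/
theorem tateSeq_pow_smul_add {r : ℕ} (s : ↥(TateSeq (JZero p) r)) (k a : ℕ) :
    r ^ a • s.1 (k + a) = s.1 k := by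
  induction a with
  | zero => simp
  | succ a ih =>
    rw [pow_succ', mul_nsmul, ← add_assoc, TateSeq.smul_succ, ih]

/-- the Galois action commutes with multiplication by natural numbers. -/
theorem gal_smul_nsmul {W : Type*} [AddCommGroup W] [DistribMulAction GQ W] (σ : GQ) (n : ℕ)
    (x : W) : σ • (n • x) = n • (σ • x) :=
  map_nsmul (DistribSMul.toAddMonoidHom W σ) n x

/-- an element killed by two coprime numbers vanishes. -/
theorem eq_zero_of_coprime_nsmul {J : Type*} [AddCommGroup J] {a b : ℕ} (hab : a.Coprime b)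
    {z : J} (ha : a • z = 0) (hb : b • z = 0) : z = 0 := by
  have h1 := addOrderOf_dvd_of_nsmul_eq_zero ha
  have h2 := addOrderOf_dvd_of_nsmul_eq_zero hb
  have h3 : addOrderOf z = 1 := Nat.eq_one_of_dvd_coprimes hab h1 h2
  exact AddMonoid.addOrderOf_eq_one_iff.mp h3

/-- **unipotency of inertia at `p` on `tateTors p r k`**, `r ≠ p`. -/
theorem unip_tateTors (hp : p.Prime) {r : ℕ} [hr : Fact r.Prime] (hpr : p ≠ r)
    {A : ValuationSubring Ω} (hA : A.LiesOverPrime p) {σ : GQ}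
    (hσ : σ ∈ A.inertiaSubgroupIn ℚ) {k : ℕ} {x : JZero p} (hx : x ∈ tateTors p r k) :
    σ • σ • x - 2 • σ • x + x = 0 := by
  obtain ⟨c, hc, h⟩ := Fermat.Agent.SS.ssWStatement_of_kummerSS
    (Fermat.Agent.SS.kummerSS_of_base Fermat.Agent.SS.legKummerBase
      Fermat.Agent.SS.hesKummerBase) p r p hr.out hp hpr (dvd_refl p) (by
        intro h2
        have h3 : p ^ 2 ≤ p := Nat.le_of_dvd hp.pos h2
        have h4 : p * 2 ≤ p ^ 2 := by
          rw [sq]; exact Nat.mul_le_mul_left p hp.two_le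
        have h5 := hp.pos
        omega)
  obtain ⟨s, rfl⟩ := hx
  obtain ⟨a, c', hc', rfl⟩ := Nat.exists_eq_pow_mul_and_not_dvd hc r hr.out.ne_one
  set y₁ := s.1 (k + a) with hy₁
  have hy₁x : r ^ a • y₁ = s.1 k := tateSeq_pow_smul_add s k a
  have hy₁t : ∃ n : ℕ, r ^ n • y₁ = 0 := ⟨k + a, TateSeq.pow_smul s (k + a)⟩
  have h0 := h A hA σ hσ y₁ hy₁t
  have hcx : (r ^ a * c') • y₁ = c' • s.1 k := by
    rw [mul_nsmul, hy₁x]
  rw [hcx] at h0
  set z := σ • σ • s.1 k - 2 • σ • s.1 k + s.1 k with hz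
  have hz1 : c' • z = 0 := by
    have e1 : c' • (σ • σ • s.1 k) = σ • σ • (c' • s.1 k) := by
      rw [gal_smul_nsmul, gal_smul_nsmul]
    have e2 : c' • (2 • σ • s.1 k) = 2 • σ • (c' • s.1 k) := by
      rw [gal_smul_nsmul, smul_comm c' 2 _]
    rw [hz, nsmul_add, nsmul_sub, e1, e2, h0]
  have hz2 : r ^ k • z = 0 := by
    have hk : r ^ k • s.1 k = 0 := TateSeq.pow_smul s k
    have e1 : r ^ k • (σ • σ • s.1 k) = σ • σ • (r ^ k • s.1 k) := by
      rw [gal_smul_nsmul, gal_smul_nsmul]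
    have e2 : r ^ k • (2 • σ • s.1 k) = 2 • σ • (r ^ k • s.1 k) := by
      rw [gal_smul_nsmul, smul_comm (r ^ k) 2 _]
    have hs0 : σ • (0 : JZero p) = 0 := map_zero (DistribSMul.toAddMonoidHom (JZero p) σ)
    rw [hz, nsmul_add, nsmul_sub, e1, e2, hk, hs0, hs0, nsmul_zero, sub_zero, add_zero]
  have hcop : Nat.Coprime c' (r ^ k) :=
    Nat.Coprime.pow_right k ((Nat.Prime.coprime_iff_not_dvd hr.out).mpr hc').symm
  exact eq_zero_of_coprime_nsmul hcop hz1 hz2

end Unip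

section Eigen

variable {W : Type*} [AddCommGroup W] [DistribMulAction GQ W]

theorem gal_smul_zsmul (σ : GQ) (n : ℤ) (x : W) : σ • (n • x) = n • (σ • x) :=
  map_zsmul (DistribSMul.toAddMonoidHom W σ) n x

theorem gal_pow_smul_of_eigen {φ : GQ} {m : ℤ} {w : W} (h : φ • w = m • w) (s : ℕ) :
    φ ^ s • w = m ^ s • w := by
  induction s with
  | zero => simp
  | succ s ih =>
    rw [pow_succ, mul_smul, h, gal_smul_zsmul, ih, smul_smul, pow_succ, mul_comm]

theorem eigen_zsmul {φ : GQ} {m : ℤ} {w : W} (h : φ • w = m • w) (a : ℤ) :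
    φ • (a • w) = m • (a • w) := by
  rw [gal_smul_zsmul, h, smul_comm]

theorem frobSubOne_of_eigen {φ : GQ} {m : ℤ} {w : W} (h : φ • w = m • w) :
    Fermat.Agent.S35.frobSubOne φ w = (m - 1) • w := by
  unfold Fermat.Agent.S35.frobSubOne
  rw [h, sub_smul, one_smul]

theorem frobSqSubOne_of_eigen {φ : GQ} {m : ℤ} {w : W} (h : φ • w = m • w) :
    Fermat.Agent.S35.frobSqSubOne φ w = (m ^ 2 - 1) • w := by
  unfold Fermat.Agent.S35.frobSqSubOne
  rw [h, gal_smul_zsmul, h, smul_smul, sub_smul, one_smul, sq]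

theorem frobPowSub_of_eigen {φ : GQ} {m : ℤ} {w : W} (h : φ • w = m • w) (q s : ℕ) :
    Fermat.Agent.S35.frobPowSub q s φ w = (m ^ s - (q : ℤ) ^ s) • w := by
  unfold Fermat.Agent.S35.frobPowSub
  rw [gal_pow_smul_of_eigen h, sub_smul, ← natCast_zsmul, Nat.cast_pow]

/-- the Frobenius polynomial on an eigenvector. -/
theorem frobPolyAct_of_eigen {φ : GQ} {m : ℤ} {x : W} (h : φ • x = m • x) (q s : ℕ) :
    Fermat.Agent.S35.frobPolyAct q s φ x =
      ((m ^ s - (q : ℤ) ^ s) * ((m ^ 2 - 1) * (m - 1))) • x := by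
  have hy : φ • ((m - 1) • x) = m • ((m - 1) • x) := eigen_zsmul h _
  have hz : φ • ((m ^ 2 - 1) • ((m - 1) • x)) = m • ((m ^ 2 - 1) • ((m - 1) • x)) :=
    eigen_zsmul hy _
  unfold Fermat.Agent.S35.frobPolyAct
  rw [frobSubOne_of_eigen h, frobSqSubOne_of_eigen hy, frobPowSub_of_eigen hz, smul_smul,
    smul_smul, mul_assoc]

end Eigen

section Bound

variable {p : ℕ} [NeZero p]

/-- the uniform exponent: points of `J₀(p)[r^∞]` on which a Frobenius lift at `p` acts as `p²` are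
killed by a fixed power of `r`. -/
theorem exists_pow_smul_eq_zero_of_frob_eq (hp : p.Prime) {r : ℕ} [hr : Fact r.Prime]
    (hpr : p ≠ r) :
    ∃ a : ℕ, ∀ A : ValuationSubring Ω, A.LiesOverPrime p → ∀ φ : GQ, A.IsFrobeniusAt φ p →
      ∀ (k : ℕ) (x : JZero p), r ^ k • x = 0 → φ • x = (p ^ 2) • x → r ^ a • x = 0 := by
  obtain ⟨c, s, hs, hkey⟩ := keyFrob_level hp hpr p (one_mul p).symm
  set m : ℤ := (p : ℤ) ^ 2 with hm
  set c₃ : ℤ := (m ^ s - (p : ℤ) ^ s) * ((m ^ 2 - 1) * (m - 1)) with hc₃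
  have hp2 : (2 : ℤ) ≤ p := by exact_mod_cast hp.two_le
  have hm4 : (4 : ℤ) ≤ m := by rw [hm]; nlinarith
  have ht : (2 : ℤ) ≤ (p : ℤ) ^ s := by
    calc (2 : ℤ) ≤ p := hp2
      _ = (p : ℤ) ^ 1 := (pow_one _).symm
      _ ≤ (p : ℤ) ^ s := pow_le_pow_right₀ (by linarith) hs
  have hc₃0 : c₃ ≠ 0 := by
    rw [hc₃]
    have e1 : m ^ s - (p : ℤ) ^ s ≠ 0 := by
      have : m ^ s = (p : ℤ) ^ s * (p : ℤ) ^ s := by rw [hm, ← pow_mul, two_mul, pow_add]
      rw [this]
      nlinarith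
    have e2 : m ^ 2 - 1 ≠ 0 := by nlinarith
    have e3 : m - 1 ≠ 0 := by intro h; linarith
    exact mul_ne_zero e1 (mul_ne_zero e2 e3)
  set n₀ : ℕ := (((r ^ c : ℕ) : ℤ) * c₃).natAbs with hn₀
  have hn₀0 : n₀ ≠ 0 := by
    rw [hn₀, Int.natAbs_ne_zero]
    exact mul_ne_zero (by exact_mod_cast pow_ne_zero c hr.out.ne_zero) hc₃0
  refine ⟨n₀.factorization r, fun A hA φ hφ k x hx hφx => ?_⟩
  have hφx' : φ • x = m • x := by
    rw [hφx, hm, ← natCast_zsmul]
    push_cast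
    rfl
  have h1 := hkey A hA φ hφ k x hx
  rw [frobPolyAct_of_eigen hφx', ← hc₃, ← natCast_zsmul, smul_smul] at h1
  have h2 : (addOrderOf x : ℤ) ∣ ((r ^ c : ℕ) : ℤ) * c₃ :=
    addOrderOf_dvd_iff_zsmul_eq_zero.mpr h1
  have h3 : addOrderOf x ∣ n₀ := Int.natCast_dvd.mp h2
  obtain ⟨j, hj, hjx⟩ := (Nat.dvd_prime_pow hr.out).mp (addOrderOf_dvd_of_nsmul_eq_zero hx)
  rw [hjx] at h3
  have h4 : j ≤ n₀.factorization r :=
    (Nat.Prime.pow_dvd_iff_le_factorization hr.out hn₀0).mp h3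
  apply addOrderOf_dvd_iff_nsmul_eq_zero.mp
  rw [hjx]
  exact pow_dvd_pow r h4

end Bound

section WkInputs

variable {p : ℕ} [NeZero p] [hp : Fact p.Prime]

/-- `W_k` has finite level. -/
theorem wk_finite_level (r : ℕ) [Fact r.Prime] (k : ℕ) :
    ∃ F : IntermediateField ℚ Ω, FiniteDimensional ℚ F ∧
      ∀ σ : GQ, (∀ a ∈ F, σ a = a) → ∀ w : ↥(Wk p r k), σ • w = w := by
  classical
  haveI := finite_Wk (p := p) r k
  have I := stageIData p r
  have h1 : ∀ w : ↥(Wk p r k), ∃ L : IntermediateField ℚ Ω, FiniteDimensional ℚ L ∧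
      ∀ σ : GQ, (∀ a ∈ L, σ a = a) → σ • (w : JZero p) = w := fun w => I.fix w.1
  choose L hL hfix using h1
  haveI : ∀ w, FiniteDimensional ℚ (L w) := hL
  refine ⟨⨆ w, L w, IntermediateField.finiteDimensional_iSup_of_finite, fun σ hσ w => ?_⟩
  apply Subtype.ext
  rw [coe_smul_Wk]
  exact hfix w σ (fun a ha => hσ a ((le_iSup L w) ha))

/-- **the local count for `W_k`**: uniformly in `k`, the number of restrictions to the inertia group
at `A ∣ p` of a finite group of continuous cocycles `G_ℚ → W_k` is at most `card (W_k^I) * T₂`. -/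
theorem exists_card_res_inertia_Wk_le (r : ℕ) [hr : Fact r.Prime] (hpr : p ≠ r) :
    ∃ T₂ : ℕ, ∀ A : ValuationSubring Ω, A.LiesOverPrime p → ∀ (k : ℕ)
      (𝒵 : AddSubgroup (GQ → ↥(Wk p r k))), 𝒵 ≤ Z1 GQ ↥(Wk p r k) →
      (∀ f ∈ 𝒵, ∃ F : IntermediateField ℚ Ω, FiniteDimensional ℚ F ∧
        ∀ σ : GQ, (∀ a ∈ F, σ a = a) → f σ = 0) → Finite 𝒵 →
      Nat.card (𝒵.map (resTo (A.inertiaSubgroupIn ℚ : Set GQ))) ≤
        Nat.card (inertiaFixed A ↥(Wk p r k)) * T₂ := by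
  obtain ⟨a, ha⟩ := exists_pow_smul_eq_zero_of_frob_eq hp.out hpr
  haveI : Finite ↥(torsionNat (JZero p) (r ^ a)) := (stageIData p r).D.finite_torsion a
  refine ⟨Nat.card ↥(torsionNat (JZero p) (r ^ a)), fun A hA k 𝒵 h𝒵 hc hfin => ?_⟩
  haveI := hfin
  haveI := finite_Wk (p := p) r k
  obtain ⟨φ, hφ⟩ := Fermat.Agent.CFT.LocForm.exists_isFrobeniusAt A hp.out hA
  have hmain := card_res_inertia_le (W := ↥(Wk p r k)) hp.out hA (r ^ k)
    (Nat.Coprime.pow_left k ((Nat.coprime_primes hr.out hp.out).mpr (Ne.symm hpr)))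
    (fun w => Subtype.ext (by
      rw [AddSubmonoidClass.coe_nsmul]
      exact pow_smul_eq_zero_of_mem_Wk w.2))
    (wk_finite_level r k)
    (fun σ hσ w => Subtype.ext (by
      have := unip_tateTors hp.out hpr hA hσ (Wk_le_tateTors r k w.2)
      simpa using this))
    hφ 𝒵 h𝒵 hc
  refine hmain.trans (Nat.mul_le_mul_left _ ?_)
  have hmem : ∀ w : {w : ↥(Wk p r k) // φ • w = (p ^ 2) • w},
      (w.1 : JZero p) ∈ torsionNat (JZero p) (r ^ a) := by
    intro w
    rw [mem_torsionNat]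
    refine ha A hA φ hφ k w.1.1 (pow_smul_eq_zero_of_mem_Wk w.1.2) ?_
    have := congrArg (fun z : ↥(Wk p r k) => (z : JZero p)) w.2
    simpa using this
  apply Nat.card_le_card_of_injective
    (fun w => (⟨(w.1 : JZero p), hmem w⟩ : ↥(torsionNat (JZero p) (r ^ a))))
  intro w w' h
  apply Subtype.ext
  apply Subtype.ext
  have h' := Subtype.ext_iff.mp h
  exact h'

end WkInputs

end Fermat.Agent.MZ
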