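/-
PROJECT MZ (S15), block (FIN-d) — helper6.  **(FIN-d) from the dévissage inequality, (FIN-c) and the
boundedness of `H⁰`.**

* `card_inertiaFixed_le` (abstract): if the dévissage inequality `card 𝒵 ≤ card (res_{I ∪ {c₀}} 𝒵)`
  holds for the group `𝒵 = cobd (W^I)` of coboundaries of inertia-fixed elements, then
  `card (W^I) ≤ card H⁰(W) * card W⁻` ("the Eisenstein part is purely toric at `p`");
* `find_of_inputs` : the literal (FIN-d) of helper4's message 1913 for `W_k`.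
-/
import Mathlib
import Fermat.Agent.MZ.FIND_helper6_Key
import Fermat.Prelude.Def_GaloisRep_ComplexConjugation

set_option autoImplicit false
set_option linter.unusedSectionVars false
set_option linter.unusedVariables false
set_option linter.style.haveILetI false

namespace Fermat.Agent.MZ

open ModularCurve Fermat.Agent.GR

local notation "Ω" => AlgebraicClosure ℚ
local notation "GQ" => (AlgebraicClosure ℚ ≃ₐ[ℚ] AlgebraicClosure ℚ)

section Abstract

variable {W : Type*} [AddCommGroup W] [DistribMulAction GQ W]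

/-- **purely toric**: from the dévissage inequality for the coboundaries of the inertia-fixed
elements, `card (W^I) ≤ card H⁰(W) * card W⁻`. -/
theorem card_inertiaFixed_le [Finite W] (A : ValuationSubring Ω) (c₀ : GQ) (hc₀ : c₀ * c₀ = 1)
    (hdev : Nat.card ((inertiaFixed A W).map (cobd GQ)) ≤
      Nat.card (((inertiaFixed A W).map (cobd GQ)).map
        (resTo ((A.inertiaSubgroupIn ℚ : Set GQ) ∪ {c₀})))) :
    Nat.card (inertiaFixed A W) ≤
      Nat.card {w : W // ∀ σ : GQ, σ • w = w} * Nat.card {w : W // c₀ • w = -w} := by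
  classical
  set K := inertiaFixed A W with hK
  set 𝒵₀ := K.map (cobd GQ) with h𝒵₀
  let g : ↥K →+ (GQ → W) := (cobd GQ).comp K.subtype
  have hg : ∀ w : ↥K, g w = cobd GQ (w : W) := fun w => rfl
  have hrange : g.range = 𝒵₀ := by
    ext f
    constructor
    · rintro ⟨w, rfl⟩
      exact ⟨w.1, w.2, rfl⟩
    · rintro ⟨w, hw, rfl⟩
      exact ⟨⟨w, hw⟩, rfl⟩
  -- the kernel of `g` injects into `H⁰`
  have hker : Nat.card g.ker ≤ Nat.card {w : W // ∀ σ : GQ, σ • w = w} := by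
    have hmem : ∀ x : ↥g.ker, ∀ σ : GQ, σ • (x.1.1 : W) = x.1.1 := by
      intro x σ
      have h1 : g x.1 = 0 := x.2
      have h2 := congrFun h1 σ
      rw [hg, cobd_apply] at h2
      exact sub_eq_zero.mp h2
    apply Nat.card_le_card_of_injective
      (fun x => (⟨x.1.1, hmem x⟩ : {w : W // ∀ σ : GQ, σ • w = w}))
    intro x y hxy
    apply Subtype.ext
    apply Subtype.ext
    have h := Subtype.ext_iff.mp hxy
    exact h
  -- the restrictions inject into `W⁻`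
  have hc₀mem : c₀ ∈ (A.inertiaSubgroupIn ℚ : Set GQ) ∪ {c₀} := Or.inr rfl
  have hres : Nat.card (𝒵₀.map (resTo ((A.inertiaSubgroupIn ℚ : Set GQ) ∪ {c₀}))) ≤
      Nat.card {w : W // c₀ • w = -w} := by
    have hmem : ∀ x : ↥(𝒵₀.map (resTo (G := W) ((A.inertiaSubgroupIn ℚ : Set GQ) ∪ {c₀}))),
        c₀ • (x.1 : ↥((A.inertiaSubgroupIn ℚ : Set GQ) ∪ {c₀}) → W) ⟨c₀, hc₀mem⟩ =
          -(x.1 : ↥((A.inertiaSubgroupIn ℚ : Set GQ) ∪ {c₀}) → W) ⟨c₀, hc₀mem⟩ := by
      rintro ⟨_, _, ⟨w, hw, rfl⟩, rfl⟩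
      show c₀ • (c₀ • w - w) = -(c₀ • w - w)
      rw [smul_sub, ← mul_smul, hc₀, one_smul]
      abel
    apply Nat.card_le_card_of_injective
      (fun x => (⟨x.1 ⟨c₀, hc₀mem⟩, hmem x⟩ : {w : W // c₀ • w = -w}))
    rintro ⟨_, _, ⟨w, hw, rfl⟩, rfl⟩ ⟨_, _, ⟨w', hw', rfl⟩, rfl⟩ hxy
    have h0 : c₀ • w - w = c₀ • w' - w' := Subtype.ext_iff.mp hxy
    apply Subtype.ext
    funext s
    show s.1 • w - w = s.1 • w' - w'
    rcases s.2 with hs | hs
    · rw [hw s.1 hs, hw' s.1 hs, sub_self, sub_self]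
    · have hs' : s.1 = c₀ := hs
      rw [hs']
      exact h0
  calc Nat.card K = Nat.card g.ker * Nat.card g.range := card_eq_card_ker_mul_card_range g
    _ = Nat.card g.ker * Nat.card 𝒵₀ := by rw [hrange]
    _ ≤ Nat.card {w : W // ∀ σ : GQ, σ • w = w} * Nat.card {w : W // c₀ • w = -w} :=
        Nat.mul_le_mul hker (hdev.trans hres)

end Abstract

section Wk

variable {p : ℕ} [NeZero p] [hp : Fact p.Prime]

/-- **(FIN-d)**, helper4's literal: uniformly in `k`, the square of the number of restrictions to the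
inertia group at `A ∣ p` of a finite group of continuous cocycles `G_ℚ → W_k` is at most
`r ^ B * card W_k`.  Inputs: the dévissage inequality for the coboundaries of the inertia-fixed
elements (`hdev`), (FIN-c) (`hfinc`) and the boundedness of `H⁰(W_k)` (`hH0`). -/
theorem find_of_inputs (r : ℕ) [hr : Fact r.Prime] (hpr : p ≠ r)
    (A : ValuationSubring Ω) (hA : A.LiesOverPrime p)
    (hdev : ∀ k : ℕ, Nat.card ((inertiaFixed A ↥(Wk p r k)).map (cobd GQ)) ≤
      Nat.card (((inertiaFixed A ↥(Wk p r k)).map (cobd GQ)).map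
        (resTo ((A.inertiaSubgroupIn ℚ : Set GQ) ∪ {complexConjugation}))))
    (hfinc : ∃ B : ℕ, ∀ k : ℕ,
      (Nat.card {w : ↥(Wk p r k) // complexConjugation • w = -w}) ^ 2 ≤
        r ^ B * Nat.card ↥(Wk p r k))
    (hH0 : ∃ C : ℕ, ∀ k : ℕ, Nat.card {w : ↥(Wk p r k) // ∀ σ : GQ, σ • w = w} ≤ C) :
    ∃ B : ℕ, ∀ (k : ℕ) (𝒵 : AddSubgroup (GQ → ↥(Wk p r k))), 𝒵 ≤ Z1 GQ ↥(Wk p r k) →
      (∀ f ∈ 𝒵, ∃ F : IntermediateField ℚ Ω, FiniteDimensional ℚ F ∧
        ∀ σ : GQ, (∀ a ∈ F, σ a = a) → f σ = 0) → Finite 𝒵 →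
      (Nat.card (𝒵.map (resTo (A.inertiaSubgroupIn ℚ : Set GQ)))) ^ 2 ≤
        r ^ B * Nat.card ↥(Wk p r k) := by
  obtain ⟨T₂, hT₂⟩ := exists_card_res_inertia_Wk_le (p := p) r hpr
  obtain ⟨Bc, hBc⟩ := hfinc
  obtain ⟨C, hC⟩ := hH0
  obtain ⟨B', hB'⟩ : ∃ B' : ℕ, (C * T₂) ^ 2 ≤ r ^ B' :=
    ⟨(C * T₂) ^ 2, (Nat.lt_pow_self hr.out.one_lt).le⟩
  refine ⟨B' + Bc, fun k 𝒵 h𝒵 hc hfin => ?_⟩
  haveI := finite_Wk (p := p) r k
  have h1 := hT₂ A hA k 𝒵 h𝒵 hc hfin
  have h2 := card_inertiaFixed_le (W := ↥(Wk p r k)) A complexConjugation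
    complexConjugation_mul_self (hdev k)
  set nm := Nat.card {w : ↥(Wk p r k) // complexConjugation • w = -w} with hnm
  have h3 : Nat.card (𝒵.map (resTo (A.inertiaSubgroupIn ℚ : Set GQ))) ≤ (C * T₂) * nm := by
    calc Nat.card (𝒵.map (resTo (A.inertiaSubgroupIn ℚ : Set GQ)))
        ≤ Nat.card (inertiaFixed A ↥(Wk p r k)) * T₂ := h1
      _ ≤ (Nat.card {w : ↥(Wk p r k) // ∀ σ : GQ, σ • w = w} * nm) * T₂ :=
          Nat.mul_le_mul_right _ h2
      _ ≤ (C * nm) * T₂ := Nat.mul_le_mul_right _ (Nat.mul_le_mul_right _ (hC k))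
      _ = (C * T₂) * nm := by ring
  calc (Nat.card (𝒵.map (resTo (A.inertiaSubgroupIn ℚ : Set GQ)))) ^ 2
      ≤ ((C * T₂) * nm) ^ 2 := Nat.pow_le_pow_left h3 2
    _ = (C * T₂) ^ 2 * nm ^ 2 := by ring
    _ ≤ r ^ B' * (r ^ Bc * Nat.card ↥(Wk p r k)) := Nat.mul_le_mul hB' (hBc k)
    _ = r ^ (B' + Bc) * Nat.card ↥(Wk p r k) := by rw [pow_add]; ring

end Wk

end Fermat.Agent.MZ
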