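/-
MZ (S15, branch-only) — helper5 — (FIN-e1), part 4 (for `r = 2`, helper2's "flat with étale
quotient" pairs): **the Hopf order produced by helper1's front end contains the indicator function
of every Galois-stable subgroup `G₁ ⊇ G ∩ 𝒦`** (`𝒦` the kernel of reduction); consequently the front
end yields `∃ H, IsHopfOrder G p H ∧ 1_{G₁} ∈ H`.
-/
import Mathlib
import Fermat.Agent.FG.HOPF_helper1_FrontD

set_option autoImplicit false
set_option linter.style.haveILetI false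
set_option linter.unusedSectionVars false

namespace Fermat.Agent.MZ

local notation "Ω" => AlgebraicClosure ℚ
local notation "GQ" => (AlgebraicClosure ℚ ≃ₐ[ℚ] AlgebraicClosure ℚ)

open scoped Classical
open Fermat.Agent.FG

section

variable {p : ℕ} [Fact p.Prime]
variable {G J ι κ : Type} [AddCommGroup G] [DistribMulAction GQ G] [Finite G]
  [AddCommGroup J] [DistribMulAction GQ J] [Fintype ι] [Fintype κ] [DecidableEq κ]

/-- the indicator function of a Galois-stable subgroup containing `G⁰ = j⁻¹ 𝒦` lies in the Hopf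
order of the front end. -/
theorem frontData_indicator_mem (D : FrontData p G J ι κ) (G₁ : AddSubgroup G) (h0 : D.G0 ≤ G₁)
    (hσ : ∀ (σ : GQ) (g : G), g ∈ G₁ → σ • g ∈ G₁) :
    Set.indicator (G₁ : Set G) (fun _ => (1 : Ω)) ∈
      latDescent p (unrDescent p (frontAlg p D.ζ D.u)) := by
  haveI := Fintype.ofFinite (G ⧸ D.G0)
  have hσ' : ∀ (σ : GQ) (g : G), σ • g ∈ G₁ ↔ g ∈ G₁ := by
    intro σ g
    refine ⟨fun h => ?_, hσ σ g⟩
    have := hσ σ⁻¹ _ h
    rwa [inv_smul_smul] at this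
  have hval : ∀ g : G, Set.indicator (G₁ : Set G) (fun _ => (1 : Ω)) g = if g ∈ G₁ then 1 else 0 := by
    intro g
    by_cases hg : g ∈ G₁
    · rw [Set.indicator_of_mem (show g ∈ (G₁ : Set G) from hg), if_pos hg]
    · rw [Set.indicator_of_notMem (show g ∉ (G₁ : Set G) from hg), if_neg hg]
  rw [mem_latDescent, mem_unrDescent]
  have hpad : ∀ g : G, padicFun p (Set.indicator (G₁ : Set G) (fun _ => (1 : Ω))) g =
      if g ∈ G₁ then 1 else 0 := by
    intro g
    rw [padicFun_apply, hval]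
    split_ifs
    · exact map_one _
    · exact map_zero _
  refine ⟨fun σ g => ?_, ?_, fun τ g => ?_⟩
  · rw [hval, hval]
    by_cases hg : g ∈ G₁
    · rw [if_pos hg, if_pos ((hσ' σ g).mpr hg), map_one]
    · rw [if_neg hg, if_neg (fun h => hg ((hσ' σ g).mp h)), map_zero]
  · -- a sum of coset indicators
    have hcls : ∀ g : G, (Quotient.out (D.cls g)) ∈ G₁ ↔ g ∈ G₁ := by
      intro g
      have h1 : D.cls (Quotient.out (D.cls g)) = D.cls g := D.cls_out _
      have h2 : -(Quotient.out (D.cls g)) + g ∈ D.G0 := by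
        have := (QuotientAddGroup.eq (s := D.G0)).mp h1
        exact this
      have h3 := h0 h2
      constructor
      · intro h
        have := G₁.add_mem h h3
        rwa [add_neg_cancel_left] at this
      · intro h
        have h4 : Quotient.out (D.cls g) = g - (-(Quotient.out (D.cls g)) + g) := by abel
        rw [h4]
        exact G₁.sub_mem h h3
    have hsum : padicFun p (Set.indicator (G₁ : Set G) (fun _ => (1 : Ω))) =
        ∑ c ∈ Finset.univ.filter (fun c : G ⧸ D.G0 => Quotient.out c ∈ G₁), D.u (Sum.inl c) := by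
      funext g
      rw [hpad, Finset.sum_apply]
      simp only [FrontData.u_inl, FrontData.e]
      rw [Finset.sum_ite_eq]
      by_cases hg : g ∈ G₁
      · rw [if_pos hg, if_pos]
        exact Finset.mem_filter.mpr ⟨Finset.mem_univ _, (hcls g).mpr hg⟩
      · rw [if_neg hg, if_neg]
        intro h
        exact hg ((hcls g).mp (Finset.mem_filter.mp h).2)
    rw [hsum]
    exact Subalgebra.sum_mem _ fun c _ => coord_mem_frontAlg p D.ζ D.u (Sum.inl c)
  · rw [hpad, hpad]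
    by_cases hg : g ∈ G₁
    · rw [if_pos hg, if_pos ((hσ' _ g).mpr hg), map_one]
    · rw [if_neg hg, if_neg (fun h => hg ((hσ' _ g).mp h)), map_zero]

end

/-- **[HOPF-FRONT], pair form**: as `hasHopfOrder_of_front`, together with the indicator function
of a Galois-stable subgroup `G₁ ⊇ j⁻¹ 𝒦`. -/
theorem hopfOrder_pair_of_front {p : ℕ} [Fact p.Prime]
    {𝒥 : Type} [AddCommGroup 𝒥] [DistribMulAction GQ 𝒥]
    {G : Type} [AddCommGroup G] [DistribMulAction GQ G] [Finite G]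
    (hcont : ∀ g : G, IsContAt g)
    (j : G →+ 𝒥) (hj : Function.Injective j) (hjσ : ∀ (σ : GQ) (g : G), j (σ • g) = σ • j g)
    (𝒦 : AddSubgroup 𝒥)
    (h𝒦 : ∀ (τ : PadicAlgCl p ≃ₐ[ℚ_[p]] PadicAlgCl p), ∀ x ∈ 𝒦, localGaloisToGlobal p τ • x ∈ 𝒦)
    {ι : Type} [Fintype ι] (y : 𝒦 → ι → PadicAlgCl p) (hy1 : ∀ x i, ‖y x i‖ < 1)
    (hyinj : Function.Injective y)
    (hyτ : ∀ (τ : PadicAlgCl p ≃ₐ[ℚ_[p]] PadicAlgCl p) (x : 𝒦) (i : ι),
      y ⟨localGaloisToGlobal p τ • (x : 𝒥), h𝒦 τ x x.2⟩ i = τ (y x i))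
    {κ : Type} [Fintype κ] [DecidableEq κ] (out : ι → κ)
    (S : κ → MvPolynomial ((ι ⊕ ι) ⊕ κ) (GaloisRep.ratLocalizedAt p))
    (B : Matrix κ κ (GaloisRep.ratLocalizedAt p))
    (hB : B * (Matrix.of fun a b => MvPolynomial.coeff (Finsupp.single (Sum.inr b) 1) (S a)) = 1)
    (hS : ∀ x x' : 𝒦, ∃ w : κ → PadicAlgCl p, (∀ b, ‖w b‖ < 1) ∧
      (∀ i, w (out i) = y (x + x') i) ∧
      ∀ a, MvPolynomial.aeval (Sum.elim (Sum.elim (y x) (y x')) w) (S a) = 0)
    {m : ℕ} (hpm : ¬ p ∣ m) (ζ : PadicAlgCl p) (hζ : IsPrimitiveRoot ζ m)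
    (c : G → 𝒥) (hc𝒦 : ∀ g, j g - c g ∈ 𝒦)
    (hcρ : ∀ ρ : PadicAlgCl p ≃ₐ[ℚ_[p]] PadicAlgCl p, ρ ζ = ζ →
      ∀ g, localGaloisToGlobal p ρ • c g = c g)
    (hcc : ∀ g g', j g - j g' ∈ 𝒦 → c g = c g')
    (G₁ : AddSubgroup G) (h0 : 𝒦.comap j ≤ G₁) (hσ : ∀ (σ : GQ) (g : G), g ∈ G₁ → σ • g ∈ G₁) :
    ∃ H : Subalgebra (GaloisRep.ratLocalizedAt p) (G → Ω), IsHopfOrder G p H ∧
      Set.indicator (G₁ : Set G) (fun _ => (1 : Ω)) ∈ H := by
  let D : FrontData p G 𝒥 ι κ :=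
    { j := j, hj := hj, hjσ := hjσ, K := 𝒦, hK := h𝒦, y := y, hy1 := hy1, hyinj := hyinj,
      hyτ := hyτ, out := out, S := S, B := B, hB := hB, hS := hS, m := m, hpm := hpm, ζ := ζ,
      hζ := hζ, c := c, hcK := hc𝒦, hcρ := hcρ, hcc := hcc }
  exact ⟨_, D.isHopfOrder hcont, frontData_indicator_mem D G₁ h0 hσ⟩

end Fermat.Agent.MZ
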