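/-
MZ (S15, branch-only) — helper5 — (FIN-e1), part 5 (for `r = 2`, helper2's "flat with étale
quotient" pairs): the pair forms of `kummer_hasHopfOrder_of_goodRed` and
`jzeroKummer_hasHopfOrder`: **the Kummer module `E = KummerAmb (JZero N) P (ℓ^k) [ℓ^k]` of a rational
point carries a Hopf order over `ℤ_(ℓ)` (every `ℓ ∤ N`, including `ℓ = 2`) which contains the
indicator function of the subgroup `J₀(N)[ℓ^k] = ker (E → ℤ/ℓ^k)`**.
-/
import Mathlib
import Fermat.Agent.MZ.KUMFLAT_helper5_JZero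
import Fermat.Agent.MZ.KUMFLAT_helper5_Ind

set_option autoImplicit false
set_option linter.style.haveILetI false
set_option linter.unusedSectionVars false
set_option linter.unusedVariables false

namespace Fermat.Agent.MZ

local notation "Ω" => AlgebraicClosure ℚ
local notation "GQ" => (AlgebraicClosure ℚ ≃ₐ[ℚ] AlgebraicClosure ℚ)

open GaloisRep AlgebraicCurve IsLocalRing Fermat.Agent.FG

noncomputable section

section Abs

variable {J J' : Type*} [AddCommGroup J] [AddCommGroup J'] {P : J} {n : ℕ}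

theorem kummerProj_kummerMap (f : J →+ J') (x : KummerAmb J P n) :
    kummerProj (kummerMap (P := P) (n := n) f x) = kummerProj x := by
  obtain ⟨y, rfl⟩ := kummerMk_surjective x
  rw [kummerMap_mk, kummerProj_mk, kummerProj_mk]

end Abs

section Front

variable {p : ℕ} [Fact p.Prime] {𝔽 : Type} [Field 𝔽] [Algebra Ω 𝔽]
  {𝔽b : Type} [Field 𝔽b] [Algebra (ResidueField ↥(padicPlace p)) 𝔽b]
  (X : GoodRed Ω (padicPlace p) 𝔽 𝔽b) (φ : GQ →* SemilinearAut Ω 𝔽)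

/-- **[GLUE] for the pushout, pair form**: the Hopf order contains the indicator function of every
Galois-stable subgroup `G₁` containing the elements of `G` lying in the image of `Pic⁰`... more
precisely in the image of the kernel of reduction. -/
theorem kummer_hopfOrder_pair_of_goodRed
    (hφbase : ∀ (σ : GQ) (a : Ω), SemilinearAut.baseAut (φ σ) a = σ a)
    (hφrat : ∀ σ : GQ, X.IsRatAut (φ σ))
    (hφaut : ∀ τ : PadicAlgCl p ≃ₐ[ℚ_[p]] PadicAlgCl p, X.IsAut (φ (localGaloisToGlobal p τ)))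
    (ch : X.Chart) (hlift : X.LiftSpec)
    (P₀ : Pic0 Ω 𝔽) (hP₀ : ∀ σ : GQ, φ σ • P₀ = P₀) (n : ℕ) (hn : n ≠ 0)
    {G : Type} [AddCommGroup G] [DistribMulAction GQ G] [Finite G] (hcont : ∀ g : G, IsContAt g)
    (j : G →+ KummerAmb (Pic0 Ω 𝔽) P₀ n) (hj : Function.Injective j)
    (hjσ : ∀ (σ : GQ) (g : G),
      letI := picKummerAction φ P₀ hP₀ n
      j (σ • g) = σ • j g)
    (G₁ : AddSubgroup G) (h0 : ∀ g : G, kummerProj (j g) = 0 → g ∈ G₁)
    (hσ : ∀ (σ : GQ) (g : G), g ∈ G₁ → σ • g ∈ G₁) :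
    ∃ H : Subalgebra (GaloisRep.ratLocalizedAt p) (G → Ω), IsHopfOrder G p H ∧
      Set.indicator (G₁ : Set G) (fun _ => (1 : Ω)) ∈ H := by
  classical
  letI actP : DistribMulAction GQ (Pic0 Ω 𝔽) := picAction φ
  letI actA : DistribMulAction GQ (KummerAmb (Pic0 Ω 𝔽) P₀ n) := picKummerAction φ P₀ hP₀ n
  letI := ch.fι
  letI := ch.dι
  letI := ch.fκ
  letI := ch.dκ
  haveI := Fintype.ofFinite G
  -- the kernel of reduction of the pushout
  have hinj : Function.Injective (kummerIncl (J := Pic0 Ω 𝔽) (P := P₀) (n := n)) :=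
    kummerIncl_injective hn
  set 𝒦 : AddSubgroup (KummerAmb (Pic0 Ω 𝔽) P₀ n) := X.kerRed.map kummerIncl with h𝒦def
  let e : ↥X.kerRed ≃+ ↥𝒦 := X.kerRed.equivMapOfInjective kummerIncl hinj
  have he : ∀ z : ↥X.kerRed, ((e z : ↥𝒦) : KummerAmb (Pic0 Ω 𝔽) P₀ n) = kummerIncl (z : Pic0 Ω 𝔽) :=
    fun z => AddSubgroup.coe_equivMapOfInjective_apply _ _ _ z
  have hesymm : ∀ x : ↥𝒦, kummerIncl ((e.symm x : ↥X.kerRed) : Pic0 Ω 𝔽) =
      (x : KummerAmb (Pic0 Ω 𝔽) P₀ n) := fun x => by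
    rw [← he, AddEquiv.apply_symm_apply]
  -- stability of the kernel of reduction
  have hstab : ∀ (τ : PadicAlgCl p ≃ₐ[ℚ_[p]] PadicAlgCl p), ∀ x ∈ X.kerRed,
      φ (localGaloisToGlobal p τ) • x ∈ X.kerRed := fun τ x hx =>
    ch.ker_stable _ (hφaut τ) x hx
  have h𝒦 : ∀ (τ : PadicAlgCl p ≃ₐ[ℚ_[p]] PadicAlgCl p), ∀ x ∈ 𝒦,
      localGaloisToGlobal p τ • x ∈ 𝒦 := by
    intro τ x hx
    rw [h𝒦def, AddSubgroup.mem_map] at hx ⊢
    obtain ⟨z, hz, rfl⟩ := hx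
    exact ⟨φ (localGaloisToGlobal p τ) • z, hstab τ z hz, rfl⟩
  have hesymm_smul : ∀ (τ : PadicAlgCl p ≃ₐ[ℚ_[p]] PadicAlgCl p) (x : ↥𝒦),
      e.symm ⟨localGaloisToGlobal p τ • (x : KummerAmb (Pic0 Ω 𝔽) P₀ n), h𝒦 τ x x.2⟩ =
        ⟨φ (localGaloisToGlobal p τ) • ((e.symm x : ↥X.kerRed) : Pic0 Ω 𝔽),
          hstab τ _ (e.symm x).2⟩ := by
    intro τ x
    apply e.injective
    rw [AddEquiv.apply_symm_apply]
    apply Subtype.ext
    rw [he]
    show localGaloisToGlobal p τ • (x : KummerAmb (Pic0 Ω 𝔽) P₀ n) =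
      kummerIncl (φ (localGaloisToGlobal p τ) • ((e.symm x : ↥X.kerRed) : Pic0 Ω 𝔽))
    rw [← hesymm x]
    rfl
  -- the coset lifts
  choose L hL nn ζ' hnn hζ' hfix using hlift
  -- representatives in `Pic⁰ × ℤ`
  choose rep hrep using fun g : G => kummerMk_surjective (j g)
  -- representatives of the cosets of `G ∩ 𝒦`
  let r : G → G := fun g => (QuotientAddGroup.mk g : G ⧸ (𝒦.comap j)).out
  have hr1 : ∀ g, j g - j (r g) ∈ 𝒦 := by
    intro g
    have h1 : (QuotientAddGroup.mk (r g) : G ⧸ (𝒦.comap j)) = QuotientAddGroup.mk g :=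
      QuotientAddGroup.out_eq' _
    rw [QuotientAddGroup.eq] at h1
    have h2 : j (-(r g) + g) ∈ 𝒦 := h1
    rw [map_add, map_neg, neg_add_eq_sub] at h2
    exact h2
  have hr2 : ∀ g g', j g - j g' ∈ 𝒦 → r g = r g' := by
    intro g g' h
    have h1 : (QuotientAddGroup.mk g : G ⧸ (𝒦.comap j)) = QuotientAddGroup.mk g' := by
      rw [QuotientAddGroup.eq]
      show j (-g + g') ∈ 𝒦
      rw [map_add, map_neg, neg_add_eq_sub]
      have h3 : j g' - j g = -(j g - j g') := by abel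
      rw [h3]
      exact 𝒦.neg_mem h
    show (QuotientAddGroup.mk g : G ⧸ (𝒦.comap j)).out = (QuotientAddGroup.mk g' : G ⧸ _).out
    rw [h1]
  set T : Finset (Pic0 (ResidueField ↥(padicPlace p)) 𝔽b) :=
    Finset.univ.image (fun g : G => X.redPic0 (rep (r g)).1) with hT
  set m : ℕ := ∏ zb ∈ T, nn zb with hm
  have hpm : ¬ p ∣ m := by
    rw [hm, (Nat.Prime.prime (Fact.out : p.Prime)).dvd_finsetProd_iff]
    rintro ⟨zb, -, hd⟩
    exact glue_not_dvd_of_natCast_ne_zero p (hnn zb) hd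
  have hm0 : m ≠ 0 := fun h0 => hpm (h0 ▸ dvd_zero p)
  haveI : NeZero m := ⟨hm0⟩
  haveI : NeZero ((m : ℕ) : PadicAlgCl p) := ⟨by exact_mod_cast hm0⟩
  obtain ⟨ζ, hζ⟩ := HasEnoughRootsOfUnity.exists_primitiveRoot (PadicAlgCl p) m
  let c : G → KummerAmb (Pic0 Ω 𝔽) P₀ n := fun g =>
    kummerMk (L (X.redPic0 (rep (r g)).1), (rep (r g)).2)
  have hc𝒦 : ∀ g, j g - c g ∈ 𝒦 := by
    intro g
    have h1 : j g - c g = (j g - j (r g)) + (j (r g) - c g) := by abel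
    rw [h1]
    refine 𝒦.add_mem (hr1 g) ?_
    rw [h𝒦def, AddSubgroup.mem_map]
    refine ⟨(rep (r g)).1 - L (X.redPic0 (rep (r g)).1), ?_, ?_⟩
    · rw [GoodRed.mem_kerRed, map_sub, hL, sub_self]
    · have h2 : kummerMk (P := P₀) (n := n)
          (rep (r g) - (L (X.redPic0 (rep (r g)).1), (rep (r g)).2)) = j (r g) - c g := by
        rw [map_sub, hrep]
      rw [← h2, kummerIncl_apply]
      congr 1
      ext
      · rfl
      · show (0 : ℤ) = (rep (r g)).2 - (rep (r g)).2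
        rw [sub_self]
  have hcρ : ∀ ρ : PadicAlgCl p ≃ₐ[ℚ_[p]] PadicAlgCl p, ρ ζ = ζ →
      ∀ g, localGaloisToGlobal p ρ • c g = c g := by
    intro ρ hρ g
    show kummerMk (φ (localGaloisToGlobal p ρ) • L (X.redPic0 (rep (r g)).1), (rep (r g)).2) =
      kummerMk (L (X.redPic0 (rep (r g)).1), (rep (r g)).2)
    have hfixed : φ (localGaloisToGlobal p ρ) • L (X.redPic0 (rep (r g)).1) =
        L (X.redPic0 (rep (r g)).1) := by
      refine hfix _ _ (hφaut ρ) ?_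
      rw [hφbase]
      apply (padicEmbedding p).injective
      show padicEmbedding p (localGaloisToGlobal p ρ (ζ' (X.redPic0 (rep (r g)).1))) =
        padicEmbedding p (ζ' (X.redPic0 (rep (r g)).1))
      rw [padicEmbedding_localGaloisToGlobal]
      have hzT : X.redPic0 (rep (r g)).1 ∈ T :=
        Finset.mem_image.mpr ⟨g, Finset.mem_univ g, rfl⟩
      have h1 : (padicEmbedding p (ζ' (X.redPic0 (rep (r g)).1))) ^ m = 1 := by
        obtain ⟨d, hd⟩ := Finset.dvd_prod_of_mem nn hzT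
        rw [← map_pow, hm, hd, pow_mul, hζ', one_pow, map_one]
      obtain ⟨i, -, hi⟩ := hζ.eq_pow_of_pow_eq_one h1
      rw [← hi, map_pow, hρ]
    rw [hfixed]
  have hcc : ∀ g g', j g - j g' ∈ 𝒦 → c g = c g' := by
    intro g g' h
    show kummerMk (L (X.redPic0 (rep (r g)).1), (rep (r g)).2) =
      kummerMk (L (X.redPic0 (rep (r g')).1), (rep (r g')).2)
    rw [hr2 g g' h]
  -- the descent of the system
  have hdesc : ∀ a : ch.κ ⊕ ch.ι,
      ∃ Q : MvPolynomial ((ch.ι ⊕ ch.ι) ⊕ (ch.κ ⊕ ch.ι)) (ratLocalizedAt p),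
        MvPolynomial.map (algebraMap (ratLocalizedAt p) Ω) Q = ch.S a := fun a =>
    glue_exists_descent p (ch.S a)
      (fun m σ => by rw [← hφbase]; exact ch.S_rat _ (hφrat σ) a m) (fun m => ch.S_int a m)
  choose S hS using hdesc
  -- the Jacobian
  set Jm : Matrix (ch.κ ⊕ ch.ι) (ch.κ ⊕ ch.ι) (ratLocalizedAt p) :=
    Matrix.of fun a b => MvPolynomial.coeff (Finsupp.single (Sum.inr b) 1) (S a) with hJ
  have hJu : IsUnit Jm.det := by
    apply glue_isUnit_of_valuation_eq_one p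
    rw [RingHom.map_det, hJ, glue_mapMatrix_jacobian p Sum.inr S ch.S hS]
    exact ch.S_jac
  have h0' : 𝒦.comap j ≤ G₁ := by
    intro g hg
    refine h0 g ?_
    have hg' : j g ∈ 𝒦 := hg
    rw [h𝒦def, AddSubgroup.mem_map] at hg'
    obtain ⟨z, -, hz⟩ := hg'
    rw [← hz, kummerProj_incl]
  refine hopfOrder_pair_of_front (𝒥 := KummerAmb (Pic0 Ω 𝔽) P₀ n) hcont j hj hjσ 𝒦 h𝒦
    (fun x i => padicEmbedding p (ch.y (e.symm x) i))
    (fun x i => (glue_mem_nonunits_iff p _).mp (ch.y_mem _ i))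
    (fun x x' h => ?_)
    (fun τ x i => ?_) (Sum.inr : ch.ι → ch.κ ⊕ ch.ι) S Jm⁻¹ (Matrix.nonsing_inv_mul Jm hJu)
    (fun x x' => ?_) hpm ζ hζ c hc𝒦 hcρ hcc G₁ h0' hσ
  · apply e.symm.injective
    exact ch.y_injective (funext fun i => (padicEmbedding p).injective (congrFun h i))
  · have h1 := ch.y_smul _ (hφaut τ) (e.symm x) i
    rw [hφbase] at h1
    show padicEmbedding p (ch.y (e.symm ⟨localGaloisToGlobal p τ •
      (x : KummerAmb (Pic0 Ω 𝔽) P₀ n), _⟩) i) = _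
    rw [hesymm_smul τ x, h1, padicEmbedding_localGaloisToGlobal]
  · obtain ⟨aux, haux, hsol⟩ := ch.S_sol (e.symm x) (e.symm x')
    refine ⟨fun b => padicEmbedding p (Sum.elim aux (ch.y (e.symm x + e.symm x')) b), fun b => ?_,
      fun i => ?_, fun a => ?_⟩
    · rw [← glue_mem_nonunits_iff]
      rcases b with l | i
      · exact haux l
      · exact ch.y_mem _ i
    · show padicEmbedding p (ch.y (e.symm x + e.symm x') i) =
        padicEmbedding p (ch.y (e.symm (x + x')) i)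
      rw [map_add]
    · have h2 := glue_padicEmbedding_eval p (S a)
        (Sum.elim (Sum.elim (ch.y (e.symm x)) (ch.y (e.symm x')))
          (Sum.elim aux (ch.y (e.symm x + e.symm x'))))
      rw [hS, hsol, map_zero] at h2
      have hfun : (fun t => padicEmbedding p
          (Sum.elim (Sum.elim (ch.y (e.symm x)) (ch.y (e.symm x')))
            (Sum.elim aux (ch.y (e.symm x + e.symm x'))) t)) =
          Sum.elim (Sum.elim (fun i => padicEmbedding p (ch.y (e.symm x) i))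
            (fun i => padicEmbedding p (ch.y (e.symm x') i)))
            (fun b => padicEmbedding p (Sum.elim aux (ch.y (e.symm x + e.symm x')) b)) := by
        funext t
        rcases t with (t | t) | t <;> rfl
      rw [hfun] at h2
      exact h2.symm

end Front

section Inst

open ModularCurve Fermat.Agent.GR Fermat.Agent.JA Fermat.Agent.SS Fermat.Agent.Igusa

variable (N : ℕ) [NeZero N]

/-- **flatness of the Kummer modules from a good-reduction instance.** -/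
theorem jzeroKummer_hopfOrder_pair_of_goodRed (ℓ : ℕ) [Fact ℓ.Prime] (k : ℕ)
    {𝔽 : Type} [Field 𝔽] [Algebra Ω 𝔽]
    {𝔽b : Type} [Field 𝔽b] [Algebra (ResidueField ↥(padicPlace ℓ)) 𝔽b]
    (X : GoodRed Ω (padicPlace ℓ) 𝔽 𝔽b) (φ : GQ →* SemilinearAut Ω 𝔽)
    (hφbase : ∀ (σ : GQ) (a : Ω), SemilinearAut.baseAut (φ σ) a = σ a)
    (hφrat : ∀ σ : GQ, X.IsRatAut (φ σ))
    (hφaut : ∀ τ : PadicAlgCl ℓ ≃ₐ[ℚ_[ℓ]] PadicAlgCl ℓ, X.IsAut (φ (localGaloisToGlobal ℓ τ)))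
    (j : JZero N →+ Pic0 Ω 𝔽) (hjσ : ∀ (σ : GQ) (x : JZero N), j (σ • x) = φ σ • j x)
    (m : ℕ) (hm : Nat.Coprime m ℓ) (hjker : ∀ x : JZero N, j x = 0 → m • x = 0)
    (P : JZero N) (hP : ∀ σ : GQ, σ • P = P) :
    letI := jzeroKummerAction N P hP (ℓ ^ k)
    ∃ H : Subalgebra (ratLocalizedAt ℓ)
        (↥(Submodule.torsionBy ℤ (KummerAmb (JZero N) P (ℓ ^ k)) ((ℓ ^ k : ℕ) : ℤ)) → Ω),
      IsHopfOrder ↥(Submodule.torsionBy ℤ (KummerAmb (JZero N) P (ℓ ^ k)) ((ℓ ^ k : ℕ) : ℤ)) ℓ H ∧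
      Set.indicator (((kummerTorsProj (J := JZero N) (P := P) (n := ℓ ^ k)).ker :
          AddSubgroup ↥(Submodule.torsionBy ℤ (KummerAmb (JZero N) P (ℓ ^ k)) ((ℓ ^ k : ℕ) : ℤ))) :
          Set ↥(Submodule.torsionBy ℤ (KummerAmb (JZero N) P (ℓ ^ k)) ((ℓ ^ k : ℕ) : ℤ)))
        (fun _ => (1 : Ω)) ∈ H := by
  letI actA := kummerAmbAction (Γ := GQ) (P := P) (n := ℓ ^ k) hP
  letI := jzeroKummerAction N P hP (ℓ ^ k)
  have hℓ : ℓ.Prime := Fact.out
  have hn : ℓ ^ k ≠ 0 := pow_ne_zero _ hℓ.ne_zero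
  haveI : Finite ↥(Submodule.torsionBy ℤ (JZero N) ((ℓ ^ k : ℕ) : ℤ)) := by
    have := finite_torsionBy_jzero N ℓ k
    rwa [show ((ℓ ^ k : ℕ) : ℤ) = (ℓ : ℤ) ^ k by push_cast; rfl]
  haveI := finite_kummerMod (J := JZero N) (P := P) hn
  have hA : (padicPlace ℓ).LiesOverPrime ℓ := Fermat.Agent.TW.Kill.padicPlace_liesOverPrime ℓ
  haveI : IsAlgClosed (ResidueField ↥(padicPlace ℓ)) := isAlgClosed_residueField (padicPlace ℓ)
  have hens : IsMvHenselian (padicPlace ℓ) := isMvHenselian_padicPlace ℓ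
  have hP₀ : ∀ σ : GQ, φ σ • j P = j P := fun σ => by rw [← hjσ, hP]
  refine kummer_hopfOrder_pair_of_goodRed X φ hφbase hφrat hφaut (X.chartOf hens)
    (X.liftSpec_of_liesOverPrime hA) (j P) hP₀ (ℓ ^ k) hn (fun g => ?_)
    ((kummerMap (P := P) (n := ℓ ^ k) j).comp
      (Submodule.torsionBy ℤ (KummerAmb (JZero N) P (ℓ ^ k))
        ((ℓ ^ k : ℕ) : ℤ)).subtype.toAddMonoidHom) ?_ ?_
    (kummerTorsProj (J := JZero N) (P := P) (n := ℓ ^ k)).ker ?_ ?_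
  · -- continuity
    obtain ⟨⟨Q, a⟩, hQ⟩ := kummerMk_surjective (g : KummerAmb (JZero N) P (ℓ ^ k))
    obtain ⟨L, hL, hfix⟩ := jzero_fix N Q
    refine ⟨L, hL, fun σ hσ => Subtype.ext ?_⟩
    show σ • (g : KummerAmb (JZero N) P (ℓ ^ k)) = g
    rw [← hQ]
    show kummerMk (σ • Q, a) = kummerMk (Q, a)
    rw [hfix σ hσ]
  · -- injectivity
    rw [injective_iff_map_eq_zero]
    intro x hx
    have h2 : ((ℓ ^ k : ℕ) : ℤ) • (x : KummerAmb (JZero N) P (ℓ ^ k)) = 0 := by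
      have := x.2
      rwa [Submodule.mem_torsionBy_iff] at this
    exact Subtype.ext (kummerMap_injOn_torsion j hn m (Nat.Coprime.pow_right k hm) hjker _ h2 hx)
  · -- equivariance
    intro σ g
    obtain ⟨⟨Q, a⟩, hQ⟩ := kummerMk_surjective (g : KummerAmb (JZero N) P (ℓ ^ k))
    show kummerMap j (σ • (g : KummerAmb (JZero N) P (ℓ ^ k))) =
      (picKummerAction φ (j P) hP₀ (ℓ ^ k)).smul σ (kummerMap j (g : KummerAmb (JZero N) P (ℓ ^ k)))
    rw [← hQ]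
    show kummerMk (j (σ • Q), a) = kummerMk (φ σ • j Q, a)
    rw [hjσ]
  · -- the subgroup contains the part over `0`
    intro g hg
    rw [AddMonoidHom.mem_ker]
    have h1 : kummerProj (kummerMap (P := P) (n := ℓ ^ k) j
        (g : KummerAmb (JZero N) P (ℓ ^ k))) = 0 := hg
    rw [kummerProj_kummerMap] at h1
    exact h1
  · -- Galois-stability
    intro σ g hg
    rw [AddMonoidHom.mem_ker] at hg ⊢
    show kummerProj (σ • (g : KummerAmb (JZero N) P (ℓ ^ k))) = 0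
    rw [kummerProj_smul hP σ]
    exact hg

/-- **the Kummer modules of rational points of `J₀(N)` are flat at odd `ℓ ∤ N`.** -/
theorem jzeroKummer_hopfOrder_pair_of_odd (ℓ : ℕ) [Fact ℓ.Prime] (hℓN : ¬ ℓ ∣ N) (hℓ2 : ℓ ≠ 2)
    (k : ℕ) (P : JZero N) (hP : ∀ σ : GQ, σ • P = P) :
    letI := jzeroKummerAction N P hP (ℓ ^ k)
    ∃ H : Subalgebra (ratLocalizedAt ℓ)
        (↥(Submodule.torsionBy ℤ (KummerAmb (JZero N) P (ℓ ^ k)) ((ℓ ^ k : ℕ) : ℤ)) → Ω),
      IsHopfOrder ↥(Submodule.torsionBy ℤ (KummerAmb (JZero N) P (ℓ ^ k)) ((ℓ ^ k : ℕ) : ℤ)) ℓ H ∧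
      Set.indicator (((kummerTorsProj (J := JZero N) (P := P) (n := ℓ ^ k)).ker :
          AddSubgroup ↥(Submodule.torsionBy ℤ (KummerAmb (JZero N) P (ℓ ^ k)) ((ℓ ^ k : ℕ) : ℤ))) :
          Set ↥(Submodule.torsionBy ℤ (KummerAmb (JZero N) P (ℓ ^ k)) ((ℓ ^ k : ℕ) : ℤ)))
        (fun _ => (1 : Ω)) ∈ H := by
  have hA : (padicPlace ℓ).LiesOverPrime ℓ := Fermat.Agent.TW.Kill.padicPlace_liesOverPrime ℓ
  refine jzeroKummer_hopfOrder_pair_of_goodRed N ℓ k (legGoodRed hA N hℓN hℓ2) (legGalois Ω N)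
    (fun σ a => baseAut_legGalois N σ a) (fun σ => legGoodRed_isRatAut hA N hℓN hℓ2 σ)
    (fun τ => legGoodRed_isAut hA N hℓN hℓ2 (localGaloisToGlobal_mem_decompositionSubgroup ℓ τ))
    (legPull N) (legPull_smul N) 2 ?_ (two_nsmul_eq_zero_of_legPull_eq_zero N) P hP
  rw [Nat.coprime_comm]
  exact (Nat.Prime.coprime_iff_not_dvd (Fact.out : ℓ.Prime)).mpr fun h =>
    hℓ2 ((Nat.prime_dvd_prime_iff_eq (Fact.out : ℓ.Prime) Nat.prime_two).mp h)

/-- **the Kummer modules of rational points of `J₀(N)` are flat at `ℓ ∤ 3N`** (in particular at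
`ℓ = 2` for odd `N`), via the Hesse cover. -/
theorem jzeroKummer_hopfOrder_pair_of_hesse (ℓ : ℕ) [Fact ℓ.Prime] (hℓN : ¬ ℓ ∣ N) (hℓ3 : ℓ ≠ 3)
    (k : ℕ) (P : JZero N) (hP : ∀ σ : GQ, σ • P = P) :
    letI := jzeroKummerAction N P hP (ℓ ^ k)
    ∃ H : Subalgebra (ratLocalizedAt ℓ)
        (↥(Submodule.torsionBy ℤ (KummerAmb (JZero N) P (ℓ ^ k)) ((ℓ ^ k : ℕ) : ℤ)) → Ω),
      IsHopfOrder ↥(Submodule.torsionBy ℤ (KummerAmb (JZero N) P (ℓ ^ k)) ((ℓ ^ k : ℕ) : ℤ)) ℓ H ∧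
      Set.indicator (((kummerTorsProj (J := JZero N) (P := P) (n := ℓ ^ k)).ker :
          AddSubgroup ↥(Submodule.torsionBy ℤ (KummerAmb (JZero N) P (ℓ ^ k)) ((ℓ ^ k : ℕ) : ℤ))) :
          Set ↥(Submodule.torsionBy ℤ (KummerAmb (JZero N) P (ℓ ^ k)) ((ℓ ^ k : ℕ) : ℤ)))
        (fun _ => (1 : Ω)) ∈ H := by
  have hA : (padicPlace ℓ).LiesOverPrime ℓ := Fermat.Agent.TW.Kill.padicPlace_liesOverPrime ℓ
  refine jzeroKummer_hopfOrder_pair_of_goodRed N ℓ k (hesGoodRed hA N hℓN hℓ3) (hesGalois Ω N)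
    (fun σ a => baseAut_hesGalois N σ a) (fun σ => hesGoodRed_isRatAut hA N hℓN hℓ3 σ)
    (fun τ => hesGoodRed_isAut hA N hℓN hℓ3
      (localGaloisToGlobal_mem_decompositionSubgroup ℓ τ))
    (hesPull N) (fun σ x => hesPull_smul N σ x) 3 ?_
    (fun x hx => three_nsmul_eq_zero_of_hesPull_eq_zero N x hx) P hP
  have hℓ : ℓ.Prime := Fact.out
  exact (Nat.coprime_primes Nat.prime_three hℓ).mpr (Ne.symm hℓ3)

/-- **the Kummer modules of rational points of `J₀(N)` are flat at every `ℓ ∤ N`.** -/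
theorem jzeroKummer_hopfOrder_pair (ℓ : ℕ) [Fact ℓ.Prime] (hℓN : ¬ ℓ ∣ N)
    (k : ℕ) (P : JZero N) (hP : ∀ σ : GQ, σ • P = P) :
    letI := jzeroKummerAction N P hP (ℓ ^ k)
    ∃ H : Subalgebra (ratLocalizedAt ℓ)
        (↥(Submodule.torsionBy ℤ (KummerAmb (JZero N) P (ℓ ^ k)) ((ℓ ^ k : ℕ) : ℤ)) → Ω),
      IsHopfOrder ↥(Submodule.torsionBy ℤ (KummerAmb (JZero N) P (ℓ ^ k)) ((ℓ ^ k : ℕ) : ℤ)) ℓ H ∧
      Set.indicator (((kummerTorsProj (J := JZero N) (P := P) (n := ℓ ^ k)).ker :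
          AddSubgroup ↥(Submodule.torsionBy ℤ (KummerAmb (JZero N) P (ℓ ^ k)) ((ℓ ^ k : ℕ) : ℤ))) :
          Set ↥(Submodule.torsionBy ℤ (KummerAmb (JZero N) P (ℓ ^ k)) ((ℓ ^ k : ℕ) : ℤ)))
        (fun _ => (1 : Ω)) ∈ H := by
  by_cases hℓ2 : ℓ = 2
  · exact jzeroKummer_hopfOrder_pair_of_hesse N ℓ hℓN (by omega) k P hP
  · exact jzeroKummer_hopfOrder_pair_of_odd N ℓ hℓN hℓ2 k P hP

end Inst

end

end Fermat.Agent.MZ
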