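/-
MZ (S15, branch-only) — helper5 — (FIN-e1), part 6: **the adapter to helper4's currency (D1)**:
the extension module `ExtMod n f` of the Kummer cocycle `f σ = σ Q₀ - Q₀` (`n Q₀ = P`, `P` a rational
point of `J₀(N)`, `n = ℓ^k`, `ℓ ∤ N`) embeds equivariantly into the Kummer module
`KummerAmb (JZero N) P n [n]`, `(w, j) ↦ incl w + j • (Q₀, -1)`; hence `FlatCoc ℓ n hn f`, and (pair
form, for `ℓ = 2`) `ExtMod n f` carries a Hopf order containing the indicator of `{x | x.snd = 0}`.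
The coefficient module `G` is any `G_ℚ`-module killed by `n` with an equivariant injection
`i : G →+ JZero N` through which the cocycle is the Kummer cocycle.
-/
import Mathlib
import Fermat.Agent.MZ.KUMFLAT_helper5_Pair
import Fermat.Agent.MZ.GOOD_helper4_Defs

set_option autoImplicit false
set_option linter.style.haveILetI false
set_option linter.unusedSectionVars false
set_option linter.unusedVariables false

noncomputable section

namespace Fermat.Agent.MZ

open ModularCurve Fermat.Agent.FG GaloisRep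

local notation "Ω" => AlgebraicClosure ℚ
local notation "GQ" => (AlgebraicClosure ℚ ≃ₐ[ℚ] AlgebraicClosure ℚ)

section Embed

variable (N : ℕ) [NeZero N] {n : ℕ} (hn0 : n ≠ 0)
  (P : JZero N) (hP : ∀ σ : GQ, σ • P = P) (Q₀ : JZero N) (hQ₀ : n • Q₀ = P)
  {G : Type} [AddCommGroup G] [DistribMulAction GQ G]
  (i : G →+ JZero N) (hi : Function.Injective i) (hiσ : ∀ (σ : GQ) (g : G), i (σ • g) = σ • i g)
  (hn : ∀ x : G, n • x = 0)

/-- the Kummer module is killed by `n`. -/
theorem kummerMod_nsmul (x : ↥(Submodule.torsionBy ℤ (KummerAmb (JZero N) P n) ((n : ℕ) : ℤ))) :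
    n • x = 0 := by
  apply Subtype.ext
  have h := x.2
  rw [Submodule.mem_torsionBy_iff] at h
  rw [Submodule.coe_smul_of_tower, ← natCast_zsmul]
  exact h

/-- the inclusion `G → J[n] → KummerMod`. -/
def kummerModIncl :
    G →+ ↥(Submodule.torsionBy ℤ (KummerAmb (JZero N) P n) ((n : ℕ) : ℤ)) where
  toFun w := ⟨kummerIncl (i w), by
    rw [Submodule.mem_torsionBy_iff, natCast_zsmul, ← map_nsmul, ← map_nsmul, hn, map_zero,
      map_zero]⟩
  map_zero' := Subtype.ext (by
    show kummerIncl (P := P) (n := n) (i 0) = 0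
    rw [map_zero, map_zero])
  map_add' a b := Subtype.ext (by
    show kummerIncl (P := P) (n := n) (i (a + b)) = kummerIncl (i a) + kummerIncl (i b)
    rw [map_add, map_add])

/-- the root `(Q₀, -1)` in the Kummer module. -/
def kummerModRoot : ↥(Submodule.torsionBy ℤ (KummerAmb (JZero N) P n) ((n : ℕ) : ℤ)) :=
  ⟨kummerMk (Q₀, -1), (Submodule.mem_torsionBy_iff _ _).mpr (nsmul_kummerMk_root Q₀ hQ₀)⟩

end Embed

section Abstract

variable {Γ : Type*} [Group Γ] {G : Type*} [AddCommGroup G] [DistribMulAction Γ G]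
  {n : ℕ} [Module (ZMod n) G] (f : Z1 Γ G)
  {T : Type*} [AddCommGroup T] [DistribMulAction Γ T] [Module (ZMod n) T]
  (tI : G →+ T) (root : T)

/-- the map `(w, j) ↦ tI w + j • root` from the extension module of a cocycle. -/
def extModTo : ExtMod n f →+ T where
  toFun x := tI x.fst + x.snd • root
  map_zero' := by
    show tI (0 : G) + (0 : ZMod n) • root = 0
    rw [map_zero, zero_smul, add_zero]
  map_add' a b := by
    show tI (a.fst + b.fst) + (a.snd + b.snd) • root =
      (tI a.fst + a.snd • root) + (tI b.fst + b.snd • root)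
    rw [map_add, add_smul]
    abel

theorem extModTo_apply (x : ExtMod n f) : extModTo f tI root x = tI x.fst + x.snd • root := rfl

theorem extModTo_smul (htI : ∀ (σ : Γ) (w : G), tI (σ • w) = σ • tI w)
    (hroot : ∀ σ : Γ, σ • root = root + tI (f.1 σ)) (σ : Γ) (x : ExtMod n f) :
    extModTo f tI root (σ • x) = σ • extModTo f tI root x := by
  have e1 : extModTo f tI root (σ • x) = tI (σ • x.fst + x.snd • f.1 σ) + x.snd • root := rfl
  have e2 : tI (x.snd • f.1 σ) = x.snd • tI (f.1 σ) := ZMod.map_smul tI _ _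
  have e5 : σ • (x.snd • root) = x.snd • (σ • root) :=
    ZMod.map_smul (DistribSMul.toAddMonoidHom T σ) x.snd root
  rw [e1, extModTo_apply, map_add, htI, e2, smul_add, e5, hroot, smul_add]
  abel

theorem extModTo_proj (π : T →+ ZMod n) (hπI : ∀ w, π (tI w) = 0) (hπroot : π root = -1)
    (x : ExtMod n f) : π (extModTo f tI root x) = -x.snd := by
  rw [extModTo_apply, map_add, hπI, zero_add, ZMod.map_smul π x.snd root, hπroot, smul_eq_mul,
    mul_neg, mul_one]

theorem extModTo_injective (htIinj : Function.Injective tI) (π : T →+ ZMod n)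
    (hπI : ∀ w, π (tI w) = 0) (hπroot : π root = -1) :
    Function.Injective (extModTo (n := n) f tI root) := by
  rw [injective_iff_map_eq_zero]
  intro x hx
  have h1 : x.snd = 0 := by
    have := extModTo_proj f tI root π hπI hπroot x
    rw [hx, map_zero] at this
    exact neg_eq_zero.mp this.symm
  have h2 : tI x.fst = 0 := by
    have := extModTo_apply f tI root x
    rw [hx, h1, zero_smul, add_zero] at this
    exact this.symm
  have h5 : x.fst = 0 := htIinj (by rw [h2, map_zero])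
  exact ExtMod.ext h5 h1

end Abstract

section Main

variable (N : ℕ) [NeZero N] (ℓ : ℕ) [Fact ℓ.Prime] (hℓN : ¬ ℓ ∣ N) (k : ℕ)
  (P : JZero N) (hP : ∀ σ : GQ, σ • P = P) (Q₀ : JZero N) (hQ₀ : (ℓ ^ k) • Q₀ = P)
  {G : Type} [AddCommGroup G] [DistribMulAction GQ G]
  (i : G →+ JZero N) (hi : Function.Injective i) (hiσ : ∀ (σ : GQ) (g : G), i (σ • g) = σ • i g)
  (hn : ∀ x : G, (ℓ ^ k) • x = 0)

section Generic

variable [Module (ZMod (ℓ ^ k)) G] (f : Z1 GQ G) (hf : ∀ σ : GQ, i (f.1 σ) = σ • Q₀ - Q₀)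

include hP hQ₀ hi hiσ hf hn in
/-- **the embedding `ExtMod n f ↪ KummerMod` and its properties**, packaged. -/
theorem exists_extMod_embedding :
    letI := jzeroKummerAction N P hP (ℓ ^ k)
    ∃ Ψ : ExtMod (ℓ ^ k) f →+
        ↥(Submodule.torsionBy ℤ (KummerAmb (JZero N) P (ℓ ^ k)) ((ℓ ^ k : ℕ) : ℤ)),
      Function.Injective Ψ ∧ (∀ (σ : GQ) (x : ExtMod (ℓ ^ k) f), Ψ (σ • x) = σ • Ψ x) ∧
      ∀ x : ExtMod (ℓ ^ k) f, kummerTorsProj (Ψ x) = 0 ↔ x.snd = 0 := by
  letI actA := kummerAmbAction (Γ := GQ) (P := P) (n := ℓ ^ k) hP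
  letI actT := jzeroKummerAction N P hP (ℓ ^ k)
  have hℓ : ℓ.Prime := Fact.out
  have hn0 : ℓ ^ k ≠ 0 := pow_ne_zero _ hℓ.ne_zero
  haveI : NeZero (ℓ ^ k) := ⟨hn0⟩
  letI modT : Module (ZMod (ℓ ^ k))
      ↥(Submodule.torsionBy ℤ (KummerAmb (JZero N) P (ℓ ^ k)) ((ℓ ^ k : ℕ) : ℤ)) :=
    AddCommGroup.zmodModule (kummerMod_nsmul N P)
  -- the cocycle of the root
  have hroot_smul : ∀ σ : GQ, σ • kummerModRoot N (n := ℓ ^ k) P Q₀ hQ₀ =
      kummerModRoot N (n := ℓ ^ k) P Q₀ hQ₀ + kummerModIncl N (n := ℓ ^ k) P i hn (f.1 σ) := by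
    intro σ
    apply Subtype.ext
    have h1 := kummerAmb_smul_root_sub (Γ := GQ) (P := P) (n := ℓ ^ k) hP σ Q₀
    show σ • (kummerMk (Q₀, -1) : KummerAmb (JZero N) P (ℓ ^ k)) =
      kummerMk (Q₀, -1) + kummerIncl (i (f.1 σ))
    rw [hf σ, ← h1]
    abel
  have htI_smul : ∀ (σ : GQ) (w : G), kummerModIncl N (n := ℓ ^ k) P i hn (σ • w) =
      σ • kummerModIncl N (n := ℓ ^ k) P i hn w := by
    intro σ w
    apply Subtype.ext
    show kummerIncl (i (σ • w)) = σ • (kummerIncl (i w) : KummerAmb (JZero N) P (ℓ ^ k))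
    rw [hiσ]
    rfl
  have htI_inj : Function.Injective (kummerModIncl N (n := ℓ ^ k) P i hn) := by
    intro a b hab
    have h3 : kummerIncl (P := P) (n := ℓ ^ k) (i a) = kummerIncl (i b) :=
      congrArg Subtype.val hab
    exact hi (kummerIncl_injective (P := P) hn0 h3)
  have hproj_tI : ∀ w : G, kummerTorsProj (kummerModIncl N (n := ℓ ^ k) P i hn w) = 0 :=
    fun w => kummerProj_incl (P := P) (i w)
  have hproj_root : kummerTorsProj (kummerModRoot N (n := ℓ ^ k) P Q₀ hQ₀) = -1 :=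
    kummerProj_root (P := P) Q₀
  refine ⟨extModTo f (kummerModIncl N (n := ℓ ^ k) P i hn) (kummerModRoot N (n := ℓ ^ k) P Q₀ hQ₀),
    extModTo_injective f _ _ htI_inj kummerTorsProj hproj_tI hproj_root,
    extModTo_smul f _ _ htI_smul hroot_smul, fun x => ?_⟩
  rw [extModTo_proj f _ _ kummerTorsProj hproj_tI hproj_root, neg_eq_zero]

end Generic

variable (f : Z1 GQ G) (hf : ∀ σ : GQ, i (f.1 σ) = σ • Q₀ - Q₀)

include hℓN hP hQ₀ hi hiσ hf in
/-- **Kummer cocycles of rational points are flat** (helper4's `FlatCoc`), every `ℓ ∤ N`. -/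
theorem flatCoc_kummer : FlatCoc ℓ (ℓ ^ k) hn f := by
  letI actT := jzeroKummerAction N P hP (ℓ ^ k)
  obtain ⟨Ψ, hΨinj, hΨσ, -⟩ := @exists_extMod_embedding N _ ℓ _ k P hP Q₀ hQ₀ G _ _ i hi hiσ hn
    (AddCommGroup.zmodModule hn) f hf
  exact (jzeroKummer_hasHopfOrder N ℓ hℓN k P hP).of_injective Ψ hΨinj hΨσ

include hℓN hP hQ₀ hi hiσ hf in
/-- **pair form** (for `ℓ = 2`): the extension module of a Kummer cocycle carries a Hopf order
containing the indicator function of `{x | x.snd = 0}` ("flat with étale quotient"). -/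
theorem flatCoc_kummer_pair :
    ∃ H : Subalgebra (ratLocalizedAt ℓ)
        (@ExtMod GQ _ G _ _ (ℓ ^ k) (AddCommGroup.zmodModule hn) f → Ω),
      IsHopfOrder (@ExtMod GQ _ G _ _ (ℓ ^ k) (AddCommGroup.zmodModule hn) f) ℓ H ∧
      Set.indicator {x : @ExtMod GQ _ G _ _ (ℓ ^ k) (AddCommGroup.zmodModule hn) f |
          @ExtMod.snd GQ _ G _ _ (ℓ ^ k) (AddCommGroup.zmodModule hn) f x = 0}
        (fun _ => (1 : Ω)) ∈ H := by
  letI actT := jzeroKummerAction N P hP (ℓ ^ k)
  letI modG : Module (ZMod (ℓ ^ k)) G := AddCommGroup.zmodModule hn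
  obtain ⟨Ψ, hΨinj, hΨσ, hΨproj⟩ :=
    @exists_extMod_embedding N _ ℓ _ k P hP Q₀ hQ₀ G _ _ i hi hiσ hn
      (AddCommGroup.zmodModule hn) f hf
  obtain ⟨H, hH, hind⟩ := jzeroKummer_hopfOrder_pair N ℓ hℓN k P hP
  refine ⟨_, hH.of_injective Ψ hΨinj hΨσ, ?_⟩
  refine ⟨_, hind, ?_⟩
  funext x
  show Set.indicator _ (fun _ => (1 : Ω)) (Ψ x) = Set.indicator _ (fun _ => (1 : Ω)) x
  by_cases hx : x.snd = 0
  · rw [Set.indicator_of_mem, Set.indicator_of_mem]
    · exact hx
    · exact (AddMonoidHom.mem_ker).mpr ((hΨproj x).mpr hx)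
  · rw [Set.indicator_of_notMem, Set.indicator_of_notMem]
    · exact hx
    · intro h
      exact hx ((hΨproj x).mp ((AddMonoidHom.mem_ker).mp h))

end Main

end Fermat.Agent.MZ

end
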