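/-
PROJECT MZ (branch only) -- helper4 -- (KUM): **the Kummer cocycles with values in `W_k`**.

`kumDom p r k` : the points `Q` of `J₀(p)` with `σ Q - Q ∈ tateTors p r k` for all `σ`;
`kumRaw k Q σ := σ Q - Q` (values in `tateTors p r k`) is a Good cocycle (continuous by
`StageIData.fix`, unramified outside `{r, p}` by `StageIData.clause`, flat by helper5's
`flatCoc_kummer`);  for a word `t` in the `T_ℓ`, `ℓ ≠ p`, mapping `tateTors p r k` into `W_k` and
restricting to the identity on `W_k`, `kumHom t … Q σ := t (σ Q - Q)` is a Good cocycle with values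
in `W_k`; `kumCocs` is the group of these cocycles; it contains the coboundaries.
-/
import Mathlib
import Fermat.Agent.MZ.WK_helper4_Def
import Fermat.Agent.MZ.GOOD_helper4_Defs
import Fermat.Agent.MZ.KUMFLAT_helper5_Ext

set_option autoImplicit false
set_option linter.style.haveILetI false
set_option linter.unusedSectionVars false
set_option linter.unusedVariables false

namespace Fermat.Agent.MZ

open ModularCurve Fermat.Agent.GR Fermat.Agent.FG GaloisRep

local notation "Ω" => AlgebraicClosure ℚ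
local notation "GQ" => (AlgebraicClosure ℚ ≃ₐ[ℚ] AlgebraicClosure ℚ)

section Raw

variable (p : ℕ) [NeZero p] (r : ℕ) (k : ℕ)

/-- the Kummer domain at level `k`. -/
def kumDom : AddSubgroup (JZero p) where
  carrier := {Q | ∀ σ : GQ, σ • Q - Q ∈ tateTors p r k}
  zero_mem' := fun σ => by
    rw [smul_zero, sub_zero]
    exact zero_mem _
  add_mem' := fun {a b} ha hb σ => by
    have : σ • (a + b) - (a + b) = (σ • a - a) + (σ • b - b) := by rw [smul_add]; abel
    rw [this]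
    exact add_mem (ha σ) (hb σ)
  neg_mem' := fun {a} ha σ => by
    have : σ • (-a) - (-a) = -(σ • a - a) := by rw [smul_neg]; abel
    rw [this]
    exact neg_mem (ha σ)

variable {p r k}

theorem mem_kumDom {Q : JZero p} : Q ∈ kumDom p r k ↔ ∀ σ : GQ, σ • Q - Q ∈ tateTors p r k :=
  Iff.rfl

/-- rational points are in the Kummer domain. -/
theorem mem_kumDom_of_fixed {Q : JZero p} (hQ : ∀ σ : GQ, σ • Q = Q) : Q ∈ kumDom p r k := by
  intro σ
  rw [hQ, sub_self]
  exact zero_mem _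

/-- `tateTors` is in the Kummer domain. -/
theorem mem_kumDom_of_mem_tateTors {Q : JZero p} (hQ : Q ∈ tateTors p r k) :
    Q ∈ kumDom p r k := fun σ => sub_mem (smul_mem_tateTors σ hQ) hQ

/-- the `r^k`-multiple of a point of the Kummer domain is rational. -/
theorem pow_smul_fixed_of_mem_kumDom {Q : JZero p} (hQ : Q ∈ kumDom p r k) (σ : GQ) :
    σ • (r ^ k • Q) = r ^ k • Q := by
  have h := pow_smul_eq_zero_of_mem_tateTors (hQ σ)
  rw [nsmul_sub, sub_eq_zero] at h
  exact (map_nsmul (DistribSMul.toAddMonoidHom (JZero p) σ) _ _).trans h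

variable (k)

/-- the raw Kummer cocycle `σ ↦ σ Q - Q`. -/
noncomputable def kumRaw (Q : ↥(kumDom p r k)) : GQ → ↥(tateTors p r k) := fun σ => ⟨σ • Q.1 - Q.1, Q.2 σ⟩

theorem kumRaw_mem_Z1 (Q : ↥(kumDom p r k)) : kumRaw k Q ∈ Z1 GQ ↥(tateTors p r k) := by
  intro σ τ
  apply Subtype.ext
  show (σ * τ) • Q.1 - Q.1 = (σ • Q.1 - Q.1) + σ • (τ • Q.1 - Q.1)
  rw [mul_smul, smul_sub]
  abel

theorem nsmul_tateTors_eq_zero (x : ↥(tateTors p r k)) : r ^ k • x = 0 :=
  Subtype.ext (by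
    rw [Submodule.coe_smul_of_tower, Submodule.coe_zero]
    exact pow_smul_eq_zero_of_mem_tateTors x.2)

theorem nsmul_Wk_eq_zero (x : ↥(Wk p r k)) : r ^ k • x = 0 :=
  Subtype.ext (by
    rw [Submodule.coe_smul_of_tower, Submodule.coe_zero]
    exact pow_smul_eq_zero_of_mem_Wk x.2)

/-- **raw Kummer cocycles are Good.** -/
theorem goodCoc_kumRaw [Fact p.Prime] [Fact r.Prime] (hrp : ¬ r ∣ p) (Q : ↥(kumDom p r k)) :
    GoodCoc r p (r ^ k) (nsmul_tateTors_eq_zero k) (kumRaw k Q) := by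
  have hp : p.Prime := Fact.out
  have hr : r.Prime := Fact.out
  have I := stageIData p r
  refine ⟨kumRaw_mem_Z1 k Q, ?_, ?_, ?_⟩
  · obtain ⟨L, hL, hfix⟩ := I.fix Q.1
    refine ⟨L, hL, fun σ hσ => ?_⟩
    apply Subtype.ext
    show σ • Q.1 - Q.1 = 0
    rw [hfix σ hσ, sub_self]
  · intro v hv hvS A hA σ hσ
    have hnd : ¬ v ∣ p * r := by
      intro h
      rcases (Nat.Prime.dvd_mul hv).mp h with h1 | h1
      · exact hvS (Or.inr ((Nat.prime_dvd_prime_iff_eq hv hp).mp h1))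
      · exact hvS (Or.inl ((Nat.prime_dvd_prime_iff_eq hv hr).mp h1))
    obtain ⟨M, _, red, Fr, σ₀, -, hinert, -, -, hinj⟩ := I.clause v hv hnd A hA
    apply Subtype.ext
    show σ • Q.1 - Q.1 = 0
    refine hinj _ ⟨k, pow_smul_eq_zero_of_mem_tateTors (Q.2 σ)⟩ ?_
    rw [map_sub, hinert σ hσ, sub_self]
  · exact flatCoc_kummer p r hrp k (r ^ k • Q.1) (pow_smul_fixed_of_mem_kumDom Q.2) Q.1 rfl
      (tateTors p r k).subtype.toAddMonoidHom Subtype.val_injective (fun σ g => rfl)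
      (nsmul_tateTors_eq_zero k) ⟨kumRaw k Q, kumRaw_mem_Z1 k Q⟩ (fun σ => rfl)

end Raw

section Proj

variable {p : ℕ} [NeZero p] [hp : Fact p.Prime] {r : ℕ} (k : ℕ)
  (t : FreeAlgebra ℤ (HeckeIdx p))
  (ht : ∀ x ∈ tateTors p r k, evWord (heckeFam p) t x ∈ Wk p r k)

/-- words in the `T_ℓ`, `ℓ ≠ p`, commute with the Galois action. -/
theorem evWord_heckeFam_smul (σ : GQ) (x : JZero p) :
    evWord (heckeFam p) t (σ • x) = σ • evWord (heckeFam p) t x := by
  have h := commute_evWord (galEnd σ) (fun ℓ => commute_galEnd_heckeFam hp.out σ ℓ) t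
  have h2 := congrArg (fun f : Module.End ℤ (JZero p) => f x) h.eq
  simp only [Module.End.mul_apply, galEnd_apply] at h2
  exact h2.symm

/-- the projection `tateTors p r k → W_k` given by the word `t`. -/
noncomputable def projWk : ↥(tateTors p r k) →+ ↥(Wk p r k) where
  toFun x := ⟨evWord (heckeFam p) t x.1, ht x.1 x.2⟩
  map_zero' := Subtype.ext (by simp)
  map_add' a b := Subtype.ext (by simp)

@[simp] theorem coe_projWk (x : ↥(tateTors p r k)) :
    ((projWk k t ht x : ↥(Wk p r k)) : JZero p) = evWord (heckeFam p) t x.1 := rfl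

theorem projWk_smul (σ : GQ) (x : ↥(tateTors p r k)) :
    projWk k t ht (σ • x) = σ • projWk k t ht x :=
  Subtype.ext (evWord_heckeFam_smul t σ x.1)

theorem projWk_surjective (ht1 : ∀ x ∈ Wk p r k, evWord (heckeFam p) t x = x) :
    Function.Surjective (projWk k t ht) := by
  intro w
  exact ⟨⟨w.1, Wk_le_tateTors r k w.2⟩, Subtype.ext (ht1 w.1 w.2)⟩

/-- **the Kummer homomorphism** `Q ↦ (σ ↦ t (σ Q - Q))`. -/
noncomputable def kumHom : ↥(kumDom p r k) →+ (GQ → ↥(Wk p r k)) where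
  toFun Q σ := projWk k t ht (kumRaw k Q σ)
  map_zero' := by
    funext σ
    apply Subtype.ext
    show evWord (heckeFam p) t (σ • (0 : JZero p) - 0) = 0
    have h0 : σ • (0 : JZero p) = 0 := map_zero (DistribSMul.toAddMonoidHom (JZero p) σ)
    rw [h0, sub_zero, map_zero]
  map_add' a b := by
    funext σ
    apply Subtype.ext
    show evWord (heckeFam p) t (σ • (a.1 + b.1) - (a.1 + b.1)) =
      evWord (heckeFam p) t (σ • a.1 - a.1) + evWord (heckeFam p) t (σ • b.1 - b.1)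
    rw [← map_add, smul_add]
    congr 1
    abel

theorem coe_kumHom (Q : ↥(kumDom p r k)) (σ : GQ) :
    ((kumHom k t ht Q σ : ↥(Wk p r k)) : JZero p) =
      σ • evWord (heckeFam p) t Q.1 - evWord (heckeFam p) t Q.1 := by
  show evWord (heckeFam p) t (σ • Q.1 - Q.1) = _
  rw [map_sub, evWord_heckeFam_smul]

/-- the group of Kummer cocycles with values in `W_k`. -/
noncomputable def kumCocs : AddSubgroup (GQ → ↥(Wk p r k)) := (kumHom k t ht).range

theorem kumHom_mem_kumCocs (Q : ↥(kumDom p r k)) : kumHom k t ht Q ∈ kumCocs k t ht :=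
  ⟨Q, rfl⟩

/-- **Kummer cocycles with values in `W_k` are Good.** -/
theorem goodCoc_of_mem_kumCocs [Fact r.Prime] (hrp : ¬ r ∣ p)
    (ht1 : ∀ x ∈ Wk p r k, evWord (heckeFam p) t x = x) {f : GQ → ↥(Wk p r k)}
    (hf : f ∈ kumCocs k t ht) : GoodCoc r p (r ^ k) (nsmul_Wk_eq_zero k) f := by
  obtain ⟨Q, rfl⟩ := hf
  have hr : r.Prime := Fact.out
  haveI : NeZero (r ^ k) := ⟨pow_ne_zero _ hr.ne_zero⟩
  haveI : Finite ↥(tateTors p r k) := finite_tateTors r k
  exact GoodCoc.of_surjective (nsmul_Wk_eq_zero k) (projWk k t ht)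
    (projWk_surjective k t ht ht1) (projWk_smul k t ht) (goodCoc_kumRaw k hrp Q)

/-- **the coboundaries are Kummer cocycles.** -/
theorem B1_le_kumCocs (ht1 : ∀ x ∈ Wk p r k, evWord (heckeFam p) t x = x) :
    B1 GQ ↥(Wk p r k) ≤ kumCocs k t ht := by
  rintro _ ⟨w, rfl⟩
  refine ⟨⟨w.1, mem_kumDom_of_mem_tateTors (Wk_le_tateTors r k w.2)⟩, ?_⟩
  funext σ
  apply Subtype.ext
  rw [coe_kumHom, ht1 w.1 w.2]
  rfl

include ht in
/-- coboundaries are Good. -/
theorem goodCoc_cobd [Fact r.Prime] (hrp : ¬ r ∣ p)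
    (ht1 : ∀ x ∈ Wk p r k, evWord (heckeFam p) t x = x) (w : ↥(Wk p r k)) :
    GoodCoc r p (r ^ k) (nsmul_Wk_eq_zero k) (cobd GQ w) :=
  goodCoc_of_mem_kumCocs k t ht hrp ht1 (B1_le_kumCocs k t ht ht1 ⟨w, rfl⟩)

end Proj

end Fermat.Agent.MZ
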