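/-
PROJECT MZ (branch only) -- helper4 -- (KUM) at `r = 2`: the Kummer cocycles with values in `W_k`
are Good in helper2's `GoodCoc2` currency (flat clause in pair form, helper5's
`flatCoc_kummer_pair`).
-/
import Mathlib
import Fermat.Agent.MZ.KUM_helper4_Coc
import Fermat.Agent.MZ.GOOD2_helper2_Defs

set_option autoImplicit false
set_option linter.style.haveILetI false
set_option linter.unusedSectionVars false
set_option linter.unusedVariables false

namespace Fermat.Agent.MZ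

open ModularCurve Fermat.Agent.GR Fermat.Agent.FG GaloisRep

local notation "Ω" => AlgebraicClosure ℚ
local notation "GQ" => (AlgebraicClosure ℚ ≃ₐ[ℚ] AlgebraicClosure ℚ)

section Pair

variable {G : Type} [AddCommGroup G] [DistribMulAction GQ G] {n : ℕ} [Module (ZMod n) G]

/-- the pair form of helper5 is helper2's `HasEtQuotOrder`. -/
theorem hasEtQuotOrder_of_pair (ℓ : ℕ) (f : Z1 GQ G)
    (h : ∃ H : Subalgebra (ratLocalizedAt ℓ) (ExtMod n f → Ω),
      IsHopfOrder (ExtMod n f) ℓ H ∧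
        Set.indicator {x : ExtMod n f | x.snd = 0} (fun _ => (1 : Ω)) ∈ H) :
    HasEtQuotOrder ℓ (ExtMod n f) (ExtMod.inl : G →+ ExtMod n f).range := by
  obtain ⟨H, hH, hind⟩ := h
  refine ⟨H, hH, ?_⟩
  have hset : (((ExtMod.inl : G →+ ExtMod n f).range : AddSubgroup (ExtMod n f)) :
      Set (ExtMod n f)) = {x : ExtMod n f | x.snd = 0} := by
    ext x
    exact ExtMod.mem_range_inl
  rw [hset]
  exact hind

end Pair

section Two

variable {p : ℕ} [NeZero p] [hp : Fact p.Prime] (k : ℕ)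

/-- **raw Kummer cocycles are Good₂.** -/
theorem goodCoc2_kumRaw (hp2 : ¬ 2 ∣ p) (Q : ↥(kumDom p 2 k)) :
    GoodCoc2 p (2 ^ k) (nsmul_tateTors_eq_zero k) (kumRaw k Q) := by
  haveI : Fact (Nat.Prime 2) := ⟨Nat.prime_two⟩
  have h := goodCoc_kumRaw k hp2 Q
  refine ⟨h.coc, h.cts, h.unr, ?_⟩
  exact @hasEtQuotOrder_of_pair ↥(tateTors p 2 k) _ _ (2 ^ k)
    (AddCommGroup.zmodModule (nsmul_tateTors_eq_zero k)) 2 ⟨kumRaw k Q, h.coc⟩
    (flatCoc_kummer_pair p 2 hp2 k (2 ^ k • Q.1)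
      (pow_smul_fixed_of_mem_kumDom Q.2) Q.1 rfl
      (tateTors p 2 k).subtype.toAddMonoidHom Subtype.val_injective (fun σ g => rfl)
      (nsmul_tateTors_eq_zero k) ⟨kumRaw k Q, h.coc⟩ (fun σ => rfl))

variable (t : FreeAlgebra ℤ (HeckeIdx p))
  (ht : ∀ x ∈ tateTors p 2 k, evWord (heckeFam p) t x ∈ Wk p 2 k)

/-- **Kummer cocycles with values in `W_k` are Good₂.** -/
theorem goodCoc2_of_mem_kumCocs (hp2 : ¬ 2 ∣ p)
    (ht1 : ∀ x ∈ Wk p 2 k, evWord (heckeFam p) t x = x) {f : GQ → ↥(Wk p 2 k)}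
    (hf : f ∈ kumCocs k t ht) : GoodCoc2 p (2 ^ k) (nsmul_Wk_eq_zero k) f := by
  obtain ⟨Q, rfl⟩ := hf
  haveI : Fact (Nat.Prime 2) := ⟨Nat.prime_two⟩
  haveI : NeZero (2 ^ k) := ⟨pow_ne_zero _ two_ne_zero⟩
  haveI : Finite ↥(tateTors p 2 k) := finite_tateTors 2 k
  exact GoodCoc2.of_surjective (nsmul_Wk_eq_zero k) (projWk k t ht)
    (projWk_surjective k t ht ht1) (projWk_smul k t ht) (goodCoc2_kumRaw k hp2 Q)

end Two

end Fermat.Agent.MZ
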