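/-
PROJECT MZ (branch only) -- helper4 -- **PART B (FIN), final assembly**: for every prime `r ≠ p`
and every class `c` of `J₀(p)` which is Eisenstein for the `T_ℓ`, `ℓ ≠ p`: `EisKiller p c r`, from
the finite generation of `J₀(p)(ℚ)` (S17) only.  Inputs: helper8 (`isEisMod_Wk`, base case),
helper7 (`sel2_card_le_eis`), helper5 (`card_Wk_minus_sq_le`, `flatCoc_kummer`), helper6
(`find_of_inputs`), helper2 (`GoodCoc2`).
-/
import Mathlib
import Fermat.Agent.MZ.ASM_helper4_Odd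
import Fermat.Agent.MZ.KUM2_helper4_Coc
import Fermat.Agent.MZ.DEV2_helper7_Eis
import Fermat.Agent.MZ.FINA_helper8_Wk
import Fermat.Agent.MZ.FINC_helper5_Bridge
import Fermat.Agent.MZ.FIND_helper6_Main

set_option autoImplicit false
set_option linter.style.haveILetI false
set_option linter.unusedSectionVars false
set_option linter.unusedVariables false

namespace Fermat.Agent.MZ

open ModularCurve Fermat.Agent.GR Fermat.Agent.FG GaloisRep

local notation "Ω" => AlgebraicClosure ℚ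
local notation "GQ" => (AlgebraicClosure ℚ ≃ₐ[ℚ] AlgebraicClosure ℚ)

section Gen

variable {p : ℕ} [NeZero p] [hp : Fact p.Prime] {r : ℕ} [hr : Fact r.Prime]

/-- **PART B from the devissage inequality alone** (abstract Good predicate). -/
theorem eisKiller_of_dev_gen
    (Good : ∀ k : ℕ, (GQ → ↥(Wk p r k)) → Prop)
    (hGood : ∀ (k : ℕ) (f : GQ → ↥(Wk p r k)), Good k f → f ∈ Z1 GQ ↥(Wk p r k) ∧ IsCtsCoc f)
    (hKum : ∀ (k : ℕ) (t : FreeAlgebra ℤ (HeckeIdx p))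
      (ht : ∀ x ∈ tateTors p r k, evWord (heckeFam p) t x ∈ Wk p r k)
      (ht1 : ∀ x ∈ Wk p r k, evWord (heckeFam p) t x = x), ∀ f ∈ kumCocs k t ht, Good k f)
    (hFG : AddGroup.FG ↥(FixedPoints.addSubgroup GQ (JZero p))) (hpr : p ≠ r)
    (A₀ : ValuationSubring Ω) (hA₀ : A₀.LiesOverPrime p)
    (hDEV : ∀ (k : ℕ) (𝒵 : AddSubgroup (GQ → ↥(Wk p r k))), Finite 𝒵 →
      (∀ f ∈ 𝒵, Good k f) →
      Nat.card 𝒵 ≤ Nat.card (𝒵.map
        (resTo ((A₀.inertiaSubgroupIn ℚ : Set GQ) ∪ {complexConjugation}))))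
    (c : JZero p) (hcH : ∀ ℓ : HeckeIdx p, heckeFam p ℓ c = eisVal p ℓ • c) :
    EisKiller p c r := by
  have hFINc := card_Wk_minus_sq_le p r
  obtain ⟨h₀, hh₀⟩ := exists_card_fixed_Wk_le (r := r) hFG
  have hdev : ∀ k : ℕ, Nat.card ((inertiaFixed A₀ ↥(Wk p r k)).map (cobd GQ)) ≤
      Nat.card (((inertiaFixed A₀ ↥(Wk p r k)).map (cobd GQ)).map
        (resTo ((A₀.inertiaSubgroupIn ℚ : Set GQ) ∪ {complexConjugation}))) := by
    intro k
    obtain ⟨t, -, ht1, ht⟩ := exists_projWord_Wk (r := r) hp.out k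
    haveI : Finite ↥(Wk p r k) := finite_Wk r k
    have hfin : Finite ↥((inertiaFixed A₀ ↥(Wk p r k)).map (cobd GQ)) :=
      Finite.of_surjective _
        ((cobd GQ (G := ↥(Wk p r k))).addSubgroupMap_surjective (inertiaFixed A₀ ↥(Wk p r k)))
    refine hDEV k _ hfin (fun f hf => ?_)
    obtain ⟨w, -, rfl⟩ := hf
    exact hKum k t ht ht1 _ (B1_le_kumCocs k t ht ht1 ⟨w, rfl⟩)
  have hFINd := find_of_inputs r hpr A₀ hA₀ hdev hFINc ⟨r ^ h₀, hh₀⟩
  exact eisKiller_of_inputs_gen Good hGood hKum hFG A₀ hDEV hFINc hFINd c hcH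

end Gen

section Main

variable {p : ℕ} [NeZero p] [hp : Fact p.Prime]

/-- **PART B, `r` odd.** -/
theorem eisKiller_odd (r : ℕ) [hr : Fact r.Prime] (hr2 : r ≠ 2) (hpr : p ≠ r)
    (hFG : AddGroup.FG ↥(FixedPoints.addSubgroup GQ (JZero p)))
    (c : JZero p) (hcH : ∀ ℓ : HeckeIdx p, heckeFam p ℓ c = eisVal p ℓ • c) :
    EisKiller p c r := by
  have hrp : ¬ r ∣ p := fun h => hpr ((Nat.prime_dvd_prime_iff_eq hr.out hp.out).mp h).symm
  have hA₀ : (padicPlace p).LiesOverPrime p :=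
    Fermat.Agent.TW.Kill.padicPlace_liesOverPrime p
  exact eisKiller_of_dev_gen
    (fun k f => GoodCoc r p (r ^ k) (nsmul_Wk_eq_zero k) f)
    (fun k f h => ⟨h.coc, h.cts⟩)
    (fun k t ht ht1 f hf => goodCoc_of_mem_kumCocs k t ht hrp ht1 hf)
    hFG hpr _ hA₀
    (fun k 𝒵 hfin hgood =>
      card_le_card_res_of_odd hr2 _ hA₀ (fun k => isEisMod_Wk p r k) k 𝒵 hfin hgood)
    c hcH

/-- **PART B, `r = 2`.** -/
theorem eisKiller_two (hp2 : p ≠ 2)
    (hFG : AddGroup.FG ↥(FixedPoints.addSubgroup GQ (JZero p)))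
    (c : JZero p) (hcH : ∀ ℓ : HeckeIdx p, heckeFam p ℓ c = eisVal p ℓ • c) :
    EisKiller p c 2 := by
  haveI : Fact (Nat.Prime 2) := ⟨Nat.prime_two⟩
  have h2p : ¬ 2 ∣ p := fun h => hp2 ((Nat.prime_dvd_prime_iff_eq Nat.prime_two hp.out).mp h).symm
  have hA₀ : (padicPlace p).LiesOverPrime p :=
    Fermat.Agent.TW.Kill.padicPlace_liesOverPrime p
  exact eisKiller_of_dev_gen
    (fun k f => GoodCoc2 p (2 ^ k) (nsmul_Wk_eq_zero k) f)
    (fun k f h => ⟨h.coc, h.cts⟩)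
    (fun k t ht ht1 f hf => goodCoc2_of_mem_kumCocs k t ht h2p ht1 hf)
    hFG hp2 _ hA₀
    (fun k 𝒵 hfin hgood => by
      haveI : Finite ↥(Wk p 2 k) := finite_Wk 2 k
      exact (sel2_card_le_eis hp.out _ hA₀ ↥(Wk p 2 k) 𝒵
        ⟨inferInstance, isEisMod_Wk p 2 k, nsmul_Wk_eq_zero k, hgood⟩).2)
    c hcH

/-- **PART B (FIN)**: every prime `r ≠ p`. -/
theorem eisKiller_of_fg (r : ℕ) (hr : r.Prime) (hpr : p ≠ r)
    (hFG : AddGroup.FG ↥(FixedPoints.addSubgroup GQ (JZero p)))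
    (c : JZero p) (hcH : ∀ ℓ : HeckeIdx p, heckeFam p ℓ c = eisVal p ℓ • c) :
    EisKiller p c r := by
  by_cases hr2 : r = 2
  · subst hr2
    exact eisKiller_two hpr hFG c hcH
  · haveI : Fact r.Prime := ⟨hr⟩
    exact eisKiller_odd r hr2 hpr hFG c hcH

end Main

end Fermat.Agent.MZ
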