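/-
PROJECT MZ (S15), block (a3), abstract part (helper9): a correspondence `ψ_* φ^*` which
preserves the fibre over a rational place `P` multiplies `[P]` by the degree of `φ`.
-/
import Mathlib
import Fermat.Prelude.Def_AlgebraicCurve_Correspondence

set_option autoImplicit false
set_option linter.unusedSectionVars false
set_option linter.style.haveILetI false

open AlgebraicCurve

namespace Fermat.Agent.MZ

section Abstract

variable {K F F' : Type*} [Field K] [Field F] [Field F'] [Algebra K F] [Algebra K F']

theorem ramificationIndexAlong_pos (φ : F →ₐ[K] F') (hφ : φ.toRingHom.IsIntegral)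
    (w : Place K F') : 0 < Place.ramificationIndexAlong φ w := by
  letI := algebraAlong φ
  haveI := isScalarTower_along φ
  haveI := isIntegral_along φ hφ
  exact Place.ramificationIndex_pos (F := F) w

variable [HasPrincipalDivisors K F']

/-- if every place over `P` along `φ` also lies over `P` along `ψ`, the correspondence
`ψ_* φ^*` maps `[P]` to a multiple of `[P]`. -/
theorem correspondence_single_eq_single (φ ψ : F →ₐ[K] F') (hφ : φ.toRingHom.IsIntegral)
    (hψ : ψ.toRingHom.IsIntegral) (P : Place K F)
    (hstab : ∀ w : Place K F', w.restrictAlong φ hφ = P → w.restrictAlong ψ hψ = P) :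
    ∃ c : ℤ, Divisor.correspondence φ ψ hφ hψ (Finsupp.single P 1) = Finsupp.single P c := by
  classical
  rw [Divisor.correspondence_apply, Divisor.pullbackAlong_single, map_sum]
  refine ⟨∑ W ∈ Place.fiberAlong φ hφ P,
    (1 * (W.ramificationIndexAlong φ : ℤ)) * (W.inertiaDegAlong ψ hψ : ℤ), ?_⟩
  rw [Finsupp.single_finsetSum]
  refine Finset.sum_congr rfl fun W hW => ?_
  rw [Divisor.pushforwardAlong_single, hstab W (Place.mem_fiberAlong.mp hW)]

/-- **the abstract (a3)**: for a place `P` of degree one whose `φ`-fibre is contained in its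
`ψ`-fibre, `ψ_* φ^* [P] = (deg φ) • [P]`. -/
theorem correspondence_single_of_stable (φ ψ : F →ₐ[K] F') (hφ : φ.toRingHom.IsIntegral)
    (hψ : ψ.toRingHom.IsIntegral) (hFI : FundamentalIdentityAlong K φ hφ) (P : Place K F)
    (hP : P.deg = 1)
    (hstab : ∀ w : Place K F', w.restrictAlong φ hφ = P → w.restrictAlong ψ hψ = P) :
    Divisor.correspondence φ ψ hφ hψ (Finsupp.single P 1) =
      Finsupp.single P (finrankAlong K φ : ℤ) := by
  obtain ⟨c, hc⟩ := correspondence_single_eq_single φ ψ hφ hψ P hstab
  have hdeg := Divisor.degree_correspondence φ ψ hφ hψ hFI (Finsupp.single P 1)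
  rw [hc, Divisor.degree_single, Divisor.degree_single, hP] at hdeg
  rw [hc]
  congr 1
  simpa using hdeg

end Abstract

end Fermat.Agent.MZ
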