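/-
PROJECT MZ (S15), block (a3), concrete part (helper9): the Hecke operators away from `p` act on the
cuspidal class `c = cl(P∞ - P0)` of `J₀(p)` through the Eisenstein eigenvalue `1 + ℓ'`.

* `cusp_dichotomy` : along any integral embedding `FunN q → F'` (`q` prime) a place of `F'` at
  which `j` or `j_q` has a pole lies over `∞` or over `0`, with the corresponding pole orders;
* the four embeddings `α, β : FunN p → FunN (p ℓ')`, `ι₁, ι₂ : FunN ℓ' → FunN (p ℓ')`;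
* `restrictAlong_alpha_of_beta_infN`, `…_zeroN` : the `β`-fibre of a cusp is contained in its
  `α`-fibre;
* `heckeOperatorBar_cuspClass` : `T_{ℓ'} c = (1 + ℓ') • c`.
-/
import Mathlib
import Fermat.Agent.MZ.CUSP_helper9_Corr
import Fermat.Agent.MZ.CUSP_helper9_Class
import Fermat.Agent.JA.H0_helper7_Main
import Fermat.Agent.GR.ANORM_helper5_Fricke

set_option autoImplicit false
set_option linter.unusedSectionVars false
set_option linter.style.haveILetI false

open AlgebraicCurve ModularCurve HahnSeries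

namespace Fermat.Agent.MZ

open Fermat.Agent.MW Fermat.Agent.SS Fermat.Agent.X0N Fermat.Agent.JA Fermat.Agent.FF

attribute [local instance] algOmC

local notation "Ω" => AlgebraicClosure ℚ

/-! ### the dichotomy at the poles of `j` -/

section Dichotomy

variable (q : ℕ) [NeZero q]

theorem frickeAlg_smul_smul (R : PtN q) : frickeAlg q • frickeAlg q • R = R := by
  rw [smul_smul]
  have h : frickeAlg q * frickeAlg q = 1 :=
    AlgEquiv.ext fun z => frickeAlg_frickeAlg q z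
  rw [h, one_smul]

theorem frickeAlg_jdBar_self :
    frickeAlg q (jdBar (k := Ω) q (dvd_refl q)) = Fermat.Agent.X0N.jBar q :=
  cuspord_frickeN_jdBar (algebraMap Ω ℂ) q

theorem zeroN_ord_jdBar_self (hq : q.Prime) :
    (zeroN q).ord (jdBar (k := Ω) q (dvd_refl q) : FunN q) = -1 := by
  rw [zeroN_ord q hq, frickeAlg_jdBar_self, infN_ord_jBar]

/-- a place of `X₀(q)` at which `j` or `j_q` has a pole is a cusp. -/
theorem eq_infN_or_zeroN_of_pole (hq : q.Prime) (R : PtN q)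
    (h : R.ord (Fermat.Agent.X0N.jBar q) < 0 ∨
      R.ord (jdBar (k := Ω) q (dvd_refl q) : FunN q) < 0) :
    R = infN q ∨ R = zeroN q := by
  rcases h with h | h
  · exact pole_cases q hq R h
  · have h' : (frickeAlg q • R).ord (Fermat.Agent.X0N.jBar q) < 0 := by
      rw [ord_frickeAlg_smul, frickeAlg_jBar]
      exact h
    rcases pole_cases q hq _ h' with h1 | h1
    · right
      rw [zeroN_eq_fricke_smul q hq, ← h1, frickeAlg_smul_smul]
    · left
      rw [zeroN_eq_fricke_smul q hq] at h1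
      have h2 := congrArg (fun P => frickeAlg q • P) h1
      simp only [frickeAlg_smul_smul] at h2
      exact h2

variable {F' : Type*} [Field F'] [Algebra Ω F']

/-- **the dichotomy**: along an integral embedding of the function field of `X₀(q)`, a place at
which `j` or `j_q` has a pole lies over `∞` (orders `-e`, `-q e`) or over `0` (orders `-q e`,
`-e`). -/
theorem cusp_dichotomy (hq : q.Prime) (ι : FunN q →ₐ[Ω] F') (hι : ι.toRingHom.IsIntegral)
    (Q : Place Ω F')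
    (h : Q.ord (ι (Fermat.Agent.X0N.jBar q)) < 0 ∨
      Q.ord (ι (jdBar (k := Ω) q (dvd_refl q))) < 0) :
    ∃ e : ℤ, 0 < e ∧
      ((Q.restrictAlong ι hι = infN q ∧ Q.ord (ι (Fermat.Agent.X0N.jBar q)) = -e ∧
          Q.ord (ι (jdBar (k := Ω) q (dvd_refl q))) = -((q : ℤ) * e)) ∨
        (Q.restrictAlong ι hι = zeroN q ∧ Q.ord (ι (Fermat.Agent.X0N.jBar q)) = -((q : ℤ) * e) ∧
          Q.ord (ι (jdBar (k := Ω) q (dvd_refl q))) = -e)) := by
  have hepos := ramificationIndexAlong_pos ι hι Q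
  set e : ℤ := (Place.ramificationIndexAlong ι Q : ℤ) with he
  have hepos' : 0 < e := by rw [he]; exact_mod_cast hepos
  have h1 := Place.ord_restrictAlong ι hι Q (Fermat.Agent.X0N.jBar q)
  have h2 := Place.ord_restrictAlong ι hι Q (jdBar (k := Ω) q (dvd_refl q))
  rw [← he] at h1 h2
  set R := Q.restrictAlong ι hι with hR
  have hcase : R = infN q ∨ R = zeroN q := by
    apply eq_infN_or_zeroN_of_pole q hq
    rcases h with h | h
    · left
      rw [h1] at h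
      by_contra hn
      rw [not_lt] at hn
      have := mul_nonneg hepos'.le hn
      omega
    · right
      rw [h2] at h
      by_contra hn
      rw [not_lt] at hn
      have := mul_nonneg hepos'.le hn
      omega
  refine ⟨e, hepos', ?_⟩
  rcases hcase with hc | hc
  · left
    refine ⟨hc, ?_, ?_⟩
    · rw [h1, hc, infN_ord_jBar]; ring
    · rw [h2, hc, infN_ord_jdBar_self]; ring
  · right
    refine ⟨hc, ?_, ?_⟩
    · rw [h1, hc, zeroN_ord_jBar]; ring
    · rw [h2, hc, zeroN_ord_jdBar_self q hq]; ring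

end Dichotomy

/-! ### the four embeddings into the function field of level `p ℓ` -/

section Embeddings

variable (p ℓ : ℕ) [NeZero p] [NeZero ℓ]

theorem coe_equivOfEq_intermediateField {F E : Type*} [Field F] [Field E] [Algebra F E]
    {S T : IntermediateField F E} (h : S = T) (x : S) :
    ((IntermediateField.equivOfEq h x : T) : E) = (x : E) := by
  subst h
  rfl

/-- the identification of the function fields of levels `ℓ p` and `p ℓ`. -/
noncomputable def levelSwap :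
    ↥(laurentBaseChange Ω (modularFunctionFieldFull (ℓ * p))) ≃ₐ[Ω]
      ↥(laurentBaseChange Ω (modularFunctionFieldFull (p * ℓ))) :=
  IntermediateField.equivOfEq (by rw [Nat.mul_comm])

@[simp] theorem coe_levelSwap (x : ↥(laurentBaseChange Ω (modularFunctionFieldFull (ℓ * p)))) :
    ((levelSwap p ℓ x : ↥(laurentBaseChange Ω (modularFunctionFieldFull (p * ℓ)))) :
      LaurentSeries Ω) = (x : LaurentSeries Ω) :=
  coe_equivOfEq_intermediateField _ x

/-- `ι₁ : F_ℓ → F_{pℓ}`, the inclusion. -/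
noncomputable def iotaOne : FunN ℓ →ₐ[Ω] FunN (p * ℓ) :=
  (levelSwap p ℓ).toAlgHom.comp (heckeAlphaBar Ω ℓ p)

/-- `ι₂ : F_ℓ → F_{pℓ}`, `q ↦ q ^ p`. -/
noncomputable def iotaTwo : FunN ℓ →ₐ[Ω] FunN (p * ℓ) :=
  (levelSwap p ℓ).toAlgHom.comp (heckeBetaBar Ω ℓ p)

theorem iotaOne_apply (x : FunN ℓ) :
    iotaOne p ℓ x = levelSwap p ℓ (heckeAlphaBar Ω ℓ p x) := by
  unfold iotaOne
  rw [AlgHom.comp_apply]
  rfl

theorem iotaTwo_apply (x : FunN ℓ) :
    iotaTwo p ℓ x = levelSwap p ℓ (heckeBetaBar Ω ℓ p x) := by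
  unfold iotaTwo
  rw [AlgHom.comp_apply]
  rfl

@[simp] theorem coe_iotaOne (x : FunN ℓ) :
    ((iotaOne p ℓ x : FunN (p * ℓ)) : LaurentSeries Ω) = (x : LaurentSeries Ω) := by
  rw [iotaOne_apply, coe_levelSwap, coe_heckeAlphaBar]

@[simp] theorem coe_iotaTwo (x : FunN ℓ) :
    ((iotaTwo p ℓ x : FunN (p * ℓ)) : LaurentSeries Ω) = qExpand Ω p (x : LaurentSeries Ω) := by
  rw [iotaTwo_apply, coe_levelSwap, coe_heckeBetaBar]

theorem coe_jBar' (N : ℕ) [NeZero N] :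
    ((Fermat.Agent.X0N.jBar N : FunN N) : LaurentSeries Ω) = jqModC Ω :=
  cuspord_coe_jGen Ω N

theorem coe_jdBar_self (N : ℕ) [NeZero N] :
    ((jdBar (k := Ω) N (dvd_refl N) : FunN N) : LaurentSeries Ω) = qExpand Ω N (jqModC Ω) :=
  cuspord_coe_jdBar Ω N

theorem alpha_jBar :
    heckeAlphaBar Ω p ℓ (Fermat.Agent.X0N.jBar p) = iotaOne p ℓ (Fermat.Agent.X0N.jBar ℓ) := by
  apply Subtype.ext
  rw [coe_heckeAlphaBar, coe_iotaOne, coe_jBar', coe_jBar']

theorem alpha_jdBar :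
    heckeAlphaBar Ω p ℓ (jdBar (k := Ω) p (dvd_refl p)) =
      iotaTwo p ℓ (Fermat.Agent.X0N.jBar ℓ) := by
  apply Subtype.ext
  rw [coe_heckeAlphaBar, coe_iotaTwo, coe_jBar', coe_jdBar_self]

theorem beta_jBar :
    heckeBetaBar Ω p ℓ (Fermat.Agent.X0N.jBar p) =
      iotaOne p ℓ (jdBar (k := Ω) ℓ (dvd_refl ℓ)) := by
  apply Subtype.ext
  rw [coe_heckeBetaBar, coe_iotaOne, coe_jBar', coe_jdBar_self]

theorem beta_jdBar :
    heckeBetaBar Ω p ℓ (jdBar (k := Ω) p (dvd_refl p)) =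
      iotaTwo p ℓ (jdBar (k := Ω) ℓ (dvd_refl ℓ)) := by
  apply Subtype.ext
  rw [coe_heckeBetaBar, coe_iotaTwo, coe_jdBar_self, coe_jdBar_self, qExpand_qExpand,
    qExpand_qExpand]
  exact qExpand_congr (Nat.mul_comm ℓ p) _

theorem iotaOne_isIntegral : (iotaOne p ℓ).toRingHom.IsIntegral :=
  isIntegral_of_finiteAlong _ (finiteAlong_of_coord (jCoordBar ℓ) (jCoordBar (p * ℓ)) _)

theorem iotaTwo_isIntegral : (iotaTwo p ℓ).toRingHom.IsIntegral :=
  isIntegral_of_finiteAlong _ (finiteAlong_of_coord (jCoordBar ℓ) (jCoordBar (p * ℓ)) _)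

end Embeddings

/-! ### the arithmetic of the pole orders -/

section Arith

theorem cusp_arith_aux {p ℓ : ℤ} (hp : 2 ≤ p) (hℓ : 2 ≤ ℓ) (hne : ℓ ≠ p) {a b c d : ℤ}
    (ha : 0 < a) (hb : 0 < b) (hc : 0 < c) (hd : 0 < d)
    (h1 : c = ℓ * a ∨ a = ℓ * c) (h2 : d = ℓ * b ∨ b = ℓ * d) :
    ¬ (a = p * b ∧ d = p * c) := by
  rintro ⟨hab, hdc⟩
  have hp2 : 4 ≤ p * p := by nlinarith
  have hℓ2 : 4 ≤ ℓ * ℓ := by nlinarith
  rcases h1 with h1 | h1 <;> rcases h2 with h2 | h2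
  · -- c = ℓ a, d = ℓ b
    have h : ℓ * b = (p * p) * (ℓ * b) := by
      calc ℓ * b = d := h2.symm
        _ = p * c := hdc
        _ = p * (ℓ * (p * b)) := by rw [h1, hab]
        _ = (p * p) * (ℓ * b) := by ring
    have hpos : 0 < ℓ * b := by positivity
    nlinarith
  · -- c = ℓ a, b = ℓ d
    have h : b = (p * p) * ((ℓ * ℓ) * b) := by
      calc b = ℓ * d := h2
        _ = ℓ * (p * (ℓ * (p * b))) := by rw [hdc, h1, hab]
        _ = (p * p) * ((ℓ * ℓ) * b) := by ring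
    have hpos : 0 < (ℓ * ℓ) * b := by positivity
    nlinarith
  · -- a = ℓ c, d = ℓ b
    have e1 : ℓ * c = p * b := by rw [← h1, hab]
    have e2 : p * c = ℓ * b := by rw [← hdc, h2]
    have h : (ℓ * ℓ) * (b * c) = (p * p) * (b * c) := by
      calc (ℓ * ℓ) * (b * c) = (ℓ * c) * (ℓ * b) := by ring
        _ = (p * b) * (p * c) := by rw [e1, e2]
        _ = (p * p) * (b * c) := by ring
    have hbc : b * c ≠ 0 := (mul_pos hb hc).ne'
    have h3 : ℓ * ℓ = p * p := mul_right_cancel₀ hbc h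
    have h4 : ℓ = p := by nlinarith
    exact hne h4
  · -- a = ℓ c, b = ℓ d
    have h : ℓ * c = (p * p) * (ℓ * c) := by
      calc ℓ * c = a := h1.symm
        _ = p * b := hab
        _ = p * (ℓ * (p * c)) := by rw [h2, hdc]
        _ = (p * p) * (ℓ * c) := by ring
    have hpos : 0 < ℓ * c := by positivity
    nlinarith

end Arith

/-! ### the `β`-fibre of a cusp is contained in its `α`-fibre -/

section Stability

variable (p ℓ : ℕ) [NeZero p] [NeZero ℓ]

/-- at a place of `X₀(pℓ)` where `j(q^ℓ)` has a pole, the two degeneracy maps send it to the same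
cusp of `X₀(p)`. -/
theorem cusp_fibres (hp : p.Prime) (hℓ : ℓ.Prime) (hne : ℓ ≠ p)
    (hα : (heckeAlphaBar Ω p ℓ).toRingHom.IsIntegral)
    (hβ : (heckeBetaBar Ω p ℓ).toRingHom.IsIntegral) (Q : PtN (p * ℓ))
    (hpole : Q.ord (heckeBetaBar Ω p ℓ (Fermat.Agent.X0N.jBar p)) < 0) :
    (Q.restrictAlong (heckeBetaBar Ω p ℓ) hβ = infN p ∧
        Q.restrictAlong (heckeAlphaBar Ω p ℓ) hα = infN p) ∨
      (Q.restrictAlong (heckeBetaBar Ω p ℓ) hβ = zeroN p ∧
        Q.restrictAlong (heckeAlphaBar Ω p ℓ) hα = zeroN p) := by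
  -- `ι₁`
  obtain ⟨e1, he1, h1⟩ := cusp_dichotomy ℓ hℓ (iotaOne p ℓ) (iotaOne_isIntegral p ℓ) Q
    (Or.inr (by rw [← beta_jBar]; exact hpole))
  rw [← alpha_jBar, ← beta_jBar] at h1
  -- `β`
  obtain ⟨eb, heb, hb⟩ := cusp_dichotomy p hp (heckeBetaBar Ω p ℓ) hβ Q (Or.inl hpole)
  have hpole2 : Q.ord (heckeBetaBar Ω p ℓ (jdBar (k := Ω) p (dvd_refl p))) < 0 := by
    have hp2 := hp.two_le
    have hpe : 0 < (p : ℤ) * eb := by positivity
    rcases hb with ⟨-, -, h⟩ | ⟨-, -, h⟩ <;> rw [h] <;> omega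
  -- `ι₂`
  obtain ⟨e2, he2, h2⟩ := cusp_dichotomy ℓ hℓ (iotaTwo p ℓ) (iotaTwo_isIntegral p ℓ) Q
    (Or.inr (by rw [← beta_jdBar]; exact hpole2))
  rw [← alpha_jdBar, ← beta_jdBar] at h2
  -- `α`
  have hpole3 : Q.ord (heckeAlphaBar Ω p ℓ (Fermat.Agent.X0N.jBar p)) < 0 := by
    have hℓ2 := hℓ.two_le
    have hle : 0 < (ℓ : ℤ) * e1 := by positivity
    rcases h1 with ⟨-, h, -⟩ | ⟨-, h, -⟩ <;> rw [h] <;> omega
  obtain ⟨ea, hea, ha⟩ := cusp_dichotomy p hp (heckeAlphaBar Ω p ℓ) hα Q (Or.inl hpole3)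
  -- the four orders
  set a : ℤ := -Q.ord (heckeAlphaBar Ω p ℓ (Fermat.Agent.X0N.jBar p)) with hadef
  set b : ℤ := -Q.ord (heckeAlphaBar Ω p ℓ (jdBar (k := Ω) p (dvd_refl p))) with hbdef
  set c : ℤ := -Q.ord (heckeBetaBar Ω p ℓ (Fermat.Agent.X0N.jBar p)) with hcdef
  set d : ℤ := -Q.ord (heckeBetaBar Ω p ℓ (jdBar (k := Ω) p (dvd_refl p))) with hddef
  have hp2 : (2 : ℤ) ≤ p := by exact_mod_cast hp.two_le
  have hℓ2 : (2 : ℤ) ≤ ℓ := by exact_mod_cast hℓ.two_le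
  have hne' : (ℓ : ℤ) ≠ p := by exact_mod_cast hne
  have hca : c = ℓ * a ∨ a = ℓ * c := by
    rcases h1 with ⟨-, h, h'⟩ | ⟨-, h, h'⟩
    · left; rw [hcdef, hadef, h, h']; ring
    · right; rw [hcdef, hadef, h, h']; ring
  have hdb : d = ℓ * b ∨ b = ℓ * d := by
    rcases h2 with ⟨-, h, h'⟩ | ⟨-, h, h'⟩
    · left; rw [hddef, hbdef, h, h']; ring
    · right; rw [hddef, hbdef, h, h']; ring
  have hapos : 0 < a := by rw [hadef]; omega
  have hcpos : 0 < c := by rw [hcdef]; omega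
  have hdpos : 0 < d := by rw [hddef]; omega
  have hbpos : 0 < b := by
    rcases hdb with h | h
    · by_contra hn
      rw [not_lt] at hn
      have := mul_nonpos_of_nonneg_of_nonpos (by omega : (0 : ℤ) ≤ ℓ) hn
      omega
    · rw [h]; positivity
  have hA := cusp_arith_aux hp2 hℓ2 hne' hapos hbpos hcpos hdpos hca hdb
  have hB := cusp_arith_aux hp2 hℓ2 hne' hbpos hapos hdpos hcpos hdb hca
  rcases hb with ⟨hRb, hb1, hb2⟩ | ⟨hRb, hb1, hb2⟩
  · left
    refine ⟨hRb, ?_⟩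
    rcases ha with ⟨hRa, -, -⟩ | ⟨-, ha1, ha2⟩
    · exact hRa
    · exfalso
      apply hA
      constructor
      · rw [hadef, hbdef, ha1, ha2]; ring
      · rw [hddef, hcdef, hb1, hb2]; ring
  · right
    refine ⟨hRb, ?_⟩
    rcases ha with ⟨-, ha1, ha2⟩ | ⟨hRa, -, -⟩
    · exfalso
      apply hB
      constructor
      · rw [hadef, hbdef, ha1, ha2]; ring
      · rw [hddef, hcdef, hb1, hb2]; ring
    · exact hRa

theorem beta_pole_of_restrict (hp : p.Prime)
    (hβ : (heckeBetaBar Ω p ℓ).toRingHom.IsIntegral) (Q : PtN (p * ℓ))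
    (h : Q.restrictAlong (heckeBetaBar Ω p ℓ) hβ = infN p ∨
      Q.restrictAlong (heckeBetaBar Ω p ℓ) hβ = zeroN p) :
    Q.ord (heckeBetaBar Ω p ℓ (Fermat.Agent.X0N.jBar p)) < 0 := by
  have hepos := ramificationIndexAlong_pos (heckeBetaBar Ω p ℓ) hβ Q
  have h1 := Place.ord_restrictAlong (heckeBetaBar Ω p ℓ) hβ Q (Fermat.Agent.X0N.jBar p)
  have hp0 : (0 : ℤ) < p := by exact_mod_cast hp.pos
  have hepos' : (0 : ℤ) < (Place.ramificationIndexAlong (heckeBetaBar Ω p ℓ) Q : ℤ) := by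
    exact_mod_cast hepos
  rcases h with h | h
  · rw [h1, h, infN_ord_jBar]
    omega
  · rw [h1, h, zeroN_ord_jBar]
    have := mul_pos hepos' hp0
    rw [mul_neg]
    omega

/-- the `β`-fibre of `∞` is contained in its `α`-fibre. -/
theorem restrictAlong_alpha_of_beta_infN (hp : p.Prime) (hℓ : ℓ.Prime) (hne : ℓ ≠ p)
    (hα : (heckeAlphaBar Ω p ℓ).toRingHom.IsIntegral)
    (hβ : (heckeBetaBar Ω p ℓ).toRingHom.IsIntegral) (Q : PtN (p * ℓ))
    (h : Q.restrictAlong (heckeBetaBar Ω p ℓ) hβ = infN p) :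
    Q.restrictAlong (heckeAlphaBar Ω p ℓ) hα = infN p := by
  rcases cusp_fibres p ℓ hp hℓ hne hα hβ Q (beta_pole_of_restrict p ℓ hp hβ Q (Or.inl h))
    with ⟨-, h2⟩ | ⟨h1, -⟩
  · exact h2
  · exact absurd (h.symm.trans h1) (infN_ne_zeroN p hp)

/-- the `β`-fibre of `0` is contained in its `α`-fibre. -/
theorem restrictAlong_alpha_of_beta_zeroN (hp : p.Prime) (hℓ : ℓ.Prime) (hne : ℓ ≠ p)
    (hα : (heckeAlphaBar Ω p ℓ).toRingHom.IsIntegral)
    (hβ : (heckeBetaBar Ω p ℓ).toRingHom.IsIntegral) (Q : PtN (p * ℓ))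
    (h : Q.restrictAlong (heckeBetaBar Ω p ℓ) hβ = zeroN p) :
    Q.restrictAlong (heckeAlphaBar Ω p ℓ) hα = zeroN p := by
  rcases cusp_fibres p ℓ hp hℓ hne hα hβ Q (beta_pole_of_restrict p ℓ hp hβ Q (Or.inr h))
    with ⟨h1, -⟩ | ⟨-, h2⟩
  · exact absurd (h1.symm.trans h) (infN_ne_zeroN p hp)
  · exact h2

end Stability

/-! ### (a3): the Eisenstein eigenvalue of the cuspidal class -/

section Eigen

variable (p : ℕ) [NeZero p]

/-- **(a3)** `T_{ℓ'} c = (1 + ℓ') • c` for every prime `ℓ' ≠ p`. -/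
theorem heckeOperatorBar_cuspClass (hp : p.Prime) (ℓ' : Nat.Primes) (hℓ' : (ℓ' : ℕ) ≠ p) :
    heckeOperatorBar p ℓ' (cuspClass p) = ((1 + (ℓ' : ℕ) : ℕ) : ℤ) • cuspClass p := by
  obtain ⟨ℓ, hℓ⟩ := ℓ'
  haveI : NeZero ℓ := ⟨hℓ.ne_zero⟩
  have hne : ℓ ≠ p := hℓ'
  show heckeOperatorBar p ⟨ℓ, hℓ⟩ (cuspClass p) = ((1 + ℓ : ℕ) : ℤ) • cuspClass p
  haveI := hasPrincipalDivisors_bar (p * ℓ)
  have hα : HeckeAlphaBarIntegral Ω p ℓ := heckeAlphaBarIntegral_bar p ℓ
  have hβ : HeckeBetaBarIntegral Ω p ℓ := heckeBetaBarIntegral_bar p ℓ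
  have hFI : FundamentalIdentityAlong Ω (heckeBetaBar Ω p ℓ) hβ :=
    fundamentalIdentityAlong_of_coord (jCoordBar p) (jCoordBar (p * ℓ)) _ _
  have hfin : FiniteAlong Ω (heckeAlphaBar Ω p ℓ) := finiteAlong_heckeAlphaBar p ℓ
  have hN : NormFormulaAlong Ω (heckeAlphaBar Ω p ℓ) hfin :=
    normFormulaAlong_of_coord (jCoordBar p) (jCoordBar (p * ℓ)) _ _
  have e1 : ∀ x, heckeOperatorBar p ⟨ℓ, hℓ⟩ x = heckePic0Bar hα hβ hFI hfin hN x := fun x =>
    (heckeOperatorBar_apply p ⟨ℓ, hℓ⟩ x).trans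
      (congrFun (congrArg DFunLike.coe (heckeOperatorAlong_eq hα hβ hFI hfin hN)) x)
  rw [e1]
  have hrank : finrankAlong Ω (heckeBetaBar Ω p ℓ) = 1 + ℓ := by
    haveI := isScalarTower_algOmC
    rw [finrankAlong_heckeBetaBar p ℓ hℓ, if_neg, add_comm]
    exact fun h => hne ((Nat.prime_dvd_prime_iff_eq hℓ hp).mp h)
  have hinf := correspondence_single_of_stable (heckeBetaBar Ω p ℓ) (heckeAlphaBar Ω p ℓ)
    hβ hα hFI (infN p) (deg_eq_one_bar p _)
    (fun w hw => restrictAlong_alpha_of_beta_infN p ℓ hp hℓ hne hα hβ w hw)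
  have hzero := correspondence_single_of_stable (heckeBetaBar Ω p ℓ) (heckeAlphaBar Ω p ℓ)
    hβ hα hFI (zeroN p) (deg_eq_one_bar p _)
    (fun w hw => restrictAlong_alpha_of_beta_zeroN p ℓ hp hℓ hne hα hβ w hw)
  rw [hrank] at hinf hzero
  unfold cuspClass placeDiff cuspInfP cuspZeroP
  have e2 : ∀ D, heckePic0Bar hα hβ hFI hfin hN (Pic0.mk D)
      = Pic0.mk (Pic0.degZeroCorrespondence (heckeBetaBar Ω p ℓ)
          (heckeAlphaBar Ω p ℓ) hβ hα hFI D) := fun _ => rfl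
  rw [e2]
  have e3 : ∀ (n : ℤ) (X : Divisor.degZero (K := Ω) (F := ↥(modularFunctionFieldBar p))),
      n • Pic0.mk X = Pic0.mk (n • X) := fun _ _ => rfl
  rw [e3]
  refine congrArg Pic0.mk (Subtype.ext ?_)
  rw [Pic0.coe_degZeroCorrespondence]
  show Divisor.correspondence (heckeBetaBar Ω p ℓ) (heckeAlphaBar Ω p ℓ) hβ hα
      (Finsupp.single (infN p) 1 - Finsupp.single (zeroN p) 1) =
    ((1 + ℓ : ℕ) : ℤ) • (Finsupp.single (infN p) 1 - Finsupp.single (zeroN p) 1 :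
      Divisor Ω (modularFunctionFieldBar p))
  rw [map_sub, hinf, hzero, smul_sub, Finsupp.smul_single, Finsupp.smul_single, smul_eq_mul,
    mul_one]

end Eigen

end Fermat.Agent.MZ
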