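/-
PROJECT MZ (branch only) -- helper4 -- **PART B (FIN), top**: `EisKiller p (cuspClass p) r` for every
prime level `p ≥ 5` and every prime `r ≠ p` (S17 for the finite generation of `J₀(p)(ℚ)`, helper9's
`heckeOperatorBar_cuspClass` for the Eisenstein property of the cuspidal class).
-/
import Mathlib
import Fermat.Agent.MZ.ASM_helper4_Final
import Fermat.Agent.MZ.CUSP_helper9_Hecke
import Fermat.Agent.S17

set_option autoImplicit false
set_option linter.style.haveILetI false
set_option linter.unusedSectionVars false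
set_option linter.unusedVariables false

namespace Fermat.Agent.MZ

open ModularCurve Fermat.Agent.GR Fermat.Agent.FG GaloisRep

local notation "Ω" => AlgebraicClosure ℚ
local notation "GQ" => (AlgebraicClosure ℚ ≃ₐ[ℚ] AlgebraicClosure ℚ)

/-- **(FIN)**: the input `hfin` of [TOP15] for the cuspidal class. -/
theorem eisKiller_cuspClass (p : ℕ) [NeZero p] (hp : p.Prime) (hp5 : 5 ≤ p) (r : ℕ)
    (hr : r.Prime) (hpr : p ≠ r) : EisKiller p (cuspClass p) r := by
  haveI : Fact p.Prime := ⟨hp⟩
  refine eisKiller_of_fg r hr hpr (Fermat.Agent.S17.result p hp hp5) (cuspClass p) (fun ℓ => ?_)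
  show heckeOperatorBar p ℓ.1 (cuspClass p) = (1 + ((ℓ.1 : ℕ) : ℤ)) • cuspClass p
  rw [heckeOperatorBar_cuspClass p hp ℓ.1 ℓ.2]
  push_cast
  rfl

end Fermat.Agent.MZ
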