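/-
PROJECT MZ (S15, branch-only) — helper6.  `ModDictW`: the moduli dictionary (MOD) with the extra
hypotheses `c₄ ≠ 0`, `c₆ ≠ 0` (needed to construct the place `Px`); it implies `ModDict`, because
for `c₄ = 0` or `c₆ = 0` no prime satisfies `ℓ ∣ Δ`, `ℓ ∤ c₄` and any Galois-fixed place will do.
-/
import Mathlib
import Fermat.Agent.MZ.TOP15_helper6_Main

set_option autoImplicit false
set_option linter.unusedVariables false

open ModularCurve AlgebraicCurve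
open WeierstrassCurve WeierstrassCurve.Affine

namespace Fermat.Agent.MZ

local notation "Ω" => AlgebraicClosure ℚ
local notation "GQ" => (AlgebraicClosure ℚ ≃ₐ[ℚ] AlgebraicClosure ℚ)

/-- **(MOD)** with `c₄ ≠ 0`, `c₆ ≠ 0` as extra hypotheses. -/
def ModDictW (p : ℕ) [NeZero p] (Pinf P0 : Place Ω (modularFunctionFieldBar p)) : Prop :=
  ∀ (W : WeierstrassCurve ℤ), W.Δ ≠ 0 → W.c₄ ≠ 0 → W.c₆ ≠ 0 →
  ∀ (Q : ((W.map (Int.castRingHom ℚ))⁄(AlgebraicClosure ℚ)).Point),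
    (∀ σ : GQ, σ • Q = Q) → addOrderOf Q = p →
    ∃ Px : Place Ω (modularFunctionFieldBar p),
      (∀ σ : GQ, arithmeticGalois (modularFunctionFieldFull p) σ • Px = Px) ∧
      ∀ ℓ : ℕ, ℓ.Prime → ℓ ≠ p → (ℓ : ℤ) ∣ W.Δ → ¬ (ℓ : ℤ) ∣ W.c₄ →
        ∀ A : ValuationSubring Ω, A.LiesOverPrime ℓ → ∀ h : ReductionInputsModL A p,
          (¬ W.InZeroComponentAt A Q → placeReductionModL h Px = placeReductionModL h P0) ∧
          (W.InZeroComponentAt A Q → placeReductionModL h Px = placeReductionModL h Pinf)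

theorem modDict_of_weak {p : ℕ} [NeZero p] {Pinf P0 : Place Ω (modularFunctionFieldBar p)}
    (hPinf : ∀ σ : GQ, arithmeticGalois (modularFunctionFieldFull p) σ • Pinf = Pinf)
    (h : ModDictW p Pinf P0) : ModDict p Pinf P0 := by
  intro W hΔ Q hfix hord
  by_cases hc₄ : W.c₄ = 0
  · refine ⟨Pinf, hPinf, fun ℓ hℓ hℓp hℓΔ hℓc₄ => ?_⟩
    exact absurd (by rw [hc₄]; exact dvd_zero _) hℓc₄
  by_cases hc₆ : W.c₆ = 0
  · refine ⟨Pinf, hPinf, fun ℓ hℓ hℓp hℓΔ hℓc₄ => ?_⟩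
    exfalso
    apply hℓc₄
    have hpr : Prime (ℓ : ℤ) := Nat.prime_iff_prime_int.mp hℓ
    have h3 : (ℓ : ℤ) ∣ W.c₄ ^ 3 := by
      have e : W.c₄ ^ 3 = 1728 * W.Δ := by
        have := W.c_relation
        rw [hc₆] at this
        linear_combination -this
      rw [e]
      exact Dvd.dvd.mul_left hℓΔ _
    exact hpr.dvd_of_dvd_pow h3
  · exact h W hΔ hc₄ hc₆ Q hfix hord

end Fermat.Agent.MZ
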