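/-
PROJECT MZ (S15, branch-only) — the assembly, top — helper6.

**`s15_of_modDictW`**: the statement of S15 from the single remaining block (MOD) in its weak form
`ModDictW p (cuspInfP p) (cuspZeroP p)` (`TOP15_helper6_Weak`); (HR) = helper8's
`hecke_red_stable`, (FIN) = helper4's `eisKiller_cuspClass`.
-/
import Mathlib
import Fermat.Agent.MZ.ASM15_helper6_Main
import Fermat.Agent.MZ.TOP15_helper6_Weak
import Fermat.Agent.MZ.HR_helper8_Final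
import Fermat.Agent.MZ.ASM_helper4_Top

set_option autoImplicit false
set_option linter.unusedSectionVars false
set_option linter.unusedVariables false
set_option linter.style.haveILetI false

open ModularCurve AlgebraicCurve
open WeierstrassCurve WeierstrassCurve.Affine

namespace Fermat.Agent.MZ

local notation "Ω" => AlgebraicClosure ℚ
local notation "GQ" => (AlgebraicClosure ℚ ≃ₐ[ℚ] AlgebraicClosure ℚ)

/-- **S15 from (MOD).** -/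
theorem s15_of_modDict {p : ℕ} [NeZero p] (hp : p.Prime)
    (hp' : p ∉ ({2, 3, 5, 7, 13} : Finset ℕ))
    (hmod : ModDict p (cuspInfP p) (cuspZeroP p))
    (W : WeierstrassCurve ℤ) (hΔ : W.Δ ≠ 0)
    (Q : ((W.map (Int.castRingHom ℚ))⁄(AlgebraicClosure ℚ)).Point)
    (hQfix : ∀ σ : AlgebraicClosure ℚ ≃ₐ[ℚ] AlgebraicClosure ℚ, σ • Q = Q)
    (hQord : addOrderOf Q = p)
    (h2Δ : (2 : ℤ) ∣ W.Δ) (h2c₄ : ¬ (2 : ℤ) ∣ W.c₄)
    (h2 : ∀ A : ValuationSubring (AlgebraicClosure ℚ), A.LiesOverPrime 2 →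
      ¬ W.InZeroComponentAt A Q)
    (h3Δ : (3 : ℤ) ∣ W.Δ) (h3c₄ : ¬ (3 : ℤ) ∣ W.c₄)
    (h3 : ∀ A : ValuationSubring (AlgebraicClosure ℚ), A.LiesOverPrime 3 →
      ¬ W.InZeroComponentAt A Q)
    {ℓ : ℕ} (hℓ : ℓ.Prime) (hℓp : ℓ ≠ p) (hℓΔ : (ℓ : ℤ) ∣ W.Δ) (hℓc₄ : ¬ (ℓ : ℤ) ∣ W.c₄)
    (A : ValuationSubring (AlgebraicClosure ℚ)) (hA : A.LiesOverPrime ℓ) :
    ¬ W.InZeroComponentAt A Q := by
  have hp5 : 5 ≤ p := by
    by_contra hlt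
    rw [not_le] at hlt
    have h2le := hp.two_le
    interval_cases p
    · exact hp' (by decide)
    · exact hp' (by decide)
    · exact absurd hp (by decide)
  refine s15_of_three hp hp' hmod
    (fun ℓ₁ hℓ₁ hℓ₁p A₁ hA₁ ℓ' hℓ' x hx => hecke_red_stable hp hℓ₁ hℓ₁p A₁ hA₁ ℓ' hℓ' x hx)
    (fun r hr _ hrp1 => eisKiller_cuspClass p hp hp5 r hr ?_)
    W hΔ Q hQfix hQord h2Δ h2c₄ h2 h3Δ h3c₄ h3 hℓ hℓp hℓΔ hℓc₄ A hA
  rintro rfl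
  have hpos : 0 < p - 1 := by have := hp.two_le; omega
  have := Nat.le_of_dvd hpos hrp1
  omega

/-- **S15 from (MOD), weak form.** -/
theorem s15_of_modDictW {p : ℕ} [NeZero p] (hp : p.Prime)
    (hp' : p ∉ ({2, 3, 5, 7, 13} : Finset ℕ))
    (hmod : ModDictW p (cuspInfP p) (cuspZeroP p))
    (W : WeierstrassCurve ℤ) (hΔ : W.Δ ≠ 0)
    (Q : ((W.map (Int.castRingHom ℚ))⁄(AlgebraicClosure ℚ)).Point)
    (hQfix : ∀ σ : AlgebraicClosure ℚ ≃ₐ[ℚ] AlgebraicClosure ℚ, σ • Q = Q)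
    (hQord : addOrderOf Q = p)
    (h2Δ : (2 : ℤ) ∣ W.Δ) (h2c₄ : ¬ (2 : ℤ) ∣ W.c₄)
    (h2 : ∀ A : ValuationSubring (AlgebraicClosure ℚ), A.LiesOverPrime 2 →
      ¬ W.InZeroComponentAt A Q)
    (h3Δ : (3 : ℤ) ∣ W.Δ) (h3c₄ : ¬ (3 : ℤ) ∣ W.c₄)
    (h3 : ∀ A : ValuationSubring (AlgebraicClosure ℚ), A.LiesOverPrime 3 →
      ¬ W.InZeroComponentAt A Q)
    {ℓ : ℕ} (hℓ : ℓ.Prime) (hℓp : ℓ ≠ p) (hℓΔ : (ℓ : ℤ) ∣ W.Δ) (hℓc₄ : ¬ (ℓ : ℤ) ∣ W.c₄)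
    (A : ValuationSubring (AlgebraicClosure ℚ)) (hA : A.LiesOverPrime ℓ) :
    ¬ W.InZeroComponentAt A Q :=
  s15_of_modDict hp hp' (modDict_of_weak (galois_smul_cuspInfP p) hmod)
    W hΔ Q hQfix hQord h2Δ h2c₄ h2 h3Δ h3c₄ h3 hℓ hℓp hℓΔ hℓc₄ A hA

end Fermat.Agent.MZ
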