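/-
MZ (MOD), block (PL3) (helper5): **complex uniformisation with a marked point of order `p`**.
For a Weierstrass curve `W` over `ℂ` with `Δ ≠ 0` and a point `Q` of prime order `p` there is
`τ₀ ∈ ℍ` with `j(τ₀) = j(W)` such that the weight-0 invariants
`Y(mQ) = (c₄ x(mQ) - 18 b₆ + b₂ b₄) / c₆` are the values
`(-E₄ · wpDiv p 0 m + E₆ / 12) / E₆` at `τ₀` (stated cross-multiplied).
-/
import Mathlib
import Fermat.Agent.S13.A_helper8_Model
import Fermat.Agent.MZ.MOD_helper3_WpAlg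

set_option autoImplicit false
set_option linter.unusedSectionVars false
set_option linter.unusedVariables false

namespace Fermat.Agent.MZ

open Complex UpperHalfPlane ModularForm EisensteinSeries WeierstrassCurve
open scoped PeriodPair Real MatrixGroups
open Fermat.Agent.X0N Fermat.Agent.S13 Fermat.Agent.Tate

noncomputable section

/-- `g₂` of the lattice `μ (ℤ τ + ℤ)`. -/
theorem g₂_pairOf (μ : ℂ) (hμ : μ ≠ 0) (τ : ℍ) :
    (pairOf μ hμ τ).g₂ = (μ ^ 4)⁻¹ * (4 * (π : ℂ) ^ 4 / 3 * E₄ τ) := by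
  rw [PeriodPair.g₂, pairOf_G _ _ _ (by norm_num : 3 ≤ 4)]
  have hz : riemannZeta ((4 : ℕ) : ℂ) = (π : ℂ) ^ 4 / 90 := by
    have := riemannZeta_four
    simpa using this
  rw [hz]
  show 60 * ((μ ^ 4)⁻¹ * (2 * ((π : ℂ) ^ 4 / 90) * E₄ τ)) = _
  ring

/-- `g₃` of the lattice `μ (ℤ τ + ℤ)`. -/
theorem g₃_pairOf (μ : ℂ) (hμ : μ ≠ 0) (τ : ℍ) :
    (pairOf μ hμ τ).g₃ = (μ ^ 6)⁻¹ * (8 * (π : ℂ) ^ 6 / 27 * E₆ τ) := by
  rw [PeriodPair.g₃, pairOf_G _ _ _ (by norm_num : 3 ≤ 6)]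
  have hz : riemannZeta ((6 : ℕ) : ℂ) = (π : ℂ) ^ 6 / 945 := by
    have := riemannZeta_six_aux
    simpa using this
  rw [hz]
  show 140 * ((μ ^ 6)⁻¹ * (2 * ((π : ℂ) ^ 6 / 945) * E₆ τ)) = _
  ring

/-- homogeneity of `℘` under scaling of the lattice. -/
theorem weierstrassP_pairOf (μ : ℂ) (hμ : μ ≠ 0) (τ : ℍ) (w : ℂ) :
    ℘[pairOf μ hμ τ] (μ * w) = (μ ^ 2)⁻¹ * ℘[stdPair τ] w := by
  have h := (pairOf μ hμ τ).hasSum_weierstrassP (μ * w)
  have h2 := ((pairOf μ hμ τ).latticeEquivProd.symm.toEquiv.hasSum_iff).mpr h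
  have h3 := (hasSum_prod_weierstrassP τ w).mul_left ((μ ^ 2)⁻¹)
  have key : ((fun l : (pairOf μ hμ τ).lattice => 1 / (μ * w - (l : ℂ)) ^ 2 - 1 / (l : ℂ) ^ 2) ∘
      ⇑(pairOf μ hμ τ).latticeEquivProd.symm.toEquiv) =
      fun i : ℤ × ℤ => (μ ^ 2)⁻¹ *
        (1 / (w - ((i.1 : ℂ) * τ + i.2)) ^ 2 - 1 / ((i.1 : ℂ) * τ + i.2) ^ 2) := by
    funext x
    simp only [Function.comp_apply, LinearEquiv.coe_toEquiv]
    rw [(pairOf μ hμ τ).latticeEquiv_symm_apply x]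
    simp only [pairOf_ω₁, pairOf_ω₂]
    have e1 : (x.1 : ℂ) * (μ * τ) + x.2 * μ = μ * ((x.1 : ℂ) * τ + x.2) := by ring
    rw [e1, ← mul_sub, mul_pow, mul_pow]
    rw [one_div, one_div, one_div, one_div, mul_inv, mul_inv]
    ring
  rw [key] at h2
  exact h2.unique h3

/-- `exists_periodPair` with the period pair exposed as `pairOf μ τ`. -/
theorem exists_pairOf (a b : ℂ) (h : a ^ 3 - 27 * b ^ 2 ≠ 0) :
    ∃ (μ : ℂ) (hμ : μ ≠ 0) (τ : ℍ), (pairOf μ hμ τ).g₂ = a ∧ (pairOf μ hμ τ).g₃ = b := by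
  have hπ : (π : ℂ) ≠ 0 := Complex.ofReal_ne_zero.mpr Real.pi_ne_zero
  obtain ⟨c₄, hc₄⟩ : ∃ c : ℂ, c = 4 * (π : ℂ) ^ 4 / 3 := ⟨_, rfl⟩
  obtain ⟨c₆, hc₆⟩ : ∃ c : ℂ, c = 8 * (π : ℂ) ^ 6 / 27 := ⟨_, rfl⟩
  have hc₄0 : c₄ ≠ 0 := by
    rw [hc₄]
    exact div_ne_zero (mul_ne_zero (by norm_num) (pow_ne_zero 4 hπ)) (by norm_num)
  have hc₆0 : c₆ ≠ 0 := by
    rw [hc₆]
    exact div_ne_zero (mul_ne_zero (by norm_num) (pow_ne_zero 6 hπ)) (by norm_num)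
  have hcc : c₄ ^ 3 = 27 * c₆ ^ 2 := by rw [hc₄, hc₆]; ring
  obtain ⟨a', ha'⟩ : ∃ c : ℂ, c = a / c₄ := ⟨_, rfl⟩
  obtain ⟨b', hb'⟩ : ∃ c : ℂ, c = b / c₆ := ⟨_, rfl⟩
  have hnw : a' ^ 3 - b' ^ 2 ≠ 0 := by
    have hc6 : c₆ ^ 2 = c₄ ^ 3 / 27 := by rw [hcc]; ring
    have e : a' ^ 3 - b' ^ 2 = (a ^ 3 - 27 * b ^ 2) / c₄ ^ 3 := by
      rw [ha', hb', div_pow, div_pow, hc6]
      field_simp
    rw [e]
    exact div_ne_zero h (pow_ne_zero 3 hc₄0)
  obtain ⟨τ, hτ⟩ := exists_jFun_eq (1728 * a' ^ 3 / (a' ^ 3 - b' ^ 2))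
  have hΔ := discriminant_ne_zero τ
  have hd := discriminant_eq_E₄_cube_sub_E₆_sq τ
  have hj := jFun_mul_discriminant τ
  have hnz : E₄ τ ^ 3 - E₆ τ ^ 2 ≠ 0 := by
    intro h0
    rw [hd, h0] at hΔ
    simp at hΔ
  have key : E₄ τ ^ 3 * b' ^ 2 = a' ^ 3 * E₆ τ ^ 2 := by
    rw [hτ, hd] at hj
    field_simp at hj
    linear_combination hj
  obtain ⟨l, hl0, h4, h6⟩ := exists_scaling_alg hnz hnw key
  refine ⟨l⁻¹, inv_ne_zero hl0, τ, ?_, ?_⟩
  · rw [g₂_pairOf]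
    have e : a = c₄ * a' := by rw [ha']; field_simp
    rw [e, h4, hc₄, inv_pow, inv_inv]
    ring
  · rw [g₃_pairOf]
    have e : b = c₆ * b' := by rw [hb']; field_simp
    rw [e, h6, hc₆, inv_pow, inv_inv]
    ring

/-- Every elliptic curve over `ℂ` is a variable change of some `curveOf (pairOf μ τ)`. -/
theorem exists_variableChange_eq_curveOf_pairOf (W : WeierstrassCurve ℂ) (hΔ : W.Δ ≠ 0) :
    ∃ (C : WeierstrassCurve.VariableChange ℂ) (μ : ℂ) (hμ : μ ≠ 0) (τ : ℍ),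
      C • W = curveOf (pairOf μ hμ τ) := by
  have : Invertible (2 : ℂ) := invertibleOfNonzero two_ne_zero
  have : Invertible (3 : ℂ) := invertibleOfNonzero three_ne_zero
  set W' := W.toShortNF • W with hW'
  have : W'.IsShortNF := W.toShortNF_spec
  have hΔ' : W'.Δ ≠ 0 := by
    rw [hW', variableChange_Δ]
    exact mul_ne_zero (pow_ne_zero _ (Units.ne_zero _)) hΔ
  rw [Δ_of_isShortNF] at hΔ'
  obtain ⟨μ, hμ, τ, h2, h3⟩ := exists_pairOf (-4 * W'.a₄) (-4 * W'.a₆) (by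
    intro h
    apply hΔ'
    linear_combination h)
  refine ⟨W.toShortNF, μ, hμ, τ, ?_⟩
  rw [← hW']
  ext
  · rw [a₁_of_isShortNF]; rfl
  · rw [a₂_of_isShortNF]; rfl
  · rw [a₃_of_isShortNF]; rfl
  · rw [curveOf_a₄, h2]; ring
  · rw [curveOf_a₆, h3]; ring

/-- the weight-6 covariant `N_W(x) = c₄ x - 18 b₆ + b₂ b₄`. -/
def nodeInv {F : Type*} [CommRing F] (W : WeierstrassCurve F) (x : F) : F :=
  W.c₄ * x - 18 * W.b₆ + W.b₂ * W.b₄

/-- covariance of `nodeInv` under a change of variables. -/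
theorem nodeInv_vcX {F : Type*} [Field F] (W : WeierstrassCurve F)
    (C : WeierstrassCurve.VariableChange F) (x : F) :
    nodeInv W (vcX C x) = (C.u : F) ^ 6 * nodeInv (C • W) x := by
  have hu : (C.u : F) ≠ 0 := C.u.ne_zero
  unfold nodeInv vcX
  rw [variableChange_c₄, variableChange_b₂, variableChange_b₄, variableChange_b₆]
  simp only [Units.val_inv_eq_inv_val]
  unfold WeierstrassCurve.c₄
  field_simp
  ring

theorem c₆_vc {F : Type*} [Field F] (W : WeierstrassCurve F)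
    (C : WeierstrassCurve.VariableChange F) : W.c₆ = (C.u : F) ^ 6 * (C • W).c₆ := by
  have hu : (C.u : F) ≠ 0 := C.u.ne_zero
  rw [variableChange_c₆]
  simp only [Units.val_inv_eq_inv_val]
  field_simp

theorem c₄_vc {F : Type*} [Field F] (W : WeierstrassCurve F)
    (C : WeierstrassCurve.VariableChange F) : W.c₄ = (C.u : F) ^ 4 * (C • W).c₄ := by
  have hu : (C.u : F) ≠ 0 := C.u.ne_zero
  rw [variableChange_c₄]
  simp only [Units.val_inv_eq_inv_val]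
  field_simp

theorem Δ_vc {F : Type*} [Field F] (W : WeierstrassCurve F)
    (C : WeierstrassCurve.VariableChange F) : W.Δ = (C.u : F) ^ 12 * (C • W).Δ := by
  have hu : (C.u : F) ≠ 0 := C.u.ne_zero
  rw [variableChange_Δ]
  simp only [Units.val_inv_eq_inv_val]
  field_simp

theorem curveOf_c₄ (L : PeriodPair) : (curveOf L).c₄ = 12 * L.g₂ := by
  simp only [WeierstrassCurve.c₄, WeierstrassCurve.b₂, WeierstrassCurve.b₄, curveOf_a₁, curveOf_a₂,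
    curveOf_a₃, curveOf_a₄]
  ring

theorem curveOf_c₆ (L : PeriodPair) : (curveOf L).c₆ = 216 * L.g₃ := by
  simp only [WeierstrassCurve.c₆, WeierstrassCurve.b₂, WeierstrassCurve.b₄, WeierstrassCurve.b₆,
    curveOf_a₁, curveOf_a₂, curveOf_a₃, curveOf_a₄, curveOf_a₆]
  ring

theorem curveOf_Δ (L : PeriodPair) : (curveOf L).Δ = L.g₂ ^ 3 - 27 * L.g₃ ^ 2 := by
  simp only [WeierstrassCurve.Δ, WeierstrassCurve.b₂, WeierstrassCurve.b₄, WeierstrassCurve.b₆,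
    WeierstrassCurve.b₈, curveOf_a₁, curveOf_a₂, curveOf_a₃, curveOf_a₄, curveOf_a₆]
  ring

theorem nodeInv_curveOf (L : PeriodPair) (x : ℂ) :
    nodeInv (curveOf L) x = 12 * L.g₂ * x + 18 * L.g₃ := by
  unfold nodeInv
  rw [curveOf_c₄]
  simp only [WeierstrassCurve.b₂, WeierstrassCurve.b₄, WeierstrassCurve.b₆,
    curveOf_a₁, curveOf_a₂, curveOf_a₃, curveOf_a₄, curveOf_a₆]
  ring

/-- a coprime lift of a nonzero vector modulo a prime. -/
theorem exists_coprime_lift {p : ℕ} (hp : p.Prime) (A B : ℤ)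
    (h : ¬ ((p : ℤ) ∣ A ∧ (p : ℤ) ∣ B)) :
    ∃ c d : ℤ, IsCoprime c d ∧ (p : ℤ) ∣ A - c ∧ (p : ℤ) ∣ B - d := by
  have hpp : Prime (p : ℤ) := Nat.prime_iff_prime_int.mp hp
  by_cases hA : (p : ℤ) ∣ A
  · have hB : ¬ (p : ℤ) ∣ B := fun hB => h ⟨hA, hB⟩
    refine ⟨p, B, ?_, ?_, ?_⟩
    · exact (Prime.coprime_iff_not_dvd hpp).mpr hB
    · exact dvd_sub hA (dvd_refl _)
    · simp
  · have hcop : IsCoprime A (p : ℤ) := ((Prime.coprime_iff_not_dvd hpp).mpr hA).symm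
    obtain ⟨u, v, huv⟩ := hcop
    refine ⟨A, 1 - u * A * (1 - B), ?_, by simp, ?_⟩
    · exact ⟨u * (1 - B), 1, by ring⟩
    · refine ⟨-(1 - B) * v, ?_⟩
      linear_combination (1 - B) * huv

theorem two_pi_I_sq_inv : ((2 * (π : ℂ) * Complex.I) ^ 2)⁻¹ = -(4 * (π : ℂ) ^ 2)⁻¹ := by
  have h : (2 * (π : ℂ) * Complex.I) ^ 2 = -(4 * (π : ℂ) ^ 2) := by
    rw [mul_pow, mul_pow, Complex.I_sq]
    ring
  rw [h, inv_neg]

/-- **(PL3)**: complex uniformisation with a marked point of prime order. -/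
theorem exists_tau_marked (W : WeierstrassCurve ℂ) (hΔ : W.Δ ≠ 0) {p : ℕ} (hp : p.Prime)
    (Q : W.toAffine.Point) (hQ : addOrderOf Q = p) :
    ∃ τ₀ : ℍ, jFun τ₀ * W.Δ = W.c₄ ^ 3 ∧ (E₄ τ₀ = 0 ↔ W.c₄ = 0) ∧ (E₆ τ₀ = 0 ↔ W.c₆ = 0) ∧
      ∀ m : ℤ, ¬ (p : ℤ) ∣ m → ∃ (x y : ℂ) (h : W.toAffine.Nonsingular x y),
        m • Q = Affine.Point.some x y h ∧
        nodeInv W x * E₆ τ₀ = W.c₆ * (-(E₄ τ₀ * wpDiv p 0 m τ₀) + E₆ τ₀ / 12) := by
  classical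
  obtain ⟨C, μ, hμ, τ, hC⟩ := exists_variableChange_eq_curveOf_pairOf W hΔ
  set L := pairOf μ hμ τ with hL
  set e := vcPtEquivOfEq C hC.symm with he
  set Q' := e.symm Q with hQ'
  have heQ' : e Q' = Q := e.apply_symm_apply Q
  have hp0 : p ≠ 0 := hp.ne_zero
  have hpc : (p : ℂ) ≠ 0 := by exact_mod_cast hp0
  have hQ'ord : addOrderOf Q' = p := by
    rw [hQ', AddEquiv.addOrderOf_eq, hQ]
  obtain ⟨z, hz⟩ := ptOf_surjective L Q'
  have hz0 : z ∉ L.lattice := by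
    intro hmem
    have h0 := ptOf_of_mem L hmem
    rw [hz] at h0
    rw [h0, addOrderOf_zero] at hQ'ord
    exact hp.one_lt.ne hQ'ord
  have hpz : (p : ℂ) * z ∈ L.lattice := by
    rw [← ptOf_eq_zero_iff, ptOf_nsmul, hz, ← hQ'ord]
    exact addOrderOf_nsmul_eq_zero Q'
  obtain ⟨A, B, hAB⟩ := PeriodPair.mem_lattice.mp hpz
  have hω₁ : L.ω₁ = μ * τ := rfl
  have hω₂ : L.ω₂ = μ := rfl
  rw [hω₁, hω₂] at hAB
  have hzeq : z = μ * (((A : ℂ) * τ + B) / p) := by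
    field_simp
    linear_combination -hAB
  have hnot : ¬ ((p : ℤ) ∣ A ∧ (p : ℤ) ∣ B) := by
    rintro ⟨⟨A', rfl⟩, ⟨B', rfl⟩⟩
    apply hz0
    rw [PeriodPair.mem_lattice]
    refine ⟨A', B', ?_⟩
    rw [hω₁, hω₂, hzeq]
    push_cast
    field_simp
  obtain ⟨c, d, hcd, ⟨a', ha'⟩, ⟨b', hb'⟩⟩ := exists_coprime_lift hp A B hnot
  obtain ⟨γ, hγ0, hγ1⟩ := hcd.exists_SL2_row 1
  set τ₀ : ℍ := γ • τ with hτ₀
  set j : ℂ := denom γ τ with hj
  have hj0 : j ≠ 0 := denom_ne_zero γ τ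
  have hjd : j = (c : ℂ) * τ + d := by
    rw [hj, ← hγ0, ← hγ1]
    simp [denom]
  have hE4 : E₄ τ₀ = j ^ 4 * E₄ τ := by
    have := modularForm_SL_smul E₄ γ τ
    rw [hτ₀, this, hj]
    norm_cast
  have hE6 : E₆ τ₀ = j ^ 6 * E₆ τ := by
    have := modularForm_SL_smul E₆ γ τ
    rw [hτ₀, this, hj]
    norm_cast
  have hπ : (π : ℂ) ≠ 0 := Complex.ofReal_ne_zero.mpr Real.pi_ne_zero
  have hu : (C.u : ℂ) ≠ 0 := C.u.ne_zero
  have hg₂ : L.g₂ = (μ ^ 4)⁻¹ * (4 * (π : ℂ) ^ 4 / 3 * E₄ τ) := g₂_pairOf μ hμ τ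
  have hg₃ : L.g₃ = (μ ^ 6)⁻¹ * (8 * (π : ℂ) ^ 6 / 27 * E₆ τ) := g₃_pairOf μ hμ τ
  have hc₄ : W.c₄ = (C.u : ℂ) ^ 4 * (12 * L.g₂) := by
    rw [c₄_vc W C, hC, curveOf_c₄]
  have hc₆ : W.c₆ = (C.u : ℂ) ^ 6 * (216 * L.g₃) := by
    rw [c₆_vc W C, hC, curveOf_c₆]
  have hWΔ : W.Δ = (C.u : ℂ) ^ 12 * (L.g₂ ^ 3 - 27 * L.g₃ ^ 2) := by
    rw [Δ_vc W C, hC, curveOf_Δ]
  refine ⟨τ₀, ?_, ?_, ?_, ?_⟩
  · -- the `j`-invariant
    have h1 : jFun τ₀ = jFun τ := jFun_smul γ τ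
    have h2 := jFun_mul_discriminant τ
    have h3 := discriminant_eq_E₄_cube_sub_E₆_sq τ
    rw [h3] at h2
    rw [h1, hWΔ, hc₄, hg₂, hg₃]
    have hμ4 : μ ^ 4 ≠ 0 := pow_ne_zero _ hμ
    have hμ6 : μ ^ 6 ≠ 0 := pow_ne_zero _ hμ
    field_simp
    field_simp at h2
    linear_combination (1728 : ℂ) * h2
  · rw [hE4, hc₄, hg₂]
    have hμ4 : (μ ^ 4)⁻¹ ≠ 0 := inv_ne_zero (pow_ne_zero _ hμ)
    constructor
    · intro h
      rcases mul_eq_zero.mp h with h | h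
      · exact absurd h (pow_ne_zero _ hj0)
      · rw [h]; ring
    · intro h
      have h5 : E₄ τ = 0 := by
        by_contra hne
        apply absurd h
        exact mul_ne_zero (pow_ne_zero _ hu) (mul_ne_zero (by norm_num)
          (mul_ne_zero hμ4 (mul_ne_zero (div_ne_zero (mul_ne_zero (by norm_num)
            (pow_ne_zero _ hπ)) (by norm_num)) hne)))
      rw [h5, mul_zero]
  · rw [hE6, hc₆, hg₃]
    have hμ6 : (μ ^ 6)⁻¹ ≠ 0 := inv_ne_zero (pow_ne_zero _ hμ)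
    constructor
    · intro h
      rcases mul_eq_zero.mp h with h | h
      · exact absurd h (pow_ne_zero _ hj0)
      · rw [h]; ring
    · intro h
      have h5 : E₆ τ = 0 := by
        by_contra hne
        apply absurd h
        exact mul_ne_zero (pow_ne_zero _ hu) (mul_ne_zero (by norm_num)
          (mul_ne_zero hμ6 (mul_ne_zero (div_ne_zero (mul_ne_zero (by norm_num)
            (pow_ne_zero _ hπ)) (by norm_num)) hne)))
      rw [h5, mul_zero]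
  · intro m hm
    -- `m z` is not a lattice point
    have hmz : (m : ℂ) * z ∉ L.lattice := by
      intro hmem
      have hcop : IsCoprime m (p : ℤ) :=
        ((Prime.coprime_iff_not_dvd (Nat.prime_iff_prime_int.mp hp)).mpr hm).symm
      obtain ⟨u', v', huv⟩ := hcop
      apply hz0
      have h1 : z = (u' : ℂ) * ((m : ℂ) * z) + (v' : ℂ) * ((p : ℂ) * z) := by
        have h2 : ((u' * m + v' * (p : ℤ) : ℤ) : ℂ) = 1 := by exact_mod_cast huv
        push_cast at h2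
        linear_combination (-z) * h2
      rw [h1]
      refine L.lattice.add_mem ?_ ?_
      · have := L.lattice.smul_mem u' hmem
        rwa [zsmul_eq_mul] at this
      · have := L.lattice.smul_mem v' hpz
        rwa [zsmul_eq_mul] at this
    have hmQ' : m • Q' = ptOf L ((m : ℂ) * z) := by
      have h1 := map_zsmul (ptHom L) m z
      rw [ptHom_apply, ptHom_apply, zsmul_eq_mul, hz] at h1
      exact h1.symm
    have hmQ : m • Q = e (ptOf L ((m : ℂ) * z)) := by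
      rw [← hmQ', map_zsmul, heQ']
    rw [ptOf_of_notMem L hmz, he, vcPtEquivOfEq_some] at hmQ
    refine ⟨_, _, _, hmQ, ?_⟩
    rw [nodeInv_vcX, hC, nodeInv_curveOf, hc₆]
    -- the value of `℘`
    set w' : ℂ := (m : ℂ) * (((c : ℂ) * τ + d) / p) with hw'
    have hw1 : (m : ℂ) * z = μ * ((m : ℂ) * (((A : ℂ) * τ + B) / p)) := by
      rw [hzeq]; ring
    have hlat : (m : ℂ) * (((A : ℂ) * τ + B) / p) - w' ∈ (stdPair τ).lattice := by
      rw [PeriodPair.mem_lattice]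
      refine ⟨m * a', m * b', ?_⟩
      have hA' : (A : ℂ) = c + p * a' := by
        have : A = c + p * a' := by linarith
        exact_mod_cast this
      have hB' : (B : ℂ) = d + p * b' := by
        have : B = d + p * b' := by linarith
        exact_mod_cast this
      simp only [pairOf_ω₁, pairOf_ω₂, one_mul, mul_one]
      rw [hw', hA', hB']
      push_cast
      field_simp
      ring
    have hP1 : ℘[L] ((m : ℂ) * z) = (μ ^ 2)⁻¹ * ℘[stdPair τ] w' := by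
      rw [hw1, hL, weierstrassP_pairOf]
      congr 1
      have := (stdPair τ).weierstrassP_add_coe w' ⟨_, hlat⟩
      rw [← this]
      congr 1
      exact (add_sub_cancel _ _).symm
    have hP2 : ℘[stdPair τ₀] ((m : ℂ) / p) = j ^ 2 * ℘[stdPair τ] w' := by
      have := weierstrassP_smul γ τ w'
      rw [← hj, ← hτ₀] at this
      rw [← this]
      congr 1
      have hjd0 : (c : ℂ) * τ + d ≠ 0 := by rw [← hjd]; exact hj0
      rw [hw', hjd]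
      field_simp
    have hwp : wpDiv p 0 m τ₀ = -(4 * (π : ℂ) ^ 2)⁻¹ * (j ^ 2 * ℘[stdPair τ] w') := by
      rw [wpDiv_eq, two_pi_I_sq_inv, ← hP2]
      congr 2
      push_cast
      ring
    rw [hP1, hwp, hE4, hE6, hg₂, hg₃]
    have hμ2 : μ ^ 2 ≠ 0 := pow_ne_zero _ hμ
    have hμ4 : μ ^ 4 ≠ 0 := pow_ne_zero _ hμ
    have hμ6 : μ ^ 6 ≠ 0 := pow_ne_zero _ hμ
    field_simp
    ring

end

end Fermat.Agent.MZ
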