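/-
Project MZ, block (MOD), part [FF] (helper1), file 0: **the interface between the analytic part
[AN] (helper3) and the function-field part [FF]**.

`wpDiv p r s τ = (2πi)⁻² ℘(( r τ + s)/p ; ℤ τ + ℤ)`: the normalised Weierstrass function at the
`p`-division point `(r τ + s)/p`.  `WpDivData p W` bundles the analytic facts about the family
`W = wpDiv p` that the function-field part uses: holomorphy in `τ`, periodicity in `(r, s)` modulo
`p`, the weight-2 transformation law under `SL(2, ℤ)`, the `q`-expansion for `r = 0` and the limit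
at `i∞` for `r ≢ 0`.
-/
import Mathlib
import Fermat.Agent.X0N.J_helper8_Lattice

set_option autoImplicit false

open UpperHalfPlane hiding I
open Complex Filter Topology ModularForm
open scoped MatrixGroups Manifold Real

namespace Fermat.Agent.MZ

noncomputable section

local notation "𝕢" => Function.Periodic.qParam

/-- the normalised Weierstrass function at the division point `(r τ + s)/p` of `ℂ/(ℤ τ + ℤ)`. -/
def wpDiv (p : ℕ) (r s : ℤ) (τ : ℍ) : ℂ :=
  ((2 * π * I) ^ 2)⁻¹ *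
    (Fermat.Agent.X0N.pairOf 1 one_ne_zero τ).weierstrassP (((r : ℂ) * τ + s) / p)

/-- the coefficients of the `q`-expansion of `(2πi)⁻² ℘(z; τ)` at `u = exp(2πi z)`, `|u| = 1`. -/
def wpCoeff (u : ℂ) (n : ℕ) : ℂ :=
  if n = 0 then 1 / 12 + u / (1 - u) ^ 2
  else ∑ d ∈ n.divisors, (d : ℂ) * (u ^ d + u⁻¹ ^ d - 2)

/-- **the analytic input** of the function-field part. -/
structure WpDivData (p : ℕ) (W : ℤ → ℤ → ℍ → ℂ) : Prop where
  holo : ∀ r s : ℤ, ¬ ((p : ℤ) ∣ r ∧ (p : ℤ) ∣ s) → MDiff (W r s)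
  periodic : ∀ r s k l : ℤ, W (r + p * k) (s + p * l) = W r s
  slash : ∀ r s : ℤ, ¬ ((p : ℤ) ∣ r ∧ (p : ℤ) ∣ s) → ∀ γ : SL(2, ℤ),
    (W r s) ∣[(2 : ℤ)] γ = W (r * γ 0 0 + s * γ 1 0) (r * γ 0 1 + s * γ 1 1)
  qexp : ∀ s : ℤ, ¬ (p : ℤ) ∣ s → ∀ τ : ℍ,
    HasSum (fun n : ℕ => wpCoeff (cexp (2 * π * I * s / p)) n * 𝕢 1 τ ^ n) (W 0 s τ)
  tendsto : ∀ r s : ℤ, ¬ (p : ℤ) ∣ r → Tendsto (W r s) atImInfty (𝓝 (1 / 12))

end

end Fermat.Agent.MZ
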