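/-
Project MZ, block (MOD), part [FF] (helper1), file 1: **the formal `q`-expansions**.

For a complex number `u` (later a `p`-th root of unity `≠ 1`) we define the power series
`aSer u = -(E₄ · w(u)) + E₆/12` where `w(u) = ∑ wpCoeff u n qⁿ` is the expansion of
`(2πi)⁻² ℘(z; τ)` at `u = exp(2πi z)`; it is the expansion at `i∞` of the weight-6 form
`A = -E₄ · wpDiv + E₆/12`.  For `p` prime and `ζ = exp(2πi/p)` the elementary symmetric functions
`bSer p k` of the `aSer (ζ^m)`, `m ∈ (ℤ/p)ˣ`, are fixed by all ring automorphisms of `ℂ`, hence have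
rational coefficients (`bQ p k`), of the form `a / p^e`; the constant term of `bSer p (p-1)` is
`1/p²`.
-/
import Mathlib
import Fermat.Agent.MZ.MOD_helper1_Interface
import Fermat.Agent.S16.L1_helper1_Int
import Fermat.Agent.RatStr.Descent_helper1

set_option autoImplicit false

open Complex Finset
open scoped Real

namespace Fermat.Agent.MZ

open Fermat.Agent.S16 (E4Z E6Z)

noncomputable section

/-! ### elementary symmetric sums over a fintype -/

/-- the `k`-th elementary symmetric function of a finite family. -/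
def esymmF {ι R : Type*} [Fintype ι] [DecidableEq ι] [CommSemiring R] (f : ι → R) (k : ℕ) : R :=
  ∑ t ∈ powersetCard k (univ : Finset ι), ∏ i ∈ t, f i

theorem esymmF_comp_equiv {ι R : Type*} [Fintype ι] [DecidableEq ι] [CommSemiring R] (e : ι ≃ ι)
    (f : ι → R) (k : ℕ) : esymmF (fun i => f (e i)) k = esymmF f k := by
  unfold esymmF
  have h1 : powersetCard k (univ : Finset ι) =
      (powersetCard k (univ : Finset ι)).map (mapEmbedding e.toEmbedding).toEmbedding := by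
    rw [← powersetCard_map, map_univ_equiv]
  conv_rhs => rw [h1]
  rw [sum_map]
  refine sum_congr rfl fun t _ => ?_
  show _ = ∏ i ∈ t.map e.toEmbedding, f i
  rw [prod_map]
  rfl

theorem map_esymmF {ι R S : Type*} [Fintype ι] [DecidableEq ι] [CommSemiring R] [CommSemiring S]
    (φ : R →+* S) (f : ι → R) (k : ℕ) : φ (esymmF f k) = esymmF (fun i => φ (f i)) k := by
  unfold esymmF
  rw [map_sum]
  refine sum_congr rfl fun t _ => ?_
  rw [map_prod]

theorem esymmF_card {ι R : Type*} [Fintype ι] [DecidableEq ι] [CommSemiring R] (f : ι → R) :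
    esymmF f (Fintype.card ι) = ∏ i, f i := by
  unfold esymmF
  rw [← Finset.card_univ, powersetCard_self, sum_singleton]

/-! ### the series -/

/-- `E₄` over `ℂ`. -/
def E4C : PowerSeries ℂ := E4Z.map (Int.castRingHom ℂ)

/-- `E₆` over `ℂ`. -/
def E6C : PowerSeries ℂ := E6Z.map (Int.castRingHom ℂ)

/-- `∑ wpCoeff u n qⁿ`. -/
def wSer (u : ℂ) : PowerSeries ℂ := PowerSeries.mk (wpCoeff u)

/-- the expansion of `-E₄ · wpDiv + E₆/12`. -/
def aSer (u : ℂ) : PowerSeries ℂ := -(E4C * wSer u) + PowerSeries.C (1 / 12 : ℂ) * E6C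

theorem map_intCast_map (σ : ℂ →+* ℂ) (P : PowerSeries ℤ) :
    (P.map (Int.castRingHom ℂ)).map σ = P.map (Int.castRingHom ℂ) := by
  ext n
  simp

theorem map_wpCoeff (σ : ℂ →+* ℂ) (u : ℂ) (n : ℕ) : σ (wpCoeff u n) = wpCoeff (σ u) n := by
  unfold wpCoeff
  split_ifs with h
  · simp [map_div₀, map_ofNat]
  · simp [map_sum, map_inv₀, map_ofNat]

theorem map_wSer (σ : ℂ →+* ℂ) (u : ℂ) : (wSer u).map σ = wSer (σ u) := by
  ext n
  simp [wSer, map_wpCoeff]

theorem map_aSer (σ : ℂ →+* ℂ) (u : ℂ) : (aSer u).map σ = aSer (σ u) := by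
  unfold aSer E4C E6C
  rw [map_add, map_neg, map_mul, map_mul, map_intCast_map, map_intCast_map, map_wSer,
    PowerSeries.map_C]
  congr 3
  simp [map_ofNat]

/-! ### the roots of unity -/

variable (p : ℕ)

/-- `ζ = exp(2πi/p)`. -/
def zetaP : ℂ := cexp (2 * π * I / p)

theorem isPrimitiveRoot_zetaP [NeZero p] : IsPrimitiveRoot (zetaP p) p :=
  Complex.isPrimitiveRoot_exp p (NeZero.ne p)

theorem zetaP_pow_self [NeZero p] : zetaP p ^ p = 1 := (isPrimitiveRoot_zetaP p).pow_eq_one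

theorem zetaP_pow_mod [NeZero p] (n : ℕ) : zetaP p ^ (n % p) = zetaP p ^ n := by
  have h := pow_mod_orderOf (zetaP p) n
  rwa [← (isPrimitiveRoot_zetaP p).eq_orderOf] at h

theorem cexp_eq_zetaP_pow (n : ℕ) :
    cexp (2 * π * I * ((n : ℤ) : ℂ) / p) = zetaP p ^ n := by
  rw [zetaP, ← Complex.exp_nat_mul]
  congr 1
  push_cast
  ring

/-- `ζ^m` for `m ∈ (ℤ/p)ˣ`. -/
def uM (m : (ZMod p)ˣ) : ℂ := zetaP p ^ (m : ZMod p).val

theorem uM_mul [NeZero p] (e m : (ZMod p)ˣ) :
    uM p (e * m) = zetaP p ^ ((e : ZMod p).val * (m : ZMod p).val) := by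
  rw [uM, Units.val_mul, ZMod.val_mul, zetaP_pow_mod]

/-- a ring automorphism of `ℂ` permutes the `ζ^m` through multiplication by a unit. -/
theorem exists_unit_map_uM [NeZero p] (σ : ℂ ≃+* ℂ) :
    ∃ e : (ZMod p)ˣ, ∀ m : (ZMod p)ˣ, σ (uM p m) = uM p (e * m) := by
  have hζ := isPrimitiveRoot_zetaP p
  have hp0 : 0 < p := NeZero.pos p
  have hσζ : IsPrimitiveRoot (σ (zetaP p)) p :=
    hζ.map_of_injective (f := (σ : ℂ →+* ℂ)) σ.injective
  obtain ⟨i, -, hi⟩ := hζ.eq_pow_of_pow_eq_one hσζ.pow_eq_one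
  have hcop : i.Coprime p := by
    rw [← hζ.pow_iff_coprime hp0, hi]
    exact hσζ
  refine ⟨ZMod.unitOfCoprime i hcop, fun m => ?_⟩
  rw [uM_mul, ZMod.coe_unitOfCoprime, ZMod.val_natCast, uM, map_pow, ← hi, pow_mul (zetaP p) (i % p),
    zetaP_pow_mod]

section Prime

variable [Fact p.Prime]

/-- the `k`-th elementary symmetric function of the `aSer (ζ^m)`, `m ∈ (ℤ/p)ˣ`. -/
def bSer (k : ℕ) : PowerSeries ℂ := esymmF (fun m : (ZMod p)ˣ => aSer (uM p m)) k

theorem map_bSer (σ : ℂ ≃+* ℂ) (k : ℕ) : (bSer p k).map (σ : ℂ →+* ℂ) = bSer p k := by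
  obtain ⟨e, he⟩ := exists_unit_map_uM p σ
  unfold bSer
  rw [map_esymmF]
  have h1 : (fun m : (ZMod p)ˣ => (PowerSeries.map (σ : ℂ →+* ℂ)) (aSer (uM p m))) =
      fun m => aSer (uM p (Equiv.mulLeft e m)) := by
    funext m
    rw [map_aSer]
    congr 1
    exact he m
  rw [h1]
  exact esymmF_comp_equiv (Equiv.mulLeft e) (fun m => aSer (uM p m)) k

theorem exists_rat_coeff_bSer (k n : ℕ) : ∃ q : ℚ, PowerSeries.coeff n (bSer p k) = q := by
  apply Fermat.Agent.RatStr.exists_rat_of_forall_ringAut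
  intro σ
  conv_rhs => rw [← map_bSer p σ k]
  rw [PowerSeries.coeff_map]
  rfl

/-- the rational model of `bSer p k`. -/
def bQ (k : ℕ) : PowerSeries ℚ :=
  PowerSeries.mk fun n => Classical.choose (exists_rat_coeff_bSer p k n)

theorem map_bQ (k : ℕ) : (bQ p k).map (algebraMap ℚ ℂ) = bSer p k := by
  ext n
  rw [PowerSeries.coeff_map, bQ, PowerSeries.coeff_mk]
  exact (Classical.choose_spec (exists_rat_coeff_bSer p k n)).symm

end Prime

/-! ### integrality away from `p` -/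

theorem isIntegral_natCast_complex (n : ℕ) : IsIntegral ℤ (n : ℂ) := by
  have h := isIntegral_algebraMap (R := ℤ) (A := ℂ) (x := (n : ℤ))
  simpa using h

/-- the complex numbers `c` such that `p^e c` is an algebraic integer for some `e`. -/
def pInt : Subring ℂ where
  carrier := {c | ∃ e : ℕ, IsIntegral ℤ ((p : ℂ) ^ e * c)}
  mul_mem' := by
    rintro a b ⟨e, he⟩ ⟨f, hf⟩
    refine ⟨e + f, ?_⟩
    have h : (p : ℂ) ^ (e + f) * (a * b) = ((p : ℂ) ^ e * a) * ((p : ℂ) ^ f * b) := by ring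
    rw [h]
    exact he.mul hf
  one_mem' := ⟨0, by simpa using isIntegral_one⟩
  add_mem' := by
    rintro a b ⟨e, he⟩ ⟨f, hf⟩
    refine ⟨e + f, ?_⟩
    have h : (p : ℂ) ^ (e + f) * (a + b) =
        (p : ℂ) ^ f * ((p : ℂ) ^ e * a) + (p : ℂ) ^ e * ((p : ℂ) ^ f * b) := by ring
    rw [h]
    exact (((isIntegral_natCast_complex p).pow f).mul he).add
      (((isIntegral_natCast_complex p).pow e).mul hf)
  zero_mem' := ⟨0, by simpa using isIntegral_zero⟩
  neg_mem' := by
    rintro a ⟨e, he⟩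
    exact ⟨e, by rw [mul_neg]; exact he.neg⟩

variable {p}

theorem mem_pInt_iff {c : ℂ} : c ∈ pInt p ↔ ∃ e : ℕ, IsIntegral ℤ ((p : ℂ) ^ e * c) := Iff.rfl

theorem mem_pInt_of_isIntegral {c : ℂ} (hc : IsIntegral ℤ c) : c ∈ pInt p :=
  ⟨0, by simpa using hc⟩

theorem intCast_mem_pInt (a : ℤ) : (a : ℂ) ∈ pInt p := intCast_mem (pInt p) a

/-- a rational number in `pInt p` has the form `a / p^e`. -/
theorem exists_int_div_pow_of_mem_pInt {q : ℚ} (hq : (q : ℂ) ∈ pInt p) :
    ∃ (a : ℤ) (e : ℕ), (p : ℚ) ^ e * q = a := by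
  obtain ⟨e, he⟩ := hq
  have h1 : (p : ℂ) ^ e * (q : ℂ) = algebraMap ℚ ℂ ((p : ℚ) ^ e * q) := by
    simp
  rw [h1, isIntegral_algebraMap_iff (algebraMap ℚ ℂ).injective,
    IsIntegrallyClosed.isIntegral_iff] at he
  obtain ⟨a, ha⟩ := he
  exact ⟨a, e, by rw [← ha]; simp⟩

variable (p)

/-- power series with coefficients in a subring. -/
def coeffsIn (S : Subring ℂ) : Subring (PowerSeries ℂ) where
  carrier := {f | ∀ n, PowerSeries.coeff n f ∈ S}
  mul_mem' := by
    intro f g hf hg n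
    rw [PowerSeries.coeff_mul]
    exact S.sum_mem fun x _ => S.mul_mem (hf _) (hg _)
  one_mem' := by
    intro n
    rw [PowerSeries.coeff_one]
    split_ifs
    · exact S.one_mem
    · exact S.zero_mem
  add_mem' := by
    intro f g hf hg n
    rw [map_add]
    exact S.add_mem (hf n) (hg n)
  zero_mem' := by
    intro n
    rw [map_zero]
    exact S.zero_mem
  neg_mem' := by
    intro f hf n
    rw [map_neg]
    exact S.neg_mem (hf n)

theorem mem_coeffsIn {S : Subring ℂ} {f : PowerSeries ℂ} :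
    f ∈ coeffsIn S ↔ ∀ n, PowerSeries.coeff n f ∈ S := Iff.rfl

theorem map_intCast_mem_coeffsIn (S : Subring ℂ) (P : PowerSeries ℤ) :
    P.map (Int.castRingHom ℂ) ∈ coeffsIn S := by
  intro n
  rw [PowerSeries.coeff_map]
  exact intCast_mem S _

/-! ### the integral form of `aSer` -/

/-- the coefficients of `(2πi)⁻² ℘ - 1/12`. -/
def xCoeff (u : ℂ) (n : ℕ) : ℂ :=
  if n = 0 then u / (1 - u) ^ 2 else ∑ d ∈ n.divisors, (d : ℂ) * (u ^ d + u⁻¹ ^ d - 2)

/-- `∑ xCoeff u n qⁿ`. -/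
def xSer (u : ℂ) : PowerSeries ℂ := PowerSeries.mk (xCoeff u)

theorem wSer_eq (u : ℂ) : wSer u = xSer u + PowerSeries.C (1 / 12 : ℂ) := by
  ext n
  rw [wSer, xSer, map_add, PowerSeries.coeff_mk, PowerSeries.coeff_mk, PowerSeries.coeff_C]
  unfold wpCoeff xCoeff
  split_ifs <;> ring

/-- `(E₄ - E₆)/12 = 20 ∑ σ₃(n) qⁿ + 42 ∑ σ₅(n) qⁿ` over `ℤ`. -/
def DZ : PowerSeries ℤ :=
  PowerSeries.mk fun n => if n = 0 then 0 else
    20 * ((ArithmeticFunction.sigma 3 n : ℕ) : ℤ) + 42 * ((ArithmeticFunction.sigma 5 n : ℕ) : ℤ)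

theorem C_mul_E6C_sub_E4C :
    PowerSeries.C (1 / 12 : ℂ) * (E6C - E4C) = -DZ.map (Int.castRingHom ℂ) := by
  ext n
  rw [PowerSeries.coeff_C_mul, map_sub, map_neg, E6C, E4C, PowerSeries.coeff_map,
    PowerSeries.coeff_map, PowerSeries.coeff_map, Fermat.Agent.S16.coeff_E4Z,
    Fermat.Agent.S16.coeff_E6Z, DZ, PowerSeries.coeff_mk]
  split_ifs
  · simp
  · simp only [map_mul, map_neg, map_add, eq_intCast, Int.cast_natCast, Int.cast_ofNat]
    ring

theorem aSer_eq (u : ℂ) : aSer u = -(E4C * xSer u) - DZ.map (Int.castRingHom ℂ) := by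
  rw [aSer, wSer_eq, sub_eq_add_neg, ← C_mul_E6C_sub_E4C]
  ring

section Prime

variable [Fact p.Prime]

theorem isPrimitiveRoot_uM (m : (ZMod p)ˣ) : IsPrimitiveRoot (uM p m) p :=
  (isPrimitiveRoot_zetaP p).pow_of_coprime _ (ZMod.val_coe_unit_coprime m)

theorem isIntegral_uM (m : (ZMod p)ˣ) : IsIntegral ℤ (uM p m) :=
  (isPrimitiveRoot_uM p m).isIntegral (Fact.out : p.Prime).pos

theorem uM_ne_one (m : (ZMod p)ˣ) : uM p m ≠ 1 :=
  (isPrimitiveRoot_uM p m).ne_one (Fact.out : p.Prime).one_lt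

theorem inv_uM (m : (ZMod p)ˣ) : (uM p m)⁻¹ = uM p m ^ (p - 1) := by
  have h1 : uM p m ^ (p - 1) * uM p m = 1 := by
    rw [← pow_succ, Nat.sub_add_cancel (Fact.out : p.Prime).pos]
    exact (isPrimitiveRoot_uM p m).pow_eq_one
  exact (eq_inv_of_mul_eq_one_left h1).symm

theorem isIntegral_inv_uM (m : (ZMod p)ˣ) : IsIntegral ℤ (uM p m)⁻¹ := by
  rw [inv_uM]
  exact (isIntegral_uM p m).pow _

theorem div_sq_mem_pInt (hp2 : 2 < p) (m : (ZMod p)ˣ) :
    uM p m / (1 - uM p m) ^ 2 ∈ pInt p := by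
  obtain ⟨z, hz, hpz⟩ := (isPrimitiveRoot_uM p m).self_sub_one_pow_dvd_order (k := 2) hp2
  have hzint : IsIntegral ℤ z := adjoin_le_integralClosure (isIntegral_uM p m) hz
  refine ⟨1, ?_⟩
  have hne : (1 - uM p m) ≠ 0 := sub_ne_zero.mpr (uM_ne_one p m).symm
  have h : (p : ℂ) ^ 1 * (uM p m / (1 - uM p m) ^ 2) = z * uM p m := by
    rw [pow_one, hpz]
    field_simp
    ring
  rw [h]
  exact hzint.mul (isIntegral_uM p m)

theorem xCoeff_mem_pInt (hp2 : 2 < p) (m : (ZMod p)ˣ) (n : ℕ) : xCoeff (uM p m) n ∈ pInt p := by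
  unfold xCoeff
  split_ifs
  · exact div_sq_mem_pInt p hp2 m
  · apply mem_pInt_of_isIntegral
    refine IsIntegral.sum _ fun d _ => ?_
    refine (isIntegral_natCast_complex d).mul ?_
    refine (((isIntegral_uM p m).pow d).add ((isIntegral_inv_uM p m).pow d)).sub ?_
    exact_mod_cast isIntegral_natCast_complex 2

theorem aSer_mem_coeffsIn (hp2 : 2 < p) (m : (ZMod p)ˣ) : aSer (uM p m) ∈ coeffsIn (pInt p) := by
  rw [aSer_eq]
  refine (coeffsIn (pInt p)).sub_mem ((coeffsIn (pInt p)).neg_mem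
    ((coeffsIn (pInt p)).mul_mem (map_intCast_mem_coeffsIn _ _) ?_))
    (map_intCast_mem_coeffsIn _ _)
  intro n
  rw [xSer, PowerSeries.coeff_mk]
  exact xCoeff_mem_pInt p hp2 m n

theorem bSer_mem_coeffsIn (hp2 : 2 < p) (k : ℕ) : bSer p k ∈ coeffsIn (pInt p) := by
  unfold bSer esymmF
  exact (coeffsIn (pInt p)).sum_mem fun t _ =>
    (coeffsIn (pInt p)).prod_mem fun m _ => aSer_mem_coeffsIn p hp2 m

/-- **integrality**: the coefficients of `bQ p k` have the form `a / p^e`. -/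
theorem exists_int_coeff_bQ (hp2 : 2 < p) (k n : ℕ) :
    ∃ (a : ℤ) (e : ℕ), (p : ℚ) ^ e * PowerSeries.coeff n (bQ p k) = a := by
  apply exists_int_div_pow_of_mem_pInt
  have h := bSer_mem_coeffsIn p hp2 k n
  rw [← map_bQ, PowerSeries.coeff_map] at h
  exact h

/-! ### the constant term of the norm -/

theorem constantCoeff_aSer (u : ℂ) :
    PowerSeries.constantCoeff (aSer u) = -(u / (1 - u) ^ 2) := by
  rw [aSer_eq, map_sub, map_neg, map_mul, ← PowerSeries.coeff_zero_eq_constantCoeff_apply,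
    ← PowerSeries.coeff_zero_eq_constantCoeff_apply, ← PowerSeries.coeff_zero_eq_constantCoeff_apply,
    E4C, PowerSeries.coeff_map, PowerSeries.coeff_map, Fermat.Agent.S16.coeff_E4Z, xSer,
    PowerSeries.coeff_mk, DZ, PowerSeries.coeff_mk]
  simp [xCoeff]

/-- products over `(ℤ/p)ˣ` as products over `1 ≤ k+1 < p`. -/
theorem prod_units_val {M : Type*} [CommMonoid M] (f : ℕ → M) :
    ∏ m : (ZMod p)ˣ, f (m : ZMod p).val = ∏ k ∈ range (p - 1), f (k + 1) := by
  have hp : p.Prime := Fact.out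
  have hval : ∀ m : (ZMod p)ˣ, 1 ≤ (m : ZMod p).val ∧ (m : ZMod p).val < p := by
    intro m
    refine ⟨?_, ZMod.val_lt _⟩
    rw [Nat.one_le_iff_ne_zero, Ne, ZMod.val_eq_zero]
    exact m.ne_zero
  refine Finset.prod_bij (fun m _ => (m : ZMod p).val - 1) ?_ ?_ ?_ ?_
  · intro m _
    rw [mem_range]
    have := hval m
    omega
  · intro m _ m' _ h
    have h1 := hval m
    have h2 := hval m'
    apply Units.ext
    apply ZMod.val_injective
    omega
  · intro k hk
    rw [mem_range] at hk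
    have hlt : k + 1 < p := by omega
    have hcop : (k + 1).Coprime p := (Nat.coprime_of_lt_prime (Nat.succ_ne_zero k) hlt hp).symm
    refine ⟨ZMod.unitOfCoprime (k + 1) hcop, mem_univ _, ?_⟩
    rw [ZMod.coe_unitOfCoprime, ZMod.val_natCast_of_lt hlt]
    rfl
  · intro m _
    have := hval m
    rw [Nat.sub_add_cancel this.1]

theorem prod_one_sub_uM : ∏ m : (ZMod p)ˣ, (1 - uM p m) = p := by
  have hp : p.Prime := Fact.out
  have h := prod_units_val p (fun n => 1 - zetaP p ^ n)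
  have hζ : IsPrimitiveRoot (zetaP p) ((p - 1) + 1) := by
    rw [Nat.sub_add_cancel hp.pos]
    exact isPrimitiveRoot_zetaP p
  have h2 := hζ.prod_one_sub_pow_eq_order
  unfold uM
  rw [h, h2]
  have : ((p - 1 : ℕ) : ℂ) + 1 = ((p - 1 + 1 : ℕ) : ℂ) := by push_cast; rfl
  rw [this, Nat.sub_add_cancel hp.pos]

theorem prod_uM (hp2 : 2 < p) : ∏ m : (ZMod p)ˣ, uM p m = 1 := by
  have hp : p.Prime := Fact.out
  have h := prod_units_val p (fun n => zetaP p ^ n)
  unfold uM
  rw [h, Finset.prod_pow_eq_pow_sum]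
  have hodd : Odd p := hp.odd_of_ne_two (by omega)
  obtain ⟨c, hc⟩ := hodd
  have hsum : ∑ k ∈ range (p - 1), (k + 1) = p * c := by
    have h1 : ∑ k ∈ range (p - 1), (k + 1) = ∑ i ∈ range p, i := by
      have h2 := Finset.sum_range_succ' (fun i => i) (p - 1)
      rw [Nat.sub_add_cancel hp.pos] at h2
      rw [h2]
      simp
    have h3 := Finset.sum_range_id_mul_two p
    rw [← h1] at h3
    have h4 : p * (p - 1) = (p * c) * 2 := by
      have : p - 1 = 2 * c := by omega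
      rw [this]
      ring
    rw [h4] at h3
    exact Nat.eq_of_mul_eq_mul_right (by norm_num) h3
  rw [hsum, pow_mul, zetaP_pow_self, one_pow]

theorem card_units_zmod : Fintype.card (ZMod p)ˣ = p - 1 := by
  rw [ZMod.card_units_eq_totient, Nat.totient_prime (Fact.out : p.Prime)]

theorem bSer_top : bSer p (p - 1) = ∏ m : (ZMod p)ˣ, aSer (uM p m) := by
  rw [bSer, ← card_units_zmod p, esymmF_card]

/-- **the constant term of the norm is `1/p²`.** -/
theorem constantCoeff_bSer_top (hp2 : 2 < p) :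
    PowerSeries.constantCoeff (bSer p (p - 1)) = 1 / (p : ℂ) ^ 2 := by
  have hp : p.Prime := Fact.out
  rw [bSer_top, map_prod]
  simp_rw [constantCoeff_aSer]
  rw [Finset.prod_neg, Finset.prod_div_distrib, Finset.prod_pow, prod_one_sub_uM, prod_uM p hp2,
    Finset.card_univ, card_units_zmod]
  have hodd : Odd p := hp.odd_of_ne_two (by omega)
  have heven : Even (p - 1) := by
    obtain ⟨c, hc⟩ := hodd
    exact ⟨c, by omega⟩
  rw [heven.neg_one_pow, one_mul]

theorem constantCoeff_bQ_top (hp2 : 2 < p) :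
    PowerSeries.constantCoeff (bQ p (p - 1)) = 1 / (p : ℚ) ^ 2 := by
  have h := constantCoeff_bSer_top p hp2
  rw [← map_bQ, ← PowerSeries.coeff_zero_eq_constantCoeff_apply, PowerSeries.coeff_map,
    PowerSeries.coeff_zero_eq_constantCoeff_apply] at h
  have h2 : (algebraMap ℚ ℂ) (1 / (p : ℚ) ^ 2) = 1 / (p : ℂ) ^ 2 := by simp
  rw [← h2] at h
  exact (algebraMap ℚ ℂ).injective h

end Prime

end

end Fermat.Agent.MZ
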