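/-
Project MZ, block (MOD), part [FF] (helper1), file 2: **the modular forms**.

Given the analytic input `hW : WpDivData p W` we study the weight-6 forms
`aFun W r s = -E₄ · W r s + E₆/12` (so that `aFun / E₆` is the weight-0 invariant `Y` of the
division point `(r τ + s)/p`) and their elementary symmetric functions
`bFun W p k = e_k (aFun W 0 m : m ∈ (ℤ/p)ˣ)`, which are modular forms of weight `6k` for `Γ₀(p)`
with Laurent expansion `bSer p k` at `i∞`.
-/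
import Mathlib
import Fermat.Agent.MZ.MOD_helper1_Formal
import Fermat.Agent.RatStr.Basic
import Fermat.Agent.RatStr.Laurent_helper1
import Fermat.Agent.X0N.SYM_helper2_Core
import Fermat.Agent.X0N.J_helper8_Basic
import Fermat.Agent.X0N.Dict_helper5_Cusp
import Fermat.Agent.X0N.J_helper8_Deriv

set_option autoImplicit false

open UpperHalfPlane hiding I
open Complex Filter Topology ModularForm EisensteinSeries Finset CongruenceSubgroup
open scoped MatrixGroups Manifold Real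

namespace Fermat.Agent.MZ

open Fermat.Agent.RatStr Fermat.Agent.X0N

noncomputable section

local notation "𝕢" => Function.Periodic.qParam

/-! ### functions given by a power series in `q` -/

section PowerSeriesInQ

variable {f : ℍ → ℂ} {c : ℕ → ℂ}

theorem norm_qParam_le_of_one_le_im {τ : ℍ} (hτ : 1 ≤ τ.im) :
    ‖𝕢 1 (τ : ℂ)‖ ≤ Real.exp (-2 * π) := by
  rw [Function.Periodic.norm_qParam]
  apply Real.exp_le_exp.mpr
  have hpi := Real.pi_pos
  have : (τ : ℂ).im = τ.im := rfl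
  rw [this, div_one]
  nlinarith

theorem isBoundedAtImInfty_of_hasSum
    (h : ∀ τ : ℍ, HasSum (fun n => c n * 𝕢 1 (τ : ℂ) ^ n) (f τ)) : IsBoundedAtImInfty f := by
  set ρ : ℝ := Real.exp (-2 * π) with hρ
  have hρ0 : 0 ≤ ρ := (Real.exp_pos _).le
  have hI : ‖𝕢 1 ((UpperHalfPlane.I : ℍ) : ℂ)‖ = ρ := by
    rw [Function.Periodic.norm_qParam]
    simp [hρ]
  have hs1 : Summable fun n => ‖c n‖ * ρ ^ n := by
    have h1 := (h UpperHalfPlane.I).summable.norm
    refine h1.congr fun n => ?_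
    rw [norm_mul, norm_pow, hI]
  rw [isBoundedAtImInfty_iff]
  refine ⟨∑' n, ‖c n‖ * ρ ^ n, 1, fun τ hτ => ?_⟩
  have hq := norm_qParam_le_of_one_le_im hτ
  have hs2 : Summable fun n => ‖c n * 𝕢 1 (τ : ℂ) ^ n‖ := (h τ).summable.norm
  rw [← (h τ).tsum_eq]
  refine (norm_tsum_le_tsum_norm hs2).trans ?_
  refine hs2.tsum_le_tsum (fun n => ?_) hs1
  rw [norm_mul, norm_pow]
  exact mul_le_mul_of_nonneg_left (pow_le_pow_left₀ (norm_nonneg _) hq n) (norm_nonneg _)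

theorem vadd_eq_of_hasSum
    (h : ∀ τ : ℍ, HasSum (fun n => c n * 𝕢 1 (τ : ℂ) ^ n) (f τ)) (τ : ℍ) :
    f ((1 : ℝ) +ᵥ τ) = f τ := by
  have h1 := h ((1 : ℝ) +ᵥ τ)
  have h2 : 𝕢 1 (((1 : ℝ) +ᵥ τ : ℍ) : ℂ) = 𝕢 1 (τ : ℂ) := by
    have h3 := qParam_add_period (h := 1) one_ne_zero (τ : ℂ)
    rw [← h3]
    congr 1
    simp [add_comm]
  rw [h2] at h1
  exact h1.unique (h τ)

theorem isHolBdd_of_hasSum (hf : MDiff f)
    (h : ∀ τ : ℍ, HasSum (fun n => c n * 𝕢 1 (τ : ℂ) ^ n) (f τ)) : IsHolBdd 1 f where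
  per := periodic_comp_ofComplex_of_vadd (vadd_eq_of_hasSum h)
  hol := hf
  bdd := isBoundedAtImInfty_of_hasSum h

theorem qExpansion_of_hasSum (hf : MDiff f)
    (h : ∀ τ : ℍ, HasSum (fun n => c n * 𝕢 1 (τ : ℂ) ^ n) (f τ)) :
    qExpansion 1 f = PowerSeries.mk c := by
  ext m
  let _inst : FunLike (ℍ → ℂ) ℍ ℂ := { coe := id, coe_injective := fun _ _ h => h }
  have h1 := qExpansion_coeff_unique (F := ℍ → ℂ) f (c := c) one_pos
    ((isHolBdd_of_hasSum hf h).analyticAt one_pos) (fun τ => h τ) m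
  have h2 : (PowerSeries.coeff m) (qExpansion 1 f) = c m := h1.symm
  rw [h2, PowerSeries.coeff_mk]

theorem laurent_of_hasSum (hf : MDiff f)
    (h : ∀ τ : ℍ, HasSum (fun n => c n * 𝕢 1 (τ : ℂ) ^ n) (f τ)) :
    laurent 1 f = HahnSeries.ofPowerSeries ℤ ℂ (PowerSeries.mk c) := by
  rw [laurent_of_isHolBdd one_pos (isHolBdd_of_hasSum hf h), qExpansion_of_hasSum hf h]

end PowerSeriesInQ

/-! ### the weight-6 forms `aFun` -/

section Forms

variable {p : ℕ} {W : ℤ → ℤ → ℍ → ℂ}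

/-- nondegenerate index pairs: `(r, s) ≢ (0, 0)` modulo `p`. -/
def ND (p : ℕ) (r s : ℤ) : Prop := ¬ ((p : ℤ) ∣ r ∧ (p : ℤ) ∣ s)

theorem ND.act {r s : ℤ} (h : ND p r s) (γ : SL(2, ℤ)) :
    ND p (r * γ 0 0 + s * γ 1 0) (r * γ 0 1 + s * γ 1 1) := by
  rintro ⟨h1, h2⟩
  have hdet : γ 0 0 * γ 1 1 - γ 0 1 * γ 1 0 = 1 := by
    have := γ.det_coe
    rwa [Matrix.det_fin_two] at this
  apply h
  constructor
  · have e : r = γ 1 1 * (r * γ 0 0 + s * γ 1 0) - γ 1 0 * (r * γ 0 1 + s * γ 1 1) := by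
      linear_combination (-r) * hdet
    rw [e]
    exact dvd_sub (Dvd.dvd.mul_left h1 _) (Dvd.dvd.mul_left h2 _)
  · have e : s = γ 0 0 * (r * γ 0 1 + s * γ 1 1) - γ 0 1 * (r * γ 0 0 + s * γ 1 0) := by
      linear_combination (-s) * hdet
    rw [e]
    exact dvd_sub (Dvd.dvd.mul_left h2 _) (Dvd.dvd.mul_left h1 _)

theorem ND.of_not_dvd_right {r s : ℤ} (h : ¬ (p : ℤ) ∣ s) : ND p r s := fun h' => h h'.2

theorem ND.of_not_dvd_left {r s : ℤ} (h : ¬ (p : ℤ) ∣ r) : ND p r s := fun h' => h h'.1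

theorem isMF_E6_top : IsMF ⊤ 6 (E₆ : ℍ → ℂ) := IsMF.of_modularForm E₆

/-- the weight-6 form `-E₄ · W r s + E₆/12`. -/
def aFun (W : ℤ → ℤ → ℍ → ℂ) (r s : ℤ) : ℍ → ℂ := -(⇑E₄ * W r s) + (12 : ℂ)⁻¹ • ⇑E₆

theorem aFun_apply (r s : ℤ) (τ : ℍ) :
    aFun W r s τ = -(E₄ τ * W r s τ) + (12 : ℂ)⁻¹ * E₆ τ := rfl

theorem aFun_periodic (hW : WpDivData p W) (r s k l : ℤ) :
    aFun W (r + p * k) (s + p * l) = aFun W r s := by
  unfold aFun
  rw [hW.periodic]

theorem mdiff_aFun (hW : WpDivData p W) {r s : ℤ} (h : ND p r s) : MDiff (aFun W r s) := by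
  unfold aFun
  exact ((isMF_E4.holo.mul (hW.holo r s h)).neg).add (isMF_E6_top.holo.const_smul _)

theorem aFun_slash (hW : WpDivData p W) {r s : ℤ} (h : ND p r s) (γ : SL(2, ℤ)) :
    aFun W r s ∣[(6 : ℤ)] γ = aFun W (r * γ 0 0 + s * γ 1 0) (r * γ 0 1 + s * γ 1 1) := by
  have e1 : (⇑E₄ * W r s) ∣[(6 : ℤ)] γ = ⇑E₄ * W (r * γ 0 0 + s * γ 1 0) (r * γ 0 1 + s * γ 1 1) := by
    rw [show (6 : ℤ) = 4 + 2 from by norm_num, mul_slash_SL2, isMF_E4.inv γ (Subgroup.mem_top γ),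
      hW.slash r s h γ]
  unfold aFun
  rw [SlashAction.add_slash, SlashAction.neg_slash, SL_smul_slash, e1,
    isMF_E6_top.inv γ (Subgroup.mem_top γ)]

theorem isBoundedAtImInfty_W (hW : WpDivData p W) {r s : ℤ} (h : ND p r s) :
    IsBoundedAtImInfty (W r s) := by
  by_cases hr : (p : ℤ) ∣ r
  · have hs : ¬ (p : ℤ) ∣ s := fun hs => h ⟨hr, hs⟩
    obtain ⟨k, rfl⟩ := hr
    have e : W ((p : ℤ) * k) s = W 0 s := by
      have := hW.periodic 0 s k 0
      simpa using this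
    rw [e]
    exact isBoundedAtImInfty_of_hasSum (hW.qexp s hs)
  · exact (hW.tendsto r s hr).isBigO_one ℝ

theorem isBoundedAtImInfty_aFun (hW : WpDivData p W) {r s : ℤ} (h : ND p r s) :
    IsBoundedAtImInfty (aFun W r s) := by
  unfold aFun
  exact ((isMF_E4.bdd_one.mul (isBoundedAtImInfty_W hW h)).neg).add (isMF_E6_top.bdd_one.smul _)

/-- for `p ∤ r` the form `aFun W r s` vanishes at `i∞`. -/
theorem tendsto_aFun (hW : WpDivData p W) {r s : ℤ} (hr : ¬ (p : ℤ) ∣ r) :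
    Tendsto (aFun W r s) atImInfty (𝓝 0) := by
  have h4 : Tendsto (⇑E₄) atImInfty (𝓝 1) := tendsto_E 4 (by norm_num) ⟨2, rfl⟩
  have h6 : Tendsto (⇑E₆) atImInfty (𝓝 1) := tendsto_E 6 (by norm_num) ⟨3, rfl⟩
  have h := ((h4.mul (hW.tendsto r s hr)).neg).add (h6.const_mul (12 : ℂ)⁻¹)
  have e : -(1 * (1 / 12 : ℂ)) + (12 : ℂ)⁻¹ * 1 = 0 := by norm_num
  rw [e] at h
  exact h

/-! ### Laurent expansions -/

theorem laurent_E4C : laurent 1 (⇑E₄) = HahnSeries.ofPowerSeries ℤ ℂ E4C := by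
  rw [laurent_of_isHolBdd one_pos isHolBdd_E₄, Fermat.Agent.S16.qExpansion_E₄_eq]
  rfl

theorem laurent_E6C : laurent 1 (⇑E₆) = HahnSeries.ofPowerSeries ℤ ℂ E6C := by
  rw [laurent_of_isHolBdd one_pos Fermat.Agent.X0N.Dict.isHolBdd_E₆,
    Fermat.Agent.S16.qExpansion_E₆_eq]
  rfl

theorem isHolBdd_W (hW : WpDivData p W) {s : ℤ} (hs : ¬ (p : ℤ) ∣ s) : IsHolBdd 1 (W 0 s) :=
  isHolBdd_of_hasSum (hW.holo 0 s (ND.of_not_dvd_right hs)) (hW.qexp s hs)

theorem laurent_W (hW : WpDivData p W) {s : ℤ} (hs : ¬ (p : ℤ) ∣ s) :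
    laurent 1 (W 0 s) = HahnSeries.ofPowerSeries ℤ ℂ (wSer (cexp (2 * π * I * s / p))) :=
  laurent_of_hasSum (hW.holo 0 s (ND.of_not_dvd_right hs)) (hW.qexp s hs)

theorem isHolBdd_aFun (hW : WpDivData p W) {s : ℤ} (hs : ¬ (p : ℤ) ∣ s) :
    IsHolBdd 1 (aFun W 0 s) := by
  unfold aFun
  exact ((isHolBdd_E₄.mul (isHolBdd_W hW hs)).neg).add
    (Fermat.Agent.X0N.Dict.isHolBdd_E₆.smul _)

theorem laurent_aFun (hW : WpDivData p W) {s : ℤ} (hs : ¬ (p : ℤ) ∣ s) :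
    laurent 1 (aFun W 0 s) = HahnSeries.ofPowerSeries ℤ ℂ (aSer (cexp (2 * π * I * s / p))) := by
  have h4 := isHolBdd_E₄.isMeroInfty
  have h6 := Fermat.Agent.X0N.Dict.isHolBdd_E₆.isMeroInfty
  have hw := (isHolBdd_W hW hs).isMeroInfty
  unfold aFun aSer
  rw [laurent_add one_pos (h4.mul hw).neg (h6.smul _), laurent_neg one_pos (h4.mul hw),
    laurent_mul one_pos h4 hw, laurent_smul one_pos _ h6, laurent_E4C, laurent_E6C,
    laurent_W hW hs, map_add, map_neg, map_mul, map_mul, HahnSeries.ofPowerSeries_C]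
  norm_num

end Forms

/-! ### slashing sums and products -/

section Slash

variable {ι : Type*}

theorem sum_slash_SL (s : Finset ι) (f : ι → ℍ → ℂ) (k : ℤ) (γ : SL(2, ℤ)) :
    (∑ i ∈ s, f i) ∣[k] γ = ∑ i ∈ s, (f i ∣[k] γ) := by
  classical
  induction s using Finset.induction_on with
  | empty => simp [SlashAction.zero_slash]
  | insert a s ha ih =>
    rw [Finset.sum_insert ha, Finset.sum_insert ha, SlashAction.add_slash, ih]

theorem prod_slash_SL (s : Finset ι) (f : ι → ℍ → ℂ) (w : ℤ) (γ : SL(2, ℤ)) :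
    (∏ i ∈ s, f i) ∣[(s.card : ℤ) * w] γ = ∏ i ∈ s, (f i ∣[w] γ) := by
  classical
  induction s using Finset.induction_on with
  | empty =>
    simp only [Finset.card_empty, Nat.cast_zero, zero_mul, Finset.prod_empty]
    exact is_invariant_one γ
  | insert a s ha ih =>
    rw [Finset.prod_insert ha, Finset.prod_insert ha, Finset.card_insert_of_notMem ha, ← ih,
      ← mul_slash_SL2]
    congr 1
    push_cast
    ring

theorem esymmF_slash [Fintype ι] [DecidableEq ι] (f : ι → ℍ → ℂ) (k : ℕ) (w : ℤ)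
    (γ : SL(2, ℤ)) :
    (esymmF f k) ∣[(k : ℤ) * w] γ = esymmF (fun i => f i ∣[w] γ) k := by
  unfold esymmF
  rw [sum_slash_SL]
  refine Finset.sum_congr rfl fun t ht => ?_
  rw [← prod_slash_SL, (Finset.mem_powersetCard.mp ht).2]

end Slash

/-! ### the elementary symmetric functions `bFun` -/

section BFun

variable {p : ℕ} [Fact p.Prime] {W : ℤ → ℤ → ℍ → ℂ}

/-- the integer index of `m ∈ (ℤ/p)ˣ`. -/
def idx (m : (ZMod p)ˣ) : ℤ := ((m : ZMod p).val : ℤ)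

theorem not_dvd_idx (m : (ZMod p)ˣ) : ¬ (p : ℤ) ∣ idx m := by
  unfold idx
  rw [Int.natCast_dvd_natCast]
  intro h
  have h1 : (m : ZMod p).val = 0 := Nat.eq_zero_of_dvd_of_lt h (ZMod.val_lt _)
  rw [ZMod.val_eq_zero] at h1
  exact m.ne_zero h1

theorem cexp_idx (m : (ZMod p)ˣ) : cexp (2 * π * I * (idx m : ℂ) / p) = uM p m :=
  cexp_eq_zetaP_pow p _

/-- for `x : ℤ` the residue `(x : ZMod p).val` differs from `x` by a multiple of `p`. -/
theorem exists_eq_val_add (x : ℤ) : ∃ l : ℤ, x = (((x : ZMod p).val : ℕ) : ℤ) + p * l := by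
  have h : (p : ℤ) ∣ x - (((x : ZMod p).val : ℕ) : ℤ) := by
    rw [← ZMod.intCast_zmod_eq_zero_iff_dvd]
    push_cast
    rw [ZMod.natCast_zmod_val, sub_self]
  obtain ⟨l, hl⟩ := h
  exact ⟨l, by linarith⟩

/-- `e_k (aFun W 0 m : m ∈ (ℤ/p)ˣ)`. -/
def bFun (W : ℤ → ℤ → ℍ → ℂ) (p : ℕ) [Fact p.Prime] (k : ℕ) : ℍ → ℂ :=
  esymmF (fun m : (ZMod p)ˣ => aFun W 0 (idx m)) k

theorem mdiff_bFun (hW : WpDivData p W) (k : ℕ) : MDiff (bFun W p k) := by
  unfold bFun esymmF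
  have h : ∀ t : Finset (ZMod p)ˣ, MDiff (∏ m ∈ t, aFun W 0 (idx m)) := by
    intro t
    induction t using Finset.induction_on with
    | empty =>
      rw [Finset.prod_empty]
      exact (mdifferentiable_const : MDiff (fun _ : ℍ => (1 : ℂ)))
    | insert a s ha ih =>
      rw [Finset.prod_insert ha]
      exact (mdiff_aFun hW (ND.of_not_dvd_right (not_dvd_idx a))).mul ih
  have h2 : ∀ T : Finset (Finset (ZMod p)ˣ), MDiff (∑ t ∈ T, ∏ m ∈ t, aFun W 0 (idx m)) := by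
    intro T
    induction T using Finset.induction_on with
    | empty =>
      rw [Finset.sum_empty]
      exact (mdifferentiable_const : MDiff (fun _ : ℍ => (0 : ℂ)))
    | insert a s ha ih =>
      rw [Finset.sum_insert ha]
      exact (h a).add ih
  exact h2 _

theorem isMeroInfty_bFun (hW : WpDivData p W) (k : ℕ) : IsMeroInfty 1 (bFun W p k) := by
  unfold bFun esymmF
  exact IsMeroInfty.sum one_pos _ _ fun t _ => IsMeroInfty.prod _ _ fun m _ =>
    (isHolBdd_aFun hW (not_dvd_idx m)).isMeroInfty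

/-- **the Laurent expansion of `bFun W p k` is `bSer p k`.** -/
theorem laurent_bFun (hW : WpDivData p W) (k : ℕ) :
    laurent 1 (bFun W p k) = HahnSeries.ofPowerSeries ℤ ℂ (bSer p k) := by
  unfold bFun bSer
  rw [map_esymmF]
  unfold esymmF
  rw [laurent_sum one_pos _ _ fun t _ => IsMeroInfty.prod _ _ fun m _ =>
    (isHolBdd_aFun hW (not_dvd_idx m)).isMeroInfty]
  refine Finset.sum_congr rfl fun t _ => ?_
  rw [laurent_prod one_pos _ _ fun m _ => (isHolBdd_aFun hW (not_dvd_idx m)).isMeroInfty]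
  refine Finset.prod_congr rfl fun m _ => ?_
  rw [laurent_aFun hW (not_dvd_idx m), cexp_idx]

/-- the Laurent expansion has rational coefficients. -/
theorem laurent_bFun_eq_coeffMap (hW : WpDivData p W) (k : ℕ) :
    laurent 1 (bFun W p k) =
      HahnSeries.ofPowerSeries ℤ ℂ ((bQ p k).map (algebraMap ℚ ℂ)) := by
  rw [laurent_bFun hW, map_bQ]

theorem bFun_slash (hW : WpDivData p W) (k : ℕ) (γ : SL(2, ℤ)) :
    bFun W p k ∣[(k : ℤ) * 6] γ =
      esymmF (fun m : (ZMod p)ˣ => aFun W (idx m * γ 1 0) (idx m * γ 1 1)) k := by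
  unfold bFun
  rw [esymmF_slash]
  congr 1
  funext m
  rw [aFun_slash hW (ND.of_not_dvd_right (not_dvd_idx m))]
  congr 1 <;> ring

theorem isBoundedAtImInfty_bFun_slash (hW : WpDivData p W) (k : ℕ) (γ : SL(2, ℤ)) :
    IsBoundedAtImInfty (bFun W p k ∣[(k : ℤ) * 6] γ) := by
  rw [bFun_slash hW]
  unfold esymmF
  have hmem : ∀ m : (ZMod p)ˣ, aFun W (idx m * γ 1 0) (idx m * γ 1 1) ∈
      boundedAtImInftySubalgebra ℂ := by
    intro m
    have h1 := (ND.of_not_dvd_right (r := 0) (not_dvd_idx m)).act γ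
    have e1 : (0 : ℤ) * γ 0 0 + idx m * γ 1 0 = idx m * γ 1 0 := by ring
    have e2 : (0 : ℤ) * γ 0 1 + idx m * γ 1 1 = idx m * γ 1 1 := by ring
    rw [e1, e2] at h1
    exact isBoundedAtImInfty_aFun hW h1
  exact Subalgebra.sum_mem _ fun t _ => Subalgebra.prod_mem _ fun m _ => hmem m

theorem unit_of_mem_Gamma0 {γ : SL(2, ℤ)} (hγ : γ ∈ Gamma0 p) :
    IsUnit ((γ 1 1 : ℤ) : ZMod p) := by
  rw [Gamma0_mem] at hγ
  have hdet : γ 0 0 * γ 1 1 - γ 0 1 * γ 1 0 = 1 := by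
    have := γ.det_coe
    rwa [Matrix.det_fin_two] at this
  have h := congrArg (Int.cast : ℤ → ZMod p) hdet
  push_cast at h
  rw [hγ, mul_zero, sub_zero] at h
  exact IsUnit.of_mul_eq_one _ (by rw [mul_comm]; exact h)

/-- **`bFun W p k` is a modular form of weight `6k` for `Γ₀(p)`.** -/
theorem isMF_bFun (hW : WpDivData p W) (k : ℕ) : IsMF (Gamma0 p) ((k : ℤ) * 6) (bFun W p k) where
  holo := mdiff_bFun hW k
  bdd := isBoundedAtImInfty_bFun_slash hW k
  inv := by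
    intro γ hγ
    rw [bFun_slash hW]
    obtain ⟨d, hd⟩ := unit_of_mem_Gamma0 hγ
    have hc : (p : ℤ) ∣ γ 1 0 := by
      rw [Gamma0_mem] at hγ
      exact (ZMod.intCast_zmod_eq_zero_iff_dvd _ _).mp hγ
    have h1 : (fun m : (ZMod p)ˣ => aFun W (idx m * γ 1 0) (idx m * γ 1 1)) =
        fun m => aFun W 0 (idx (Equiv.mulRight d m)) := by
      funext m
      obtain ⟨c', hc'⟩ := hc
      obtain ⟨l, hl⟩ := exists_eq_val_add (p := p) (idx m * γ 1 1)
      have e1 : idx m * γ 1 0 = 0 + p * (idx m * c') := by rw [hc']; ring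
      have e2 : ((idx m * γ 1 1 : ℤ) : ZMod p) = ((Equiv.mulRight d m : (ZMod p)ˣ) : ZMod p) := by
        rw [Equiv.coe_mulRight, Units.val_mul, hd]
        unfold idx
        push_cast
        rw [ZMod.natCast_zmod_val]
      rw [e2] at hl
      conv_lhs => rw [e1, hl]
      exact aFun_periodic hW _ _ _ _
    rw [h1]
    exact esymmF_comp_equiv (Equiv.mulRight d) (fun m => aFun W 0 (idx m)) k

end BFun

end

end Fermat.Agent.MZ
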