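/-
Project MZ, block (MOD), part [FF] (helper1), file 3: **membership in the function field**.

The rational Laurent series `mzESer p k = bQ p k / E₆^k` (the `q`-expansion of the `k`-th
elementary symmetric function of the weight-0 invariants `Y_m = aFun W 0 m / E₆`, `m ∈ (ℤ/p)ˣ`)
lies in the Prelude function field `modularFunctionFieldFull p = ℚ(j(q), j(q^p))`, and its
realisation over any field `K ⊆ ℂ` is the meromorphic function `mzEM W p k = bFun W p k / E₆^k`.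
-/
import Mathlib
import Fermat.Agent.MZ.MOD_helper1_Forms
import Fermat.Agent.SS.UNIT_helper6_Mem

set_option autoImplicit false
set_option linter.unusedSectionVars false

open UpperHalfPlane hiding I
open Complex Filter Topology ModularForm EisensteinSeries Finset CongruenceSubgroup
open scoped MatrixGroups Manifold Real

namespace Fermat.Agent.MZ

open Fermat.Agent.RatStr Fermat.Agent.X0N ModularCurve HahnSeries

noncomputable section

variable {p : ℕ} [Fact p.Prime] {W : ℤ → ℤ → ℍ → ℂ}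

instance neZero_of_fact_prime : NeZero p := ⟨(Fact.out : p.Prime).ne_zero⟩

/-! ### the holomorphic functions -/

/-- `bFun W p k` as a holomorphic function. -/
def bHol (hW : WpDivData p W) (k : ℕ) : HolH := ⟨bFun W p k, mdiff_bFun hW k⟩

/-- `E₆^k` as a holomorphic function. -/
def e6Hol (k : ℕ) : HolH := ⟨(⇑E₆ : ℍ → ℂ) ^ k, (isMF_E6_top.pow k).holo⟩

theorem ofPowerSeries_E6C_ne_zero : (HahnSeries.ofPowerSeries ℤ ℂ) E6C ≠ 0 := by
  intro h3
  have h4 : E6C = 0 :=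
    (HahnSeries.ofPowerSeries_injective (Γ := ℤ) (R := ℂ)) (h3.trans (map_zero _).symm)
  have h5 := congrArg (PowerSeries.coeff 0) h4
  rw [E6C, PowerSeries.coeff_map, Fermat.Agent.S16.coeff_E6Z] at h5
  simp at h5

theorem e6Hol_ne_zero (k : ℕ) : e6Hol k ≠ 0 := by
  intro h
  have h1 : laurent 1 ((⇑E₆ : ℍ → ℂ) ^ k) = 0 := by
    have : ((⇑E₆ : ℍ → ℂ) ^ k) = 0 := congrArg Subtype.val h
    rw [this, laurent_zero]
  rw [laurent_pow one_pos Fermat.Agent.X0N.Dict.isHolBdd_E₆.isMeroInfty, laurent_E6C] at h1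
  exact pow_ne_zero k ofPowerSeries_E6C_ne_zero h1

/-- the meromorphic function `e_k(Y_m) = bFun W p k / E₆^k`. -/
def mzEM (hW : WpDivData p W) (k : ℕ) : MerH := MerH.ofHol (bHol hW k) / MerH.ofHol (e6Hol k)

theorem isModFun_mzEM (hW : WpDivData p W) (k : ℕ) : IsModFun (Gamma0 p) (mzEM hW k) :=
  ⟨(k : ℤ) * 6, bHol hW k, e6Hol k, isMF_bFun hW k, (isMF_E6_top.pow k).mono le_top,
    e6Hol_ne_zero k, rfl⟩

/-! ### the rational series -/

/-- `E₆` over `ℚ`. -/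
def E6Q : PowerSeries ℚ := Fermat.Agent.S16.E6Z.map (Int.castRingHom ℚ)

theorem map_E6Q : E6Q.map (algebraMap ℚ ℂ) = E6C := by
  ext n
  simp [E6Q, E6C]

/-- **the rational `q`-expansion of `e_k(Y_m : m ∈ (ℤ/p)ˣ)`.** -/
def mzESer (p : ℕ) [Fact p.Prime] (k : ℕ) : LaurentSeries ℚ :=
  HahnSeries.ofPowerSeries ℤ ℚ (bQ p k) * (HahnSeries.ofPowerSeries ℤ ℚ (E6Q ^ k))⁻¹

theorem coeffEmb_bQ (k : ℕ) :
    coeffEmb ℂ (HahnSeries.ofPowerSeries ℤ ℚ (bQ p k)) = HahnSeries.ofPowerSeries ℤ ℂ (bSer p k) := by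
  rw [coeffEmb, ModularCurve.coeffMap_ofPowerSeries, map_bQ]

theorem coeffEmb_E6Q_pow (k : ℕ) :
    coeffEmb ℂ (HahnSeries.ofPowerSeries ℤ ℚ (E6Q ^ k)) =
      HahnSeries.ofPowerSeries ℤ ℂ E6C ^ k := by
  rw [coeffEmb, ModularCurve.coeffMap_ofPowerSeries, map_pow, map_E6Q, map_pow]

theorem laurent_e6pow (k : ℕ) :
    laurent 1 ((⇑E₆ : ℍ → ℂ) ^ k) = HahnSeries.ofPowerSeries ℤ ℂ E6C ^ k := by
  rw [laurent_pow one_pos Fermat.Agent.X0N.Dict.isHolBdd_E₆.isMeroInfty, laurent_E6C]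

theorem coeffMap_id_eq (x : LaurentSeries ℂ) : coeffMap (RingHom.id ℂ) x = x := by
  ext n
  simp

theorem coeffEmb_bQ_mem_convSeries (hW : WpDivData p W) (k : ℕ) :
    coeffEmb ℂ (HahnSeries.ofPowerSeries ℤ ℚ (bQ p k)) ∈ convSeries (RingHom.id ℂ) := by
  rw [mem_convSeries]
  exact ⟨bFun W p k, isMeroInfty_bFun hW k, by
    rw [laurent_bFun hW, coeffEmb_bQ, coeffMap_id_eq]⟩

theorem coeffEmb_E6Q_pow_mem_convSeries (k : ℕ) :
    coeffEmb ℂ (HahnSeries.ofPowerSeries ℤ ℚ (E6Q ^ k)) ∈ convSeries (RingHom.id ℂ) := by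
  rw [mem_convSeries]
  exact ⟨(⇑E₆ : ℍ → ℂ) ^ k, (Fermat.Agent.X0N.Dict.isHolBdd_E₆.isMeroInfty).pow k, by
    rw [laurent_e6pow, coeffEmb_E6Q_pow, coeffMap_id_eq]⟩

theorem toHol_coeffEmb_bQ (hW : WpDivData p W) (k : ℕ) :
    convSeries.toHol (RingHom.id ℂ) ⟨_, coeffEmb_bQ_mem_convSeries hW k⟩ = bHol hW k := by
  apply Subtype.ext
  refine convSeries.toHol_mk (RingHom.id ℂ) (isMeroInfty_bFun hW k) ?_
  rw [laurent_bFun hW, coeffEmb_bQ, coeffMap_id_eq]

theorem toHol_coeffEmb_E6Q_pow (k : ℕ) :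
    convSeries.toHol (RingHom.id ℂ) ⟨_, coeffEmb_E6Q_pow_mem_convSeries k⟩ = e6Hol k := by
  apply Subtype.ext
  refine convSeries.toHol_mk (RingHom.id ℂ)
    ((Fermat.Agent.X0N.Dict.isHolBdd_E₆.isMeroInfty).pow k) ?_
  rw [laurent_e6pow, coeffEmb_E6Q_pow, coeffMap_id_eq]

theorem coeffEmb_mzESer_mem_merSeries (hW : WpDivData p W) (k : ℕ) :
    coeffEmb ℂ (mzESer p k) ∈ merSeries (RingHom.id ℂ) := by
  rw [mzESer, map_mul, map_inv₀]
  exact (merSeries (RingHom.id ℂ)).mul_mem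
    (convSeries_le_merSeries _ (coeffEmb_bQ_mem_convSeries hW k))
    ((merSeries (RingHom.id ℂ)).inv_mem
      (convSeries_le_merSeries _ (coeffEmb_E6Q_pow_mem_convSeries k)))

/-- the realisation of the series `mzESer p k` is the function `mzEM hW k`. -/
theorem real_coeffEmb_mzESer (hW : WpDivData p W) (k : ℕ) :
    merSeries.real (RingHom.id ℂ)
      ⟨coeffEmb ℂ (mzESer p k), coeffEmb_mzESer_mem_merSeries hW k⟩ = mzEM hW k := by
  have h : (⟨coeffEmb ℂ (mzESer p k), coeffEmb_mzESer_mem_merSeries hW k⟩ :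
      merSeries (RingHom.id ℂ)) =
      ⟨_, convSeries_le_merSeries _ (coeffEmb_bQ_mem_convSeries hW k)⟩ *
      (⟨_, convSeries_le_merSeries _ (coeffEmb_E6Q_pow_mem_convSeries k)⟩ :
        merSeries (RingHom.id ℂ))⁻¹ := by
    apply Subtype.ext
    show coeffEmb ℂ (mzESer p k) = _
    rw [mzESer, map_mul, map_inv₀]
    rfl
  rw [h, map_mul, map_inv₀,
    merSeries.real_of_mem_convSeries _ (coeffEmb_bQ_mem_convSeries hW k),
    merSeries.real_of_mem_convSeries _ (coeffEmb_E6Q_pow_mem_convSeries k),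
    toHol_coeffEmb_bQ, toHol_coeffEmb_E6Q_pow, mzEM, div_eq_mul_inv]

/-! ### membership -/

/-- over `ℂ`. -/
theorem coeffEmb_mzESer_mem_complex (hW : WpDivData p W) (k : ℕ) :
    coeffEmb ℂ (mzESer p k) ∈ laurentBaseChange ℂ (modularFunctionFieldFull p) := by
  obtain ⟨f, hf⟩ := Fermat.Agent.GR.mem_range_realNC_of_isModFun p (isModFun_mzEM hW k)
  rw [realNC_apply] at hf
  have h1 : realN (RingHom.id ℂ) p f = merSeries.real (RingHom.id ℂ) (inclN (RingHom.id ℂ) p f) :=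
    rfl
  rw [h1, ← real_coeffEmb_mzESer hW k] at hf
  have h2 := merSeries.real_injective (RingHom.id ℂ) hf
  have h3 : (f : LaurentSeries ℂ) = coeffEmb ℂ (mzESer p k) := congrArg Subtype.val h2
  rw [← h3]
  exact f.2

/-- **(F1)**: `e_k(Y_m)` is a rational function on `X₀(p)`: its `q`-expansion lies in
`ℚ(j(q), j(q^p))`. -/
theorem mzESer_mem (hW : WpDivData p W) (k : ℕ) : mzESer p k ∈ modularFunctionFieldFull p := by
  have h1 : mzESer p k ∈ laurentBaseChange ℚ (modularFunctionFieldFull p) :=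
    Fermat.Agent.GR.mem_laurentBaseChange_of_iota_mem' (K := ℚ) (L := ℂ)
      (modularFunctionFieldFull p) (mzESer p k) (coeffEmb_mzESer_mem_complex hW k)
  rwa [Fermat.Agent.Igusa.laurentBaseChange_rat] at h1

/-- over any field. -/
theorem coeffEmb_mzESer_mem (hW : WpDivData p W) (K : Type*) [Field K] [Algebra ℚ K] (k : ℕ) :
    coeffEmb K (mzESer p k) ∈ laurentBaseChange K (modularFunctionFieldFull p) :=
  coeffEmb_mem_laurentBaseChange K (mzESer_mem hW k)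

/-! ### the elements of the function field and their realisation -/

/-- `e_k(Y_m)` as an element of the function field of `X₀(p)` over `K`. -/
def mzE (hW : WpDivData p W) (K : Type*) [Field K] [Algebra ℚ K] (k : ℕ) :
    ↥(laurentBaseChange K (modularFunctionFieldFull p)) :=
  ⟨coeffEmb K (mzESer p k), coeffEmb_mzESer_mem hW K k⟩

@[simp] theorem coe_mzE (hW : WpDivData p W) (K : Type*) [Field K] [Algebra ℚ K] (k : ℕ) :
    ((mzE hW K k : ↥(laurentBaseChange K (modularFunctionFieldFull p))) : LaurentSeries K) =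
      coeffEmb K (mzESer p k) := rfl

/-- **the realisation of `e_k(Y_m)` is the function `bFun W p k / E₆^k`.** -/
theorem realN_mzE (hW : WpDivData p W) (K : Type*) [Field K] [Algebra ℚ K] [Algebra K ℂ]
    (k : ℕ) : realN (algebraMap K ℂ) p (mzE hW K k) = mzEM hW k := by
  rw [realN_eq_realI, realI_apply, ← real_coeffEmb_mzESer hW k]
  congr 1
  apply Subtype.ext
  show coeffMap (algebraMap K ℂ) (coeffEmb K (mzESer p k)) = _
  exact Fermat.Agent.JA.coeffMap_coeffEmb_hom (algebraMap K ℂ) _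

/-! ### values at points of `ℍ` -/

theorem ofHol_div_sub_const (a : HolH) {b : HolH} (hb : b ≠ 0) (c : ℂ) :
    MerH.ofHol a / MerH.ofHol b - MerH.const c =
      MerH.ofHol (a - HolH.const c * b) / MerH.ofHol b := by
  have hb' := MerH.ofHol_ne_zero hb
  rw [map_sub, map_mul, sub_div, mul_div_assoc, div_self hb', mul_one]
  rfl

/-- a quotient of holomorphic functions with non-vanishing denominator at `τ₀` takes the
obvious value there. -/
theorem ofHol_div_value (a b : HolH) (τ₀ : ℍ) (hb : (b : ℍ → ℂ) τ₀ ≠ 0) :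
    MerH.ofHol a / MerH.ofHol b - MerH.const ((a : ℍ → ℂ) τ₀ / (b : ℍ → ℂ) τ₀) = 0 ∨
      0 < MerH.ordAt τ₀
        (MerH.ofHol a / MerH.ofHol b - MerH.const ((a : ℍ → ℂ) τ₀ / (b : ℍ → ℂ) τ₀)) := by
  have hb0 : b ≠ 0 := by
    intro h
    rw [h] at hb
    exact hb rfl
  set c : ℂ := (a : ℍ → ℂ) τ₀ / (b : ℍ → ℂ) τ₀ with hc
  rw [ofHol_div_sub_const a hb0 c]
  by_cases h0 : a - HolH.const c * b = 0
  · left
    rw [h0, map_zero, zero_div]
  · right
    rw [MerH.ordAt_div_ofHol h0 hb0]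
    have h1 : HolH.ord τ₀ b = 0 := (HolH.ord_eq_zero_iff _ _).mpr (Or.inl hb)
    have h2 : HolH.ord τ₀ (a - HolH.const c * b) ≠ 0 := by
      rw [Ne, HolH.ord_eq_zero_iff, not_or]
      refine ⟨?_, h0⟩
      rw [not_not]
      show (a : ℍ → ℂ) τ₀ - c * (b : ℍ → ℂ) τ₀ = 0
      rw [hc, div_mul_cancel₀ _ hb, sub_self]
    rw [h1]
    have : 0 < HolH.ord τ₀ (a - HolH.const c * b) := Nat.pos_of_ne_zero h2
    simpa using this

theorem e6Hol_apply (k : ℕ) (τ : ℍ) : (e6Hol k : ℍ → ℂ) τ = E₆ τ ^ k := rfl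

/-- **(F2), analytic half**: at a point `τ₀` with `E₆ τ₀ ≠ 0` the function `e_k(Y_m)` is regular
with value `bFun W p k τ₀ / E₆ τ₀ ^ k`. -/
theorem mzEM_value (hW : WpDivData p W) (k : ℕ) (τ₀ : ℍ) (h6 : E₆ τ₀ ≠ 0) :
    mzEM hW k - MerH.const (bFun W p k τ₀ / E₆ τ₀ ^ k) = 0 ∨
      0 < MerH.ordAt τ₀ (mzEM hW k - MerH.const (bFun W p k τ₀ / E₆ τ₀ ^ k)) :=
  ofHol_div_value (bHol hW k) (e6Hol k) τ₀ (by rw [e6Hol_apply]; exact pow_ne_zero k h6)

/-- the value as the elementary symmetric function of the `Y_m(τ₀) = aFun W 0 m τ₀ / E₆ τ₀`. -/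
theorem bFun_apply_div (k : ℕ) (τ₀ : ℍ) :
    bFun W p k τ₀ / E₆ τ₀ ^ k =
      esymmF (fun m : (ZMod p)ˣ => aFun W 0 (idx m) τ₀ / E₆ τ₀) k := by
  unfold bFun esymmF
  rw [Finset.sum_apply, Finset.sum_div]
  refine Finset.sum_congr rfl fun t ht => ?_
  rw [Finset.prod_apply, Finset.prod_div_distrib, Finset.prod_const,
    (Finset.mem_powersetCard.mp ht).2]

/-- `Y_m(τ₀) = -(E₄/E₆)(τ₀) · W 0 m τ₀ + 1/12`. -/
theorem aFun_apply_div (r s : ℤ) (τ₀ : ℍ) (h6 : E₆ τ₀ ≠ 0) :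
    aFun W r s τ₀ / E₆ τ₀ = -(E₄ τ₀ / E₆ τ₀) * W r s τ₀ + 1 / 12 := by
  rw [aFun_apply]
  field_simp

end

end Fermat.Agent.MZ
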