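/-
Project MZ, block (MOD), part [FF] (helper1), file 4: **integrality and the two cusps**.

* `mzESer p k = ofPowerSeries (mzPS p k)` has no negative powers of `q`, every coefficient has the
  form `a / p^e` with `a : ℤ` (`exists_int_coeff_mzESer`), and for `k = p - 1` (the norm
  `N = ∏ Y_m`) the constant term is `1/p²` (`coeff_zero_mzESer_top`, `order_mzESer_top`);
* at the cusp `∞`: `(infN p).ord N = 0`;
* at the cusp `0`: `0 < (zeroN p).ord (e_k(Y))` for `k ≥ 1` (when `e_k(Y) ≠ 0`), in particular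
  `0 < (zeroN p).ord N`.
-/
import Mathlib
import Fermat.Agent.MZ.MOD_helper1_Mem
import Fermat.Agent.MW.ARCH_helper9_DictCusp

set_option autoImplicit false
set_option linter.unusedSectionVars false

open UpperHalfPlane hiding I
open Complex Filter Topology ModularForm EisensteinSeries Finset CongruenceSubgroup ModularGroup
open scoped MatrixGroups Manifold Real

namespace Fermat.Agent.MZ

open Fermat.Agent.RatStr Fermat.Agent.X0N ModularCurve HahnSeries Fermat.Agent.MW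

noncomputable section

variable {p : ℕ} [Fact p.Prime] {W : ℤ → ℤ → ℍ → ℂ}

/-! ### the power series form and integrality -/

theorem exists_E6Z_mul_eq_one : ∃ G : PowerSeries ℤ, Fermat.Agent.S16.E6Z * G = 1 := by
  have h : IsUnit Fermat.Agent.S16.E6Z := by
    rw [PowerSeries.isUnit_iff_constantCoeff, Fermat.Agent.S16.constantCoeff_E6Z]
    exact isUnit_one
  obtain ⟨u, hu⟩ := h
  exact ⟨((u⁻¹ : (PowerSeries ℤ)ˣ) : PowerSeries ℤ), by rw [← hu]; exact u.mul_inv⟩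

/-- the inverse of `E₆` in `ℤ⟦q⟧`. -/
def invE6Z : PowerSeries ℤ := Classical.choose exists_E6Z_mul_eq_one

theorem E6Z_mul_invE6Z : Fermat.Agent.S16.E6Z * invE6Z = 1 :=
  Classical.choose_spec exists_E6Z_mul_eq_one

theorem constantCoeff_invE6Z : PowerSeries.constantCoeff invE6Z = 1 := by
  have h := congrArg PowerSeries.constantCoeff E6Z_mul_invE6Z
  rwa [map_mul, Fermat.Agent.S16.constantCoeff_E6Z, one_mul, map_one] at h

/-- `e_k(Y_m)` as a power series over `ℚ`. -/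
def mzPS (p : ℕ) [Fact p.Prime] (k : ℕ) : PowerSeries ℚ :=
  bQ p k * (invE6Z.map (Int.castRingHom ℚ)) ^ k

theorem E6Q_mul_inv : E6Q * invE6Z.map (Int.castRingHom ℚ) = 1 := by
  rw [E6Q, ← map_mul, E6Z_mul_invE6Z, map_one]

theorem mzESer_eq (k : ℕ) : mzESer p k = HahnSeries.ofPowerSeries ℤ ℚ (mzPS p k) := by
  have h1 : (HahnSeries.ofPowerSeries ℤ ℚ (E6Q ^ k))⁻¹ =
      HahnSeries.ofPowerSeries ℤ ℚ ((invE6Z.map (Int.castRingHom ℚ)) ^ k) := by
    apply inv_eq_of_mul_eq_one_right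
    rw [← map_mul, ← mul_pow, E6Q_mul_inv, one_pow, map_one]
  rw [mzESer, h1, mzPS, map_mul]

theorem coeff_mzESer_natCast (k n : ℕ) :
    (mzESer p k).coeff (n : ℤ) = PowerSeries.coeff n (mzPS p k) := by
  rw [mzESer_eq, HahnSeries.ofPowerSeries_apply_coeff]

theorem coeff_mzESer_of_neg (k : ℕ) {n : ℤ} (hn : n < 0) : (mzESer p k).coeff n = 0 := by
  rw [mzESer_eq]
  exact ModularCurve.ofPowerSeries_coeff_of_neg _ hn

theorem map_mzPS (k : ℕ) :
    (mzPS p k).map (algebraMap ℚ ℂ) = bSer p k * (invE6Z.map (Int.castRingHom ℂ)) ^ k := by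
  rw [mzPS, map_mul, map_pow, map_bQ]
  congr 2

/-- **integrality of the power series**: the coefficients have the form `a / p^e`. -/
theorem exists_int_coeff_mzPS (hp2 : 2 < p) (k n : ℕ) :
    ∃ (a : ℤ) (e : ℕ), (p : ℚ) ^ e * PowerSeries.coeff n (mzPS p k) = a := by
  apply exists_int_div_pow_of_mem_pInt
  have h : (mzPS p k).map (algebraMap ℚ ℂ) ∈ coeffsIn (pInt p) := by
    rw [map_mzPS]
    exact (coeffsIn (pInt p)).mul_mem (bSer_mem_coeffsIn p hp2 k)
      ((coeffsIn (pInt p)).pow_mem (map_intCast_mem_coeffsIn _ _) k)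
  have h2 := h n
  rwa [PowerSeries.coeff_map] at h2

/-- **(F3) integrality**: every coefficient of `mzESer p k` has the form `a / p^e`. -/
theorem exists_int_coeff_mzESer (hp2 : 2 < p) (k : ℕ) (n : ℤ) :
    ∃ (a : ℤ) (e : ℕ), (p : ℚ) ^ e * (mzESer p k).coeff n = a := by
  rcases lt_or_ge n 0 with hn | hn
  · exact ⟨0, 0, by rw [coeff_mzESer_of_neg k hn]; simp⟩
  · lift n to ℕ using hn
    rw [coeff_mzESer_natCast]
    exact exists_int_coeff_mzPS hp2 k n

theorem constantCoeff_mzPS_top (hp2 : 2 < p) :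
    PowerSeries.constantCoeff (mzPS p (p - 1)) = 1 / (p : ℚ) ^ 2 := by
  rw [mzPS, map_mul, map_pow, constantCoeff_bQ_top p hp2,
    ← PowerSeries.coeff_zero_eq_constantCoeff_apply, PowerSeries.coeff_map,
    PowerSeries.coeff_zero_eq_constantCoeff_apply, constantCoeff_invE6Z]
  simp

/-- **(F3) the constant term of the norm is `1/p²`.** -/
theorem coeff_zero_mzESer_top (hp2 : 2 < p) : (mzESer p (p - 1)).coeff 0 = 1 / (p : ℚ) ^ 2 := by
  have h := coeff_mzESer_natCast (p := p) (p - 1) 0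
  rw [Nat.cast_zero] at h
  rw [h, PowerSeries.coeff_zero_eq_constantCoeff_apply, constantCoeff_mzPS_top hp2]

theorem one_div_p_sq_ne_zero : (1 / (p : ℚ) ^ 2) ≠ 0 := by
  have : (p : ℚ) ≠ 0 := Nat.cast_ne_zero.mpr (Fact.out : p.Prime).ne_zero
  positivity

theorem mzESer_top_ne_zero (hp2 : 2 < p) : mzESer p (p - 1) ≠ 0 := by
  intro h
  have h1 := coeff_zero_mzESer_top (p := p) hp2
  rw [h, HahnSeries.coeff_zero] at h1
  exact one_div_p_sq_ne_zero h1.symm

theorem order_mzESer_top (hp2 : 2 < p) : (mzESer p (p - 1)).order = 0 := by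
  have hne := mzESer_top_ne_zero (p := p) hp2
  apply le_antisymm
  · apply HahnSeries.order_le_of_coeff_ne_zero
    rw [coeff_zero_mzESer_top hp2]
    exact one_div_p_sq_ne_zero
  · by_contra hlt
    rw [not_le] at hlt
    exact hne (HahnSeries.coeff_order_eq_zero.mp (coeff_mzESer_of_neg _ hlt))

/-! ### the cusp `∞` -/

attribute [local instance] algOmC

/-- `e_k(Y_m)` as a function on `X₀(p)` over `Ω = ℚ̄`. -/
def mzEBar (hW : WpDivData p W) (k : ℕ) : FunN p := mzE hW (AlgebraicClosure ℚ) k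

theorem coe_mzEBar (hW : WpDivData p W) (k : ℕ) :
    ((mzEBar hW k : FunN p) : LaurentSeries (AlgebraicClosure ℚ)) =
      coeffEmb (AlgebraicClosure ℚ) (mzESer p k) := rfl

theorem realC_mzEBar (hW : WpDivData p W) (k : ℕ) : realC p (mzEBar hW k) = mzEM hW k :=
  realN_mzE hW (AlgebraicClosure ℚ) k

theorem mzEBar_top_ne_zero (hW : WpDivData p W) (hp2 : 2 < p) : mzEBar hW (p - 1) ≠ 0 := by
  intro h
  have h1 : coeffEmb (AlgebraicClosure ℚ) (mzESer p (p - 1)) = 0 := by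
    rw [← coe_mzEBar hW, h]
    rfl
  exact mzESer_top_ne_zero hp2
    ((map_eq_zero_iff _ (coeffEmb (AlgebraicClosure ℚ)).injective).mp h1)

/-- **(F3) at `∞`**: the norm `N` has neither a zero nor a pole at the cusp `∞`. -/
theorem infN_ord_mzEBar_top (hW : WpDivData p W) (hp2 : 2 < p) :
    (infN p).ord (mzEBar hW (p - 1)) = 0 := by
  rw [infN_ord p (mzEBar_top_ne_zero hW hp2), coe_mzEBar, coeffEmb,
    Fermat.Agent.JA.order_coeffMap_of_injective (algebraMap ℚ (AlgebraicClosure ℚ)).injective,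
    order_mzESer_top hp2]

/-! ### the cusp `0` -/

theorem S_one_zero : (S : SL(2, ℤ)) 1 0 = 1 := by simp [S]

theorem S_one_one : (S : SL(2, ℤ)) 1 1 = 0 := by simp [S]

theorem bFun_slash_S (hW : WpDivData p W) (k : ℕ) :
    bFun W p k ∣[(k : ℤ) * 6] S = esymmF (fun m : (ZMod p)ˣ => aFun W (idx m) 0) k := by
  rw [bFun_slash hW]
  simp only [S_one_zero, S_one_one, mul_one, mul_zero]

/-- the expansion of `e_k(A)` at the cusp `0` has no constant term. -/
theorem tendsto_bFun_slash_S (hW : WpDivData p W) {k : ℕ} (hk : 1 ≤ k) :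
    Tendsto (bFun W p k ∣[(k : ℤ) * 6] S) atImInfty (𝓝 0) := by
  rw [bFun_slash_S hW]
  unfold esymmF
  have e : (∑ t ∈ powersetCard k (univ : Finset (ZMod p)ˣ), ∏ m ∈ t, aFun W (idx m) 0) =
      fun τ => ∑ t ∈ powersetCard k (univ : Finset (ZMod p)ˣ), ∏ m ∈ t, aFun W (idx m) 0 τ := by
    funext τ
    simp only [Finset.sum_apply, Finset.prod_apply]
  rw [e]
  have h := tendsto_finsetSum (powersetCard k (univ : Finset (ZMod p)ˣ))
    (fun t _ => tendsto_finsetProd t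
      (fun m _ => tendsto_aFun hW (r := idx m) (s := 0) (not_dvd_idx m)))
  have e0 : (∑ t ∈ powersetCard k (univ : Finset (ZMod p)ˣ), ∏ _m ∈ t, (0 : ℂ)) = 0 := by
    refine Finset.sum_eq_zero fun t ht => ?_
    rw [Finset.prod_const, (Finset.mem_powersetCard.mp ht).2, zero_pow (by omega)]
  rw [e0] at h
  exact h

theorem isMF_bFun_slash_S (hW : WpDivData p W) (k : ℕ) :
    IsMF (CongruenceSubgroup.Gamma p) ((k : ℤ) * 6) (bFun W p k ∣[(k : ℤ) * 6] S) :=
  haveI : (CongruenceSubgroup.Gamma p).Normal := Gamma_normal p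
  isMF_slash_of_normal ((isMF_bFun hW k).mono (Cusp.Gamma_le_Gamma0 p)) S

theorem isHolBdd_bFun_slash_S (hW : WpDivData p W) (k : ℕ) :
    IsHolBdd (p : ℝ) (bFun W p k ∣[(k : ℤ) * 6] S) :=
  Cusp.isHolBdd_of_isMF (isMF_bFun_slash_S hW k) (Cusp.T_pow_mem_Gamma p)

/-- `e_k(A) ∣ S` as a holomorphic function. -/
def bSHol (hW : WpDivData p W) (k : ℕ) : HolH :=
  ⟨bFun W p k ∣[(k : ℤ) * 6] S, (isMF_bFun_slash_S hW k).holo⟩

theorem comp_S_mzEM (hW : WpDivData p W) (k : ℕ) :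
    MerH.comp S (mzEM hW k) = MerH.ofHol (bSHol hW k) / MerH.ofHol (e6Hol k) := by
  rw [mzEM, MerH.comp_div_eq_slash ((k : ℤ) * 6) S (bHol hW k) (e6Hol_ne_zero k)]
  congr 2
  exact Subtype.ext ((isMF_E6_top.pow k).inv S (Subgroup.mem_top S))

theorem pos_p_real : (0 : ℝ) < (p : ℝ) := Nat.cast_pos.mpr (Fact.out : p.Prime).pos

theorem order_laurent_e6pow (k : ℕ) : (laurent (p : ℝ) ((⇑E₆ : ℍ → ℂ) ^ k)).order = 0 := by
  have h6 : IsHolBdd (p : ℝ) (⇑E₆ : ℍ → ℂ) :=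
    Cusp.isHolBdd_of_one Fermat.Agent.X0N.Dict.isHolBdd_E₆ p
  have hlim : Tendsto ((⇑E₆ : ℍ → ℂ) ^ k * Cusp.qz (p : ℝ) (-0)) atImInfty (𝓝 1) := by
    rw [neg_zero, Cusp.qz_zero, mul_one]
    have h := (tendsto_E 6 (by norm_num) ⟨3, rfl⟩).pow k
    rw [one_pow] at h
    exact h
  exact (Cusp.order_eq_of_tendsto pos_p_real (h6.isMeroInfty.pow k) one_ne_zero hlim).1

theorem order_laurent_bSHol_pos (hW : WpDivData p W) {k : ℕ} (hk : 1 ≤ k)
    (hne : bSHol hW k ≠ 0) :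
    0 < (laurent (p : ℝ) (bFun W p k ∣[(k : ℤ) * 6] S)).order := by
  set G := bFun W p k ∣[(k : ℤ) * 6] S with hG
  have hb := isHolBdd_bFun_slash_S hW k
  have hx0 : laurent (p : ℝ) G ≠ 0 := by
    intro h0
    apply hne
    apply Subtype.ext
    exact (laurent_eq_zero_iff pos_p_real hb.isMeroInfty).mp h0
  have hc0 : (qExpansion (p : ℝ) G).coeff 0 = 0 :=
    tendsto_nhds_unique (Cusp.tendsto_of_isHolBdd pos_p_real hb) (tendsto_bFun_slash_S hW hk)
  by_contra hle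
  rw [not_lt] at hle
  apply hx0
  apply HahnSeries.coeff_order_eq_zero.mp
  rw [laurent_of_isHolBdd pos_p_real hb]
  rcases lt_or_eq_of_le hle with hlt | heq
  · exact ModularCurve.ofPowerSeries_coeff_of_neg _ (by
      rwa [laurent_of_isHolBdd pos_p_real hb] at hlt)
  · rw [laurent_of_isHolBdd pos_p_real hb] at heq
    rw [heq]
    have := HahnSeries.ofPowerSeries_apply_coeff (Γ := ℤ) (R := ℂ) (qExpansion (p : ℝ) G) 0
    rw [Nat.cast_zero] at this
    rw [this, hc0]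

/-- **(F3) at the cusp `0`**: `e_k(Y_m)`, `k ≥ 1`, vanishes at the cusp `0`. -/
theorem zeroN_ord_mzEBar_pos (hW : WpDivData p W) {k : ℕ} (hk : 1 ≤ k)
    (hne : mzEBar hW k ≠ 0) : 0 < (zeroN p).ord (mzEBar hW k) := by
  rw [zeroN_ord_eq p hne]
  have h1 : realS p (mzEBar hW k) = MerH.comp S (mzEM hW k) := by
    rw [← realC_mzEBar hW k]
    rfl
  have hS0 : realS p (mzEBar hW k) ≠ 0 := realS_ne_zero p hne
  rw [h1, comp_S_mzEM] at hS0 ⊢
  have hb0 : bSHol hW k ≠ 0 := by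
    intro h0
    rw [h0, map_zero, zero_div] at hS0
    exact hS0 rfl
  have hbM : IsMeroInfty (p : ℝ) ((bSHol hW k : HolH) : ℍ → ℂ) :=
    (isHolBdd_bFun_slash_S hW k).isMeroInfty
  have heM : IsMeroInfty (p : ℝ) ((e6Hol k : HolH) : ℍ → ℂ) :=
    ((Cusp.isHolBdd_of_one Fermat.Agent.X0N.Dict.isHolBdd_E₆ p).isMeroInfty).pow k
  rw [MerH.ordInf_div (isMerInf_ofHol hbM) (isMerInf_ofHol heM)
    (MerH.ofHol_ne_zero hb0) (MerH.ofHol_ne_zero (e6Hol_ne_zero k)),
    MerH.ordInf_ofHol hbM, MerH.ordInf_ofHol heM]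
  have h2 : (laurent (p : ℝ) ((e6Hol k : HolH) : ℍ → ℂ)).order = 0 := order_laurent_e6pow k
  have h3 := order_laurent_bSHol_pos hW hk hb0
  have h4 : ((bSHol hW k : HolH) : ℍ → ℂ) = bFun W p k ∣[(k : ℤ) * 6] S := rfl
  rw [h2, h4]
  omega

/-- **(F3)**: the norm `N = ∏ Y_m` vanishes at the cusp `0`. -/
theorem zeroN_ord_mzEBar_top_pos (hW : WpDivData p W) (hp2 : 2 < p) :
    0 < (zeroN p).ord (mzEBar hW (p - 1)) :=
  zeroN_ord_mzEBar_pos hW (by omega) (mzEBar_top_ne_zero hW hp2)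

end

end Fermat.Agent.MZ
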