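/-
Project MZ, block (MOD), part [FF] (helper1), file 5: **summary of the exports for [PL]** and the
Gauss-integral lift.

For `hW : WpDivData p W` (`p` prime, `2 < p`), `K` a field with `ℚ ⊆ K ⊆ ℂ`:

* `mzESer p k : LaurentSeries ℚ`, `mzESer_mem hW k : mzESer p k ∈ modularFunctionFieldFull p`;
* `mzE hW K k : ↥(laurentBaseChange K (modularFunctionFieldFull p))`, `mzEBar hW k : FunN p`;
* `realN_mzE`, `realC_mzEBar : realC p (mzEBar hW k) = mzEM hW k`, where
  `mzEM hW k = MerH.ofHol (bHol hW k) / MerH.ofHol (e6Hol k)`, `bHol = bFun W p k`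
  `= e_k (aFun W 0 (idx m) : m ∈ (ℤ/p)ˣ)`, `e6Hol k = E₆^k`;
* `mzEM_value`, `bFun_apply_div`, `aFun_apply_div`: the value at `τ₀` with `E₆ τ₀ ≠ 0` is
  `e_k (Y_m τ₀)`, `Y_m τ₀ = -(E₄/E₆)(τ₀) · W 0 m τ₀ + 1/12`; `ordAt_mzEM_nonneg`;
* `exists_int_coeff_mzESer`, `coeff_zero_mzESer_top`, `order_mzESer_top`, `coeff_mzESer_of_neg`;
  `exists_gauss_lift`: for `A ∣ ℓ ≠ p` the series of `mzEBar hW k` has coefficients in `A`;
* `infN_ord_mzEBar_top`, `zeroN_ord_mzEBar_pos`, `zeroN_ord_mzEBar_top_pos`.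
-/
import Mathlib
import Fermat.Agent.MZ.MOD_helper1_Cusp
import Fermat.Agent.TW.Kill_helper1_Cyc
import Fermat.Agent.JA.G1OMEGA_helper5_Desc

set_option autoImplicit false
set_option linter.unusedSectionVars false

open UpperHalfPlane hiding I
open Complex Filter Topology ModularForm EisensteinSeries Finset CongruenceSubgroup ModularGroup
open scoped MatrixGroups Manifold Real

namespace Fermat.Agent.MZ

open Fermat.Agent.RatStr Fermat.Agent.X0N ModularCurve HahnSeries Fermat.Agent.MW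

noncomputable section

variable {p : ℕ} [Fact p.Prime] {W : ℤ → ℤ → ℍ → ℂ}

/-- **poles only over `j = 1728`**: `e_k(Y_m)` is regular at every `τ₀` with `E₆ τ₀ ≠ 0`. -/
theorem ordAt_mzEM_nonneg (hW : WpDivData p W) (k : ℕ) (τ₀ : ℍ) (h6 : E₆ τ₀ ≠ 0) :
    0 ≤ MerH.ordAt τ₀ (mzEM hW k) := by
  by_cases hb : bHol hW k = 0
  · rw [mzEM, hb, map_zero, zero_div, MerH.ordAt_zero]
  · rw [mzEM, MerH.ordAt_div_ofHol hb (e6Hol_ne_zero k)]
    have h1 : HolH.ord τ₀ (e6Hol k) = 0 :=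
      (HolH.ord_eq_zero_iff _ _).mpr (Or.inl (by rw [e6Hol_apply]; exact pow_ne_zero k h6))
    rw [h1]
    simp

/-- **Gauss-integrality away from `p`**: for a valuation subring `A` of `ℚ̄` over a prime `ℓ ≠ p`
the `q`-expansion of `e_k(Y_m)` has coefficients in `A`. -/
theorem exists_gauss_lift (hp2 : 2 < p) (k : ℕ) {ℓ : ℕ} (hℓ : ℓ.Prime) (hℓp : ℓ ≠ p)
    (A : ValuationSubring (AlgebraicClosure ℚ)) (hA : A.LiesOverPrime ℓ) :
    ∃ y : LaurentSeries ↥A,
      coeffMap A.subtype y = coeffEmb (AlgebraicClosure ℚ) (mzESer p k) := by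
  apply Fermat.Agent.JA.exists_coeffMap_subtype_eq
  intro n
  obtain ⟨a, e, hae⟩ := exists_int_coeff_mzESer (p := p) hp2 k n
  have hp : p.Prime := Fact.out
  have hpne : (p : ℚ) ^ e ≠ 0 := pow_ne_zero e (Nat.cast_ne_zero.mpr hp.ne_zero)
  have hc : (mzESer p k).coeff n = (a : ℚ) / (p : ℚ) ^ e := by
    rw [← hae]
    field_simp
  rw [coeffEmb_coeff, hc, map_div₀, map_pow, map_intCast, map_natCast, div_eq_mul_inv]
  refine A.mul_mem _ _ (intCast_mem A a) ?_
  rw [← A.valuation_le_one_iff, map_inv₀, map_pow]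
  have hv : A.valuation ((p : ℕ) : AlgebraicClosure ℚ) = 1 :=
    Fermat.Agent.TW.Kill.valuation_natCast_eq_one hℓ
      (fun h => hℓp ((Nat.prime_dvd_prime_iff_eq hℓ hp).mp h)) hA
  rw [hv, one_pow, inv_one]

end

end Fermat.Agent.MZ
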