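/-
PROJECT MZ (S15), (MOD) [PL] — helper1.  **(POLE)**: the poles of `N = mzEBar hW (p-1)` (as places
of `Ω·F_p`) lie over `j = 1728`.
-/
import Mathlib
import Fermat.Agent.MZ.MOD_helper1_Main
import Fermat.Agent.MW.ARCH_helper9_DictH

set_option autoImplicit false
set_option linter.unusedSectionVars false
set_option synthInstance.maxHeartbeats 400000

open ModularCurve AlgebraicCurve UpperHalfPlane
open scoped MatrixGroups

namespace Fermat.Agent.MZ

local notation "Ω" => AlgebraicClosure ℚ

open Fermat.Agent.JA Fermat.Agent.X0N Fermat.Agent.MW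

attribute [local instance] algOmC isScalarTower_algOmC

variable {p : ℕ} [Fact p.Prime] {W : ℤ → ℤ → ℍ → ℂ}

/-- **(POLE)** for every elementary symmetric function `mzEBar hW k`: a place which is not a
cusp and where `mzEBar hW k` has a pole lies over `j = 1728`. -/
theorem hasValueAt_jBar_of_ord_mzEBar_neg (hW : WpDivData p W) (k : ℕ) (v : PtN p)
    (hj : 0 ≤ v.ord (jBar p)) (hv : v.ord (mzEBar hW k) < 0) :
    HasValueAt v (jBar p) 1728 := by
  obtain ⟨τ, a, ha, hv'⟩ := exists_hPlace_eq (N := p) v (by rw [← jBar_eq_jGen]; exact hj)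
  subst hv'
  have hN0 : mzEBar hW k ≠ 0 := by
    intro h0
    rw [h0, Place.ord_zero] at hv
    exact lt_irrefl _ hv
  have hord := ordAt_realN_eq (N := p) τ a ha hN0
  have hreal : realN (algebraMap Ω ℂ) p (mzEBar hW k) = mzEM hW k := realC_mzEBar hW k
  rw [hreal] at hord
  have hneg : MerH.ordAt τ (mzEM hW k) < 0 := by
    rw [hord]
    exact mul_neg_of_pos_of_neg (hMult_pos τ a ha) hv
  have hE6 : ModularForm.E₆ τ = 0 := by
    by_contra h
    exact absurd (ordAt_mzEM_nonneg hW k τ h) (not_le.mpr hneg)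
  have hj1728 : jFun τ = 1728 := by
    by_contra h
    exact (E₆_ne_zero_of_jFun_ne h) hE6
  have ha1728 : a = 1728 := by
    apply (algebraMap Ω ℂ).injective
    rw [← ha, hj1728, map_ofNat]
  subst ha1728
  have hpos := hPlace_ord_jGen_sub_pos (N := p) τ (1728 : Ω) ha
  exact HasValueAt.of_ord_pos hpos

/-- **(POLE)** for `N = mzEBar hW (p-1)`: all poles lie over `j = 1728`. -/
theorem hasValueAt_jBar_of_ord_mzEBar_top_neg (hp2 : 2 < p) (hW : WpDivData p W) (v : PtN p)
    (hv : v.ord (mzEBar hW (p - 1)) < 0) : HasValueAt v (jBar p) 1728 := by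
  have hp : p.Prime := Fact.out
  by_cases hj : v.ord (jBar p) < 0
  · exfalso
    rcases pole_cases p hp v hj with rfl | rfl
    · rw [infN_ord_mzEBar_top hW hp2] at hv
      exact lt_irrefl _ hv
    · have := zeroN_ord_mzEBar_top_pos hW hp2
      omega
  · exact hasValueAt_jBar_of_ord_mzEBar_neg hW (p - 1) v (not_lt.mp hj) hv

end Fermat.Agent.MZ
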