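/-
MZ (MOD), helper3, part 2: Lambert series.  `lamL r = ∑_{d ≥ 1} d r^d`; a weighted version of
Mathlib's `tsum_prod_pow_eq_tsum_sigma` (after helper9's `W1/WEB4_helper9_QExp`):
`∑_{a,d ≥ 1} β a d · d · r^{ad} = ∑_{N ≥ 1} (∑_{ad = N} β a d · d) r^N` for bounded `β`.
-/
import Mathlib

set_option autoImplicit false

namespace Fermat.Agent.MZ

open Complex Filter Topology

noncomputable section

/-- the Lambert coefficient `∑_{a d = N} β a d · d` -/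
def lamCoeff (β : ℕ → ℕ → ℂ) (N : ℕ) : ℂ := ∑ x ∈ N.divisorsAntidiagonal, β x.1 x.2 * (x.2 : ℂ)

@[simp] theorem lamCoeff_zero (β : ℕ → ℕ → ℂ) : lamCoeff β 0 = 0 := by
  simp [lamCoeff]

theorem summable_lambert (β : ℕ → ℕ → ℂ) {C : ℝ} (hβ : ∀ a b, ‖β a b‖ ≤ C) {r : ℂ}
    (hr : ‖r‖ < 1) :
    Summable fun c : ℕ+ × ℕ+ => β c.1 c.2 * ((c.2 : ℕ) : ℂ) * r ^ (c.1 * c.2 : ℕ) := by
  have h0 := summable_prod_mul_pow (𝕜 := ℂ) 1 hr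
  have h1 := (summable_norm_iff.mpr h0).mul_left (max C 0)
  refine Summable.of_norm_bounded h1 fun c => ?_
  rw [mul_assoc, norm_mul]
  have e : ‖((c.2 : ℕ) : ℂ) * r ^ (c.1 * c.2 : ℕ)‖ = ‖((c.2 : ℂ)) ^ 1 * r ^ (c.1 * c.2 : ℕ)‖ := by
    simp
  rw [← e]
  exact mul_le_mul_of_nonneg_right ((hβ _ _).trans (le_max_left _ _)) (norm_nonneg _)

theorem summable_sigma_lambert (β : ℕ → ℕ → ℂ) {C : ℝ} (hβ : ∀ a b, ‖β a b‖ ≤ C) {r : ℂ}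
    (hr : ‖r‖ < 1) :
    Summable fun c : (n : ℕ+) × ↥((n : ℕ).divisorsAntidiagonal) =>
      β ↑(sigmaAntidiagonalEquivProd c).1 ↑(sigmaAntidiagonalEquivProd c).2 *
        ((↑(sigmaAntidiagonalEquivProd c).2 : ℕ) : ℂ) *
        r ^ (↑(sigmaAntidiagonalEquivProd c).1 * ↑(sigmaAntidiagonalEquivProd c).2 : ℕ) :=
  (sigmaAntidiagonalEquivProd.summable_iff).mpr (summable_lambert β hβ hr)

theorem tsum_fibre_lambert (β : ℕ → ℕ → ℂ) (r : ℂ) (n : ℕ+) :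
    ∑' x : ↥((n : ℕ).divisorsAntidiagonal),
      β ↑(sigmaAntidiagonalEquivProd ⟨n, x⟩).1 ↑(sigmaAntidiagonalEquivProd ⟨n, x⟩).2 *
        ((↑(sigmaAntidiagonalEquivProd ⟨n, x⟩).2 : ℕ) : ℂ) *
        r ^ (↑(sigmaAntidiagonalEquivProd ⟨n, x⟩).1 * ↑(sigmaAntidiagonalEquivProd ⟨n, x⟩).2 : ℕ) =
      lamCoeff β n * r ^ (n : ℕ) := by
  rw [tsum_fintype, lamCoeff, Finset.sum_mul]
  rw [Finset.univ_eq_attach]
  rw [← Finset.sum_attach ((n : ℕ).divisorsAntidiagonal)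
    (fun x => β x.1 x.2 * (x.2 : ℂ) * r ^ (n : ℕ))]
  refine Finset.sum_congr rfl fun x _ => ?_
  have hx := (Nat.mem_divisorsAntidiagonal.mp x.2).1
  simp only [sigmaAntidiagonalEquivProd, divisorsAntidiagonalFactors, Equiv.coe_fn_mk,
    PNat.mk_coe]
  rw [hx]

theorem tsum_prod_lambert (β : ℕ → ℕ → ℂ) {C : ℝ} (hβ : ∀ a b, ‖β a b‖ ≤ C) {r : ℂ}
    (hr : ‖r‖ < 1) :
    ∑' c : ℕ+ × ℕ+, β c.1 c.2 * ((c.2 : ℕ) : ℂ) * r ^ (c.1 * c.2 : ℕ) =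
      ∑' e : ℕ+, lamCoeff β e * r ^ (e : ℕ) := by
  rw [← sigmaAntidiagonalEquivProd.tsum_eq]
  rw [Summable.tsum_sigma (summable_sigma_lambert β hβ hr)]
  exact tsum_congr fun n => tsum_fibre_lambert β r n

theorem summable_fibre_lambert (β : ℕ → ℕ → ℂ) {C : ℝ} (hβ : ∀ a b, ‖β a b‖ ≤ C) {r : ℂ}
    (hr : ‖r‖ < 1) :
    Summable fun e : ℕ+ => lamCoeff β e * r ^ (e : ℕ) := by
  have h := (summable_sigma_lambert β hβ hr).sigma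
  refine h.congr fun n => ?_
  exact tsum_fibre_lambert β r n

/-- **Lambert rearrangement**, as a power series in `r`. -/
theorem hasSum_lambert (β : ℕ → ℕ → ℂ) {C : ℝ} (hβ : ∀ a b, ‖β a b‖ ≤ C) {r : ℂ}
    (hr : ‖r‖ < 1) :
    HasSum (fun N : ℕ => lamCoeff β N * r ^ N)
      (∑' c : ℕ+ × ℕ+, β c.1 c.2 * ((c.2 : ℕ) : ℂ) * r ^ (c.1 * c.2 : ℕ)) := by
  rw [tsum_prod_lambert β hβ hr]
  have h1 := (summable_fibre_lambert β hβ hr).hasSum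
  have h2 := (hasSum_pnat_iff_hasSum_succ (f := fun N : ℕ => lamCoeff β N * r ^ N)).mp h1
  set g : ℕ → ℂ := fun N : ℕ => lamCoeff β N * r ^ N with hg
  set T : ℂ := ∑' e : ℕ+, lamCoeff β e * r ^ (e : ℕ) with hT
  have h3 : HasSum (fun n : ℕ => g (n + 1)) (T - ∑ i ∈ Finset.range 1, g i) := by
    have : ∑ i ∈ Finset.range 1, g i = 0 := by simp [hg]
    rw [this, sub_zero]
    exact h2
  exact (hasSum_nat_add_iff' 1).mp h3

end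

end Fermat.Agent.MZ
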