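/-
MZ (MOD), helper3, part 1: the partial Fourier expansion of the Weierstrass `℘`-function of the
lattice `ℤ τ + ℤ`:
`℘(z) = S(z) - S(0) + ∑_{n ≥ 1} (S(nτ - z) + S(nτ + z) - 2 S(nτ))`, `S(w) = ∑_{b ∈ ℤ} (w + b)⁻²`,
and `S(w) = (2πi)² ∑_{d ≥ 1} d e^{2πi d w}` for `w` in the upper half plane.
-/
import Mathlib
import Fermat.Agent.X0N.J_helper8_Lattice

set_option autoImplicit false

namespace Fermat.Agent.MZ

open Complex UpperHalfPlane Filter Topology
open scoped PeriodPair Real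
open Fermat.Agent.X0N

noncomputable section

/-- the period pair `(τ, 1)` -/
abbrev stdPair (τ : ℍ) : PeriodPair := pairOf 1 one_ne_zero τ

/-- `S(w) = ∑_{b ∈ ℤ} (w + b)⁻²` -/
def zsum (w : ℂ) : ℂ := ∑' b : ℤ, 1 / (w + b) ^ 2

theorem summable_zsum (w : ℂ) : Summable fun b : ℤ => 1 / (w + b) ^ 2 := by
  have h := EisensteinSeries.linear_right_summable w 1 (k := 2) le_rfl
  refine h.congr fun b => ?_
  simp

theorem hasSum_zsum (w : ℂ) : HasSum (fun b : ℤ => 1 / (w + b) ^ 2) (zsum w) :=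
  (summable_zsum w).hasSum

theorem zsum_neg (w : ℂ) : zsum (-w) = zsum w := by
  unfold zsum
  rw [← (Equiv.neg ℤ).tsum_eq]
  refine tsum_congr fun b => ?_
  simp only [Equiv.neg_apply, Int.cast_neg]
  rw [show -w + -(b : ℂ) = -(w + b) by ring, neg_sq]

/-- the lattice sum of `℘` over `ℤ × ℤ` -/
theorem hasSum_prod_weierstrassP (τ : ℍ) (z : ℂ) :
    HasSum (fun x : ℤ × ℤ => 1 / (z - ((x.1 : ℂ) * τ + x.2)) ^ 2 - 1 / ((x.1 : ℂ) * τ + x.2) ^ 2)
      (℘[stdPair τ] z) := by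
  have h := (stdPair τ).hasSum_weierstrassP z
  have h2 := ((stdPair τ).latticeEquivProd.symm.toEquiv.hasSum_iff).mpr h
  convert h2 using 1
  funext x
  simp only [Function.comp_apply, LinearEquiv.coe_toEquiv]
  rw [(stdPair τ).latticeEquiv_symm_apply x]
  simp only [pairOf_ω₁, pairOf_ω₂, one_mul, mul_one]

/-- fibrewise: `℘(z) = ∑_{a ∈ ℤ} (S(aτ - z) - S(aτ))` -/
theorem hasSum_int_weierstrassP (τ : ℍ) (z : ℂ) :
    HasSum (fun a : ℤ => zsum ((a : ℂ) * τ - z) - zsum ((a : ℂ) * τ)) (℘[stdPair τ] z) := by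
  refine (hasSum_prod_weierstrassP τ z).prod_fiberwise fun a => ?_
  have h1 := hasSum_zsum ((a : ℂ) * τ - z)
  have h2 := hasSum_zsum ((a : ℂ) * τ)
  have key : (fun b : ℤ => 1 / (z - (((a, b) : ℤ × ℤ).1 * (τ : ℂ) + ((a, b) : ℤ × ℤ).2)) ^ 2 -
      1 / ((((a, b) : ℤ × ℤ).1 : ℂ) * τ + ((a, b) : ℤ × ℤ).2) ^ 2) =
      fun b : ℤ => 1 / ((a : ℂ) * τ - z + b) ^ 2 - 1 / ((a : ℂ) * τ + b) ^ 2 := by
    funext b
    show 1 / (z - ((a : ℂ) * τ + b)) ^ 2 - 1 / ((a : ℂ) * τ + b) ^ 2 = _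
    rw [show z - ((a : ℂ) * τ + b) = -((a : ℂ) * τ - z + b) by ring, neg_sq]
  rw [key]
  exact h1.sub h2

/-- **partial Fourier expansion, lattice form** -/
theorem hasSum_nat_weierstrassP (τ : ℍ) (z : ℂ) :
    HasSum (fun n : ℕ => zsum (((n + 1 : ℕ) : ℂ) * τ - z) + zsum (((n + 1 : ℕ) : ℂ) * τ + z)
        - 2 * zsum (((n + 1 : ℕ) : ℂ) * τ))
      (℘[stdPair τ] z - (zsum z - zsum 0)) := by
  have h := (hasSum_int_weierstrassP τ z).nat_add_neg
  have h3 := (hasSum_nat_add_iff' 1).mpr h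
  have key : (fun n : ℕ => zsum (((n + 1 : ℕ) : ℂ) * τ - z) + zsum (((n + 1 : ℕ) : ℂ) * τ + z)
        - 2 * zsum (((n + 1 : ℕ) : ℂ) * τ)) =
      fun n : ℕ => zsum ((((n + 1 : ℕ) : ℤ) : ℂ) * τ - z) - zsum ((((n + 1 : ℕ) : ℤ) : ℂ) * τ) +
        (zsum (((-((n + 1 : ℕ) : ℤ) : ℤ) : ℂ) * τ - z) - zsum (((-((n + 1 : ℕ) : ℤ) : ℤ) : ℂ) * τ)) := by
    funext n
    simp only [Int.cast_neg, Int.cast_natCast, neg_mul]
    rw [show -(((n + 1 : ℕ) : ℂ) * (τ : ℂ)) - z = -(((n + 1 : ℕ) : ℂ) * τ + z) by ring, zsum_neg,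
      zsum_neg]
    ring
  have hval : ℘[stdPair τ] z - (zsum z - zsum 0) =
      ℘[stdPair τ] z + (zsum (((0 : ℤ) : ℂ) * τ - z) - zsum (((0 : ℤ) : ℂ) * τ)) -
      ∑ i ∈ Finset.range 1, (zsum ((((i : ℕ) : ℤ) : ℂ) * τ - z) - zsum ((((i : ℕ) : ℤ) : ℂ) * τ) +
        (zsum (((-((i : ℕ) : ℤ) : ℤ) : ℂ) * τ - z) - zsum (((-((i : ℕ) : ℤ) : ℤ) : ℂ) * τ))) := by
    simp only [Finset.range_one, Finset.sum_singleton, Nat.cast_zero, Int.cast_zero, zero_mul,
      zero_sub, neg_zero, zsum_neg]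
    ring
  rw [key, hval]
  exact h3

/-- `S(w) = (2πi)² ∑_{d ≥ 1} d e^{2πi d w}` on the upper half plane -/
theorem zsum_eq_tsum_cexp {w : ℂ} (hw : 0 < w.im) :
    zsum w = (2 * π * Complex.I) ^ 2 *
      ∑' d : ℕ, (d : ℂ) * cexp (2 * π * Complex.I * w) ^ d := by
  have h := EisensteinSeries.qExpansion_identity (k := 1) le_rfl ⟨w, hw⟩
  simp only [Nat.reduceAdd, pow_one, Nat.factorial_one, Nat.cast_one,
    div_one] at h
  unfold zsum
  rw [h]
  ring

/-- `∑_{b ≠ 0} b⁻² = π²/3` -/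
theorem zsum_zero : zsum 0 = (π : ℂ) ^ 2 / 3 := by
  have h := (hasSum_zsum 0).nat_add_neg
  have h3 : HasSum (fun n : ℕ => ((1 / (n : ℝ) ^ 2 : ℝ) : ℂ)) ((π ^ 2 / 6 : ℝ) : ℂ) :=
    Complex.hasSum_ofReal.mpr hasSum_zeta_two
  have h4 := (h3.mul_left 2)
  have key : (fun n : ℕ => 1 / ((0 : ℂ) + ((n : ℤ) : ℂ)) ^ 2 + 1 / ((0 : ℂ) + ((-(n : ℤ) : ℤ) : ℂ)) ^ 2) =
      fun n : ℕ => 2 * ((1 / (n : ℝ) ^ 2 : ℝ) : ℂ) := by
    funext n
    push_cast
    rw [zero_add, zero_add, neg_sq]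
    ring
  rw [key] at h
  have := h.unique h4
  simp only [Int.cast_zero, add_zero, ne_eq, OfNat.ofNat_ne_zero, not_false_eq_true, zero_pow,
    div_zero] at this
  rw [this]
  push_cast
  ring

/-- the closed form `e^{2πiw} / (1 - e^{2πiw})²` -/
def cform (w : ℂ) : ℂ :=
  cexp (2 * π * Complex.I * w) / (1 - cexp (2 * π * Complex.I * w)) ^ 2

theorem norm_cexp_lt_one {w : ℂ} (hw : 0 < w.im) : ‖cexp (2 * π * Complex.I * w)‖ < 1 := by
  rw [Complex.norm_exp]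
  have : (2 * π * Complex.I * w).re = -(2 * π * w.im) := by
    simp [Complex.mul_re, Complex.mul_im]
  rw [this, Real.exp_lt_one_iff]
  have := Real.pi_pos
  nlinarith

theorem zsum_eq_cform_of_im_pos {w : ℂ} (hw : 0 < w.im) :
    zsum w = (2 * π * Complex.I) ^ 2 * cform w := by
  rw [zsum_eq_tsum_cexp hw, tsum_coe_mul_geometric_of_norm_lt_one (norm_cexp_lt_one hw)]
  rfl

/-- distance from a non-integer real number to the integers -/
theorem exists_pos_le_norm_add_int {x : ℝ} (hx : ∀ n : ℤ, x ≠ n) :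
    ∃ d : ℝ, 0 < d ∧ ∀ b : ℤ, d ≤ ‖(x : ℂ) + b‖ := by
  refine ⟨min (Int.fract x) (1 - Int.fract x), ?_, fun b => ?_⟩
  · have h0 : Int.fract x ≠ 0 := by
      intro h
      apply hx ⌊x⌋
      have := Int.self_sub_floor x
      rw [h] at this
      linarith
    have h1 := Int.fract_nonneg x
    have h2 := Int.fract_lt_one x
    exact lt_min (lt_of_le_of_ne h1 (Ne.symm h0)) (by linarith)
  · have e : (x : ℂ) + b = (((((⌊x⌋ + b : ℤ) : ℝ) + Int.fract x : ℝ)) : ℂ) := by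
      have := Int.self_sub_floor x
      push_cast
      rw [← this]
      push_cast
      ring
    rw [e, Complex.norm_real, Real.norm_eq_abs]
    have h1 := Int.fract_nonneg x
    have h2 := Int.fract_lt_one x
    rcases le_or_gt 0 (⌊x⌋ + b) with hn | hn
    · have hn' : (0 : ℝ) ≤ ((⌊x⌋ + b : ℤ) : ℝ) := by exact_mod_cast hn
      rw [abs_of_nonneg (by linarith)]
      exact le_trans (min_le_left _ _) (by linarith)
    · have hn' : ((⌊x⌋ + b : ℤ) : ℝ) ≤ -1 := by exact_mod_cast (by omega : ⌊x⌋ + b ≤ -1)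
      rw [abs_of_nonpos (by linarith)]
      exact le_trans (min_le_right _ _) (by linarith)

theorem continuousAt_zsum_real {x : ℝ} (hx : ∀ n : ℤ, x ≠ n) : ContinuousAt zsum (x : ℂ) := by
  obtain ⟨d, hd, hdb⟩ := exists_pos_le_norm_add_int hx
  have hlow : ∀ (b : ℤ) (w : ℂ), w ∈ Metric.ball (x : ℂ) (d / 2) → ‖(x : ℂ) + b‖ / 2 ≤ ‖w + b‖ := by
    intro b w hw
    rw [Metric.mem_ball, dist_eq_norm] at hw
    have h1 : ‖(x : ℂ) + b‖ ≤ ‖w + b‖ + ‖w - x‖ := by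
      have : (x : ℂ) + b = (w + b) - (w - x) := by ring
      rw [this]
      exact norm_sub_le _ _
    have h2 := hdb b
    linarith
  have hcont : ContinuousOn (fun w : ℂ => ∑' b : ℤ, 1 / (w + b) ^ 2) (Metric.ball (x : ℂ) (d / 2)) := by
    refine continuousOn_tsum (u := fun b : ℤ => 4 * ‖1 / ((x : ℂ) + b) ^ 2‖) ?_ ?_ ?_
    · intro b
      refine ContinuousOn.div continuousOn_const ((continuousOn_id.add continuousOn_const).pow 2) ?_
      intro w hw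
      have h1 := hlow b w hw
      have h2 := hdb b
      have h3 : 0 < ‖w + b‖ := by linarith
      exact pow_ne_zero 2 (norm_pos_iff.mp h3)
    · exact ((summable_zsum (x : ℂ)).norm).mul_left 4
    · intro b w hw
      have h1 := hlow b w hw
      have h2 := hdb b
      have h3 : 0 < ‖(x : ℂ) + b‖ := by linarith
      have h4 : 0 < ‖w + b‖ := by linarith
      rw [norm_div, norm_div, norm_one, norm_pow, norm_pow,
        show 4 * (1 / ‖(x : ℂ) + b‖ ^ 2) = 4 / ‖(x : ℂ) + b‖ ^ 2 by ring,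
        div_le_div_iff₀ (by positivity) (by positivity)]
      nlinarith
  exact hcont.continuousAt (Metric.ball_mem_nhds _ (by positivity))

theorem cexp_ne_one_of_real {x : ℝ} (hx : ∀ n : ℤ, x ≠ n) :
    cexp (2 * π * Complex.I * x) ≠ 1 := by
  intro h
  rw [Complex.exp_eq_one_iff] at h
  obtain ⟨n, hn⟩ := h
  apply hx n
  have hpi : (2 * π * Complex.I : ℂ) ≠ 0 := by
    simp [Real.pi_ne_zero]
  have : (x : ℂ) = n := by
    apply mul_left_cancel₀ hpi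
    rw [hn]; ring
  exact_mod_cast this

theorem continuousAt_cform {w : ℂ} (hw : cexp (2 * π * Complex.I * w) ≠ 1) :
    ContinuousAt cform w := by
  unfold cform
  refine ContinuousAt.div (by fun_prop) (by fun_prop) ?_
  exact pow_ne_zero 2 (sub_ne_zero.mpr (Ne.symm hw))

/-- the closed form of `S` at real non-integral points -/
theorem zsum_eq_cform_real {x : ℝ} (hx : ∀ n : ℤ, x ≠ n) :
    zsum (x : ℂ) = (2 * π * Complex.I) ^ 2 * cform x := by
  have h1 := continuousAt_zsum_real hx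
  have h2 : ContinuousAt (fun w => (2 * π * Complex.I) ^ 2 * cform w) (x : ℂ) :=
    continuousAt_const.mul (continuousAt_cform (cexp_ne_one_of_real hx))
  set S : Set ℂ := {w : ℂ | 0 < w.im} with hS
  have hmem : (x : ℂ) ∈ closure S := by
    rw [hS, Complex.closure_setOfPred_lt_im]
    simp
  have hne : (𝓝[S] (x : ℂ)).NeBot := mem_closure_iff_nhdsWithin_neBot.mp hmem
  have hev : ∀ᶠ w in 𝓝[S] (x : ℂ), zsum w = (2 * π * Complex.I) ^ 2 * cform w :=
    eventually_nhdsWithin_of_forall fun w (hw : w ∈ S) => zsum_eq_cform_of_im_pos hw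
  exact tendsto_nhds_unique_of_eventuallyEq (l := 𝓝[S] (x : ℂ))
    (h1.tendsto.mono_left nhdsWithin_le_nhds) (h2.tendsto.mono_left nhdsWithin_le_nhds) hev

end

end Fermat.Agent.MZ
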