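/-
MZ (MOD), helper3, part 3: the `q`-expansion of `℘(x; ℤτ + ℤ) / (2πi)² - 1/12` at a real
non-integral point `x` (`hasSum_wpReal`):
`= u/(1-u)² + ∑_{N ≥ 1} (∑_{a d = N} d (u^d + u^{-d} - 2)) q^N`, `u = e^{2πix}`, `q = e^{2πiτ}`.
-/
import Mathlib
import Fermat.Agent.MZ.MOD_helper3_PFourier
import Fermat.Agent.MZ.MOD_helper3_Lambert

set_option autoImplicit false

namespace Fermat.Agent.MZ

open Complex UpperHalfPlane Filter Topology
open scoped PeriodPair Real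
open Fermat.Agent.X0N

noncomputable section

/-- `L(r) = ∑_{d ≥ 0} d r^d` -/
def lamL (r : ℂ) : ℂ := ∑' d : ℕ, (d : ℂ) * r ^ d

theorem summable_lamL {r : ℂ} (hr : ‖r‖ < 1) : Summable fun d : ℕ => (d : ℂ) * r ^ d :=
  (hasSum_coe_mul_geometric_of_norm_lt_one hr).summable

theorem zsum_eq_lamL {w : ℂ} (hw : 0 < w.im) :
    zsum w = (2 * π * Complex.I) ^ 2 * lamL (cexp (2 * π * Complex.I * w)) :=
  zsum_eq_tsum_cexp hw

theorem two_pi_I_sq_ne_zero : ((2 * π * Complex.I) ^ 2 : ℂ) ≠ 0 := by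
  apply pow_ne_zero
  simp [Real.pi_ne_zero]

/-- the nome `q = e^{2πiτ}` -/
def nome (τ : ℍ) : ℂ := cexp (2 * π * Complex.I * τ)

theorem norm_nome_lt_one (τ : ℍ) : ‖nome τ‖ < 1 := norm_cexp_lt_one τ.im_pos

theorem norm_nome_pow_lt_one (τ : ℍ) (n : ℕ) : ‖nome τ ^ (n + 1)‖ < 1 := by
  rw [norm_pow]
  exact pow_lt_one₀ (norm_nonneg _) (norm_nome_lt_one τ) (Nat.succ_ne_zero n)

/-- **partial Fourier expansion in Lambert form**, in the strip `|Im z| < Im τ`. -/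
theorem hasSum_wp_lamL (τ : ℍ) (z : ℂ) (h1 : -τ.im < z.im) (h2 : z.im < τ.im) :
    HasSum (fun n : ℕ => lamL (nome τ ^ (n + 1) * (cexp (2 * π * Complex.I * z))⁻¹) +
        lamL (nome τ ^ (n + 1) * cexp (2 * π * Complex.I * z)) - 2 * lamL (nome τ ^ (n + 1)))
      (℘[stdPair τ] z / (2 * π * Complex.I) ^ 2 - 1 / 12 - zsum z / (2 * π * Complex.I) ^ 2) := by
  have h := (hasSum_nat_weierstrassP τ z).div_const ((2 * π * Complex.I) ^ 2)
  have hc := two_pi_I_sq_ne_zero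
  have key : (fun n : ℕ => (zsum (((n + 1 : ℕ) : ℂ) * τ - z) + zsum (((n + 1 : ℕ) : ℂ) * τ + z)
        - 2 * zsum (((n + 1 : ℕ) : ℂ) * τ)) / (2 * π * Complex.I) ^ 2) =
      fun n : ℕ => lamL (nome τ ^ (n + 1) * (cexp (2 * π * Complex.I * z))⁻¹) +
        lamL (nome τ ^ (n + 1) * cexp (2 * π * Complex.I * z)) - 2 * lamL (nome τ ^ (n + 1)) := by
    funext n
    have hn : (1 : ℝ) ≤ ((n + 1 : ℕ) : ℝ) := by exact_mod_cast Nat.succ_le_succ (Nat.zero_le n)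
    have hτ := τ.im_pos
    have him : ((((n + 1 : ℕ) : ℂ)) * (τ : ℂ)).im = ((n + 1 : ℕ) : ℝ) * τ.im := by
      simp [Complex.mul_im]
    have e0 : cexp (2 * π * Complex.I * (((n + 1 : ℕ) : ℂ) * τ)) = nome τ ^ (n + 1) := by
      rw [nome, ← Complex.exp_nat_mul]
      congr 1
      ring
    have ha : zsum (((n + 1 : ℕ) : ℂ) * τ - z) = (2 * π * Complex.I) ^ 2 *
        lamL (nome τ ^ (n + 1) * (cexp (2 * π * Complex.I * z))⁻¹) := by
      rw [zsum_eq_lamL (by rw [Complex.sub_im, him]; nlinarith), mul_sub, Complex.exp_sub, e0,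
        div_eq_mul_inv]
    have hb : zsum (((n + 1 : ℕ) : ℂ) * τ + z) = (2 * π * Complex.I) ^ 2 *
        lamL (nome τ ^ (n + 1) * cexp (2 * π * Complex.I * z)) := by
      rw [zsum_eq_lamL (by rw [Complex.add_im, him]; nlinarith), mul_add, Complex.exp_add, e0]
    have hc' : zsum (((n + 1 : ℕ) : ℂ) * τ) = (2 * π * Complex.I) ^ 2 *
        lamL (nome τ ^ (n + 1)) := by
      rw [zsum_eq_lamL (by rw [him]; nlinarith), e0]
    rw [ha, hb, hc']
    field_simp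
  have hval : (℘[stdPair τ] z - (zsum z - zsum 0)) / (2 * π * Complex.I) ^ 2 =
      ℘[stdPair τ] z / (2 * π * Complex.I) ^ 2 - 1 / 12 - zsum z / (2 * π * Complex.I) ^ 2 := by
    have hpi : (π : ℂ) ≠ 0 := by exact_mod_cast Real.pi_ne_zero
    have h0 : zsum 0 / (2 * π * Complex.I) ^ 2 = -(1 / 12) := by
      rw [zsum_zero, mul_pow, mul_pow, Complex.I_sq]
      field_simp
      ring
    rw [sub_div, sub_div, h0]
    ring
  rw [key, hval] at h
  exact h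

/-- the weights `u^d + u^{-d} - 2` -/
def betaU (u : ℂ) (_a d : ℕ) : ℂ := u ^ d + (u⁻¹) ^ d - 2

theorem norm_betaU_le {u : ℂ} (hu : ‖u‖ = 1) (a d : ℕ) : ‖betaU u a d‖ ≤ 4 := by
  unfold betaU
  have h1 : ‖u ^ d‖ = 1 := by rw [norm_pow, hu, one_pow]
  have h2 : ‖(u⁻¹) ^ d‖ = 1 := by rw [norm_pow, norm_inv, hu, inv_one, one_pow]
  calc ‖u ^ d + (u⁻¹) ^ d - 2‖ ≤ ‖u ^ d + (u⁻¹) ^ d‖ + ‖(2 : ℂ)‖ := norm_sub_le _ _
    _ ≤ ‖u ^ d‖ + ‖(u⁻¹) ^ d‖ + ‖(2 : ℂ)‖ := by gcongr; exact norm_add_le _ _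
    _ = 4 := by rw [h1, h2]; norm_num

theorem lamL_combine {u r : ℂ} (hu : ‖u‖ = 1) (hr : ‖r‖ < 1) (a : ℕ) :
    lamL (r * u⁻¹) + lamL (r * u) - 2 * lamL r =
      ∑' d : ℕ+, betaU u a d * ((d : ℕ) : ℂ) * r ^ (d : ℕ) := by
  have h1 : ‖r * u⁻¹‖ < 1 := by rw [norm_mul, norm_inv, hu, inv_one, mul_one]; exact hr
  have h2 : ‖r * u‖ < 1 := by rw [norm_mul, hu, mul_one]; exact hr
  have s1 := summable_lamL h1
  have s2 := summable_lamL h2
  have s3 := summable_lamL hr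
  have H := (s1.hasSum.add s2.hasSum).sub (s3.hasSum.mul_left 2)
  have key : (fun d : ℕ => (d : ℂ) * (r * u⁻¹) ^ d + (d : ℂ) * (r * u) ^ d -
      2 * ((d : ℂ) * r ^ d)) = fun d : ℕ => betaU u a d * (d : ℂ) * r ^ d := by
    funext d
    unfold betaU
    rw [mul_pow, mul_pow]
    ring
  rw [key] at H
  have h0 : (fun d : ℕ => betaU u a d * (d : ℂ) * r ^ d) 0 = 0 := by simp
  rw [tsum_pnat_eq_tsum_of_eq_zero (f := fun d : ℕ => betaU u a d * (d : ℂ) * r ^ d) h0]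
  exact H.tsum_eq.symm

/-- the coefficients of the expansion at a point with `|u| = 1` -/
def aCoeff (u : ℂ) (N : ℕ) : ℂ := if N = 0 then u / (1 - u) ^ 2 else lamCoeff (betaU u) N

theorem norm_cexp_real (x : ℝ) : ‖cexp (2 * π * Complex.I * x)‖ = 1 := by
  have : (2 * π * Complex.I * x : ℂ) = ((2 * π * x : ℝ) : ℂ) * Complex.I := by push_cast; ring
  rw [this, Complex.norm_exp_ofReal_mul_I]

/-- **the `q`-expansion of `℘(x)/(2πi)² - 1/12` at a real point** -/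
theorem hasSum_wpReal (τ : ℍ) {x : ℝ} (hx : ∀ n : ℤ, x ≠ n) :
    HasSum (fun N : ℕ => aCoeff (cexp (2 * π * Complex.I * x)) N * nome τ ^ N)
      (℘[stdPair τ] x / (2 * π * Complex.I) ^ 2 - 1 / 12) := by
  set u : ℂ := cexp (2 * π * Complex.I * x) with hu
  have hu1 : ‖u‖ = 1 := norm_cexp_real x
  have hτ := τ.im_pos
  have h := hasSum_wp_lamL τ (x : ℂ) (by simp; linarith) (by simp; linarith)
  rw [← hu] at h
  have hz : zsum (x : ℂ) / (2 * π * Complex.I) ^ 2 = u / (1 - u) ^ 2 := by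
    rw [zsum_eq_cform_real hx, mul_div_cancel_left₀ _ two_pi_I_sq_ne_zero]
    rfl
  rw [hz] at h
  -- the double series
  have hterm : ∀ n : ℕ, lamL (nome τ ^ (n + 1) * u⁻¹) + lamL (nome τ ^ (n + 1) * u) -
      2 * lamL (nome τ ^ (n + 1)) =
      ∑' d : ℕ+, betaU u (n + 1) d * ((d : ℕ) : ℂ) * nome τ ^ ((n + 1) * (d : ℕ)) := by
    intro n
    rw [lamL_combine hu1 (norm_nome_pow_lt_one τ n) (n + 1)]
    refine tsum_congr fun d => ?_
    rw [← pow_mul]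
  have hS := h.tsum_eq
  simp_rw [hterm] at hS
  have hprod := summable_lambert (betaU u) (norm_betaU_le hu1) (norm_nome_lt_one τ)
  have hS2 : ∑' c : ℕ+ × ℕ+, betaU u c.1 c.2 * ((c.2 : ℕ) : ℂ) * nome τ ^ (c.1 * c.2 : ℕ) =
      ℘[stdPair τ] x / (2 * π * Complex.I) ^ 2 - 1 / 12 - u / (1 - u) ^ 2 := by
    rw [hprod.tsum_prod, ← hS, tsum_pnat_eq_tsum_succ (f := fun a : ℕ =>
      ∑' d : ℕ+, betaU u a d * ((d : ℕ) : ℂ) * nome τ ^ (a * (d : ℕ)))]
  have hL := hasSum_lambert (betaU u) (norm_betaU_le hu1) (norm_nome_lt_one τ)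
  rw [hS2] at hL
  have hconst := hasSum_ite_eq (0 : ℕ) (u / (1 - u) ^ 2)
  have hsum := hL.add hconst
  have hfun : (fun N : ℕ => lamCoeff (betaU u) N * nome τ ^ N +
      (if N = 0 then u / (1 - u) ^ 2 else 0)) = fun N : ℕ => aCoeff u N * nome τ ^ N := by
    funext N
    unfold aCoeff
    by_cases hN : N = 0
    · subst hN; simp
    · simp [hN]
  rw [hfun] at hsum
  convert hsum using 1
  ring

end

end Fermat.Agent.MZ
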