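/-
MZ (MOD), helper3, part 4: the algebraic part of `WpDivData p (wpDiv p)` — periodicity in `(r, s)`
modulo `p`, the weight-2 transformation law under `SL(2, ℤ)` and the `q`-expansion at `r = 0`.
-/
import Mathlib
import Fermat.Agent.MZ.MOD_helper3_Tors
import Fermat.Agent.MZ.MOD_helper1_Interface

set_option autoImplicit false

namespace Fermat.Agent.MZ

open Complex UpperHalfPlane Filter Topology ModularForm
open scoped PeriodPair Real MatrixGroups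
open Fermat.Agent.X0N

noncomputable section

local notation "𝕢" => Function.Periodic.qParam

theorem wpDiv_eq (p : ℕ) (r s : ℤ) (τ : ℍ) :
    wpDiv p r s τ = ((2 * π * Complex.I) ^ 2)⁻¹ * ℘[stdPair τ] (((r : ℂ) * τ + s) / p) := rfl

/-- **periodicity** in `(r, s)` modulo `p`. -/
theorem wpDiv_periodic (p : ℕ) (r s k l : ℤ) (τ : ℍ) :
    wpDiv p (r + p * k) (s + p * l) τ = wpDiv p r s τ := by
  rcases Nat.eq_zero_or_pos p with hp | hp
  · subst hp; simp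
  have hpc : (p : ℂ) ≠ 0 := by exact_mod_cast hp.ne'
  rw [wpDiv_eq, wpDiv_eq]
  congr 1
  have hmem : (k : ℂ) * τ + l ∈ (stdPair τ).lattice := by
    rw [PeriodPair.mem_lattice]
    exact ⟨k, l, by simp⟩
  have h := (stdPair τ).weierstrassP_add_coe (((r : ℂ) * τ + s) / p) ⟨_, hmem⟩
  rw [← h]
  congr 1
  push_cast
  field_simp
  ring

theorem lamCoeff_betaU (u : ℂ) (N : ℕ) :
    lamCoeff (betaU u) N = ∑ d ∈ N.divisors, (d : ℂ) * (u ^ d + u⁻¹ ^ d - 2) := by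
  unfold lamCoeff
  rw [Nat.sum_divisorsAntidiagonal' (f := fun a d => betaU u a d * (d : ℂ))]
  refine Finset.sum_congr rfl fun d _ => ?_
  unfold betaU
  ring

theorem aCoeff_eq_wpCoeff (u : ℂ) (N : ℕ) :
    wpCoeff u N = aCoeff u N + if N = 0 then 1 / 12 else 0 := by
  unfold wpCoeff aCoeff
  by_cases hN : N = 0
  · simp [hN]; ring
  · simp [hN, lamCoeff_betaU]

theorem qParam_one_eq_nome (τ : ℍ) : 𝕢 1 τ = nome τ := by
  unfold Function.Periodic.qParam nome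
  simp

/-- **the `q`-expansion** of `wpDiv p 0 s`, `p ∤ s`. -/
theorem wpDiv_qexp (p : ℕ) (hp : 0 < p) (s : ℤ) (hs : ¬ (p : ℤ) ∣ s) (τ : ℍ) :
    HasSum (fun n : ℕ => wpCoeff (cexp (2 * π * Complex.I * s / p)) n * 𝕢 1 τ ^ n)
      (wpDiv p 0 s τ) := by
  have hpc : (p : ℝ) ≠ 0 := by exact_mod_cast hp.ne'
  have hx : ∀ n : ℤ, ((s : ℝ) / p) ≠ n := by
    intro n hn
    apply hs
    refine ⟨n, ?_⟩
    have : (s : ℝ) = p * n := by
      field_simp at hn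
      linarith
    exact_mod_cast this
  have h := hasSum_wpReal τ hx
  have hu : cexp (2 * π * Complex.I * ((s : ℝ) / p : ℝ)) = cexp (2 * π * Complex.I * s / p) := by
    congr 1
    push_cast
    ring
  rw [hu] at h
  have hconst := hasSum_ite_eq (0 : ℕ) (1 / 12 : ℂ)
  have hsum := h.add hconst
  have hfun : (fun N : ℕ => aCoeff (cexp (2 * π * Complex.I * s / p)) N * nome τ ^ N +
      (if N = 0 then (1 / 12 : ℂ) else 0)) =
      fun n : ℕ => wpCoeff (cexp (2 * π * Complex.I * s / p)) n * 𝕢 1 τ ^ n := by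
    funext N
    rw [aCoeff_eq_wpCoeff, qParam_one_eq_nome]
    by_cases hN : N = 0
    · subst hN; simp
    · simp [hN]
  rw [hfun] at hsum
  convert hsum using 1
  rw [wpDiv_eq]
  have hz : (((0 : ℤ) : ℂ) * τ + s) / p = (((s : ℝ) / p : ℝ) : ℂ) := by
    push_cast
    ring
  rw [hz]
  field_simp
  ring

/-- the bijection of `ℤ²` given by right multiplication with `γ ∈ SL(2, ℤ)`. -/
def rowEquiv (γ : SL(2, ℤ)) : ℤ × ℤ ≃ ℤ × ℤ where
  toFun x := (x.1 * γ 0 0 + x.2 * γ 1 0, x.1 * γ 0 1 + x.2 * γ 1 1)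
  invFun y := (y.1 * γ 1 1 - y.2 * γ 1 0, -(y.1 * γ 0 1) + y.2 * γ 0 0)
  left_inv x := by
    have hdet : γ 0 0 * γ 1 1 - γ 0 1 * γ 1 0 = 1 := by
      have := γ.det_coe
      rwa [Matrix.det_fin_two] at this
    ext
    · show (x.1 * γ 0 0 + x.2 * γ 1 0) * γ 1 1 - (x.1 * γ 0 1 + x.2 * γ 1 1) * γ 1 0 = x.1
      linear_combination x.1 * hdet
    · show -((x.1 * γ 0 0 + x.2 * γ 1 0) * γ 0 1) + (x.1 * γ 0 1 + x.2 * γ 1 1) * γ 0 0 = x.2
      linear_combination x.2 * hdet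
  right_inv y := by
    have hdet : γ 0 0 * γ 1 1 - γ 0 1 * γ 1 0 = 1 := by
      have := γ.det_coe
      rwa [Matrix.det_fin_two] at this
    ext
    · show (y.1 * γ 1 1 - y.2 * γ 1 0) * γ 0 0 + (-(y.1 * γ 0 1) + y.2 * γ 0 0) * γ 1 0 = y.1
      linear_combination y.1 * hdet
    · show (y.1 * γ 1 1 - y.2 * γ 1 0) * γ 0 1 + (-(y.1 * γ 0 1) + y.2 * γ 0 0) * γ 1 1 = y.2
      linear_combination y.2 * hdet

theorem one_div_div_sq (x j : ℂ) : 1 / (x / j) ^ 2 = j ^ 2 * (1 / x ^ 2) := by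
  rw [div_pow, one_div_div, div_eq_mul_one_div]

/-- **homogeneity**: `℘(w; ℤ γτ + ℤ) = (cτ+d)² ℘((cτ+d) w; ℤτ + ℤ)`. -/
theorem weierstrassP_smul (γ : SL(2, ℤ)) (τ : ℍ) (z : ℂ) :
    ℘[stdPair (γ • τ)] (z / denom γ τ) = denom γ τ ^ 2 * ℘[stdPair τ] z := by
  set j : ℂ := denom γ τ with hj
  have hj0 : j ≠ 0 := denom_ne_zero γ τ
  have hjd : j = (γ 1 0 : ℂ) * τ + γ 1 1 := by
    rw [hj]
    simp [denom]
  have hτ' : ((γ • τ : ℍ) : ℂ) = ((γ 0 0 : ℂ) * τ + γ 0 1) / j := by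
    rw [coe_specialLinearGroup_apply, hjd]
    simp
  have h1 := hasSum_prod_weierstrassP (γ • τ) (z / j)
  have h2 := hasSum_prod_weierstrassP τ z
  have h3 := ((rowEquiv γ).hasSum_iff).mpr h2
  have h4 := h3.mul_left (j ^ 2)
  have key : (fun x : ℤ × ℤ => 1 / (z / j - ((x.1 : ℂ) * ((γ • τ : ℍ) : ℂ) + x.2)) ^ 2 -
      1 / ((x.1 : ℂ) * ((γ • τ : ℍ) : ℂ) + x.2) ^ 2) =
      fun i => j ^ 2 * ((fun x : ℤ × ℤ => 1 / (z - ((x.1 : ℂ) * τ + x.2)) ^ 2 -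
        1 / ((x.1 : ℂ) * τ + x.2) ^ 2) ∘ ⇑(rowEquiv γ)) i := by
    funext x
    simp only [Function.comp_apply]
    have hl : ((x.1 : ℂ) * ((γ • τ : ℍ) : ℂ) + x.2) =
        ((((rowEquiv γ x).1 : ℤ) : ℂ) * τ + (((rowEquiv γ x).2 : ℤ) : ℂ)) / j := by
      rw [hτ']
      show _ = ((((x.1 * γ 0 0 + x.2 * γ 1 0 : ℤ)) : ℂ) * τ +
        ((x.1 * γ 0 1 + x.2 * γ 1 1 : ℤ) : ℂ)) / j
      push_cast
      field_simp
      rw [hjd]
      ring
    rw [hl, ← sub_div, one_div_div_sq, one_div_div_sq]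
    ring
  rw [key] at h1
  exact h1.unique h4

/-- **the weight-2 transformation law**. -/
theorem wpDiv_slash (p : ℕ) (r s : ℤ) (γ : SL(2, ℤ)) :
    (wpDiv p r s) ∣[(2 : ℤ)] γ = wpDiv p (r * γ 0 0 + s * γ 1 0) (r * γ 0 1 + s * γ 1 1) := by
  funext τ
  rw [SL_slash_apply, wpDiv_eq, wpDiv_eq]
  set j : ℂ := denom γ τ with hj
  have hj0 : j ≠ 0 := denom_ne_zero γ τ
  have hjd : j = (γ 1 0 : ℂ) * τ + γ 1 1 := by
    rw [hj]
    simp [denom]
  have hτ' : ((γ • τ : ℍ) : ℂ) = ((γ 0 0 : ℂ) * τ + γ 0 1) / j := by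
    rw [coe_specialLinearGroup_apply, hjd]
    simp
  have hz : ((r : ℂ) * ((γ • τ : ℍ) : ℂ) + s) / p =
      ((((r * γ 0 0 + s * γ 1 0 : ℤ) : ℂ) * τ + ((r * γ 0 1 + s * γ 1 1 : ℤ) : ℂ)) / p) / j := by
    rw [hτ', div_right_comm]
    congr 1
    push_cast
    field_simp
    rw [hjd]
    ring
  rw [hz, weierstrassP_smul, ← hj]
  have : j ^ (-(2 : ℤ)) = (j ^ 2)⁻¹ := by
    rw [zpow_neg]
    norm_cast
  rw [this]
  field_simp

end

end Fermat.Agent.MZ
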