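/-
MZ (MOD), helper3, part 5: the analytic part of `WpDivData p (wpDiv p)` — holomorphy in `τ` and the
limit `1/12` at `i∞` for `p ∤ r` — from the partial Fourier expansion (Weierstrass M-test).
-/
import Mathlib
import Fermat.Agent.MZ.MOD_helper3_WpAlg

set_option autoImplicit false

namespace Fermat.Agent.MZ

open Complex UpperHalfPlane Filter Topology ModularForm
open scoped PeriodPair Real MatrixGroups Manifold
open Fermat.Agent.X0N

noncomputable section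

/-- closed form of `L(ρ) = ∑ d ρ^d`. -/
theorem lamL_eq {ρ : ℂ} (h : ‖ρ‖ < 1) : lamL ρ = ρ / (1 - ρ) ^ 2 :=
  (hasSum_coe_mul_geometric_of_norm_lt_one h).tsum_eq

theorem norm_lamL_le {ρ : ℂ} {t : ℝ} (ht : t < 1) (h : ‖ρ‖ ≤ t) :
    ‖lamL ρ‖ ≤ t / (1 - t) ^ 2 := by
  have hρ : ‖ρ‖ < 1 := lt_of_le_of_lt h ht
  rw [lamL_eq hρ, norm_div, norm_pow]
  have h1 : 1 - t ≤ ‖1 - ρ‖ := by
    have := norm_sub_norm_le (1 : ℂ) ρ
    simp only [norm_one] at this
    linarith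
  have h2 : 0 < 1 - t := by linarith
  have h3 : (1 - t) ^ 2 ≤ ‖1 - ρ‖ ^ 2 := pow_le_pow_left₀ h2.le h1 2
  have h0 : 0 ≤ t := le_trans (norm_nonneg _) h
  calc ‖ρ‖ / ‖1 - ρ‖ ^ 2 ≤ t / ‖1 - ρ‖ ^ 2 := by gcongr
    _ ≤ t / (1 - t) ^ 2 := by gcongr

theorem differentiableOn_lamL : DifferentiableOn ℂ lamL (Metric.ball 0 1) := by
  have h : DifferentiableOn ℂ (fun ρ : ℂ => ρ / (1 - ρ) ^ 2) (Metric.ball 0 1) := by
    intro ρ hρ
    have hρ1 : ‖ρ‖ < 1 := by simpa using hρ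
    have hne : (1 - ρ) ^ 2 ≠ 0 := by
      apply pow_ne_zero
      intro h0
      have : ρ = 1 := by linear_combination -h0
      rw [this, norm_one] at hρ1
      exact lt_irrefl _ hρ1
    have hd : DifferentiableAt ℂ (fun ρ : ℂ => (1 - ρ) ^ 2) ρ :=
      ((differentiableAt_const (1 : ℂ)).sub differentiableAt_id).pow 2
    exact (differentiableAt_id.div hd hne).differentiableWithinAt
  refine h.congr fun ρ hρ => ?_
  exact lamL_eq (by simpa using hρ)

/-- the `n`-th term of the partial Fourier expansion, in Lambert form. -/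
def lamTerm (q u : ℂ) (n : ℕ) : ℂ :=
  lamL (q ^ (n + 1) * u⁻¹) + lamL (q ^ (n + 1) * u) - 2 * lamL (q ^ (n + 1))

theorem norm_lamTerm_le {q u : ℂ} {t : ℝ} (ht0 : 0 ≤ t) (ht : t < 1) (n : ℕ)
    (h1 : ‖q ^ (n + 1) * u⁻¹‖ ≤ t ^ (n + 1)) (h2 : ‖q ^ (n + 1) * u‖ ≤ t ^ (n + 1))
    (h3 : ‖q ^ (n + 1)‖ ≤ t ^ (n + 1)) :
    ‖lamTerm q u n‖ ≤ 4 * t ^ (n + 1) / (1 - t) ^ 2 := by
  have htn : t ^ (n + 1) ≤ t := by
    calc t ^ (n + 1) ≤ t ^ 1 := pow_le_pow_of_le_one ht0 ht.le (by omega)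
      _ = t := pow_one t
  have htn1 : t ^ (n + 1) < 1 := lt_of_le_of_lt htn ht
  have h0 : 0 ≤ t ^ (n + 1) := pow_nonneg ht0 _
  have hb : t ^ (n + 1) / (1 - t ^ (n + 1)) ^ 2 ≤ t ^ (n + 1) / (1 - t) ^ 2 := by
    have : (1 - t) ^ 2 ≤ (1 - t ^ (n + 1)) ^ 2 :=
      pow_le_pow_left₀ (by linarith) (by linarith) 2
    have hpos : 0 < (1 - t) ^ 2 := by
      have : 0 < 1 - t := by linarith
      positivity
    gcongr
  have b1 := (norm_lamL_le htn1 h1).trans hb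
  have b2 := (norm_lamL_le htn1 h2).trans hb
  have b3 := (norm_lamL_le htn1 h3).trans hb
  unfold lamTerm
  calc ‖lamL (q ^ (n + 1) * u⁻¹) + lamL (q ^ (n + 1) * u) - 2 * lamL (q ^ (n + 1))‖
      ≤ ‖lamL (q ^ (n + 1) * u⁻¹) + lamL (q ^ (n + 1) * u)‖ + ‖2 * lamL (q ^ (n + 1))‖ :=
        norm_sub_le _ _
    _ ≤ ‖lamL (q ^ (n + 1) * u⁻¹)‖ + ‖lamL (q ^ (n + 1) * u)‖ + 2 * ‖lamL (q ^ (n + 1))‖ := by
        rw [norm_mul]
        simp only [Complex.norm_ofNat]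
        gcongr
        exact norm_add_le _ _
    _ ≤ 4 * t ^ (n + 1) / (1 - t) ^ 2 := by
        rw [mul_div_assoc]
        linarith

/-- `t(w) = e^{-2π Im w / p}` -/
def tPar (p : ℕ) (w : ℂ) : ℝ := Real.exp (-(2 * π * w.im / p))

/-- `q(w) = e^{2πi w}` -/
def Qf (w : ℂ) : ℂ := cexp (2 * π * Complex.I * w)

/-- `u(w) = e^{2πi (r w + s)/p}` -/
def Uf (p r' : ℕ) (s : ℤ) (w : ℂ) : ℂ := cexp (2 * π * Complex.I * (((r' : ℂ) * w + s) / p))

theorem tPar_pos (p : ℕ) (w : ℂ) : 0 < tPar p w := Real.exp_pos _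

theorem tPar_lt_one {p : ℕ} (hp : 0 < p) {w : ℂ} (hw : 0 < w.im) : tPar p w < 1 := by
  unfold tPar
  have hp' : (0 : ℝ) < p := by exact_mod_cast hp
  have : 0 < 2 * π * w.im / p := by positivity
  rw [Real.exp_lt_one_iff]
  linarith

theorem norm_Qf {p : ℕ} (hp : 0 < p) (w : ℂ) : ‖Qf w‖ = tPar p w ^ p := by
  have hp' : (p : ℝ) ≠ 0 := by exact_mod_cast hp.ne'
  unfold Qf tPar
  rw [Complex.norm_exp, ← Real.exp_nat_mul]
  congr 1
  have : (2 * π * Complex.I * w).re = -(2 * π * w.im) := by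
    simp [Complex.mul_re]
  rw [this]
  field_simp

theorem norm_Uf {p : ℕ} (hp : 0 < p) (r' : ℕ) (s : ℤ) (w : ℂ) :
    ‖Uf p r' s w‖ = tPar p w ^ r' := by
  have hp' : (p : ℝ) ≠ 0 := by exact_mod_cast hp.ne'
  unfold Uf tPar
  rw [Complex.norm_exp, ← Real.exp_nat_mul]
  congr 1
  have : (2 * π * Complex.I * (((r' : ℂ) * w + s) / p)).re = -(2 * π * (r' * w.im / p)) := by
    have h1 : (((r' : ℂ) * w + s) / p) = ((((r' : ℝ) * w.re + s) / p : ℝ) : ℂ) +
        (((r' : ℝ) * w.im / p : ℝ) : ℂ) * Complex.I := by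
      apply Complex.ext
      · simp [Complex.div_re, Complex.mul_re]
      · simp [Complex.div_im, Complex.mul_im]
        field_simp
    rw [h1]
    simp [Complex.mul_re]
  rw [this]
  field_simp

theorem norm_QU_le {p r' : ℕ} (hr' : r' < p) (s : ℤ) {w : ℂ} (hw : 0 < w.im) {T : ℝ}
    (hT : tPar p w ≤ T) (n : ℕ) :
    ‖Qf w ^ (n + 1) * (Uf p r' s w)⁻¹‖ ≤ T ^ (n + 1) ∧
    ‖Qf w ^ (n + 1) * Uf p r' s w‖ ≤ T ^ (n + 1) ∧ ‖Qf w ^ (n + 1)‖ ≤ T ^ (n + 1) := by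
  have hp : 0 < p := by omega
  set t := tPar p w with ht
  have ht0 : 0 < t := tPar_pos p w
  have ht1 : t < 1 := tPar_lt_one hp hw
  have hle : t ^ (n + 1) ≤ T ^ (n + 1) := pow_le_pow_left₀ ht0.le hT _
  have hQ : ‖Qf w ^ (n + 1)‖ = t ^ (p * (n + 1)) := by rw [norm_pow, norm_Qf hp, ← pow_mul]
  have hU : ‖Uf p r' s w‖ = t ^ r' := norm_Uf hp r' s w
  have hk : r' + (n + 1) ≤ p * (n + 1) := by nlinarith
  refine ⟨?_, ?_, ?_⟩
  · rw [norm_mul, norm_inv, hQ, hU]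
    have : t ^ (p * (n + 1)) = t ^ r' * t ^ (p * (n + 1) - r') := by
      rw [← pow_add]
      congr 1
      omega
    rw [this, mul_comm, ← mul_assoc, inv_mul_cancel₀ (pow_ne_zero _ ht0.ne'), one_mul]
    exact (pow_le_pow_of_le_one ht0.le ht1.le (by omega)).trans hle
  · rw [norm_mul, hQ, hU, ← pow_add]
    exact (pow_le_pow_of_le_one ht0.le ht1.le (by omega)).trans hle
  · rw [hQ]
    exact (pow_le_pow_of_le_one ht0.le ht1.le (by nlinarith)).trans hle

/-- the partial Fourier expansion of `wpDiv p r' s`, `0 ≤ r' < p`. -/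
theorem wpDiv_eq_tsum {p r' : ℕ} (hr' : r' < p) (s : ℤ) (τ : ℍ) :
    wpDiv p r' s τ = 1 / 12 + zsum (((r' : ℂ) * τ + s) / p) / (2 * π * Complex.I) ^ 2 +
      ∑' n : ℕ, lamTerm (Qf τ) (Uf p r' s τ) n := by
  have hp : (0 : ℝ) < p := by exact_mod_cast (show 0 < p by omega)
  have hτ := τ.im_pos
  have him : ((((r' : ℂ) * τ + s) / p)).im = r' * τ.im / p := by
    have h1 : (((r' : ℂ) * τ + s) / p) = ((((r' : ℝ) * (τ : ℂ).re + s) / p : ℝ) : ℂ) +
        (((r' : ℝ) * (τ : ℂ).im / p : ℝ) : ℂ) * Complex.I := by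
      apply Complex.ext
      · simp [Complex.div_re, Complex.mul_re]
      · simp [Complex.div_im, Complex.mul_im]
        field_simp
    rw [h1]
    simp
  have hr1 : (r' : ℝ) < p := by exact_mod_cast hr'
  have hr0 : (0 : ℝ) ≤ r' := Nat.cast_nonneg _
  have h1 : -τ.im < ((((r' : ℂ) * τ + s) / p)).im := by
    rw [him]
    have : 0 ≤ (r' : ℝ) * τ.im / p := by positivity
    linarith
  have h2 : ((((r' : ℂ) * τ + s) / p)).im < τ.im := by
    rw [him, div_lt_iff₀ hp]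
    nlinarith
  have h := (hasSum_wp_lamL τ _ h1 h2).tsum_eq
  have hw : wpDiv p r' s τ = ℘[stdPair τ] (((r' : ℂ) * τ + s) / p) / (2 * π * Complex.I) ^ 2 := by
    rw [wpDiv_eq, Int.cast_natCast]
    exact (div_eq_inv_mul _ _).symm
  rw [hw]
  have h' : ∑' n : ℕ, lamTerm (Qf τ) (Uf p r' s τ) n =
      ℘[stdPair τ] (((r' : ℂ) * τ + s) / p) / (2 * π * Complex.I) ^ 2 - 1 / 12 -
        zsum (((r' : ℂ) * τ + s) / p) / (2 * π * Complex.I) ^ 2 := by
    rw [← h]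
    rfl
  rw [h']
  ring

theorem hasSum_lamBound {t : ℝ} (ht0 : 0 ≤ t) (ht : t < 1) :
    HasSum (fun n : ℕ => 4 * t ^ (n + 1) / (1 - t) ^ 2) (4 * t / (1 - t) ^ 3) := by
  have h := (hasSum_geometric_of_lt_one ht0 ht).mul_left (4 * t / (1 - t) ^ 2)
  have key : (fun n : ℕ => 4 * t ^ (n + 1) / (1 - t) ^ 2) =
      fun n : ℕ => 4 * t / (1 - t) ^ 2 * t ^ n := by
    funext n
    ring
  have hne : (1 - t) ≠ 0 := by linarith
  have hval : 4 * t / (1 - t) ^ 2 * (1 - t)⁻¹ = 4 * t / (1 - t) ^ 3 := by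
    field_simp
  rw [key, ← hval]
  exact h

theorem im_divPt {p r' : ℕ} (s : ℤ) (w : ℂ) :
    ((((r' : ℂ) * w + s) / p)).im = r' * w.im / p := by
  have h1 : (((r' : ℂ) * w + s) / p) = ((((r' : ℝ) * w.re + s) / p : ℝ) : ℂ) +
      (((r' : ℝ) * w.im / p : ℝ) : ℂ) * Complex.I := by
    apply Complex.ext
    · simp [Complex.div_re, Complex.mul_re]
    · simp [Complex.div_im, Complex.mul_im]
      field_simp
  rw [h1]
  simp

theorem zsum_div_eq_lamL {p r' : ℕ} (hr0 : 0 < r') (hp : 0 < p) (s : ℤ) {w : ℂ} (hw : 0 < w.im) :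
    zsum (((r' : ℂ) * w + s) / p) / (2 * π * Complex.I) ^ 2 = lamL (Uf p r' s w) := by
  have him : 0 < ((((r' : ℂ) * w + s) / p)).im := by
    rw [im_divPt]
    have h1 : (0 : ℝ) < r' := by exact_mod_cast hr0
    have h2 : (0 : ℝ) < p := by exact_mod_cast hp
    positivity
  rw [zsum_eq_lamL him, mul_div_cancel_left₀ _ two_pi_I_sq_ne_zero]
  rfl

theorem norm_wpDiv_sub_le {p r' : ℕ} (hr0 : 0 < r') (hr' : r' < p) (s : ℤ) (τ : ℍ) :
    ‖wpDiv p r' s τ - 1 / 12‖ ≤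
      tPar p τ / (1 - tPar p τ) ^ 2 + 4 * tPar p τ / (1 - tPar p τ) ^ 3 := by
  have hp : 0 < p := by omega
  set t := tPar p τ with ht
  have ht0 : 0 < t := tPar_pos p τ
  have ht1 : t < 1 := tPar_lt_one hp τ.im_pos
  rw [wpDiv_eq_tsum hr' s τ, zsum_div_eq_lamL hr0 hp s τ.im_pos]
  have e : (1 / 12 + lamL (Uf p r' s τ) + ∑' n : ℕ, lamTerm (Qf τ) (Uf p r' s τ) n - 1 / 12 : ℂ) =
      lamL (Uf p r' s τ) + ∑' n : ℕ, lamTerm (Qf τ) (Uf p r' s τ) n := by ring
  rw [e]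
  refine (norm_add_le _ _).trans (add_le_add ?_ ?_)
  · apply norm_lamL_le ht1
    rw [norm_Uf hp]
    calc t ^ r' ≤ t ^ 1 := pow_le_pow_of_le_one ht0.le ht1.le hr0
      _ = t := pow_one t
  · refine tsum_of_norm_bounded (hasSum_lamBound ht0.le ht1) fun n => ?_
    obtain ⟨b1, b2, b3⟩ := norm_QU_le hr' s τ.im_pos (le_refl (tPar p τ)) n
    exact norm_lamTerm_le ht0.le ht1 n b1 b2 b3

theorem tendsto_tPar {p : ℕ} (hp : 0 < p) : Tendsto (fun τ : ℍ => tPar p τ) atImInfty (𝓝 0) := by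
  have hp' : (0 : ℝ) < p := by exact_mod_cast hp
  have h1 : Tendsto (fun τ : ℍ => τ.im) atImInfty atTop := tendsto_comap
  have h2 : Tendsto (fun τ : ℍ => 2 * π / p * τ.im) atImInfty atTop :=
    h1.const_mul_atTop (by positivity)
  have h3 := Real.tendsto_exp_neg_atTop_nhds_zero.comp h2
  refine h3.congr fun τ => ?_
  simp only [Function.comp_apply, tPar]
  congr 1
  show -(2 * π / p * (τ : ℂ).im) = _
  ring

theorem wpDiv_tendsto_nat {p r' : ℕ} (hr0 : 0 < r') (hr' : r' < p) (s : ℤ) :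
    Tendsto (wpDiv p r' s) atImInfty (𝓝 (1 / 12)) := by
  have hp : 0 < p := by omega
  rw [tendsto_iff_norm_sub_tendsto_zero]
  have hB : ContinuousAt (fun t : ℝ => t / (1 - t) ^ 2 + 4 * t / (1 - t) ^ 3) 0 := by
    have hd : ∀ k : ℕ, ContinuousAt (fun t : ℝ => (1 - t) ^ k) 0 := fun k =>
      ((continuousAt_const.sub continuousAt_id).pow k)
    refine ContinuousAt.add (continuousAt_id.div (hd 2) (by norm_num)) ?_
    exact (continuousAt_const.mul continuousAt_id).div (hd 3) (by norm_num)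
  have hB' := hB.tendsto.comp (tendsto_tPar hp)
  simp only [sub_zero, one_pow, div_one, mul_zero, add_zero] at hB'
  exact squeeze_zero (fun _ => norm_nonneg _) (fun τ => norm_wpDiv_sub_le hr0 hr' s τ) hB'

/-- reduction of `r` modulo `p`. -/
theorem wpDiv_emod {p : ℕ} (r s : ℤ) : wpDiv p r s = wpDiv p (r % p) s := by
  funext τ
  have h := wpDiv_periodic p (r % p) s (r / p) 0 τ
  rw [Int.emod_add_mul_ediv, mul_zero, add_zero] at h
  exact h

/-- **the limit at `i∞`** for `p ∤ r`. -/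
theorem wpDiv_tendsto {p : ℕ} (hp : 0 < p) (r s : ℤ) (hr : ¬ (p : ℤ) ∣ r) :
    Tendsto (wpDiv p r s) atImInfty (𝓝 (1 / 12)) := by
  have hp' : (0 : ℤ) < p := by exact_mod_cast hp
  rw [wpDiv_emod]
  have h0 : 0 ≤ r % p := Int.emod_nonneg _ hp'.ne'
  have h1 : r % p < p := Int.emod_lt_of_pos _ hp'
  have h2 : r % p ≠ 0 := fun h => hr (Int.dvd_of_emod_eq_zero h)
  obtain ⟨r', hr'⟩ := Int.eq_ofNat_of_zero_le h0
  rw [hr']
  rw [hr'] at h1 h2
  exact wpDiv_tendsto_nat (by omega) (by exact_mod_cast h1) s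

theorem differentiable_Qf : Differentiable ℂ Qf := by
  unfold Qf
  fun_prop

theorem differentiable_Uf (p r' : ℕ) (s : ℤ) : Differentiable ℂ (Uf p r' s) := by
  unfold Uf
  fun_prop

theorem Uf_ne_zero (p r' : ℕ) (s : ℤ) (w : ℂ) : Uf p r' s w ≠ 0 := Complex.exp_ne_zero _

theorem differentiableOn_lamL_comp {g : ℂ → ℂ} (hd : Differentiable ℂ g)
    (hg : ∀ w : ℂ, 0 < w.im → ‖g w‖ < 1) :
    DifferentiableOn ℂ (fun w => lamL (g w)) {w : ℂ | 0 < w.im} :=
  differentiableOn_lamL.comp hd.differentiableOn (fun w hw => by simpa using hg w hw)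

theorem differentiableOn_lamTerm {p r' : ℕ} (hr' : r' < p) (s : ℤ) (n : ℕ) :
    DifferentiableOn ℂ (fun w => lamTerm (Qf w) (Uf p r' s w) n) {w : ℂ | 0 < w.im} := by
  have hp : 0 < p := by omega
  have hlt : ∀ w : ℂ, 0 < w.im → tPar p w ^ (n + 1) < 1 := fun w hw =>
    pow_lt_one₀ (tPar_pos p w).le (tPar_lt_one hp hw) (Nat.succ_ne_zero n)
  unfold lamTerm
  refine ((differentiableOn_lamL_comp ?_ ?_).add (differentiableOn_lamL_comp ?_ ?_)).sub
    ((differentiableOn_const (2 : ℂ)).mul (differentiableOn_lamL_comp ?_ ?_))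
  · exact (differentiable_Qf.pow (n + 1)).mul
      ((differentiable_Uf p r' s).inv (Uf_ne_zero p r' s))
  · intro w hw
    exact lt_of_le_of_lt (norm_QU_le hr' s hw (le_refl _) n).1 (hlt w hw)
  · exact (differentiable_Qf.pow (n + 1)).mul (differentiable_Uf p r' s)
  · intro w hw
    exact lt_of_le_of_lt (norm_QU_le hr' s hw (le_refl _) n).2.1 (hlt w hw)
  · exact differentiable_Qf.pow (n + 1)
  · intro w hw
    exact lt_of_le_of_lt (norm_QU_le hr' s hw (le_refl _) n).2.2 (hlt w hw)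

theorem differentiableOn_tsum_lamTerm {p r' : ℕ} (hr' : r' < p) (s : ℤ) :
    DifferentiableOn ℂ (fun w => ∑' n : ℕ, lamTerm (Qf w) (Uf p r' s w) n)
      {w : ℂ | 0 < w.im} := by
  intro w₀ hw₀
  have hw₀' : 0 < w₀.im := hw₀
  have hp : 0 < p := by omega
  have hp' : (0 : ℝ) < p := by exact_mod_cast hp
  set c : ℝ := w₀.im / 2 with hc
  have hc0 : 0 < c := by positivity
  set S : Set ℂ := {w : ℂ | c < w.im} with hS
  have hSo : IsOpen S := isOpen_lt continuous_const Complex.continuous_im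
  have hmem : w₀ ∈ S := by
    show c < w₀.im
    linarith
  set T : ℝ := Real.exp (-(2 * π * c / p)) with hT
  have hT0 : 0 < T := Real.exp_pos _
  have hT1 : T < 1 := by
    rw [hT, Real.exp_lt_one_iff]
    have : 0 < 2 * π * c / p := by positivity
    linarith
  have hsub : S ⊆ {w : ℂ | 0 < w.im} := fun w hw => lt_trans hc0 hw
  have hle : ∀ w ∈ S, tPar p w ≤ T := by
    intro w hw
    have hw' : c < w.im := hw
    unfold tPar
    rw [hT]
    apply Real.exp_le_exp.mpr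
    have : 2 * π * c / p ≤ 2 * π * w.im / p := by gcongr
    linarith
  have key := differentiableOn_tsum_of_summable_norm
    (u := fun n : ℕ => 4 * T ^ (n + 1) / (1 - T) ^ 2)
    (hasSum_lamBound hT0.le hT1).summable
    (fun n => (differentiableOn_lamTerm hr' s n).mono hsub) hSo
    (fun n w hw => by
      obtain ⟨b1, b2, b3⟩ := norm_QU_le hr' s (hsub hw) (hle w hw) n
      exact norm_lamTerm_le hT0.le hT1 n b1 b2 b3)
  exact ((key w₀ hmem).differentiableAt (hSo.mem_nhds hmem)).differentiableWithinAt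

theorem mdifferentiable_wpDiv_nat {p r' : ℕ} (hr' : r' < p) (s : ℤ) :
    MDiff (wpDiv p r' s) := by
  rw [UpperHalfPlane.mdifferentiable_iff]
  have hp : 0 < p := by omega
  have hF : DifferentiableOn ℂ (fun w : ℂ => 1 / 12 +
      zsum (((r' : ℂ) * w + s) / p) / (2 * π * Complex.I) ^ 2 +
      ∑' n : ℕ, lamTerm (Qf w) (Uf p r' s w) n) {w : ℂ | 0 < w.im} := by
    refine ((differentiableOn_const _).add ?_).add (differentiableOn_tsum_lamTerm hr' s)
    rcases Nat.eq_zero_or_pos r' with h0 | h0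
    · subst h0
      simp only [Nat.cast_zero, zero_mul, zero_add]
      exact differentiableOn_const _
    · refine DifferentiableOn.congr (f := fun w => lamL (Uf p r' s w)) ?_
        (fun w hw => zsum_div_eq_lamL h0 hp s hw)
      refine differentiableOn_lamL_comp (differentiable_Uf p r' s) fun w hw => ?_
      rw [norm_Uf hp]
      exact pow_lt_one₀ (tPar_pos p w).le (tPar_lt_one hp hw) h0.ne'
  refine hF.congr fun w hw => ?_
  simp only [Function.comp_apply]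
  rw [ofComplex_apply_of_im_pos hw]
  exact wpDiv_eq_tsum hr' s ⟨w, hw⟩

/-- **holomorphy** of `τ ↦ wpDiv p r s τ`. -/
theorem mdifferentiable_wpDiv {p : ℕ} (hp : 0 < p) (r s : ℤ) : MDiff (wpDiv p r s) := by
  have hp' : (0 : ℤ) < p := by exact_mod_cast hp
  rw [wpDiv_emod]
  have h0 : 0 ≤ r % p := Int.emod_nonneg _ hp'.ne'
  have h1 : r % p < p := Int.emod_lt_of_pos _ hp'
  obtain ⟨r', hr'⟩ := Int.eq_ofNat_of_zero_le h0
  rw [hr']
  rw [hr'] at h1
  exact mdifferentiable_wpDiv_nat (by exact_mod_cast h1) s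

/-- **the analytic input of the function-field part.** -/
theorem wpDivData {p : ℕ} (hp : 0 < p) : WpDivData p (wpDiv p) where
  holo r s _ := mdifferentiable_wpDiv hp r s
  periodic r s k l := funext fun τ => wpDiv_periodic p r s k l τ
  slash r s _ γ := wpDiv_slash p r s γ
  qexp s hs τ := wpDiv_qexp p hp s hs τ
  tendsto r s hr := wpDiv_tendsto hp r s hr

end

end Fermat.Agent.MZ
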