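/-
PROJECT MZ (S15), (MOD) [PL] — helper1.  **(PL4) + (PL5)**: the place `hPlace τ₀` of `Ω·F_p`
attached to a point `τ₀ ∈ ℍ` with `j(τ₀) ∈ ℚ ∖ {0, 1728}` at which all the symmetric functions
`mzEBar k` take rational values: the values, and the fixedness under the arithmetic Galois action.
-/
import Mathlib
import Fermat.Agent.MZ.MOD_helper1_Pole
import Fermat.Agent.MZ.MOD_helper3_WpHol
import Fermat.Agent.Tate.CX_helper8_Add
import Fermat.Agent.JA.RED_helper7_Coords

set_option autoImplicit false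
set_option linter.unusedSectionVars false
set_option synthInstance.maxHeartbeats 400000

open ModularCurve AlgebraicCurve UpperHalfPlane
open scoped MatrixGroups

namespace Fermat.Agent.MZ

local notation "Ω" => AlgebraicClosure ℚ
local notation "GQ" => (AlgebraicClosure ℚ ≃ₐ[ℚ] AlgebraicClosure ℚ)

open Fermat.Agent.JA Fermat.Agent.X0N Fermat.Agent.MW

attribute [local instance] algOmC isScalarTower_algOmC

section MerValue

/-- uniqueness of the value of a meromorphic function at a point. -/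
theorem merH_value_unique {x : MerH} {v v' : ℂ} (τ : ℍ)
    (h : x - MerH.const v = 0 ∨ 0 < MerH.ordAt τ (x - MerH.const v))
    (h' : x - MerH.const v' = 0 ∨ 0 < MerH.ordAt τ (x - MerH.const v')) : v = v' := by
  by_contra hne
  have hc : v' - v ≠ 0 := sub_ne_zero.mpr (Ne.symm hne)
  have hc' : v - v' ≠ 0 := sub_ne_zero.mpr hne
  have hAB : (x - MerH.const v) - (x - MerH.const v') = MerH.const (v' - v) := by
    rw [map_sub]; ring
  rcases h with h | h
  · rcases h' with h' | h'
    · apply hne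
      apply MerH.const_injective
      rw [← sub_eq_zero]
      have := hAB
      rw [h, h', sub_zero] at this
      have h2 : MerH.const v' - MerH.const v = 0 := by rw [← map_sub, ← this]
      rw [← neg_sub, h2, neg_zero]
    · have e : x - MerH.const v' = MerH.const (v - v') := by
        have h1 : x = MerH.const v := sub_eq_zero.mp h
        rw [h1, map_sub]
      rw [e, MerH.ordAt_const hc'] at h'
      exact lt_irrefl _ h'
  · rcases h' with h' | h'
    · have e : x - MerH.const v = MerH.const (v' - v) := by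
        have h1 : x = MerH.const v' := sub_eq_zero.mp h'
        rw [h1, map_sub]
      rw [e, MerH.ordAt_const hc] at h
      exact lt_irrefl _ h
    · have hA : x - MerH.const v ≠ 0 := by
        intro h0
        rw [h0, MerH.ordAt_zero] at h
        exact lt_irrefl _ h
      have hB : -(x - MerH.const v') ≠ 0 := by
        intro h0
        rw [neg_eq_zero] at h0
        rw [h0, MerH.ordAt_zero] at h'
        exact lt_irrefl _ h'
      have hsum : (x - MerH.const v) + -(x - MerH.const v') = MerH.const (v' - v) := by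
        rw [← sub_eq_add_neg, hAB]
      have hsum0 : (x - MerH.const v) + -(x - MerH.const v') ≠ 0 := by
        rw [hsum]
        intro h0
        exact hc (MerH.const_injective (by rw [h0, map_zero]))
      have hmin := MerH.min_ordAt_le_ordAt_add hA hB hsum0 τ
      rw [hsum, MerH.ordAt_const hc, MerH.ordAt_neg] at hmin
      have : 0 < min (MerH.ordAt τ (x - MerH.const v)) (MerH.ordAt τ (x - MerH.const v')) :=
        lt_min h h'
      omega

end MerValue

section Values

variable {p : ℕ} [Fact p.Prime] {W : ℤ → ℤ → ℍ → ℂ}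

/-- transfer of "value at `τ`" from the realisation to the place `hPlace τ`. -/
theorem hasValueAt_hPlace_of_realN (τ : ℍ) (a : Ω) (ha : jFun τ = algebraMap Ω ℂ a)
    (f : FunN p) (c : Ω)
    (h : realN (algebraMap Ω ℂ) p f - MerH.const (algebraMap Ω ℂ c) = 0 ∨
      0 < MerH.ordAt τ (realN (algebraMap Ω ℂ) p f - MerH.const (algebraMap Ω ℂ c))) :
    HasValueAt (hPlace (N := p) τ a ha) f c := by
  have e : realN (algebraMap Ω ℂ) p (f - algebraMap Ω (FunN p) c) =
      realN (algebraMap Ω ℂ) p f - MerH.const (algebraMap Ω ℂ c) := by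
    rw [map_sub, realN_algebraMap]
  by_cases h0 : f - algebraMap Ω (FunN p) c = 0
  · exact HasValueAt.of_eq (sub_eq_zero.mp h0)
  · rcases h with h | h
    · exfalso
      apply h0
      rw [← e] at h
      exact (map_eq_zero_iff _ (realN (algebraMap Ω ℂ) p).injective).mp h
    · rw [← e, ordAt_realN_eq (N := p) τ a ha h0] at h
      apply HasValueAt.of_ord_pos
      by_contra hle
      have h2 : (hPlace (N := p) τ a ha).ord (f - algebraMap Ω (FunN p) c) ≤ 0 := not_lt.mp hle
      have h3 := mul_nonpos_of_nonneg_of_nonpos (hMult_pos (N := p) τ a ha).le h2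
      omega

/-- conversely, a value at the place gives the value of the realisation. -/
theorem realN_value_of_hasValueAt (τ : ℍ) (a : Ω) (ha : jFun τ = algebraMap Ω ℂ a)
    (f : FunN p) (c : Ω) (h : HasValueAt (hPlace (N := p) τ a ha) f c) :
    realN (algebraMap Ω ℂ) p f - MerH.const (algebraMap Ω ℂ c) = 0 ∨
      0 < MerH.ordAt τ (realN (algebraMap Ω ℂ) p f - MerH.const (algebraMap Ω ℂ c)) := by
  have e : realN (algebraMap Ω ℂ) p (f - algebraMap Ω (FunN p) c) =
      realN (algebraMap Ω ℂ) p f - MerH.const (algebraMap Ω ℂ c) := by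
    rw [map_sub, realN_algebraMap]
  rcases HasValueAt.iff_ord.mp h with h0 | h0
  · left
    rw [← e, h0, map_zero]
  · right
    have hne : f - algebraMap Ω (FunN p) c ≠ 0 := by
      intro h1
      rw [h1, Place.ord_zero] at h0
      exact lt_irrefl _ h0
    rw [← e, ordAt_realN_eq (N := p) τ a ha hne]
    exact mul_pos (hMult_pos τ a ha) h0

/-- **(PL4)**: the value of `mzEBar hW k` at the place of `τ₀`. -/
theorem hasValueAt_hPlace_mzEBar (hW : WpDivData p W) (k : ℕ) (τ₀ : ℍ) (a : Ω)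
    (ha : jFun τ₀ = algebraMap Ω ℂ a) (h6 : ModularForm.E₆ τ₀ ≠ 0) (c : Ω)
    (hc : algebraMap Ω ℂ c = bFun W p k τ₀ / ModularForm.E₆ τ₀ ^ k) :
    HasValueAt (hPlace (N := p) τ₀ a ha) (mzEBar hW k) c := by
  apply hasValueAt_hPlace_of_realN
  have hreal : realN (algebraMap Ω ℂ) p (mzEBar hW k) = mzEM hW k := realC_mzEBar hW k
  rw [hreal, hc]
  exact mzEM_value hW k τ₀ h6

/-- the value of `mzEBar hW k` at the place of `τ₀` is `e_k (Y_m(τ₀))`. -/
theorem algebraMap_eq_of_hasValueAt_mzEBar (hW : WpDivData p W) (k : ℕ) (τ₀ : ℍ) (a : Ω)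
    (ha : jFun τ₀ = algebraMap Ω ℂ a) (h6 : ModularForm.E₆ τ₀ ≠ 0) (c : Ω)
    (h : HasValueAt (hPlace (N := p) τ₀ a ha) (mzEBar hW k) c) :
    algebraMap Ω ℂ c = bFun W p k τ₀ / ModularForm.E₆ τ₀ ^ k := by
  have h1 := realN_value_of_hasValueAt τ₀ a ha (mzEBar hW k) c h
  have hreal : realN (algebraMap Ω ℂ) p (mzEBar hW k) = mzEM hW k := realC_mzEBar hW k
  rw [hreal] at h1
  exact merH_value_unique τ₀ h1 (mzEM_value hW k τ₀ h6)

end Values

section Esymm

open Polynomial Finset

/-- two finite families with the same elementary symmetric functions have the same values. -/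
theorem exists_eq_of_esymmF_eq {ι : Type*} [Fintype ι] [DecidableEq ι] (f g : ι → ℂ)
    (h : ∀ k, esymmF f k = esymmF g k) (i : ι) : ∃ j, f i = g j := by
  have hpoly : ((univ : Finset ι).val.map fun i => (X : ℂ[X]) + C (f i)).prod =
      ((univ : Finset ι).val.map fun i => (X : ℂ[X]) + C (g i)).prod := by
    have e1 := Multiset.prod_X_add_C_eq_sum_esymm ((univ : Finset ι).val.map f)
    have e2 := Multiset.prod_X_add_C_eq_sum_esymm ((univ : Finset ι).val.map g)
    rw [Multiset.map_map] at e1 e2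
    have hf : ((fun r => (X : ℂ[X]) + C r) ∘ f) = fun i => (X : ℂ[X]) + C (f i) := rfl
    have hg : ((fun r => (X : ℂ[X]) + C r) ∘ g) = fun i => (X : ℂ[X]) + C (g i) := rfl
    rw [hf] at e1
    rw [hg] at e2
    rw [e1, e2, Multiset.card_map, Multiset.card_map]
    refine Finset.sum_congr rfl fun j _ => ?_
    have h1 : ((univ : Finset ι).val.map f).esymm j = esymmF f j := Finset.esymm_map_val f univ j
    have h2 : ((univ : Finset ι).val.map g).esymm j = esymmF g j := Finset.esymm_map_val g univ j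
    rw [h1, h2, h j]
  have hev := congrArg (Polynomial.eval (-(f i))) hpoly
  have hL : Polynomial.eval (-(f i))
      ((univ : Finset ι).val.map fun i => (X : ℂ[X]) + C (f i)).prod = 0 := by
    have : ((univ : Finset ι).val.map fun i => (X : ℂ[X]) + C (f i)).prod =
        ∏ i : ι, ((X : ℂ[X]) + C (f i)) := rfl
    rw [this, Polynomial.eval_prod]
    apply Finset.prod_eq_zero (Finset.mem_univ i)
    simp
  rw [hL] at hev
  have hR : Polynomial.eval (-(f i))
      ((univ : Finset ι).val.map fun i => (X : ℂ[X]) + C (g i)).prod =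
      ∏ j : ι, (-(f i) + g j) := by
    have : ((univ : Finset ι).val.map fun i => (X : ℂ[X]) + C (g i)).prod =
        ∏ i : ι, ((X : ℂ[X]) + C (g i)) := rfl
    rw [this, Polynomial.eval_prod]
    refine Finset.prod_congr rfl fun j _ => ?_
    simp
  rw [hR] at hev
  obtain ⟨j, -, hj⟩ := Finset.prod_eq_zero_iff.mp hev.symm
  exact ⟨j, by linear_combination -hj⟩

end Esymm

section Slash

open ModularForm

variable {p : ℕ} [Fact p.Prime] {W : ℤ → ℤ → ℍ → ℂ}

/-- the weight-0 invariant `Y = aFun/E₆` at `γ • τ`. -/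
theorem aFun_div_smul (hW : WpDivData p W) {s : ℤ} (hs : ¬ (p : ℤ) ∣ s) (γ : SL(2, ℤ)) (τ : ℍ) :
    aFun W 0 s (γ • τ) / E₆ (γ • τ) = aFun W (s * γ 1 0) (s * γ 1 1) τ / E₆ τ := by
  have hnd : ND p 0 s := fun h => hs h.2
  have h1 := congrFun (aFun_slash hW hnd γ) τ
  rw [SL_slash_apply] at h1
  have h2 := congrFun (isMF_E6_top.inv γ (Subgroup.mem_top γ)) τ
  rw [SL_slash_apply] at h2
  have hd : denom γ τ ≠ 0 := denom_ne_zero γ τ
  have hd6 : denom γ τ ^ (-(6 : ℤ)) ≠ 0 := zpow_ne_zero _ hd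
  rw [zero_mul, zero_add, zero_mul, zero_add] at h1
  rw [← h1, ← h2]
  rw [mul_div_mul_right _ _ hd6]

end Slash

section Inj

/-- `℘`-injectivity at `p`-division points: `wpDiv p r s τ = wpDiv p 0 m τ` with `p ∤ m` forces
`p ∣ r`. -/
theorem dvd_of_wpDiv_eq {p : ℕ} (hp : 0 < p) {r s m : ℤ} (hm : ¬ (p : ℤ) ∣ m) (τ : ℍ)
    (h : wpDiv p r s τ = wpDiv p 0 m τ) : (p : ℤ) ∣ r := by
  have hp0 : (p : ℂ) ≠ 0 := by exact_mod_cast hp.ne'
  set L := Fermat.Agent.X0N.pairOf 1 one_ne_zero τ with hL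
  have hc : ((2 * (Real.pi : ℂ) * Complex.I) ^ 2)⁻¹ ≠ 0 := by
    apply inv_ne_zero
    apply pow_ne_zero
    simp [Real.pi_ne_zero, Complex.I_ne_zero]
  have h' : L.weierstrassP (((r : ℂ) * τ + s) / p) =
      L.weierstrassP ((((0 : ℤ) : ℂ) * τ + m) / p) := mul_left_cancel₀ hc h
  have key : ∀ r' s' : ℤ, (((r' : ℂ) * τ + s') / p) ∈ L.lattice →
      (p : ℤ) ∣ r' ∧ (p : ℤ) ∣ s' := by
    intro r' s' hmem
    obtain ⟨a, b, hab⟩ := PeriodPair.mem_lattice.mp hmem
    rw [hL, pairOf_ω₁, pairOf_ω₂, one_mul, mul_one] at hab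
    have h0 : ((r' - p * a : ℤ) : ℂ) * τ + ((s' - p * b : ℤ) : ℂ) = 0 := by
      push_cast
      rw [eq_div_iff hp0] at hab
      linear_combination -hab
    obtain ⟨h1, h2⟩ := int_mul_add_eq_zero h0
    exact ⟨⟨a, by omega⟩, ⟨b, by omega⟩⟩
  by_cases hz : (((r : ℂ) * τ + s) / p) ∈ L.lattice
  · exact (key r s hz).1
  have hw : ((((0 : ℤ) : ℂ) * τ + m) / p) ∉ L.lattice := fun hmem => hm (key 0 m hmem).2
  rcases Fermat.Agent.Tate.CX.sub_or_add_mem_lattice_of_eq L hz hw h' with h1 | h1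
  · have h2 : ((((r - 0 : ℤ) : ℂ) * τ + ((s - m : ℤ) : ℂ)) / p) ∈ L.lattice := by
      convert h1 using 1
      push_cast
      ring
    have := (key _ _ h2).1
    rwa [sub_zero] at this
  · have h2 : ((((r + 0 : ℤ) : ℂ) * τ + ((s + m : ℤ) : ℂ)) / p) ∈ L.lattice := by
      convert h1 using 1
      push_cast
      ring
    have := (key _ _ h2).1
    rwa [add_zero] at this

end Inj

section Main

open ModularForm CongruenceSubgroup

variable {p : ℕ} [Fact p.Prime] {W : ℤ → ℤ → ℍ → ℂ}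

/-- the symmetric functions have rational coefficients, hence are Galois-fixed. -/
theorem smul_mzEBar (hW : WpDivData p W) (k : ℕ) (σ : GQ) :
    arithmeticGalois (modularFunctionFieldFull p) σ • mzEBar hW k = mzEBar hW k := by
  apply Subtype.ext
  rw [coe_arithmeticGalois_smul, coe_mzEBar, coeffMap_coeffEmb]

set_option maxHeartbeats 1600000 in
/-- **(PL4) + (PL5)**: the place of a point `τ₀` with rational `j`-invariant `≠ 0, 1728` at which
all the `e_k (Y_m)` are rational is Galois-fixed, lies over `j = a` and evaluates the `mzEBar k`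
to the given rational numbers. -/
theorem mz_place (τ₀ : ℍ) (a : Ω) (ha : jFun τ₀ = algebraMap Ω ℂ a)
    (haQ : ∀ σ : GQ, σ a = a) (h0 : a ≠ 0) (h1728 : a ≠ 1728) (c : ℕ → Ω)
    (hcQ : ∀ (k : ℕ) (σ : GQ), σ (c k) = c k)
    (hc : ∀ k, algebraMap Ω ℂ (c k) = bFun (wpDiv p) p k τ₀ / E₆ τ₀ ^ k) :
    (∀ σ : GQ, arithmeticGalois (modularFunctionFieldFull p) σ • hPlace (N := p) τ₀ a ha =
      hPlace (N := p) τ₀ a ha) ∧
    HasValueAt (hPlace (N := p) τ₀ a ha) (jBar p) a ∧
    ∀ k, HasValueAt (hPlace (N := p) τ₀ a ha)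
      (mzEBar (wpDivData (p := p) (Fact.out : p.Prime).pos) k) (c k) := by
  have hp : p.Prime := Fact.out
  set hW := wpDivData (p := p) hp.pos with hWdef
  have hι0 : algebraMap Ω ℂ a ≠ 0 := by
    rwa [Ne, map_eq_zero_iff _ (algebraMap Ω ℂ).injective]
  have hι1 : algebraMap Ω ℂ a ≠ 1728 := by
    intro h
    apply h1728
    apply (algebraMap Ω ℂ).injective
    rw [h, map_ofNat]
  have h6 : E₆ τ₀ ≠ 0 := E₆_ne_zero_of_jFun_ne (by rw [ha]; exact hι1)
  have h4 : E₄ τ₀ ≠ 0 := E₄_ne_zero_of_jFun_ne (by rw [ha]; exact hι0)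
  have hval : ∀ k, HasValueAt (hPlace (N := p) τ₀ a ha) (mzEBar hW k) (c k) := fun k =>
    hasValueAt_hPlace_mzEBar hW k τ₀ a ha h6 (c k) (hc k)
  have hj : HasValueAt (hPlace (N := p) τ₀ a ha) (jBar p) a :=
    HasValueAt.of_ord_pos (hPlace_ord_jGen_sub_pos (N := p) τ₀ a ha)
  refine ⟨fun σ => ?_, hj, hval⟩
  set g := arithmeticGalois (modularFunctionFieldFull p) σ with hg
  -- values at the conjugate place
  have hj' : HasValueAt (g • hPlace (N := p) τ₀ a ha) (jBar p) a := by
    have := hj.smul g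
    rw [hg, smul_jBar, baseAut_arithmeticGalois] at this
    have e2 : (σ.toRingEquiv : Ω ≃+* Ω) a = a := haQ σ
    rwa [e2] at this
  have hv' : ∀ k, HasValueAt (g • hPlace (N := p) τ₀ a ha) (mzEBar hW k) (c k) := by
    intro k
    have := (hval k).smul g
    rw [hg, smul_mzEBar, baseAut_arithmeticGalois] at this
    have e2 : (σ.toRingEquiv : Ω ≃+* Ω) (c k) = c k := hcQ k σ
    rwa [e2] at this
  -- the conjugate place is the place of a point `γ • τ₀`
  have hnn : 0 ≤ (g • hPlace (N := p) τ₀ a ha).ord (jGen Ω p) := by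
    rw [← jBar_eq_jGen]
    exact Fermat.Agent.FF.PlaceAux.ord_nonneg_of_mem _ hj'.mem
  obtain ⟨τ', a', ha', hP'⟩ := exists_hPlace_eq (N := p) (g • hPlace (N := p) τ₀ a ha) hnn
  have haa : a' = a := by
    have h1 : HasValueAt (hPlace (N := p) τ' a' ha') (jBar p) a' :=
      HasValueAt.of_ord_pos (hPlace_ord_jGen_sub_pos (N := p) τ' a' ha')
    rw [hP'] at h1
    exact h1.unique hj'
  subst haa
  obtain ⟨γ, hγ⟩ := exists_smul_eq_of_jFun_eq (z := τ₀) (w := τ') (ha.trans ha'.symm)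
  subst hγ
  have h6' : E₆ (γ • τ₀) ≠ 0 := E₆_ne_zero_of_jFun_ne (by rw [ha']; exact hι1)
  -- equality of all elementary symmetric functions
  have hes : ∀ k, esymmF (fun m : (ZMod p)ˣ =>
      aFun (wpDiv p) 0 (idx m) (γ • τ₀) / E₆ (γ • τ₀)) k =
      esymmF (fun m : (ZMod p)ˣ => aFun (wpDiv p) 0 (idx m) τ₀ / E₆ τ₀) k := by
    intro k
    rw [← bFun_apply_div, ← bFun_apply_div, ← hc k]
    exact (algebraMap_eq_of_hasValueAt_mzEBar hW k (γ • τ₀) a' ha' h6' (c k)
      (by rw [hP']; exact hv' k)).symm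
  obtain ⟨m, hm⟩ := exists_eq_of_esymmF_eq _ _ hes (1 : (ZMod p)ˣ)
  rw [aFun_div_smul hW (not_dvd_idx 1) γ τ₀, div_left_inj' h6, aFun_apply, aFun_apply] at hm
  have hW' : wpDiv p (idx (1 : (ZMod p)ˣ) * γ 1 0) (idx (1 : (ZMod p)ˣ) * γ 1 1) τ₀ =
      wpDiv p 0 (idx m) τ₀ := by
    have h2 : E₄ τ₀ * wpDiv p (idx (1 : (ZMod p)ˣ) * γ 1 0) (idx (1 : (ZMod p)ˣ) * γ 1 1) τ₀ =
        E₄ τ₀ * wpDiv p 0 (idx m) τ₀ := by linear_combination -hm
    exact mul_left_cancel₀ h4 h2
  have hdvd := dvd_of_wpDiv_eq hp.pos (not_dvd_idx m) τ₀ hW'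
  have hγ10 : (p : ℤ) ∣ γ 1 0 := by
    rcases (Nat.prime_iff_prime_int.mp hp).dvd_or_dvd hdvd with h | h
    · exact absurd h (not_dvd_idx 1)
    · exact h
  have hγmem : γ ∈ Gamma0 p := by
    rw [Gamma0_mem]
    exact (ZMod.intCast_zmod_eq_zero_iff_dvd _ _).mpr hγ10
  rw [← hP']
  exact hPlace_smul_of_mem hγmem τ₀ a' ha

end Main

end Fermat.Agent.MZ
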