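/-
PROJECT MZ (branch-only) — (MOD), final assembly — helper8.

`modDict_of_parts`: helper6's `ModDict p (infN p) (zeroN p)` ([TOP15]) from
* `RedDict p`  — the reduction step (helper1's `mz_red`, via helper9's `mod_redStep`);
* `NodeDict p` — the local node algebra (helper6's `pl2_node_dict`);
* helper5's `exists_tau_marked` (complex uniformisation with a marked point) and
  helper1's `mz_place` (the Galois-fixed place of `τ₀` and the values of `mzEBar k` at it),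
glued by the base change `ℚ̄ → ℂ` of points (`ptMap`, S13).
-/
import Mathlib
import Fermat.Agent.MZ.MOD_helper1_Place
import Fermat.Agent.MZ.MODPL3_helper5_Unif
import Fermat.Agent.MZ.CUSP_helper9_Class
import Fermat.Agent.S13.A_helper8_Descent
import Fermat.Agent.Tate.Frey_helper7

set_option autoImplicit false
set_option linter.unusedSectionVars false
set_option linter.unusedVariables false
set_option linter.style.haveILetI false
set_option synthInstance.maxHeartbeats 400000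

open ModularCurve AlgebraicCurve UpperHalfPlane WeierstrassCurve ModularForm EisensteinSeries
open scoped MatrixGroups

namespace Fermat.Agent.MZ

local notation "Ω" => AlgebraicClosure ℚ
local notation "GQ" => (AlgebraicClosure ℚ ≃ₐ[ℚ] AlgebraicClosure ℚ)

open Fermat.Agent.JA Fermat.Agent.X0N Fermat.Agent.MW Fermat.Agent.S13

attribute [local instance] algOmC isScalarTower_algOmC

/-- the curve `W` over `Ω = ℚ̄`. -/
noncomputable abbrev curveΩ (W : WeierstrassCurve ℤ) : WeierstrassCurve.Affine Ω :=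
  WeierstrassCurve.Affine.baseChange (W.map (Int.castRingHom ℚ)) Ω

/-- `N_W(x) = c₄ x - 18 b₆ + b₂ b₄` with the coefficients of `W` cast to `Ω`. -/
noncomputable def nodeZ (W : WeierstrassCurve ℤ) (x : Ω) : Ω :=
  (W.c₄ : Ω) * x - 18 * (W.b₆ : Ω) + (W.b₂ : Ω) * (W.b₄ : Ω)

/-- **the reduction step** (helper1's `mz_red`). -/
def RedDict (p : ℕ) [Fact p.Prime] : Prop :=
  ∀ {ℓ : ℕ}, ℓ.Prime → ℓ ≠ p → ∀ {A : ValuationSubring Ω}, A.LiesOverPrime ℓ →
    ∀ (h : ReductionInputsModL A p) (Px : PtN p) (a : Ω), a ∉ A → HasValueAt Px (jBar p) a →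
    ∀ c : ↥A, HasValueAt Px (mzEBar (wpDivData (p := p) (Fact.out : p.Prime).pos) (p - 1)) (c : Ω) →
      ((c : Ω) ∈ A.nonunits → placeReductionModL h Px = placeReductionModL h (zeroN p)) ∧
      ((c : Ω) ∉ A.nonunits → placeReductionModL h Px = placeReductionModL h (infN p))

/-- **the local node algebra** (helper6's `pl2_node_dict`). -/
def NodeDict (p : ℕ) : Prop :=
  ∀ (W : WeierstrassCurve ℤ), W.Δ ≠ 0 → ∀ {ℓ : ℕ}, ℓ.Prime → ℓ ≠ p → (ℓ : ℤ) ∣ W.Δ →
    ¬ (ℓ : ℤ) ∣ W.c₄ → ∀ A : ValuationSubring Ω, A.LiesOverPrime ℓ →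
    ∀ Q : (curveΩ W).Point, addOrderOf Q = p →
      (∀ m : ℕ, ¬ p ∣ m → ∀ (x y : Ω) (h : (curveΩ W).Nonsingular x y),
        m • Q = .some x y h → x ∈ A) ∧
      (W.InZeroComponentAt A Q → ∀ m : ℕ, ¬ p ∣ m →
        ∀ (x y : Ω) (h : (curveΩ W).Nonsingular x y),
          m • Q = .some x y h → nodeZ W x ∉ A.nonunits) ∧
      (¬ W.InZeroComponentAt A Q →
        ∀ (x y : Ω) (h : (curveΩ W).Nonsingular x y),
          Q = .some x y h → nodeZ W x ∈ A.nonunits)

section Coeffs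

variable (W : WeierstrassCurve ℤ)

theorem curveΩ_c₄ : (curveΩ W).c₄ = (W.c₄ : Ω) := by
  simp [curveΩ, WeierstrassCurve.baseChange, WeierstrassCurve.map_c₄]

theorem curveΩ_c₆ : (curveΩ W).c₆ = (W.c₆ : Ω) := by
  simp [curveΩ, WeierstrassCurve.baseChange, WeierstrassCurve.map_c₆]

theorem curveΩ_Δ : (curveΩ W).Δ = (W.Δ : Ω) := by
  simp [curveΩ, WeierstrassCurve.baseChange, WeierstrassCurve.map_Δ]

theorem curveΩ_b₂ : (curveΩ W).b₂ = (W.b₂ : Ω) := by
  simp [curveΩ, WeierstrassCurve.baseChange, WeierstrassCurve.map_b₂]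

theorem curveΩ_b₄ : (curveΩ W).b₄ = (W.b₄ : Ω) := by
  simp [curveΩ, WeierstrassCurve.baseChange, WeierstrassCurve.map_b₄]

theorem curveΩ_b₆ : (curveΩ W).b₆ = (W.b₆ : Ω) := by
  simp [curveΩ, WeierstrassCurve.baseChange, WeierstrassCurve.map_b₆]

theorem nodeInv_curveΩ (x : Ω) : nodeInv (curveΩ W) x = nodeZ W x := by
  rw [nodeInv, nodeZ, curveΩ_c₄, curveΩ_b₂, curveΩ_b₄, curveΩ_b₆]

theorem nodeInv_map {F F' : Type*} [CommRing F] [CommRing F'] (f : F →+* F')
    (V : WeierstrassCurve F) (x : F) : nodeInv (V.map f) (f x) = f (nodeInv V x) := by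
  simp only [nodeInv, WeierstrassCurve.map_c₄, WeierstrassCurve.map_b₂, WeierstrassCurve.map_b₄,
    WeierstrassCurve.map_b₆, map_add, map_sub, map_mul, map_ofNat]

end Coeffs

section Assembly

variable {p : ℕ} [Fact p.Prime]

/-- the Galois action on points acts on `x`-coordinates. -/
theorem xOf_galois_smul (W : WeierstrassCurve ℤ) (σ : GQ) (P : (curveΩ W).Point) :
    xOf (σ • P) = σ (xOf P) := by
  rcases P with _ | ⟨x, y, h⟩
  · exact (map_zero σ).symm
  · rfl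

/-- the degenerate case `j ∈ {0, 1728}`: no prime of multiplicative reduction. -/
theorem no_mult_prime_of_c₄_c₆ (W : WeierstrassCurve ℤ) (h : W.c₄ = 0 ∨ W.c₆ = 0) {ℓ : ℕ}
    (hℓ : ℓ.Prime) (hℓΔ : (ℓ : ℤ) ∣ W.Δ) (hℓc₄ : ¬ (ℓ : ℤ) ∣ W.c₄) : False := by
  rcases h with h4 | h6
  · exact hℓc₄ (h4 ▸ dvd_zero _)
  · have h1 := W.c_relation
    rw [h6] at h1
    have h2 : (ℓ : ℤ) ∣ W.c₄ ^ 3 := by
      rw [show W.c₄ ^ 3 = 1728 * W.Δ by linarith]
      exact dvd_mul_of_dvd_right hℓΔ _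
    exact hℓc₄ ((Nat.prime_iff_prime_int.mp hℓ).dvd_of_dvd_pow h2)

/-- **(MOD) from its parts.** -/
theorem modDict_of_parts (hp2 : 2 < p) (hred : RedDict p) (hnode : NodeDict p) :
    ModDict p (infN p) (zeroN p) := by
  classical
  have hp : p.Prime := Fact.out
  intro W hΔ Q hQfix hQord
  by_cases hc46 : W.c₄ = 0 ∨ W.c₆ = 0
  · refine ⟨infN p, fun σ => gal_smul_infN p σ, ?_⟩
    intro ℓ hℓ hℓp hℓΔ hℓc₄
    exact (no_mult_prime_of_c₄_c₆ W hc46 hℓ hℓΔ hℓc₄).elim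
  push_neg at hc46
  obtain ⟨h4, h6⟩ := hc46
  -- the complex curve and the complex point
  set E := curveΩ W with hE
  set ι : Ω →+* ℂ := algebraMap Ω ℂ with hι
  have hιinj : Function.Injective ι := (algebraMap Ω ℂ).injective
  set Wc : WeierstrassCurve ℂ := WeierstrassCurve.map E ι with hWc
  set φ := ptMap ι E Wc rfl with hφ
  have hφinj : Function.Injective φ := ptMap_injective ι E Wc rfl
  have hΔΩ : (W.Δ : Ω) ≠ 0 := by exact_mod_cast hΔ
  have h4Ω : (W.c₄ : Ω) ≠ 0 := by exact_mod_cast h4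
  have h6Ω : (W.c₆ : Ω) ≠ 0 := by exact_mod_cast h6
  have hWcΔ : Wc.Δ = ι (W.Δ : Ω) := by rw [hWc, WeierstrassCurve.map_Δ, curveΩ_Δ]
  have hWc4 : Wc.c₄ = ι (W.c₄ : Ω) := by rw [hWc, WeierstrassCurve.map_c₄, curveΩ_c₄]
  have hWc6 : Wc.c₆ = ι (W.c₆ : Ω) := by rw [hWc, WeierstrassCurve.map_c₆, curveΩ_c₆]
  have hWcΔ0 : Wc.Δ ≠ 0 := by
    rw [hWcΔ]
    exact (map_ne_zero_iff ι hιinj).mpr hΔΩ
  have hQc : addOrderOf (φ Q) = p := by
    rw [addOrderOf_injective φ hφinj, hQord]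
  obtain ⟨τ₀, hj, hE4, hE6, hm⟩ := exists_tau_marked Wc hWcΔ0 hp (φ Q) hQc
  have hE6' : E₆ τ₀ ≠ 0 := by
    rw [Ne, hE6, hWc6]
    exact (map_ne_zero_iff ι hιinj).mpr h6Ω
  -- the `j`-invariant
  set a : Ω := (W.c₄ : Ω) ^ 3 / (W.Δ : Ω) with ha_def
  have ha : jFun τ₀ = algebraMap Ω ℂ a := by
    rw [ha_def, map_div₀, map_pow, ← hWc4, ← hWcΔ, ← hj, mul_div_cancel_right₀ _ hWcΔ0]
  have haQ : ∀ σ : GQ, σ a = a := by
    intro σ
    rw [ha_def, map_div₀, map_pow, map_intCast, map_intCast]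
  have h0 : a ≠ 0 := div_ne_zero (pow_ne_zero 3 h4Ω) hΔΩ
  have h1728 : a ≠ 1728 := by
    intro h
    rw [ha_def, div_eq_iff hΔΩ] at h
    have h1 : W.c₄ ^ 3 = 1728 * W.Δ := by exact_mod_cast h
    have h2 := W.c_relation
    have h3 : W.c₆ ^ 2 = 0 := by linarith
    exact h6 ((pow_eq_zero_iff (two_ne_zero)).mp h3)
  -- the values `Y(mQ)` and their elementary symmetric functions
  set yv : (ZMod p)ˣ → Ω := fun m => nodeZ W (xOf (idx m • Q)) / (W.c₆ : Ω) with hyv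
  set c : ℕ → Ω := fun k => esymmF yv k with hc_def
  have hyvQ : ∀ (m : (ZMod p)ˣ) (σ : GQ), σ (yv m) = yv m := by
    intro m σ
    have hx : σ (xOf (idx m • Q)) = xOf (idx m • Q) := by
      rw [← xOf_galois_smul, WeierstrassCurve.Affine.Point.algEquiv_smul_zsmul, hQfix σ]
    simp only [hyv, nodeZ, map_div₀, map_add, map_sub, map_mul, map_intCast, map_ofNat, hx]
  have hcQ : ∀ (k : ℕ) (σ : GQ), σ (c k) = c k := by
    intro k σ
    have h1 := map_esymmF (σ : Ω →+* Ω) yv k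
    simp only [hc_def]
    refine h1.trans ?_
    congr 1
    funext m
    exact hyvQ m σ
  have hyvι : ∀ m : (ZMod p)ˣ, ι (yv m) = aFun (wpDiv p) 0 (idx m) τ₀ / E₆ τ₀ := by
    intro m
    obtain ⟨x, y, hxy, hmx, hval⟩ := hm (idx m) (not_dvd_idx m)
    have hx : ι (xOf (idx m • Q)) = x := by
      have h1 := xOf_ptMap ι E Wc rfl (idx m • Q)
      rw [← hφ, map_zsmul, hmx, xOf_some] at h1
      exact h1.symm
    have h2 : ι (nodeZ W (xOf (idx m • Q))) = nodeInv Wc x := by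
      rw [← nodeInv_curveΩ, ← nodeInv_map, hx]
    have hc6ne : Wc.c₆ ≠ 0 := by
      rw [hWc6]
      exact (map_ne_zero_iff ι hιinj).mpr h6Ω
    simp only [hyv]
    rw [map_div₀, h2, ← hWc6, aFun_apply, div_eq_div_iff hc6ne hE6']
    linear_combination hval
  have hc : ∀ k, algebraMap Ω ℂ (c k) = bFun (wpDiv p) p k τ₀ / E₆ τ₀ ^ k := by
    intro k
    rw [bFun_apply_div]
    simp only [hc_def]
    refine (map_esymmF ι yv k).trans ?_
    congr 1
    funext m
    exact hyvι m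
  obtain ⟨hPxfix, hPxj, hPxv⟩ := mz_place τ₀ a ha haQ h0 h1728 c hcQ hc
  refine ⟨hPlace (N := p) τ₀ a ha, hPxfix, ?_⟩
  intro ℓ hℓ hℓp hℓΔ hℓc₄ A hA h
  obtain ⟨hint, hin, hnot⟩ := hnode W hΔ hℓ hℓp hℓΔ hℓc₄ A hA Q hQord
  have hℓA : ((ℓ : ℕ) : Ω) ∈ A.nonunits := hA
  have hℓc₆ : ¬ (ℓ : ℤ) ∣ W.c₆ := by
    intro hd
    have h1 := W.c_relation
    have h2 : (ℓ : ℤ) ∣ W.c₄ ^ 3 := by
      rw [show W.c₄ ^ 3 = 1728 * W.Δ + W.c₆ ^ 2 by linarith]
      exact dvd_add (dvd_mul_of_dvd_right hℓΔ _) (dvd_pow hd two_ne_zero)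
    exact hℓc₄ ((Nat.prime_iff_prime_int.mp hℓ).dvd_of_dvd_pow h2)
  have hv6 : A.valuation (W.c₆ : Ω) = 1 := Fermat.Agent.Tate.val_intCast_eq_one A hℓ hℓA hℓc₆
  have hv4 : A.valuation (W.c₄ : Ω) = 1 := Fermat.Agent.Tate.val_intCast_eq_one A hℓ hℓA hℓc₄
  have hvΔ : A.valuation (W.Δ : Ω) < 1 :=
    (A.mem_nonunits_iff).mp (Fermat.Agent.Tate.intCast_mem_nonunits A hℓA hℓΔ)
  have haA : a ∉ A := by
    intro haA
    have h1 : (W.Δ : Ω) * a = (W.c₄ : Ω) ^ 3 := by
      rw [ha_def, mul_div_cancel₀ _ hΔΩ]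
    have h2 : A.valuation ((W.Δ : Ω) * a) < 1 := by
      rw [map_mul]
      exact mul_lt_one_of_lt_of_le hvΔ ((A.valuation_le_one_iff a).mpr haA)
    rw [h1, map_pow, hv4, one_pow] at h2
    exact lt_irrefl _ h2
  -- the values `Y(mQ)` at `A`
  have key : ∀ m : (ZMod p)ˣ, A.valuation (yv m) ≤ 1 ∧
      (W.InZeroComponentAt A Q → A.valuation (yv m) = 1) := by
    intro m
    have hn : ¬ p ∣ (m : ZMod p).val := by
      have h1 := not_dvd_idx m
      unfold idx at h1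
      rwa [Int.natCast_dvd_natCast] at h1
    have hidx : idx m • Q = (m : ZMod p).val • Q := natCast_zsmul Q _
    have hne : (m : ZMod p).val • Q ≠ 0 := fun h0 => by
      have h1 := addOrderOf_dvd_of_nsmul_eq_zero h0
      rw [hQord] at h1
      exact hn h1
    rcases hP : (m : ZMod p).val • Q with _ | ⟨x, y, hxy⟩
    · exact absurd hP hne
    have hxA := hint _ hn x y hxy hP
    have hv : A.valuation (yv m) = A.valuation (nodeZ W x) := by
      simp only [hyv]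
      rw [hidx, hP, xOf_some, map_div₀, hv6, div_one]
    have h18 : (18 : Ω) ∈ A := by
      have := intCast_mem A (18 : ℤ)
      simpa using this
    have hnA : nodeZ W x ∈ A := by
      unfold nodeZ
      exact A.add_mem _ _ (sub_mem (A.mul_mem _ _ (intCast_mem A _) hxA)
        (A.mul_mem _ _ h18 (intCast_mem A _))) (A.mul_mem _ _ (intCast_mem A _) (intCast_mem A _))
    have hle : A.valuation (nodeZ W x) ≤ 1 := (A.valuation_le_one_iff _).mpr hnA
    refine ⟨hv ▸ hle, fun hz => ?_⟩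
    have h1 := hin hz _ hn x y hxy hP
    rw [hv]
    exact le_antisymm hle (not_lt.mp fun hlt => h1 ((A.mem_nonunits_iff).mpr hlt))
  have hcprod : c (p - 1) = ∏ m, yv m := by
    simp only [hc_def]
    rw [← card_units_zmod p, esymmF_card]
  have hvc : A.valuation (c (p - 1)) = ∏ m, A.valuation (yv m) := by
    rw [hcprod, map_prod]
  have hcA : c (p - 1) ∈ A := by
    rw [← A.valuation_le_one_iff, hvc]
    exact Finset.prod_le_one' fun m _ => (key m).1
  obtain ⟨hr1, hr2⟩ := hred hℓ hℓp hA h _ a haA hPxj ⟨c (p - 1), hcA⟩ (hPxv (p - 1))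
  refine ⟨fun hnz => hr1 ?_, fun hz => hr2 ?_⟩
  · show c (p - 1) ∈ A.nonunits
    rw [A.mem_nonunits_iff, hvc,
      ← Finset.mul_prod_erase Finset.univ _ (Finset.mem_univ (1 : (ZMod p)ˣ))]
    have h1 : A.valuation (yv 1) < 1 := by
      haveI : Fact (1 < p) := ⟨hp.one_lt⟩
      have hidx1 : idx (1 : (ZMod p)ˣ) = 1 := by
        unfold idx
        rw [Units.val_one, ZMod.val_one, Nat.cast_one]
      have hQ0 : Q ≠ 0 := by
        intro h0
        rw [h0, addOrderOf_zero] at hQord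
        exact hp.one_lt.ne hQord
      rcases hQ : Q with _ | ⟨x, y, hxy⟩
      · exact absurd hQ hQ0
      have h2 := hnot hnz x y hxy hQ
      simp only [hyv]
      rw [hidx1, one_zsmul, hQ, xOf_some, map_div₀, hv6, div_one]
      exact (A.mem_nonunits_iff).mp h2
    exact mul_lt_one_of_lt_of_le h1 (Finset.prod_le_one' fun m _ => (key m).1)
  · show c (p - 1) ∉ A.nonunits
    rw [A.mem_nonunits_iff, hvc, Finset.prod_eq_one fun m _ => (key m).2 hz]
    exact lt_irrefl _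

end Assembly

end Fermat.Agent.MZ
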