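/-
MZ (S15 gamble) — helper4 — (G1'): **weak `r`-divisibility of `J₀(N)`**: for every class `x`
there is `d > 0` with `d • x ∈ r^j J₀(N)` for all `j` (Legendre host at an auxiliary odd prime
`ℓ ∤ N`, `ℓ ≠ r`: a multiple of `π^* x` lies in the kernel of reduction, which is `r^j`-divisible;
push forward).
-/
import Fermat.Agent.MW.DIV_helper1_Final

set_option autoImplicit false
set_option linter.style.haveILetI false
set_option linter.unusedSectionVars false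
set_option linter.unusedVariables false

namespace Fermat.Agent.MZ

open AlgebraicCurve ModularCurve IsLocalRing
open Fermat.Agent.FF Fermat.Agent.FG Fermat.Agent.JA Fermat.Agent.GR Fermat.Agent.MW

local notation "Ω" => AlgebraicClosure ℚ

/-- **(G1')** with an explicit auxiliary prime. -/
theorem exists_nsmul_eq_pow_smul_aux (N : ℕ) [NeZero N] (r : ℕ) (ℓ : ℕ) [Fact ℓ.Prime]
    (hℓN : ¬ ℓ ∣ N) (hℓ2 : ℓ ≠ 2) (hℓr : ¬ ℓ ∣ r) (x : JZero N) :
    ∃ d : ℕ, 0 < d ∧ ∀ j : ℕ, ∃ y : JZero N, r ^ j • y = d • x := by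
  have hA : (padicPlace ℓ).LiesOverPrime ℓ := Fermat.Agent.TW.Kill.padicPlace_liesOverPrime ℓ
  haveI : IsAlgClosed (ResidueField ↥(padicPlace ℓ)) := isAlgClosed_residueField (padicPlace ℓ)
  obtain ⟨n, hn, hnK⟩ := exists_nsmul_mem_kerRed_leg hA N hℓN hℓ2 (legPull N x)
  have hdeg : 0 < legDeg N := by
    refine Nat.pos_of_ne_zero (fun h => ?_)
    have h5 := legDeg_coprime_five N
    rw [h] at h5
    simp at h5
  refine ⟨n * legDeg N, Nat.mul_pos hn hdeg, fun j => ?_⟩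
  have hℓ : ℓ.Prime := Fact.out
  have hℓrj : ¬ ℓ ∣ r ^ j := fun h => hℓr (hℓ.dvd_of_dvd_pow h)
  have hval : (padicPlace ℓ).valuation ((r ^ j : ℕ) : Ω) = 1 :=
    Fermat.Agent.TW.Kill.valuation_natCast_eq_one hℓ hℓrj hA
  obtain ⟨w, -, hw⟩ := kerRed_divisible (legGoodRed hA N hℓN hℓ2) (isMvHenselian_padicPlace ℓ)
    (r ^ j) hval _ hnK
  refine ⟨legPush N w, ?_⟩
  rw [← map_nsmul, hw, map_nsmul, legPush_legPull, mul_nsmul']

/-- **(G1')**: for a prime level `N ≥ 11` (or any `N` prime to `3·5·7`…) and any prime `r`. -/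
theorem exists_nsmul_eq_pow_smul (N : ℕ) [NeZero N] (hN : N.Prime) (r : ℕ) (hr : r.Prime)
    (x : JZero N) : ∃ d : ℕ, 0 < d ∧ ∀ j : ℕ, ∃ y : JZero N, r ^ j • y = d • x := by
  -- choose `ℓ ∈ {3, 5, 7}` different from `N` and `r`
  have key : ∀ ℓ : ℕ, ℓ.Prime → ℓ ≠ 2 → ℓ ≠ N → ℓ ≠ r →
      ∃ d : ℕ, 0 < d ∧ ∀ j : ℕ, ∃ y : JZero N, r ^ j • y = d • x := by
    intro ℓ hℓ h2 hℓN hℓr
    haveI : Fact ℓ.Prime := ⟨hℓ⟩
    refine exists_nsmul_eq_pow_smul_aux N r ℓ ?_ h2 ?_ x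
    · intro h
      exact hℓN ((Nat.prime_dvd_prime_iff_eq hℓ hN).mp h)
    · intro h
      exact hℓr ((Nat.prime_dvd_prime_iff_eq hℓ hr).mp h)
  by_cases h3 : 3 ≠ N ∧ 3 ≠ r
  · exact key 3 Nat.prime_three (by norm_num) h3.1 h3.2
  by_cases h5 : 5 ≠ N ∧ 5 ≠ r
  · exact key 5 Nat.prime_five (by norm_num) h5.1 h5.2
  have h7 : 7 ≠ N ∧ 7 ≠ r := by
    constructor
    · intro h; subst h; simp at h3 h5; omega
    · intro h; subst h; simp at h3 h5; omega
  exact key 7 (by norm_num) (by norm_num) h7.1 h7.2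

end Fermat.Agent.MZ
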