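/-
PROJECT MZ (branch-only) — (HR), part (U): **uniqueness of the place reduction** — helper8.

The Prelude's `reductionModL A N` is built from an arbitrary map of places `h.choose` of which only
`IsPlaceReductionAlong` is known, whereas the tools of J-A (`ChartEval`, `ChartSep`, …) are about the
constructed map of `exists_placeReduction_residue`.  The Prelude's uniqueness statement
`IsPlaceReductionAlong.eq_or_const_of_agree` needs the divisibility of `Pic⁰`, which nobody has;
here the same `δ`-trick is run with the WEAK divisibility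
`∀ x, ∃ d > 0, ∀ j, ∃ y, 2 ^ j • y = d • x` (helper4's (G1′)).  Consequence: every map of places
with `IsPlaceReductionModL A N` evaluates both charts `j`, `(j - b)⁻¹`.
-/
import Mathlib
import Fermat.Agent.JA.O1_helper6_Final

set_option autoImplicit false
set_option linter.unusedSectionVars false
set_option linter.unusedVariables false
set_option linter.style.haveILetI false
set_option synthInstance.maxHeartbeats 400000

open HahnSeries IntermediateField AlgebraicCurve ModularCurve

namespace Fermat.Agent.MZ

section Abstract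

variable {L : Type*} [Field L] [Algebra ℚ L] {A : ValuationSubring L}
variable {k : Type*} [Field k] {π : A →+* k} {N : ℕ}

/-- an integer divisible by all powers of `2` is zero. -/
theorem int_eq_zero_of_forall_two_pow_dvd {a : ℤ} (h : ∀ j : ℕ, (2 : ℤ) ^ j ∣ a) : a = 0 := by
  by_contra ha
  have h1 := h a.natAbs
  have h2 : (2 : ℤ) ^ a.natAbs ≤ |a| := by
    have := Int.le_of_dvd (abs_pos.mpr ha) ((dvd_abs _ _).mpr h1)
    exact this
  have h3 : (a.natAbs : ℤ) < 2 ^ a.natAbs := by exact_mod_cast Nat.lt_two_pow_self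
  rw [Int.abs_eq_natAbs] at h2
  omega

/-- two maps of places agreeing on the integral principal divisors: the `δ`-trick with weak
divisibility of `Pic⁰`. -/
theorem eq_or_const_of_agree_weak
    {r₁ r₂ : Place L (laurentBaseChange L (modularFunctionFieldFull N)) →
      Place k (modularFunctionFieldFullC k N)}
    (hgen : PrincipalGeneratedByIntegral A π N)
    (hagree : ∀ D ∈ integralPrincipalDivisors A π N,
      Finsupp.mapDomain r₁ D = Finsupp.mapDomain r₂ D)
    (hdeg : ∀ P : Place L (laurentBaseChange L (modularFunctionFieldFull N)), P.deg = 1)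
    (hwdiv : ∀ x : Pic0 L (laurentBaseChange L (modularFunctionFieldFull N)),
      ∃ d : ℕ, 0 < d ∧ ∀ j : ℕ,
        ∃ y : Pic0 L (laurentBaseChange L (modularFunctionFieldFull N)), 2 ^ j • y = d • x) :
    r₁ = r₂ ∨ ∀ P Q, r₁ P = r₁ Q := by
  classical
  set δ : Divisor L (laurentBaseChange L (modularFunctionFieldFull N)) →+
      Divisor k (modularFunctionFieldFullC k N) :=
    Finsupp.mapDomain.addMonoidHom r₁ - Finsupp.mapDomain.addMonoidHom r₂ with hδ
  have hδapp : ∀ D, δ D = Finsupp.mapDomain r₁ D - Finsupp.mapDomain r₂ D := fun D => rfl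
  have hδprin : ∀ D ∈ Divisor.principal (K := L)
      (F := laurentBaseChange L (modularFunctionFieldFull N)), δ D = 0 := by
    intro D hD
    have hD' := hgen hD
    clear hD
    induction hD' using AddSubgroup.closure_induction with
    | mem E hE => rw [hδapp, hagree E hE, sub_self]
    | zero => exact map_zero δ
    | add E E' _ _ hE hE' => rw [map_add, hE, hE', add_zero]
    | neg E _ hE => rw [map_neg, hE, neg_zero]
  have hδdeg0 : ∀ D ∈ Divisor.degZero (K := L)
      (F := laurentBaseChange L (modularFunctionFieldFull N)), δ D = 0 := by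
    intro D hD
    obtain ⟨d, hd, hdiv⟩ := hwdiv (Pic0.mk ⟨D, hD⟩)
    ext Q
    rw [Finsupp.zero_apply]
    have hd0 : (d : ℤ) ≠ 0 := by exact_mod_cast hd.ne'
    have key : (d : ℤ) * δ D Q = 0 := by
      refine int_eq_zero_of_forall_two_pow_dvd fun j => ?_
      obtain ⟨y, hy⟩ := hdiv j
      obtain ⟨E, rfl⟩ := Pic0.mk_surjective y
      have hmem : (d • (⟨D, hD⟩ : Divisor.degZero (K := L)
            (F := laurentBaseChange L (modularFunctionFieldFull N)))
          - 2 ^ j • E : Divisor.degZero (K := L)
            (F := laurentBaseChange L (modularFunctionFieldFull N))) ∈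
            (Divisor.principal (K := L)
              (F := laurentBaseChange L (modularFunctionFieldFull N))).addSubgroupOf
              (Divisor.degZero (K := L)
                (F := laurentBaseChange L (modularFunctionFieldFull N))) := by
        rw [← QuotientAddGroup.eq_iff_sub_mem, QuotientAddGroup.mk_nsmul,
          QuotientAddGroup.mk_nsmul]
        exact hy.symm
      rw [AddSubgroup.mem_addSubgroupOf, AddSubgroupClass.coe_sub, AddSubgroupClass.coe_nsmul,
        AddSubgroupClass.coe_nsmul] at hmem
      have h0 := hδprin _ hmem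
      rw [map_sub, map_nsmul, map_nsmul, sub_eq_zero] at h0
      refine ⟨δ (E : Divisor L (laurentBaseChange L (modularFunctionFieldFull N))) Q, ?_⟩
      have h1 := congrArg (fun X : Divisor k (modularFunctionFieldFullC k N) => X Q) h0
      simp only [Finsupp.smul_apply, nsmul_eq_mul] at h1
      rw [h1]
      push_cast
      ring
    rcases mul_eq_zero.mp key with h | h
    · exact absurd h hd0
    · exact h
  have hconst : ∀ P Q : Place L (laurentBaseChange L (modularFunctionFieldFull N)),
      Finsupp.single (r₁ P) (1 : ℤ) - Finsupp.single (r₂ P) 1 =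
        Finsupp.single (r₁ Q) 1 - Finsupp.single (r₂ Q) 1 := by
    intro P Q
    have hPQ : Finsupp.single P (1 : ℤ) - Finsupp.single Q 1 ∈
        Divisor.degZero (K := L) (F := laurentBaseChange L (modularFunctionFieldFull N)) := by
      rw [Divisor.mem_degZero, map_sub, Divisor.degree_single, Divisor.degree_single, hdeg, hdeg,
        sub_self]
    have h := hδdeg0 _ hPQ
    rw [hδapp, Finsupp.mapDomain_sub, Finsupp.mapDomain_sub, Finsupp.mapDomain_single,
      Finsupp.mapDomain_single, Finsupp.mapDomain_single, Finsupp.mapDomain_single,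
      sub_eq_zero] at h
    exact sub_eq_sub_iff_sub_eq_sub.mpr h
  rw [or_iff_not_imp_left]
  intro hne
  obtain ⟨P₀, hP₀⟩ : ∃ P₀, r₁ P₀ ≠ r₂ P₀ := by
    by_contra hall
    push Not at hall
    exact hne (funext hall)
  have hr₁const : ∀ Q, r₁ Q = r₁ P₀ := by
    intro Q
    have h := congrArg (fun E => E (r₁ P₀)) (hconst Q P₀)
    simp only [Finsupp.sub_apply, Finsupp.single_apply, if_neg (Ne.symm hP₀)] at h
    by_contra hQ
    rw [if_neg hQ] at h
    split_ifs at h <;> omega
  exact fun P Q => (hr₁const P).trans (hr₁const Q).symm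

/-- a constant map of places pushes every divisor to a multiple of one place. -/
theorem mapDomain_eq_single_of_const
    {r₁ : Place L (laurentBaseChange L (modularFunctionFieldFull N)) →
      Place k (modularFunctionFieldFullC k N)}
    (hdeg : ∀ P : Place L (laurentBaseChange L (modularFunctionFieldFull N)), P.deg = 1)
    (hconst : ∀ P Q, r₁ P = r₁ Q)
    (P₀ : Place L (laurentBaseChange L (modularFunctionFieldFull N)))
    (D : Divisor L (laurentBaseChange L (modularFunctionFieldFull N))) :
    Finsupp.mapDomain r₁ D = Finsupp.single (r₁ P₀) (Divisor.degree D) := by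
  induction D using Finsupp.induction with
  | zero => simp
  | single_add P n D _ _ ih =>
    rw [Finsupp.mapDomain_add, ih, Finsupp.mapDomain_single, hconst P P₀, map_add,
      Divisor.degree_single, hdeg, Nat.cast_one, mul_one, ← Finsupp.single_add]

end Abstract

section Concrete

open Fermat.Agent.JA Fermat.Agent.X0N

local notation "Ω" => AlgebraicClosure ℚ

variable {ℓ : ℕ} [hℓ : Fact ℓ.Prime] {A : ValuationSubring Ω} (hA : A.LiesOverPrime ℓ)
  (N : ℕ) [NeZero N]

include hA in
/-- **(U)**: the place reduction mod `ℓ` is unique (given the weak divisibility of `J₀(N)`). -/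
theorem isPlaceReductionModL_unique (hℓN : ¬ ℓ ∣ N)
    (hwdiv : ∀ x : JZero N, ∃ d : ℕ, 0 < d ∧ ∀ j : ℕ, ∃ y : JZero N, 2 ^ j • y = d • x)
    {r₁ r₂ : Place Ω ↥(modularFunctionFieldBar N) →
      Place (IsLocalRing.ResidueField ↥A)
        ↥(modularFunctionFieldFullC (IsLocalRing.ResidueField ↥A) N)}
    (h₁ : IsPlaceReductionModL A N r₁) (h₂ : IsPlaceReductionModL A N r₂) : r₁ = r₂ := by
  classical
  haveI : IsAlgClosed (IsLocalRing.ResidueField A) := isAlgClosed_residueField A
  haveI : HasPrincipalDivisors Ω (modularFunctionFieldBar N) :=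
    (jCoordBar N).hasPrincipalDivisors
  have hgen : PrincipalGeneratedByIntegral A (IsLocalRing.residue ↥A) N :=
    principalGeneratedByIntegral_residue hA N hℓN
  have hdeg : ∀ P : Place Ω ↥(modularFunctionFieldBar N), P.deg = 1 :=
    fun P => (jCoordBar N).deg_eq_one P
  have hagree : ∀ D ∈ integralPrincipalDivisors A (IsLocalRing.residue ↥A) N,
      Finsupp.mapDomain r₁ D = Finsupp.mapDomain r₂ D := by
    rintro D ⟨y, hy, hyk, hne, hDy⟩
    ext Q
    rw [h₁.2 y hy hyk hne D hDy Q, h₂.2 y hy hyk hne D hDy Q]
  rcases eq_or_const_of_agree_weak hgen hagree hdeg hwdiv with h | hconst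
  · exact h
  exfalso
  -- the divisor of `j`
  have hres := gaussRes_residue hA N hℓN
  have hj0 : jBar N ≠ 0 := by
    intro h0
    apply transcendental_jBar N
    rw [h0]
    exact isAlgebraic_zero
  obtain ⟨D, hD, hD0⟩ := HasPrincipalDivisors.exists_divisor (K := Ω)
    (F := ↥(modularFunctionFieldBar N)) (jBar N) hj0
  -- its push-forward is zero
  have hpush : Finsupp.mapDomain r₁ D = 0 := by
    rcases isEmpty_or_nonempty (Place Ω ↥(modularFunctionFieldBar N)) with hemp | ⟨⟨P₀⟩⟩
    · rw [Subsingleton.elim D 0, Finsupp.mapDomain_zero]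
    · rw [mapDomain_eq_single_of_const hdeg hconst P₀ D, hD0, Finsupp.single_zero]
  -- but it is the divisor of `j̃`
  have hy : coeffMap A.subtype ((jGauss A N : ↥(gaussRing A N)) : LaurentSeries ↥A) ∈
      laurentBaseChange Ω (modularFunctionFieldFull N) := (jGauss A N).2
  have hyk : coeffMap (IsLocalRing.residue ↥A)
      ((jGauss A N : ↥(gaussRing A N)) : LaurentSeries ↥A) ∈
        modularFunctionFieldFullC (IsLocalRing.ResidueField ↥A) N := hres _ (jGauss A N).2
  have e1 : (⟨coeffMap A.subtype ((jGauss A N : ↥(gaussRing A N)) : LaurentSeries ↥A), hy⟩ :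
      ↥(laurentBaseChange Ω (modularFunctionFieldFull N))) = jBar N := gaussι_jGauss A N
  have e2 : (⟨coeffMap (IsLocalRing.residue ↥A)
      ((jGauss A N : ↥(gaussRing A N)) : LaurentSeries ↥A), hyk⟩ :
        ↥(modularFunctionFieldFullC (IsLocalRing.ResidueField ↥A) N)) =
      jTildeElt (IsLocalRing.ResidueField ↥A) N := gaussρF_jGauss A N hres
  have hjt0 : jTildeElt (IsLocalRing.ResidueField ↥A) N ≠ 0 := by
    intro h0
    apply transcendental_jTildeElt (IsLocalRing.ResidueField ↥A) N
    rw [h0]
    exact isAlgebraic_zero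
  have hne : coeffMap (IsLocalRing.residue ↥A)
      ((jGauss A N : ↥(gaussRing A N)) : LaurentSeries ↥A) ≠ 0 := by
    intro h0
    apply hjt0
    rw [← e2]
    exact Subtype.ext h0
  have hord : ∀ Q : Place (IsLocalRing.ResidueField ↥A)
      ↥(modularFunctionFieldFullC (IsLocalRing.ResidueField ↥A) N),
      Q.ord (jTildeElt (IsLocalRing.ResidueField ↥A) N) = 0 := by
    intro Q
    have h := h₁.2 _ hy hyk hne D (fun P => by rw [hD P, e1]) Q
    rw [hpush, Finsupp.zero_apply, e2] at h
    exact h.symm
  obtain ⟨c, hc⟩ := const_of_ord_eq_zero (IsLocalRing.ResidueField ↥A) N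
    (isSeparable_fullC_residueField hA N hℓN) (finiteDimensional_fullC_residueField hA N hℓN)
    _ hjt0 hord
  apply transcendental_jTildeElt (IsLocalRing.ResidueField ↥A) N
  rw [hc]
  exact isAlgebraic_algebraMap c

include hA in
/-- **every place reduction mod `ℓ` evaluates both charts** `j` and `(j - b)⁻¹`, covers all
places, and is equivariant for the decomposition group. -/
theorem chartEval_of_isPlaceReductionModL (hℓN : ¬ ℓ ∣ N)
    (hwdiv : ∀ x : JZero N, ∃ d : ℕ, 0 < d ∧ ∀ j : ℕ, ∃ y : JZero N, 2 ^ j • y = d • x) (b : ℤ)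
    {r : Place Ω ↥(modularFunctionFieldBar N) →
      Place (IsLocalRing.ResidueField ↥A)
        ↥(modularFunctionFieldFullC (IsLocalRing.ResidueField ↥A) N)}
    (hr : IsPlaceReductionModL A N r) :
    ChartEval (gaussRes_residue hA N hℓN) (jBar N) r ∧
      ChartEval (gaussRes_residue hA N hℓN) (jInvBar N b) r ∧
      (∀ P, GoodAt A N (jBar N) P ∨ GoodAt A N (jInvBar N b) P) ∧
      ∀ (σ : A.decompositionSubgroup ℚ) (P : Place Ω ↥(modularFunctionFieldBar N)),
        r (arithmeticGalois (modularFunctionFieldFull N) σ.1 • P)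
          = coeffAutC (IsLocalRing.ResidueField ↥A) N (resAut A σ) • r P := by
  obtain ⟨r₀, hev₁, hev₂, -, -, hcover, hequiv⟩ :=
    exists_placeReduction_residue hA N hℓN b
      (chartSep_jBar_gauss N hA hℓN (gaussRes_residue hA N hℓN))
      (chartSep_jInvBar hA N hℓN (gaussRes_residue hA N hℓN) b)
  have hr₀ : IsPlaceReductionModL A N r₀ :=
    isPlaceReductionModL_of_chartEval_h6 hA N hℓN (gaussRes_residue hA N hℓN) b r₀ hev₁ hev₂
  have e : r = r₀ := isPlaceReductionModL_unique hA N hℓN hwdiv hr hr₀
  subst e
  exact ⟨hev₁, hev₂, hcover, hequiv⟩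

end Concrete

end Fermat.Agent.MZ
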