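/-
PROJECT MZ (branch-only) — (HR), part (U) at prime level — helper8.

For `N = p` prime the weak divisibility of `J₀(p)` is helper4's (G1′)
(`exists_nsmul_eq_pow_smul`), so the Prelude's opaque `placeReductionModL h` evaluates both charts.
-/
import Mathlib
import Fermat.Agent.MZ.HR_helper8_Uniq
import Fermat.Agent.MZ.G1_helper4_Div

set_option autoImplicit false
set_option linter.unusedSectionVars false
set_option linter.unusedVariables false
set_option linter.style.haveILetI false
set_option synthInstance.maxHeartbeats 400000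

open HahnSeries IntermediateField AlgebraicCurve ModularCurve

namespace Fermat.Agent.MZ

open Fermat.Agent.JA Fermat.Agent.X0N

local notation "Ω" => AlgebraicClosure ℚ

variable {ℓ : ℕ} [hℓ : Fact ℓ.Prime] {A : ValuationSubring Ω} (hA : A.LiesOverPrime ℓ)
  {p : ℕ} [NeZero p]

/-- weak `2`-divisibility of `J₀(p)`. -/
theorem jzero_weak_two_divisible (hp : p.Prime) (x : JZero p) :
    ∃ d : ℕ, 0 < d ∧ ∀ j : ℕ, ∃ y : JZero p, 2 ^ j • y = d • x :=
  exists_nsmul_eq_pow_smul p hp 2 Nat.prime_two x

include hA in
/-- uniqueness of the place reduction at prime level. -/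
theorem isPlaceReductionModL_unique_prime (hp : p.Prime) (hℓp : ℓ ≠ p)
    {r₁ r₂ : Place Ω ↥(modularFunctionFieldBar p) →
      Place (IsLocalRing.ResidueField ↥A)
        ↥(modularFunctionFieldFullC (IsLocalRing.ResidueField ↥A) p)}
    (h₁ : IsPlaceReductionModL A p r₁) (h₂ : IsPlaceReductionModL A p r₂) : r₁ = r₂ :=
  isPlaceReductionModL_unique hA p
    (fun h => hℓp ((Nat.prime_dvd_prime_iff_eq hℓ.out hp).mp h))
    (jzero_weak_two_divisible hp) h₁ h₂

include hA in
/-- **the Prelude's `placeReductionModL h` evaluates both charts** (prime level). -/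
theorem chartEval_placeReductionModL (hp : p.Prime) (hℓp : ℓ ≠ p) (b : ℤ)
    (h : ReductionInputsModL A p) :
    ChartEval (gaussRes_residue hA p
        (fun hd => hℓp ((Nat.prime_dvd_prime_iff_eq hℓ.out hp).mp hd))) (jBar p)
        (placeReductionModL h) ∧
      ChartEval (gaussRes_residue hA p
        (fun hd => hℓp ((Nat.prime_dvd_prime_iff_eq hℓ.out hp).mp hd))) (jInvBar p b)
        (placeReductionModL h) ∧
      (∀ P, GoodAt A p (jBar p) P ∨ GoodAt A p (jInvBar p b) P) ∧
      ∀ (σ : A.decompositionSubgroup ℚ) (P : Place Ω ↥(modularFunctionFieldBar p)),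
        placeReductionModL h (arithmeticGalois (modularFunctionFieldFull p) σ.1 • P)
          = coeffAutC (IsLocalRing.ResidueField ↥A) p (resAut A σ) • placeReductionModL h P :=
  chartEval_of_isPlaceReductionModL hA p
    (fun hd => hℓp ((Nat.prime_dvd_prime_iff_eq hℓ.out hp).mp hd))
    (jzero_weak_two_divisible hp) b (isPlaceReductionModL_placeReductionModL h)

end Fermat.Agent.MZ
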