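/-
PROJECT MZ (S15), block (MOD)/[PL], the reduction step (RS), part 1 (helper9): evaluation of
Gauss-integral functions at reduced places from the `mapDomain` clause of
`IsPlaceReductionModL`.

* `exists_finset_ord_red` : `ord_Q f̄ = ∑_{P ↦ Q} ord_P f` for a Gauss-integral `f` with `f̄ ≠ 0`;
* `exists_pos_of_ord_red_pos` : a zero of `f̄` at `Q` lifts to a zero of `f` at some `P ↦ Q`;
* `hasValueAt_red` : **(EVAL)** if `f` is Gauss-integral, regular at `P` with value `a ∈ A`, and
  regular at every place with the same reduction as `P`, then `f̄ (r P) = ā`.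
-/
import Mathlib
import Fermat.Agent.JA.RED_helper7_Coords
import Fermat.Agent.JA.RED_helper7_R1
import Fermat.Agent.JA.H0_helper7_Main

set_option autoImplicit false
set_option linter.unusedSectionVars false
set_option linter.style.haveILetI false

open AlgebraicCurve ModularCurve HahnSeries

namespace Fermat.Agent.MZ

open Fermat.Agent.JA Fermat.Agent.X0N Fermat.Agent.FF

local notation "Ω" => AlgebraicClosure ℚ

section Basic

variable {A : ValuationSubring Ω} {N : ℕ} [NeZero N]
  {r : Place Ω (modularFunctionFieldBar N) →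
    Place (IsLocalRing.ResidueField ↥A)
      (modularFunctionFieldFullC (IsLocalRing.ResidueField ↥A) N)}
  (hr : IsPlaceReductionModL A N r) (hres : GaussRes A N (IsLocalRing.residue ↥A))

include hr in
/-- **the reduction of the divisor of a Gauss-integral function**, placewise. -/
theorem exists_finset_ord_red (y : ↥(gaussRing A N)) (hne : gaussρF hres y ≠ 0)
    (Q : Place (IsLocalRing.ResidueField ↥A)
      (modularFunctionFieldFullC (IsLocalRing.ResidueField ↥A) N)) :
    ∃ S : Finset (Place Ω (modularFunctionFieldBar N)),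
      (∀ P ∈ S, r P = Q ∧ P.ord (gaussι A N y) ≠ 0) ∧
      (∀ P, r P = Q → P.ord (gaussι A N y) ≠ 0 → P ∈ S) ∧
      Q.ord (gaussρF hres y) = ∑ P ∈ S, P.ord (gaussι A N y) := by
  classical
  haveI := hasPrincipalDivisors_bar N
  have hne' : coeffMap (IsLocalRing.residue ↥A) (y : LaurentSeries ↥A) ≠ 0 := by
    intro h
    apply hne
    apply Subtype.ext
    rw [coe_gaussρF, h]
    rfl
  have hι0 : gaussι A N y ≠ 0 := by
    intro h
    apply hne'
    have h1 : (y : LaurentSeries ↥A) = 0 := by
      have := gaussι_injective A N (h.trans (map_zero (gaussι A N)).symm)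
      exact congrArg Subtype.val this
    rw [h1, map_zero]
  obtain ⟨D, hD, -⟩ := HasPrincipalDivisors.exists_divisor (K := Ω)
    (F := ↥(modularFunctionFieldBar N)) (gaussι A N y) hι0
  have key := hr.2 (y : LaurentSeries ↥A) y.2 (hres _ y.2) hne' D (fun P => hD P) Q
  refine ⟨D.support.filter (fun P => r P = Q), ?_, ?_, ?_⟩
  · intro P hP
    rw [Finset.mem_filter, Finsupp.mem_support_iff, hD] at hP
    exact ⟨hP.2, hP.1⟩
  · intro P hPQ hP
    rw [Finset.mem_filter, Finsupp.mem_support_iff, hD]
    exact ⟨hP, hPQ⟩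
  · have e : (⟨coeffMap (IsLocalRing.residue ↥A) (y : LaurentSeries ↥A), hres _ y.2⟩ :
        ↥(modularFunctionFieldFullC (IsLocalRing.ResidueField ↥A) N)) = gaussρF hres y := rfl
    rw [e] at key
    rw [← key, Finsupp.mapDomain, Finsupp.sum, Finsupp.finsetSum_apply, Finset.sum_filter]
    refine Finset.sum_congr rfl fun P _ => ?_
    rw [Finsupp.single_apply, hD]

include hr in
/-- a zero of `f̄` at `Q` comes from a zero of `f` at a place reducing to `Q`. -/
theorem exists_pos_of_ord_red_pos (y : ↥(gaussRing A N)) (hne : gaussρF hres y ≠ 0)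
    (Q : Place (IsLocalRing.ResidueField ↥A)
      (modularFunctionFieldFullC (IsLocalRing.ResidueField ↥A) N))
    (hQ : 0 < Q.ord (gaussρF hres y)) :
    ∃ P, r P = Q ∧ 0 < P.ord (gaussι A N y) := by
  obtain ⟨S, hS1, -, hS3⟩ := exists_finset_ord_red hr hres y hne Q
  rw [hS3] at hQ
  obtain ⟨P, hPS, hP⟩ := Finset.exists_lt_of_sum_lt (s := S) (f := fun _ => (0 : ℤ))
    (g := fun P => P.ord (gaussι A N y)) (by rwa [Finset.sum_const_zero])
  exact ⟨P, (hS1 P hPS).1, hP⟩

include hr in
/-- **(EVAL)** from the `mapDomain` clause and separation of the poles. -/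
theorem hasValueAt_red (y : ↥(gaussRing A N)) (P : Place Ω (modularFunctionFieldBar N)) (a : ↥A)
    (hP : HasValueAt P (gaussι A N y) (a : Ω))
    (hsep : ∀ P', r P' = r P → gaussι A N y ∈ P'.toValuationSubring) :
    HasValueAt (r P) (gaussρF hres y) (IsLocalRing.residue ↥A a) := by
  classical
  set y' : ↥(gaussRing A N) := y - gaussC A N a with hy'
  have hι : gaussι A N y' =
      gaussι A N y - algebraMap Ω ↥(modularFunctionFieldBar N) (a : Ω) := by
    rw [hy', map_sub, gaussι_gaussC]
  have hρ : gaussρF hres y' = gaussρF hres y -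
      algebraMap (IsLocalRing.ResidueField ↥A)
        ↥(modularFunctionFieldFullC (IsLocalRing.ResidueField ↥A) N)
        (IsLocalRing.residue ↥A a) := by
    rw [hy', map_sub]
    congr 1
    apply Subtype.ext
    rw [coe_gaussρF]
    exact gaussρ_gaussC A N (IsLocalRing.residue ↥A) a
  by_cases hne : gaussρF hres y' = 0
  · rw [hρ, sub_eq_zero] at hne
    exact HasValueAt.of_eq hne
  · obtain ⟨S, hS1, hS2, hS3⟩ := exists_finset_ord_red hr hres y' hne (r P)
    apply HasValueAt.of_ord_pos
    rw [← hρ, hS3]
    have hι0 : gaussι A N y' ≠ 0 := by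
      intro h
      apply hne
      have h1 : y' = 0 := gaussι_injective A N (h.trans (map_zero (gaussι A N)).symm)
      rw [h1, map_zero]
    have hPpos : 0 < P.ord (gaussι A N y') := by
      rcases HasValueAt.iff_ord.mp hP with h | h
      · exact absurd (hι.trans h) hι0
      · rwa [hι]
    have hPS : P ∈ S := hS2 P rfl hPpos.ne'
    have hnonneg : ∀ P' ∈ S, 0 ≤ P'.ord (gaussι A N y') := by
      intro P' hP'
      have hmem : gaussι A N y' ∈ P'.toValuationSubring := by
        rw [hι]
        exact sub_mem (hsep P' (hS1 P' hP').1) (P'.algebraMap_mem' _)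
      exact (PlaceAux.mem_iff_ord_nonneg' P' hι0).mp hmem
    calc 0 < P.ord (gaussι A N y') := hPpos
      _ ≤ ∑ P' ∈ S, P'.ord (gaussι A N y') :=
        Finset.single_le_sum (f := fun P' => P'.ord (gaussι A N y')) hnonneg hPS

end Basic

end Fermat.Agent.MZ
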