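/-
PROJECT MZ (S15), block (MOD)/[PL], the reduction step (RS), part 2 (helper9).

For a place reduction `r` at `A | ℓ`, `ℓ ∤ p`, with (EVAL) for the two charts `j` and `1/j`
(helper8's `chartEval_placeReductionModL`):

* `red_jInv_zero`, `red_j_value`, `not_red_eq_of_integral` : places with non-integral `j`-value
  reduce to poles of `j̄`, places with integral `j`-value do not;
* `red_mem_cusps` : a place with non-integral `j`-value reduces to `r P∞` or to `r P0`;
* `mod_redStep` : **(RS)** for a Gauss-integral `N` without negative terms, with unit constant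
  term, vanishing at the cusp `0`, whose poles have integral `j`-value: a place `P` with
  non-integral `j`-value and `N(P) = ν ∈ A` reduces to `r P0` if `ν̄ = 0` and to `r P∞` if `ν̄ ≠ 0`.
-/
import Mathlib
import Fermat.Agent.MZ.MODRS_helper9_Basic
import Fermat.Agent.MZ.CUSP_helper9_Div

set_option autoImplicit false
set_option linter.unusedSectionVars false
set_option linter.style.haveILetI false

open AlgebraicCurve ModularCurve HahnSeries

namespace Fermat.Agent.MZ

open Fermat.Agent.JA Fermat.Agent.X0N Fermat.Agent.FF Fermat.Agent.MW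

local notation "Ω" => AlgebraicClosure ℚ

section RS

variable {ℓ : ℕ} [Fact ℓ.Prime] (p : ℕ) [NeZero p] {A : ValuationSubring Ω}
  (hA : A.LiesOverPrime ℓ) (hℓp : ¬ ℓ ∣ p)
  {r : Place Ω (modularFunctionFieldBar p) →
    Place (IsLocalRing.ResidueField ↥A)
      (modularFunctionFieldFullC (IsLocalRing.ResidueField ↥A) p)}

/-- `1/j` as an element of its own chart ring. -/
noncomputable def jInvChart : ↥(chartRing A p (jInvBar p 0)) :=
  ⟨(jInvGauss A p 0 : LaurentSeries ↥A),
    mem_chartRing_of_gaussι_eq (jInvBar p 0) (jInvGauss A p 0) (gaussι_jInvGauss A p 0)⟩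

/-- `j` as an element of its own chart ring. -/
noncomputable def jChart : ↥(chartRing A p (jBar p)) :=
  ⟨(jGauss A p : LaurentSeries ↥A),
    mem_chartRing_of_gaussι_eq (jBar p) (jGauss A p) (gaussι_jGauss A p)⟩

theorem chartι_jInvChart : chartι A p (jInvBar p 0) (jInvChart p) = jInvBar p 0 :=
  gaussι_jInvGauss A p 0

theorem chartι_jChart : chartι A p (jBar p) (jChart p) = jBar p :=
  gaussι_jGauss A p

include hA hℓp in
/-- a place with `(1/j)(P) ∈ 𝔪_A` reduces to a zero of `1/j̄`. -/
theorem red_jInv_zero (hev₂ : ChartEval (gaussRes_residue hA p hℓp) (jInvBar p 0) r)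
    (P : Place Ω (modularFunctionFieldBar p)) (c : ↥A) (hc : IsLocalRing.residue ↥A c = 0)
    (hP : HasValueAt P (jInvBar p 0) (c : Ω)) :
    HasValueAt (r P) (gaussρF (gaussRes_residue hA p hℓp) (jInvGauss A p 0)) 0 := by
  obtain ⟨a, ha1, ha2⟩ := hev₂ P ⟨c, hP⟩ (jInvChart p)
  rw [chartι_jInvChart] at ha1
  have hac : a = c := Subtype.ext (ha1.unique hP)
  rw [hac, hc] at ha2
  exact ha2

include hA hℓp in
/-- a place with `j(P) = a ∈ A` reduces to a place with `j̄ = ā`. -/
theorem red_j_value (hev₁ : ChartEval (gaussRes_residue hA p hℓp) (jBar p) r)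
    (P : Place Ω (modularFunctionFieldBar p)) (a : ↥A) (hP : HasValueAt P (jBar p) (a : Ω)) :
    HasValueAt (r P) (gaussρF (gaussRes_residue hA p hℓp) (jGauss A p))
      (IsLocalRing.residue ↥A a) := by
  obtain ⟨a', ha1, ha2⟩ := hev₁ P ⟨a, hP⟩ (jChart p)
  rw [chartι_jChart] at ha1
  have hac : a' = a := Subtype.ext (ha1.unique hP)
  rw [hac] at ha2
  exact ha2

include hA hℓp in
theorem red_jInv_mul_red_j :
    gaussρF (gaussRes_residue hA p hℓp) (jInvGauss A p 0) *
      gaussρF (gaussRes_residue hA p hℓp) (jGauss A p) = 1 := by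
  have h := jInvGauss_rel A p 0
  rw [Int.cast_zero, map_zero, sub_zero] at h
  rw [← map_mul, h, map_one]

include hA hℓp in
/-- no place of the reduced curve is both a zero of `1/j̄` and a place where `j̄` is regular. -/
theorem not_hasValueAt_both
    (Q : Place (IsLocalRing.ResidueField ↥A)
      (modularFunctionFieldFullC (IsLocalRing.ResidueField ↥A) p))
    (h1 : HasValueAt Q (gaussρF (gaussRes_residue hA p hℓp) (jInvGauss A p 0)) 0)
    (a : IsLocalRing.ResidueField ↥A)
    (h2 : HasValueAt Q (gaussρF (gaussRes_residue hA p hℓp) (jGauss A p)) a) : False := by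
  have h3 := h1.mul h2
  rw [red_jInv_mul_red_j p hA hℓp, zero_mul] at h3
  exact one_ne_zero ((HasValueAt.one' Q).unique h3)

include hA hℓp in
/-- places with non-integral and with integral `j`-value have different reductions. -/
theorem not_red_eq_of_integral (hev₁ : ChartEval (gaussRes_residue hA p hℓp) (jBar p) r)
    (hev₂ : ChartEval (gaussRes_residue hA p hℓp) (jInvBar p 0) r)
    (P : Place Ω (modularFunctionFieldBar p)) (c : ↥A) (hc : IsLocalRing.residue ↥A c = 0)
    (hP : HasValueAt P (jInvBar p 0) (c : Ω))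
    (P' : Place Ω (modularFunctionFieldBar p)) (a : ↥A) (hP' : HasValueAt P' (jBar p) (a : Ω)) :
    r P' ≠ r P := by
  intro h
  have h1 := red_jInv_zero p hA hℓp hev₂ P c hc hP
  have h2 := red_j_value p hA hℓp hev₁ P' a hP'
  rw [h] at h2
  exact not_hasValueAt_both p hA hℓp (r P) h1 _ h2

theorem jInvBar_zero_eq : jInvBar p 0 = (Fermat.Agent.X0N.jBar p)⁻¹ := by
  unfold jInvBar
  rw [Int.cast_zero, map_zero, sub_zero]

include hA hℓp in
/-- **a place with non-integral `j`-value reduces to the reduction of a cusp.** -/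
theorem red_mem_cusps (hp : p.Prime) (hr : IsPlaceReductionModL A p r)
    (hev₂ : ChartEval (gaussRes_residue hA p hℓp) (jInvBar p 0) r)
    (P : Place Ω (modularFunctionFieldBar p)) (c : ↥A) (hc : IsLocalRing.residue ↥A c = 0)
    (hP : HasValueAt P (jInvBar p 0) (c : Ω)) :
    r P = r (infN p) ∨ r P = r (zeroN p) := by
  have h1 := red_jInv_zero p hA hℓp hev₂ P c hc hP
  have hne : gaussρF (gaussRes_residue hA p hℓp) (jInvGauss A p 0) ≠ 0 := by
    intro h
    have := red_jInv_mul_red_j p hA hℓp
    rw [h, zero_mul] at this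
    exact zero_ne_one this
  have hpos : 0 < (r P).ord (gaussρF (gaussRes_residue hA p hℓp) (jInvGauss A p 0)) := by
    rcases HasValueAt.zero_iff.mp h1 with h | h
    · exact absurd h hne
    · exact h
  obtain ⟨P', hP'r, hP'pos⟩ :=
    exists_pos_of_ord_red_pos hr (gaussRes_residue hA p hℓp) (jInvGauss A p 0) hne (r P) hpos
  rw [gaussι_jInvGauss, jInvBar_zero_eq, Place.ord_inv] at hP'pos
  have hneg : P'.ord (Fermat.Agent.X0N.jBar p) < 0 := by omega
  rcases pole_cases p hp P' hneg with h | h
  · left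
    rw [← hP'r, h]
  · right
    rw [← hP'r, h]

/-- the cusp `∞` has `(1/j)(P∞) = 0`. -/
theorem hasValueAt_infN_jInv : HasValueAt (infN p) (jInvBar p 0) ((0 : ↥A) : Ω) := by
  rw [ZeroMemClass.coe_zero]
  apply HasValueAt.zero_iff.mpr
  right
  rw [jInvBar_zero_eq, Place.ord_inv, infN_ord_jBar]
  norm_num

/-- the cusp `0` has `(1/j)(P0) = 0`. -/
theorem hasValueAt_zeroN_jInv : HasValueAt (zeroN p) (jInvBar p 0) ((0 : ↥A) : Ω) := by
  rw [ZeroMemClass.coe_zero]
  apply HasValueAt.zero_iff.mpr
  right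
  rw [jInvBar_zero_eq, Place.ord_inv, zeroN_ord_jBar]
  have : 0 < (p : ℤ) := by exact_mod_cast Nat.pos_of_ne_zero (NeZero.ne p)
  omega

/-- the value at `∞` of a Gauss-integral function without negative terms is its constant term. -/
theorem hasValueAt_infN_of_coeff (y : ↥(gaussRing A p))
    (hneg : ∀ n : ℤ, n < 0 → (y : LaurentSeries ↥A).coeff n = 0) :
    HasValueAt (infN p) (gaussι A p y) (((y : LaurentSeries ↥A).coeff 0 : ↥A) : Ω) := by
  set c : ↥A := (y : LaurentSeries ↥A).coeff 0 with hc
  by_cases h0 : gaussι A p y - algebraMap Ω ↥(modularFunctionFieldBar p) (c : Ω) = 0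
  · exact HasValueAt.iff_ord.mpr (Or.inl h0)
  · apply HasValueAt.of_ord_pos
    rw [infN_ord p h0]
    set x : LaurentSeries Ω :=
      ((gaussι A p y - algebraMap Ω ↥(modularFunctionFieldBar p) (c : Ω) :
        ↥(modularFunctionFieldBar p)) : LaurentSeries Ω) with hx
    have hx0 : x ≠ 0 := fun h => h0 (Subtype.ext h)
    have hxc : ∀ n : ℤ, n ≤ 0 → x.coeff n = 0 := by
      intro n hn
      have e : x = coeffMap A.subtype (y : LaurentSeries ↥A) -
          algebraMap Ω (LaurentSeries Ω) (c : Ω) := rfl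
      rw [e, HahnSeries.coeff_sub, coeffMap_coeff, algebraMap_laurentSeries_eq_single,
        HahnSeries.coeff_single]
      rcases lt_or_eq_of_le hn with h | h
      · rw [hneg n h, map_zero, if_neg h.ne, sub_zero]
      · subst h
        rw [if_pos rfl]
        exact sub_self _
    by_contra hle
    rw [not_lt] at hle
    exact hx0 (HahnSeries.coeff_order_eq_zero.mp (hxc _ hle))

include hA hℓp in
/-- **(RS), the reduction step of (MOD).** -/
theorem mod_redStep (hp : p.Prime) (hr : IsPlaceReductionModL A p r)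
    (hev₁ : ChartEval (gaussRes_residue hA p hℓp) (jBar p) r)
    (hev₂ : ChartEval (gaussRes_residue hA p hℓp) (jInvBar p 0) r)
    (y : ↥(gaussRing A p))
    (hneg : ∀ n : ℤ, n < 0 → (y : LaurentSeries ↥A).coeff n = 0)
    (h0 : IsLocalRing.residue ↥A ((y : LaurentSeries ↥A).coeff 0) ≠ 0)
    (hzero : 0 < (zeroN p).ord (gaussι A p y))
    (hpoles : ∀ v : Place Ω (modularFunctionFieldBar p), v.ord (gaussι A p y) < 0 →
      ∃ a : ↥A, HasValueAt v (Fermat.Agent.X0N.jBar p) (a : Ω))
    (P : Place Ω (modularFunctionFieldBar p)) (c : ↥A) (hc : IsLocalRing.residue ↥A c = 0)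
    (hPj : HasValueAt P (jInvBar p 0) (c : Ω)) (ν : ↥A)
    (hν : HasValueAt P (gaussι A p y) (ν : Ω)) :
    (IsLocalRing.residue ↥A ν = 0 → r P = r (zeroN p)) ∧
      (IsLocalRing.residue ↥A ν ≠ 0 → r P = r (infN p)) := by
  set hres := gaussRes_residue hA p hℓp with hhres
  -- separation of the poles of `N` from the places with non-integral `j`-value
  have hsep : ∀ (P₁ : Place Ω (modularFunctionFieldBar p)) (c₁ : ↥A),
      IsLocalRing.residue ↥A c₁ = 0 → HasValueAt P₁ (jInvBar p 0) (c₁ : Ω) →
      ∀ P', r P' = r P₁ → gaussι A p y ∈ P'.toValuationSubring := by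
    intro P₁ c₁ hc₁ hP₁ P' hP'
    by_contra hmem
    have hN0 : gaussι A p y ≠ 0 := by
      intro h
      rw [h] at hmem
      exact hmem (zero_mem _)
    have hlt : P'.ord (gaussι A p y) < 0 := by
      by_contra hge
      rw [not_lt] at hge
      exact hmem ((PlaceAux.mem_iff_ord_nonneg' P' hN0).mpr hge)
    obtain ⟨a, ha⟩ := hpoles P' hlt
    exact not_red_eq_of_integral p hA hℓp hev₁ hev₂ P₁ c₁ hc₁ hP₁ P' a ha hP'
  have h00 : IsLocalRing.residue ↥A (0 : ↥A) = 0 := map_zero _
  -- the three values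
  have vInf := hasValueAt_red hr hres y (infN p) _ (hasValueAt_infN_of_coeff p y hneg)
    (hsep (infN p) 0 h00 (hasValueAt_infN_jInv p))
  have hz : HasValueAt (zeroN p) (gaussι A p y) ((0 : ↥A) : Ω) := by
    rw [ZeroMemClass.coe_zero]
    exact HasValueAt.zero_iff.mpr (Or.inr hzero)
  have v0 := hasValueAt_red hr hres y (zeroN p) 0 hz (hsep (zeroN p) 0 h00 (hasValueAt_zeroN_jInv p))
  rw [h00] at v0
  have vP := hasValueAt_red hr hres y P ν hν (hsep P c hc hPj)
  have hcusp := red_mem_cusps p hA hℓp hp hr hev₂ P c hc hPj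
  constructor
  · intro hν0
    rcases hcusp with h | h
    · exfalso
      rw [h] at vP
      rw [hν0] at vP
      exact h0 (vInf.unique vP)
    · exact h
  · intro hν0
    rcases hcusp with h | h
    · exact h
    · exfalso
      rw [h] at vP
      exact hν0 (vP.unique v0)

end RS

end Fermat.Agent.MZ
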