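/-
PROJECT MZ (S15), block (MOD)/[PL], the reduction step (RS), part 3 (helper9): (RS) for the
Prelude's `placeReductionModL h`, through helper8's `chartEval_placeReductionModL`.
-/
import Mathlib
import Fermat.Agent.MZ.MODRS_helper9_Main
import Fermat.Agent.MZ.HR_helper8_UniqP

set_option autoImplicit false
set_option linter.unusedSectionVars false
set_option linter.style.haveILetI false

open AlgebraicCurve ModularCurve HahnSeries

namespace Fermat.Agent.MZ

open Fermat.Agent.JA Fermat.Agent.X0N Fermat.Agent.FF Fermat.Agent.MW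

local notation "Ω" => AlgebraicClosure ℚ

section Final

variable {ℓ : ℕ} [hℓ : Fact ℓ.Prime] (p : ℕ) [NeZero p] {A : ValuationSubring Ω}
  (hA : A.LiesOverPrime ℓ)

include hA in
/-- **(RS) for `placeReductionModL h`.** -/
theorem mod_redStep_modL (hp : p.Prime) (hℓp : ℓ ≠ p) (h : ReductionInputsModL A p)
    (y : ↥(gaussRing A p))
    (hneg : ∀ n : ℤ, n < 0 → (y : LaurentSeries ↥A).coeff n = 0)
    (h0 : IsLocalRing.residue ↥A ((y : LaurentSeries ↥A).coeff 0) ≠ 0)
    (hzero : 0 < (zeroN p).ord (gaussι A p y))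
    (hpoles : ∀ v : Place Ω (modularFunctionFieldBar p), v.ord (gaussι A p y) < 0 →
      ∃ a : ↥A, HasValueAt v (Fermat.Agent.X0N.jBar p) (a : Ω))
    (P : Place Ω (modularFunctionFieldBar p)) (c : ↥A) (hc : IsLocalRing.residue ↥A c = 0)
    (hPj : HasValueAt P (jInvBar p 0) (c : Ω)) (ν : ↥A)
    (hν : HasValueAt P (gaussι A p y) (ν : Ω)) :
    (IsLocalRing.residue ↥A ν = 0 → placeReductionModL h P = placeReductionModL h (zeroN p)) ∧
      (IsLocalRing.residue ↥A ν ≠ 0 →
        placeReductionModL h P = placeReductionModL h (infN p)) := by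
  obtain ⟨hev₁, hev₂, -, -⟩ := chartEval_placeReductionModL hA hp hℓp 0 h
  exact mod_redStep p hA (fun hd => hℓp ((Nat.prime_dvd_prime_iff_eq hℓ.out hp).mp hd)) hp
    (isPlaceReductionModL_placeReductionModL h) hev₁ hev₂ y hneg h0 hzero hpoles P c hc hPj ν hν

include hA in
/-- **(RS)** with values in `Ω`: `j(P) = a ∉ A`, `N(P) = c ∈ A`. -/
theorem mod_redStep_modL' (hp : p.Prime) (hℓp : ℓ ≠ p) (h : ReductionInputsModL A p)
    (y : ↥(gaussRing A p))
    (hneg : ∀ n : ℤ, n < 0 → (y : LaurentSeries ↥A).coeff n = 0)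
    (h0 : IsLocalRing.residue ↥A ((y : LaurentSeries ↥A).coeff 0) ≠ 0)
    (hzero : 0 < (zeroN p).ord (gaussι A p y))
    (hpoles : ∀ v : Place Ω (modularFunctionFieldBar p), v.ord (gaussι A p y) < 0 →
      ∃ a : ↥A, HasValueAt v (Fermat.Agent.X0N.jBar p) (a : Ω))
    (P : Place Ω (modularFunctionFieldBar p)) (a : Ω) (ha : a ∉ A)
    (hja : HasValueAt P (Fermat.Agent.X0N.jBar p) a) (c : Ω) (hcA : c ∈ A)
    (hNc : HasValueAt P (gaussι A p y) c) :
    (A.valuation c < 1 → placeReductionModL h P = placeReductionModL h (zeroN p)) ∧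
      (A.valuation c = 1 → placeReductionModL h P = placeReductionModL h (infN p)) := by
  have ha0 : a ≠ 0 := by
    rintro rfl
    exact ha (zero_mem A)
  have hainv : a⁻¹ ∈ A := (A.mem_or_inv_mem a).resolve_left ha
  have hres0 : IsLocalRing.residue ↥A (⟨a⁻¹, hainv⟩ : ↥A) = 0 := by
    rw [IsLocalRing.residue_eq_zero_iff, IsLocalRing.mem_maximalIdeal, mem_nonunits_iff]
    intro hu
    obtain ⟨u, hu'⟩ := hu
    apply ha
    have h1 : ((u⁻¹ : (↥A)ˣ) : ↥A) * (⟨a⁻¹, hainv⟩ : ↥A) = 1 := by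
      rw [← hu']
      exact u.inv_mul
    have h2 : (((u⁻¹ : (↥A)ˣ) : ↥A) : Ω) * a⁻¹ = 1 := by
      have := congrArg (Subtype.val : ↥A → Ω) h1
      simpa using this
    have h3 : (((u⁻¹ : (↥A)ˣ) : ↥A) : Ω) = a := by
      field_simp at h2
      exact h2
    rw [← h3]
    exact ((u⁻¹ : (↥A)ˣ) : ↥A).2
  have hPj : HasValueAt P (jInvBar p 0) ((⟨a⁻¹, hainv⟩ : ↥A) : Ω) := by
    rw [jInvBar_zero_eq]
    exact hja.inv ha0
  have key := mod_redStep_modL p hA hp hℓp h y hneg h0 hzero hpoles P ⟨a⁻¹, hainv⟩ hres0 hPj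
    ⟨c, hcA⟩ hNc
  have hval : A.valuation c < 1 ↔ IsLocalRing.residue ↥A (⟨c, hcA⟩ : ↥A) = 0 := by
    rw [IsLocalRing.residue_eq_zero_iff]
    exact (A.valuation_lt_one_iff (⟨c, hcA⟩ : ↥A)).symm
  constructor
  · intro hlt
    exact key.1 (hval.mp hlt)
  · intro heq
    apply key.2
    intro h
    have := hval.mpr h
    rw [heq] at this
    exact lt_irrefl _ this

end Final

end Fermat.Agent.MZ
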