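/-
PROJECT MZ (S15), (MOD) [PL] — helper1.  **(RED), instantiated**: helper9's abstract reduction step
`mod_redStep_modL'` applied to `N = mzEBar hW (p-1)` (Gauss lift, unit constant term `1/p²`,
zero at the cusp `0`, poles over `j = 1728`).
-/
import Mathlib
import Fermat.Agent.MZ.MODRS_helper9_Final
import Fermat.Agent.MZ.MOD_helper1_Pole

set_option autoImplicit false
set_option linter.unusedSectionVars false
set_option synthInstance.maxHeartbeats 400000

open ModularCurve AlgebraicCurve UpperHalfPlane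
open scoped MatrixGroups

namespace Fermat.Agent.MZ

local notation "Ω" => AlgebraicClosure ℚ

open Fermat.Agent.JA Fermat.Agent.X0N Fermat.Agent.MW

variable {p : ℕ} [Fact p.Prime] {W : ℤ → ℤ → ℍ → ℂ}

/-- **(RED)** for `N = mzEBar hW (p-1)`: a place `Px` over a `j`-value `a ∉ A` at which `N` takes
the value `c ∈ A` reduces to the cusp `0` if `c` is a nonunit of `A`, and to the cusp `∞` if `c`
is a unit. -/
theorem mz_red (hp2 : 2 < p) (hW : WpDivData p W) {ℓ : ℕ} [Fact ℓ.Prime] (hℓp : ℓ ≠ p)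
    {A : ValuationSubring Ω} (hA : A.LiesOverPrime ℓ) (h : ReductionInputsModL A p)
    (Px : PtN p) (a : Ω) (ha : a ∉ A) (hPx : HasValueAt Px (jBar p) a)
    (c : Ω) (hcA : c ∈ A) (hc : HasValueAt Px (mzEBar hW (p - 1)) c) :
    (c ∈ A.nonunits → placeReductionModL h Px = placeReductionModL h (zeroN p)) ∧
      (c ∉ A.nonunits → placeReductionModL h Px = placeReductionModL h (infN p)) := by
  have hp : p.Prime := Fact.out
  have hℓ : ℓ.Prime := Fact.out
  have : NeZero p := ⟨hp.ne_zero⟩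
  obtain ⟨y₀, hy₀⟩ := exists_gauss_lift (p := p) hp2 (p - 1) hℓ hℓp A hA
  have hmem : y₀ ∈ gaussRing A p := by
    rw [mem_gaussRing_iff, hy₀, ← coe_mzEBar hW]
    exact (mzEBar hW (p - 1)).2
  set y : ↥(gaussRing A p) := ⟨y₀, hmem⟩ with hy
  have hι : gaussι A p y = mzEBar hW (p - 1) := by
    apply Subtype.ext
    rw [coe_gaussι, coe_mzEBar]
    exact hy₀
  have hcoeff : ∀ n : ℤ, ((y₀.coeff n : ↥A) : Ω) = algebraMap ℚ Ω ((mzESer p (p - 1)).coeff n) := by
    intro n
    have := congrArg (fun s : LaurentSeries Ω => s.coeff n) hy₀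
    simpa [coeffMap_coeff, coeffEmb_coeff] using this
  have hneg : ∀ n : ℤ, n < 0 → (y : LaurentSeries ↥A).coeff n = 0 := by
    intro n hn
    apply Subtype.ext
    rw [hcoeff n, coeff_mzESer_of_neg _ hn, map_zero]
    rfl
  have h0 : IsLocalRing.residue ↥A ((y : LaurentSeries ↥A).coeff 0) ≠ 0 := by
    intro hres
    rw [IsLocalRing.residue_eq_zero_iff, IsLocalRing.mem_maximalIdeal, mem_nonunits_iff] at hres
    apply hres
    have hpA : ((p : ℕ) : Ω) ∈ A := natCast_mem A p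
    refine isUnit_iff_exists_inv.mpr ⟨⟨((p : ℕ) : Ω) ^ 2, A.pow_mem hpA 2⟩, ?_⟩
    apply Subtype.ext
    show ((y₀.coeff 0 : ↥A) : Ω) * ((p : ℕ) : Ω) ^ 2 = 1
    rw [hcoeff 0, coeff_zero_mzESer_top hp2, map_div₀, map_one, map_pow, map_natCast]
    have : ((p : ℕ) : Ω) ≠ 0 := Nat.cast_ne_zero.mpr hp.ne_zero
    field_simp
  have hzero : 0 < (zeroN p).ord (gaussι A p y) := by
    rw [hι]
    exact zeroN_ord_mzEBar_top_pos hW hp2
  have hpoles : ∀ v : Place Ω (modularFunctionFieldBar p), v.ord (gaussι A p y) < 0 →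
      ∃ a : ↥A, HasValueAt v (Fermat.Agent.X0N.jBar p) (a : Ω) := by
    intro v hv
    rw [hι] at hv
    refine ⟨⟨(1728 : Ω), ?_⟩, hasValueAt_jBar_of_ord_mzEBar_top_neg hp2 hW v hv⟩
    have : (1728 : Ω) = ((1728 : ℕ) : Ω) := by norm_num
    rw [this]
    exact natCast_mem A 1728
  have key := mod_redStep_modL' p hA hp hℓp h y hneg h0 hzero hpoles Px a ha hPx c hcA
    (by rw [hι]; exact hc)
  refine ⟨fun hnu => key.1 ((ValuationSubring.mem_nonunits_iff A).mp hnu), fun hnu => key.2 ?_⟩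
  refine le_antisymm ((A.valuation_le_one_iff c).mpr hcA) (not_lt.mp fun hlt => hnu ?_)
  exact (ValuationSubring.mem_nonunits_iff A).mpr hlt

end Fermat.Agent.MZ
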