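/-
PROJECT MZ (S15, branch-only) — (MOD)[PL2], the local node algebra, abstract part — helper6.

`K` a field, `A` a valuation subring, `E` a Weierstrass curve over `K` with coefficients in `A`,
`Δ ∈ 𝔪`, `c₄ ∉ 𝔪` (multiplicative reduction).  `nodeNumK E x := c₄ x - 18 b₆ + b₂ b₄` is the
numerator of the weight-`0` invariant `Y = (c₄ x - 18 b₆ + b₂ b₄) / c₆`.
* `pl2_partials_iff` : an integral point `(x, y)` reduces to the node (both partial derivatives in
  `𝔪`) iff `nodeNumK E x ∈ 𝔪`;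
* `pl2_nsmul_away` : if an `n`-torsion point (`n` a unit of `A`) does not reduce to the node, no
  multiple of it does.
Both via helper3's nodal normal form `exists_gnode_model` and helper2's component function
`GNodeCtx.depthPt`.
-/
import Mathlib
import Fermat.Agent.S58.NORMF58_helper3
import Fermat.Agent.S13.At2_helper2_NodeTorsion
import Fermat.Agent.Tate.R1_helper8
import Fermat.Agent.Tate.VC_helper7

set_option autoImplicit false
set_option linter.unusedSectionVars false
set_option linter.unusedVariables false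
set_option linter.style.haveILetI false

namespace Fermat.Agent.MZ

open Fermat.Agent.Tate Fermat.Agent.S13
open WeierstrassCurve WeierstrassCurve.Affine

section Abstract

variable {K : Type*} [Field K] [DecidableEq K] {A : ValuationSubring K}

/-- the numerator of the weight-`0` invariant of the abscissa `x`. -/
def nodeNumK (E : WeierstrassCurve K) (x : K) : K := E.c₄ * x - 18 * E.b₆ + E.b₂ * E.b₄

/-- translation invariance of `nodeNumK`. -/
theorem nodeNumK_translate (E : WeierstrassCurve K) (r t x : K) :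
    nodeNumK (VariableChange.mk 1 r 0 t • E) x = nodeNumK E (x + r) := by
  unfold nodeNumK
  rw [variableChange_c₄, variableChange_b₂, variableChange_b₄, variableChange_b₆]
  simp only [inv_one, Units.val_one, one_pow, one_mul]
  rw [c₄]
  ring

/-- translation invariance of the partial derivative with respect to `Y`. -/
theorem polyY_translate (E : WeierstrassCurve K) (r t x y : K) :
    2 * (y + t) + E.a₁ * (x + r) + E.a₃ =
      2 * y + (VariableChange.mk 1 r 0 t • E).a₁ * x + (VariableChange.mk 1 r 0 t • E).a₃ := by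
  have h := polyY_vc E (VariableChange.mk 1 r 0 t) x y
  simp only [vcX, vcY, Units.val_one, one_pow, one_mul, mul_zero, zero_mul, add_zero] at h
  exact h

/-- translation invariance of the partial derivative with respect to `X`. -/
theorem polyX_translate (E : WeierstrassCurve K) (r t x y : K) :
    E.a₁ * (y + t) - (3 * (x + r) ^ 2 + 2 * E.a₂ * (x + r) + E.a₄) =
      (VariableChange.mk 1 r 0 t • E).a₁ * y - (3 * x ^ 2 +
        2 * (VariableChange.mk 1 r 0 t • E).a₂ * x + (VariableChange.mk 1 r 0 t • E).a₄) := by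
  have h := polyX_vc E (VariableChange.mk 1 r 0 t) x y
  simp only [vcX, vcY, Units.val_one, one_pow, one_mul, mul_zero, zero_mul, add_zero,
    sub_zero] at h
  exact h

theorem vcX_translate (r t x : K) : vcX (VariableChange.mk (1 : Kˣ) r 0 t) x = x + r := by
  simp [vcX]

theorem vcY_translate (r t x y : K) : vcY (VariableChange.mk (1 : Kˣ) r 0 t) x y = y + t := by
  simp [vcY]

/-- a unit of `A` times `x` lies in `𝔪` iff `x` does. -/
theorem mul_mem_nonunits_iff_of_unit {c x : K} (hc : c ∈ A) (hc' : c ∉ A.nonunits) :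
    c * x ∈ A.nonunits ↔ x ∈ A.nonunits := by
  have h1 : A.valuation c = 1 := by
    refine le_antisymm ((A.valuation_le_one_iff c).mpr hc) ?_
    rw [A.mem_nonunits_iff, not_lt] at hc'
    exact hc'
  rw [A.mem_nonunits_iff, A.mem_nonunits_iff, map_mul, h1, one_mul]

section Model

variable {C : GNodeCtx K A} {α β : K} {E' : Affine K}

/-- integrality of the coefficients of a nodal model. -/
theorem pl2_isIntegralCurve (hM : C.IsModel E' α β) : IsIntegralCurve A E' where
  a₁ := by rw [hM.a₁]; exact neg_mem (A.add_mem _ _ hM.hα hM.hβ)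
  a₂ := by rw [hM.a₂]; exact neg_mem (mul_mem hM.hα hM.hβ)
  a₃ := by rw [hM.a₃]; exact A.zero_mem
  a₄ := by rw [hM.a₄]; exact A.nonunits_le GNodeCtx.a₄_mem
  a₆ := by rw [hM.a₆]; exact A.nonunits_le GNodeCtx.a₆_mem

/-- on a nodal model, an integral point reduces to the node iff `x ∈ 𝔪`. -/
theorem pl2_model_partials_iff (hM : C.IsModel E' α β) {x y : K} (hx : x ∈ A) (hy : y ∈ A)
    (h : E'.Equation x y) :
    (E'.a₁ * y - (3 * x ^ 2 + 2 * E'.a₂ * x + E'.a₄) ∈ A.nonunits ∧
      2 * y + E'.a₁ * x + E'.a₃ ∈ A.nonunits) ↔ x ∈ A.nonunits := by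
  have hI := pl2_isIntegralCurve hM
  have hn : ∀ n : ℕ, (n : K) ∈ A := fun n => natCast_mem A n
  have h2' : (2 : K) ∈ A := by exact_mod_cast hn 2
  have h3' : (3 : K) ∈ A := by exact_mod_cast hn 3
  constructor
  · rintro ⟨hX, hY⟩
    by_contra hx'
    refine hM.not_partials_mem hx hy hx' h ⟨?_, hY⟩
    have e : 3 * x ^ 2 + 2 * E'.a₂ * x + E'.a₄ - E'.a₁ * y =
        -(E'.a₁ * y - (3 * x ^ 2 + 2 * E'.a₂ * x + E'.a₄)) := by ring
    rw [e]
    exact A.nonunits.neg_mem hX
  · intro hxm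
    have ha₄ : E'.a₄ ∈ A.nonunits := by rw [hM.a₄]; exact GNodeCtx.a₄_mem
    have ha₆ : E'.a₆ ∈ A.nonunits := by rw [hM.a₆]; exact GNodeCtx.a₆_mem
    rw [Affine.equation_iff, hM.a₃] at h
    have hy2 : y ^ 2 ∈ A.nonunits := by
      have e : y ^ 2 = x * (x ^ 2 + E'.a₂ * x - E'.a₁ * y) + E'.a₄ * x + E'.a₆ := by
        linear_combination h
      rw [e]
      refine A.nonunits.add_mem (A.nonunits.add_mem ?_ ?_) ha₆
      · exact mul_mem_nonunits_left hxm (sub_mem
          (add_mem (pow_mem hx 2) (mul_mem hI.a₂ hx)) (mul_mem hI.a₁ hy))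
      · exact mul_mem_nonunits_left ha₄ hx
    have hym : y ∈ A.nonunits := mem_nonunits_of_pow_mem hy2
    refine ⟨?_, ?_⟩
    · refine A.nonunits.sub_mem (mul_mem_nonunits_right hI.a₁ hym)
        (A.nonunits.add_mem (A.nonunits.add_mem ?_ ?_) ha₄)
      · exact mul_mem_nonunits_right h3' (pow_mem_nonunits hxm (by norm_num))
      · exact mul_mem_nonunits_right (mul_mem h2' hI.a₂) hxm
    · rw [hM.a₃, add_zero]
      exact A.nonunits.add_mem (mul_mem_nonunits_right h2' hym)
        (mul_mem_nonunits_right hI.a₁ hxm)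

/-- on a nodal model with `c₄` a unit, `nodeNumK x ∈ 𝔪` iff `x ∈ 𝔪`. -/
theorem pl2_model_nodeNum_iff (hM : C.IsModel E' α β) (hc₄ : E'.c₄ ∈ A)
    (hc₄' : E'.c₄ ∉ A.nonunits) {x : K} (hx : x ∈ A) :
    nodeNumK E' x ∈ A.nonunits ↔ x ∈ A.nonunits := by
  have hI := pl2_isIntegralCurve hM
  have hn : ∀ n : ℕ, (n : K) ∈ A := fun n => natCast_mem A n
  have h2' : (2 : K) ∈ A := by exact_mod_cast hn 2
  have h4' : (4 : K) ∈ A := by exact_mod_cast hn 4
  have h18' : (18 : K) ∈ A := by exact_mod_cast hn 18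
  have ha₄ : E'.a₄ ∈ A.nonunits := by rw [hM.a₄]; exact GNodeCtx.a₄_mem
  have ha₆ : E'.a₆ ∈ A.nonunits := by rw [hM.a₆]; exact GNodeCtx.a₆_mem
  have hb₂ : E'.b₂ ∈ A := by
    rw [b₂]
    exact A.add_mem _ _ (pow_mem hI.a₁ 2) (mul_mem h4' hI.a₂)
  have hb₄ : E'.b₄ ∈ A.nonunits := by
    rw [b₄, hM.a₃, mul_zero, add_zero]
    exact mul_mem_nonunits_right h2' ha₄
  have hb₆ : E'.b₆ ∈ A.nonunits := by
    rw [b₆, hM.a₃]
    have e : (0 : K) ^ 2 + 4 * E'.a₆ = 4 * E'.a₆ := by ring
    rw [e]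
    exact mul_mem_nonunits_right h4' ha₆
  have hrest : -(18 * E'.b₆) + E'.b₂ * E'.b₄ ∈ A.nonunits :=
    A.nonunits.add_mem (A.nonunits.neg_mem (mul_mem_nonunits_right h18' hb₆))
      (mul_mem_nonunits_right hb₂ hb₄)
  have e : nodeNumK E' x = E'.c₄ * x + (-(18 * E'.b₆) + E'.b₂ * E'.b₄) := by
    unfold nodeNumK; ring
  rw [e, ← mul_mem_nonunits_iff_of_unit (x := x) hc₄ hc₄']
  constructor
  · intro h
    have := A.nonunits.sub_mem h hrest
    simpa using this
  · intro h
    exact A.nonunits.add_mem h hrest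

end Model

section Main

variable [IsAlgClosed K] [CharZero K]

/-- **the node criterion**: an integral point of a curve with multiplicative reduction reduces to
the node iff `nodeNumK E x ∈ 𝔪`. -/
theorem pl2_partials_iff (L : LogVal A) (E : WeierstrassCurve K)
    (hE : IsIntegralCurve A E.toAffine) (hΔ0 : E.Δ ≠ 0) (hΔ : E.Δ ∈ A.nonunits)
    (hc₄ : E.c₄ ∉ A.nonunits) {x y : K} (hx : x ∈ A) (hy : y ∈ A)
    (h : E.toAffine.Equation x y) :
    (E.a₁ * y - (3 * x ^ 2 + 2 * E.a₂ * x + E.a₄) ∈ A.nonunits ∧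
      2 * y + E.a₁ * x + E.a₃ ∈ A.nonunits) ↔ nodeNumK E x ∈ A.nonunits := by
  obtain ⟨r, t, α, β, C, -, hr, ht, hM, -⟩ := Fermat.Agent.S58.exists_gnode_model A L E
    hE.a₁ hE.a₂ hE.a₃ hE.a₄ hE.a₆ hΔ0 hΔ hc₄
  set E' : WeierstrassCurve K := VariableChange.mk 1 r 0 t • E with hE'
  have hx' : x - r ∈ A := sub_mem hx hr
  have hy' : y - t ∈ A := sub_mem hy ht
  have heq : E'.toAffine.Equation (x - r) (y - t) := by
    rw [hE', equation_vc, vcX_translate, vcY_translate, sub_add_cancel, sub_add_cancel]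
    exact h
  have hc₄E : E.c₄ ∈ A := by
    have hn : ∀ n : ℕ, (n : K) ∈ A := fun n => natCast_mem A n
    have h4' : (4 : K) ∈ A := by exact_mod_cast hn 4
    have h2' : (2 : K) ∈ A := by exact_mod_cast hn 2
    have h24' : (24 : K) ∈ A := by exact_mod_cast hn 24
    rw [c₄, b₂, b₄]
    exact sub_mem (pow_mem (add_mem (pow_mem hE.a₁ 2) (mul_mem h4' hE.a₂)) 2)
      (mul_mem h24' (add_mem (mul_mem h2' hE.a₄) (mul_mem hE.a₁ hE.a₃)))
  have hc₄eq : E'.c₄ = E.c₄ := by
    rw [hE', variableChange_c₄]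
    simp
  have h1 := pl2_model_partials_iff hM hx' hy' heq
  have h2 := pl2_model_nodeNum_iff hM (by rw [hc₄eq]; exact hc₄E) (by rw [hc₄eq]; exact hc₄) hx'
  have e1 := polyX_translate E r t (x - r) (y - t)
  have e2 := polyY_translate E r t (x - r) (y - t)
  have e3 := nodeNumK_translate E r t (x - r)
  rw [sub_add_cancel, sub_add_cancel] at e1 e2
  rw [sub_add_cancel] at e3
  rw [e1, e2, ← e3]
  exact h1.trans h2.symm

/-- **multiples of a torsion point away from the node stay away from the node.** -/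
theorem pl2_nsmul_away (L : LogVal A) (E : WeierstrassCurve K)
    (hE : IsIntegralCurve A E.toAffine) (hΔ0 : E.Δ ≠ 0) (hΔ : E.Δ ∈ A.nonunits)
    (hc₄ : E.c₄ ∉ A.nonunits) {n : ℕ} (hn0 : n ≠ 0) (hn' : ((n : K))⁻¹ ∈ A)
    {x y : K} (h : E.toAffine.Nonsingular x y) (hP : n • Point.some x y h = 0)
    (hx : nodeNumK E x ∉ A.nonunits) (m : ℕ) {xm ym : K} (hm : E.toAffine.Nonsingular xm ym)
    (hmP : m • Point.some x y h = Point.some xm ym hm) : nodeNumK E xm ∉ A.nonunits := by
  obtain ⟨r, t, α, β, C, -, hr, ht, hM, -⟩ := Fermat.Agent.S58.exists_gnode_model A L E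
    hE.a₁ hE.a₂ hE.a₃ hE.a₄ hE.a₆ hΔ0 hΔ hc₄
  set E' : WeierstrassCurve K := VariableChange.mk 1 r 0 t • E with hE'
  have hI := pl2_isIntegralCurve hM
  have hc₄E : E.c₄ ∈ A := by
    have hn : ∀ n : ℕ, (n : K) ∈ A := fun n => natCast_mem A n
    have h4' : (4 : K) ∈ A := by exact_mod_cast hn 4
    have h2' : (2 : K) ∈ A := by exact_mod_cast hn 2
    have h24' : (24 : K) ∈ A := by exact_mod_cast hn 24
    rw [c₄, b₂, b₄]
    exact sub_mem (pow_mem (add_mem (pow_mem hE.a₁ 2) (mul_mem h4' hE.a₂)) 2)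
      (mul_mem h24' (add_mem (mul_mem h2' hE.a₄) (mul_mem hE.a₁ hE.a₃)))
  have hc₄eq : E'.c₄ = E.c₄ := by
    rw [hE', variableChange_c₄]
    simp
  have hc₄1 : E'.c₄ ∈ A := by rw [hc₄eq]; exact hc₄E
  have hc₄2 : E'.c₄ ∉ A.nonunits := by rw [hc₄eq]; exact hc₄
  let e := vcPtEquiv E (VariableChange.mk 1 r 0 t)
  -- the point on the model
  obtain ⟨P', hP'⟩ := e.surjective (Point.some x y h)
  have hnP' : n • P' = 0 := by
    apply e.injective
    rw [map_nsmul, hP', hP, map_zero]
  -- all multiples are integral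
  have hint : ∀ j : ℕ, IntegralPt A (j • P') := by
    intro j
    have hj : n • (j • P') = 0 := by rw [smul_comm, hnP', smul_zero]
    rcases hQ : j • P' with _ | ⟨x', y', h'⟩
    · trivial
    · rw [hQ] at hj
      exact mem_of_nsmul_eq_zero' hI hn0 hn' h' hj
  -- coordinates of `P'`
  rcases hP'c : P' with _ | ⟨x', y', h'⟩
  · rw [hP'c] at hP'
    have h0 : e (Point.zero) = 0 := map_zero e
    rw [h0] at hP'
    exact absurd hP' (by simp)
  have hxx' : x = x' + r := by
    rw [hP'c] at hP'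
    have h1 : e (Point.some x' y' h') = Point.some (vcX (VariableChange.mk 1 r 0 t) x')
        (vcY (VariableChange.mk 1 r 0 t) x' y')
        ((nonsingular_vc E (VariableChange.mk 1 r 0 t) x' y').mp h') := rfl
    rw [h1, Point.some.injEq, vcX_translate] at hP'
    exact hP'.1.symm
  have hx'A : x' ∈ A := by
    have := hint 1
    rw [one_smul, hP'c] at this
    exact this.1
  have hx'm : x' ∉ A.nonunits := by
    intro hcon
    apply hx
    rw [hxx', ← nodeNumK_translate E r t x']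
    exact (pl2_model_nodeNum_iff hM hc₄1 hc₄2 hx'A).mpr hcon
  have hd0 : C.depthPt α P' = 0 := by
    rw [hP'c, GNodeCtx.depthPt_some, GNodeCtx.depth_eq_zero_iff]
    exact hx'm
  -- the multiple
  obtain ⟨k, hk⟩ := hM.depthPt_nsmul P' m (fun j _ => hint j)
  rw [hd0, mul_zero, zero_add] at hk
  have hdm : C.depthPt α (m • P') = 0 :=
    GNodeCtx.eq_zero_of_int_mul (C.depthPt_range α (m • P')).1 (C.depthPt_range α (m • P')).2 hk
  have hmP' : e (m • P') = Point.some xm ym hm := by
    rw [map_nsmul, hP', hmP]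
  rcases hQ : m • P' with _ | ⟨x'm, y'm, h'm⟩
  · rw [hQ] at hmP'
    have h0 : e (Point.zero) = 0 := map_zero e
    rw [h0] at hmP'
    exact absurd hmP' (by simp)
  · rw [hQ] at hmP' hdm
    have h1 : e (Point.some x'm y'm h'm) = Point.some (vcX (VariableChange.mk 1 r 0 t) x'm)
        (vcY (VariableChange.mk 1 r 0 t) x'm y'm)
        ((nonsingular_vc E (VariableChange.mk 1 r 0 t) x'm y'm).mp h'm) := rfl
    rw [h1, Point.some.injEq, vcX_translate] at hmP'
    rw [GNodeCtx.depthPt_some, GNodeCtx.depth_eq_zero_iff] at hdm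
    have hx'mA : x'm ∈ A := by
      have := hint m
      rw [hQ] at this
      exact this.1
    rw [← hmP'.1, ← nodeNumK_translate E r t x'm]
    intro hcon
    exact hdm ((pl2_model_nodeNum_iff hM hc₄1 hc₄2 hx'mA).mp hcon)

end Main

end Abstract

end Fermat.Agent.MZ
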