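/-
PROJECT MZ (S15, branch-only) — (MOD)[PL2], the local node algebra over `ℚ̄` — helper6.

`W` a Weierstrass curve over `ℤ`, `A ∣ ℓ` a valuation subring of `Ω = ℚ̄` with `ℓ ∣ Δ`, `ℓ ∤ c₄`
(multiplicative reduction), `nodeNum W x := c₄ x - 18 b₆ + b₂ b₄ ∈ Ω`.
* `pl2_torsion_integral` : torsion points of order prime to `ℓ` have coordinates in `A`;
* `pl2_inZero_iff` : an integral point is in the zero component iff `nodeNum W x ∉ 𝔪_A`;
* `pl2_node_dict` : the dictionary for a point `Q` of prime order `p ≠ ℓ`.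
-/
import Mathlib
import Fermat.Prelude.Def_EllipticCurve_ZeroComponentAt
import Fermat.Prelude.Def_FLTPrelim_Ramification
import Fermat.Agent.MZ.PL2_helper6_Abstract
import Fermat.Agent.Tate.Frey_helper7

set_option autoImplicit false
set_option linter.unusedSectionVars false
set_option linter.unusedVariables false
set_option linter.style.haveILetI false

namespace Fermat.Agent.MZ

open Fermat.Agent.Tate Fermat.Agent.S13
open WeierstrassCurve WeierstrassCurve.Affine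
open scoped WeierstrassCurve.Affine

local notation "Ω" => AlgebraicClosure ℚ

/-- the numerator `N_W(x) = c₄ x - 18 b₆ + b₂ b₄` of the weight-`0` invariant
`Y = N_W(x) / c₆`. -/
noncomputable def nodeNum (W : WeierstrassCurve ℤ) (x : Ω) : Ω :=
  (W.c₄ : Ω) * x - 18 * (W.b₆ : Ω) + (W.b₂ : Ω) * (W.b₄ : Ω)

/-- the abscissa of a point (`0` at the origin). -/
noncomputable def pl2X {E : Affine Ω} : E.Point → Ω
  | .zero => 0
  | .some x _ _ => x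

@[simp] theorem pl2X_some {E : Affine Ω} {x y : Ω} (h : E.Nonsingular x y) :
    pl2X (Point.some x y h) = x := rfl

section Generic

variable {R S : Type*} [CommRing R] [CommRing S] (f : R →+* S) (WA : WeierstrassCurve R)

theorem pl2_map_polyX (X Y : R) :
    f (WA.a₁ * Y - (3 * X ^ 2 + 2 * WA.a₂ * X + WA.a₄)) =
      (WA.map f).a₁ * f Y - (3 * f X ^ 2 + 2 * (WA.map f).a₂ * f X + (WA.map f).a₄) := by
  simp [map_ofNat]

theorem pl2_map_polyY (X Y : R) :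
    f (2 * Y + WA.a₁ * X + WA.a₃) = 2 * f Y + (WA.map f).a₁ * f X + (WA.map f).a₃ := by
  simp [map_ofNat]

end Generic

section Curve

variable (W : WeierstrassCurve ℤ)

theorem pl2_curve_eq :
    ((W.map (Int.castRingHom ℚ))⁄Ω) = W.map (Int.castRingHom Ω) := by
  show (W.map (Int.castRingHom ℚ)).map (algebraMap ℚ Ω) = W.map (Int.castRingHom Ω)
  rw [WeierstrassCurve.map_map]
  congr 1

theorem pl2_curve_sub (A : ValuationSubring Ω) :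
    (W.map (Int.castRingHom ↥A)).map A.subtype = ((W.map (Int.castRingHom ℚ))⁄Ω) := by
  rw [pl2_curve_eq, WeierstrassCurve.map_map]
  congr 1

theorem pl2_curve_res (A : ValuationSubring Ω) :
    (W.map (Int.castRingHom ↥A)).map (IsLocalRing.residue ↥A) =
      W.map (Int.castRingHom (IsLocalRing.ResidueField ↥A)) := by
  rw [WeierstrassCurve.map_map]
  congr 1

theorem pl2_a₁ : ((W.map (Int.castRingHom ℚ))⁄Ω).a₁ = (W.a₁ : Ω) := by rw [pl2_curve_eq]; rfl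
theorem pl2_a₂ : ((W.map (Int.castRingHom ℚ))⁄Ω).a₂ = (W.a₂ : Ω) := by rw [pl2_curve_eq]; rfl
theorem pl2_a₃ : ((W.map (Int.castRingHom ℚ))⁄Ω).a₃ = (W.a₃ : Ω) := by rw [pl2_curve_eq]; rfl
theorem pl2_a₄ : ((W.map (Int.castRingHom ℚ))⁄Ω).a₄ = (W.a₄ : Ω) := by rw [pl2_curve_eq]; rfl
theorem pl2_a₆ : ((W.map (Int.castRingHom ℚ))⁄Ω).a₆ = (W.a₆ : Ω) := by rw [pl2_curve_eq]; rfl

theorem pl2_Δ : ((W.map (Int.castRingHom ℚ))⁄Ω).Δ = (W.Δ : Ω) := by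
  rw [pl2_curve_eq, WeierstrassCurve.map_Δ]; rfl

theorem pl2_c₄ : ((W.map (Int.castRingHom ℚ))⁄Ω).c₄ = (W.c₄ : Ω) := by
  rw [pl2_curve_eq, WeierstrassCurve.map_c₄]; rfl

theorem pl2_c₆ : ((W.map (Int.castRingHom ℚ))⁄Ω).c₆ = (W.c₆ : Ω) := by
  rw [pl2_curve_eq, WeierstrassCurve.map_c₆]; rfl

theorem pl2_b₂ : ((W.map (Int.castRingHom ℚ))⁄Ω).b₂ = (W.b₂ : Ω) := by
  rw [pl2_curve_eq, WeierstrassCurve.map_b₂]; rfl

theorem pl2_b₄ : ((W.map (Int.castRingHom ℚ))⁄Ω).b₄ = (W.b₄ : Ω) := by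
  rw [pl2_curve_eq, WeierstrassCurve.map_b₄]; rfl

theorem pl2_b₆ : ((W.map (Int.castRingHom ℚ))⁄Ω).b₆ = (W.b₆ : Ω) := by
  rw [pl2_curve_eq, WeierstrassCurve.map_b₆]; rfl

theorem nodeNum_eq (x : Ω) : nodeNum W x = nodeNumK ((W.map (Int.castRingHom ℚ))⁄Ω) x := by
  unfold nodeNum nodeNumK
  rw [pl2_c₄, pl2_b₂, pl2_b₄, pl2_b₆]

theorem pl2_isIntegral (A : ValuationSubring Ω) :
    IsIntegralCurve A ((W.map (Int.castRingHom ℚ))⁄Ω) where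
  a₁ := by rw [pl2_a₁]; exact intCast_mem A _
  a₂ := by rw [pl2_a₂]; exact intCast_mem A _
  a₃ := by rw [pl2_a₃]; exact intCast_mem A _
  a₄ := by rw [pl2_a₄]; exact intCast_mem A _
  a₆ := by rw [pl2_a₆]; exact intCast_mem A _

end Curve

section Local

variable (W : WeierstrassCurve ℤ) {ℓ : ℕ} (hℓ : ℓ.Prime) (A : ValuationSubring Ω)
  (hA : A.LiesOverPrime ℓ)

include hℓ hA in
/-- torsion points of order prime to `ℓ` are integral. -/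
theorem pl2_torsion_integral {n : ℕ} (hn : ¬ ℓ ∣ n)
    (R : ((W.map (Int.castRingHom ℚ))⁄Ω).Point) (hR0 : R ≠ 0) (hR : n • R = 0) :
    ∃ (x y : Ω) (h : ((W.map (Int.castRingHom ℚ))⁄Ω).Nonsingular x y),
      R = Point.some x y h ∧ x ∈ A ∧ y ∈ A := by
  have hℓA : ((ℓ : ℕ) : Ω) ∈ A.nonunits := hA
  have hn0 : n ≠ 0 := by
    rintro rfl
    exact hn (dvd_zero ℓ)
  rcases R with _ | ⟨x, y, h⟩
  · exact absurd rfl hR0
  · obtain ⟨hx, hy⟩ := mem_of_nsmul_eq_zero' (pl2_isIntegral W A) hn0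
      (inv_natCast_mem A hℓ hℓA hn) h hR
    exact ⟨x, y, h, rfl, hx, hy⟩

/-- nonsingularity of the reduction of an integral point in terms of the partial derivatives. -/
theorem pl2_red_nonsingular_iff {x y : Ω} (hx : x ∈ A) (hy : y ∈ A)
    (h : ((W.map (Int.castRingHom ℚ))⁄Ω).Equation x y) :
    (W.map (Int.castRingHom (IsLocalRing.ResidueField A))).toAffine.Nonsingular
        (IsLocalRing.residue A ⟨x, hx⟩) (IsLocalRing.residue A ⟨y, hy⟩) ↔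
      ¬ (((W.map (Int.castRingHom ℚ))⁄Ω).a₁ * y - (3 * x ^ 2 +
          2 * ((W.map (Int.castRingHom ℚ))⁄Ω).a₂ * x + ((W.map (Int.castRingHom ℚ))⁄Ω).a₄)
            ∈ A.nonunits ∧
        2 * y + ((W.map (Int.castRingHom ℚ))⁄Ω).a₁ * x + ((W.map (Int.castRingHom ℚ))⁄Ω).a₃
          ∈ A.nonunits) := by
  have heqA : (W.map (Int.castRingHom ↥A)).toAffine.Equation (⟨x, hx⟩ : ↥A) ⟨y, hy⟩ := by
    have h1 : ((W.map (Int.castRingHom ↥A)).map A.subtype).toAffine.Equation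
        (A.subtype ⟨x, hx⟩) (A.subtype ⟨y, hy⟩) := by
      rw [pl2_curve_sub]
      exact h
    exact (Affine.map_equation (W.map (Int.castRingHom ↥A)).toAffine (f := A.subtype)
      Subtype.val_injective _ _).mp h1
  have heqk : (W.map (Int.castRingHom (IsLocalRing.ResidueField A))).toAffine.Equation
      (IsLocalRing.residue A ⟨x, hx⟩) (IsLocalRing.residue A ⟨y, hy⟩) := by
    rw [← pl2_curve_res]
    exact Affine.Equation.map (IsLocalRing.residue ↥A) heqA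
  have hXΩ := pl2_map_polyX A.subtype (W.map (Int.castRingHom ↥A)) ⟨x, hx⟩ ⟨y, hy⟩
  have hYΩ := pl2_map_polyY A.subtype (W.map (Int.castRingHom ↥A)) ⟨x, hx⟩ ⟨y, hy⟩
  have hXk := pl2_map_polyX (IsLocalRing.residue ↥A) (W.map (Int.castRingHom ↥A)) ⟨x, hx⟩ ⟨y, hy⟩
  have hYk := pl2_map_polyY (IsLocalRing.residue ↥A) (W.map (Int.castRingHom ↥A)) ⟨x, hx⟩ ⟨y, hy⟩
  rw [pl2_curve_sub] at hXΩ hYΩ
  rw [pl2_curve_res] at hXk hYk
  have hsx : A.subtype (⟨x, hx⟩ : ↥A) = x := rfl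
  have hsy : A.subtype (⟨y, hy⟩ : ↥A) = y := rfl
  rw [hsx, hsy] at hXΩ hYΩ
  rw [Affine.nonsingular_iff', ← hXk, ← hYk, ← hXΩ, ← hYΩ]
  have hcoe : ∀ a : ↥A, A.subtype a = (a : Ω) := fun a => rfl
  rw [hcoe, hcoe, ValuationSubring.coe_mem_nonunits_iff, ValuationSubring.coe_mem_nonunits_iff,
    ← IsLocalRing.residue_eq_zero_iff, ← IsLocalRing.residue_eq_zero_iff]
  constructor
  · rintro ⟨-, hor⟩ ⟨h1, h2⟩
    rcases hor with hor | hor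
    · exact hor h1
    · exact hor h2
  · intro hnot
    refine ⟨heqk, ?_⟩
    by_contra hcon
    push Not at hcon
    exact hnot hcon

end Local

section Dict

variable (W : WeierstrassCurve ℤ) {ℓ : ℕ} (hℓ : ℓ.Prime) (A : ValuationSubring Ω)
  (hA : A.LiesOverPrime ℓ) (hΔ0 : W.Δ ≠ 0) (hℓΔ : (ℓ : ℤ) ∣ W.Δ) (hℓc₄ : ¬ (ℓ : ℤ) ∣ W.c₄)

include hℓ hA hℓΔ hℓc₄ in
/-- `c₆` is a unit at a prime of multiplicative reduction. -/
theorem pl2_c₆_unit : (W.c₆ : Ω) ∈ A ∧ (W.c₆ : Ω) ∉ A.nonunits := by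
  have hℓA : ((ℓ : ℕ) : Ω) ∈ A.nonunits := hA
  refine ⟨intCast_mem A _, intCast_notMem_nonunits A hℓ hℓA ?_⟩
  intro hc₆
  apply hℓc₄
  have hpr : Prime (ℓ : ℤ) := Nat.prime_iff_prime_int.mp hℓ
  have h3 : (ℓ : ℤ) ∣ W.c₄ ^ 3 := by
    have e : W.c₄ ^ 3 = 1728 * W.Δ + W.c₆ ^ 2 := by linear_combination -W.c_relation
    rw [e]
    exact dvd_add (Dvd.dvd.mul_left hℓΔ _) (Dvd.dvd.pow hc₆ (by norm_num))
  exact hpr.dvd_of_dvd_pow h3

include hℓ hA hΔ0 hℓΔ hℓc₄ in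
/-- **an integral point lies in the zero component iff `nodeNum W x ∉ 𝔪_A`.** -/
theorem pl2_inZero_iff {x y : Ω} (h : ((W.map (Int.castRingHom ℚ))⁄Ω).Nonsingular x y)
    (hx : x ∈ A) (hy : y ∈ A) :
    W.InZeroComponentAt A (Point.some x y h) ↔ nodeNum W x ∉ A.nonunits := by
  have hℓA : ((ℓ : ℕ) : Ω) ∈ A.nonunits := hA
  have : Algebra.IsAlgebraic ℚ Ω := AlgebraicClosure.isAlgebraic ℚ
  obtain ⟨L, -⟩ := exists_logVal A hℓ hℓA
  have hΔ0' : ((W.map (Int.castRingHom ℚ))⁄Ω).Δ ≠ 0 := by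
    rw [pl2_Δ]; exact Int.cast_ne_zero.mpr hΔ0
  have hΔ' : ((W.map (Int.castRingHom ℚ))⁄Ω).Δ ∈ A.nonunits := by
    rw [pl2_Δ]; exact intCast_mem_nonunits A hℓA hℓΔ
  have hc₄' : ((W.map (Int.castRingHom ℚ))⁄Ω).c₄ ∉ A.nonunits := by
    rw [pl2_c₄]; exact intCast_notMem_nonunits A hℓ hℓA hℓc₄
  have h1 := pl2_partials_iff L ((W.map (Int.castRingHom ℚ))⁄Ω) (pl2_isIntegral W A)
    hΔ0' hΔ' hc₄' hx hy h.1
  have h2 := pl2_red_nonsingular_iff W A hx hy h.1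
  rw [nodeNum_eq, ← h1, ← h2]
  constructor
  · rintro (h0 | ⟨x', y', h', heq, hcase⟩)
    · exact absurd h0 (by simp)
    · rw [Point.some.injEq] at heq
      obtain ⟨rfl, rfl⟩ := heq
      rcases hcase with hcase | ⟨hx', hy', hns⟩
      · exact absurd hx hcase
      · exact hns
  · intro hns
    exact Or.inr ⟨x, y, h, rfl, Or.inr ⟨hx, hy, hns⟩⟩

include hℓ hA hΔ0 hℓΔ hℓc₄ in
/-- **the local dictionary** for a point `Q` of prime order `p ≠ ℓ` at a prime `ℓ` of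
multiplicative reduction. -/
theorem pl2_node_dict {p : ℕ} (hp : p.Prime) (hℓp : ℓ ≠ p)
    (Q : ((W.map (Int.castRingHom ℚ))⁄Ω).Point) (hQ : addOrderOf Q = p) :
    (∀ m : ℕ, ¬ p ∣ m → ∃ (x y : Ω) (h : ((W.map (Int.castRingHom ℚ))⁄Ω).Nonsingular x y),
      m • Q = Point.some x y h ∧ x ∈ A ∧ y ∈ A) ∧
    ((W.c₆ : Ω) ∈ A ∧ (W.c₆ : Ω) ∉ A.nonunits) ∧
    (W.InZeroComponentAt A Q → ∀ m : ℕ, ¬ p ∣ m → nodeNum W (pl2X (m • Q)) ∉ A.nonunits) ∧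
    (¬ W.InZeroComponentAt A Q → nodeNum W (pl2X Q) ∈ A.nonunits) := by
  have hℓA : ((ℓ : ℕ) : Ω) ∈ A.nonunits := hA
  have : Algebra.IsAlgebraic ℚ Ω := AlgebraicClosure.isAlgebraic ℚ
  obtain ⟨L, -⟩ := exists_logVal A hℓ hℓA
  have hℓp' : ¬ ℓ ∣ p := fun h => hℓp ((Nat.prime_dvd_prime_iff_eq hℓ hp).mp h)
  have hpQ : p • Q = 0 := by rw [← hQ]; exact addOrderOf_nsmul_eq_zero Q
  have hint : ∀ m : ℕ, ¬ p ∣ m → ∃ (x y : Ω)
      (h : ((W.map (Int.castRingHom ℚ))⁄Ω).Nonsingular x y),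
      m • Q = Point.some x y h ∧ x ∈ A ∧ y ∈ A := by
    intro m hm
    have hm0 : m • Q ≠ 0 := by
      intro h0
      apply hm
      rw [← hQ]
      exact addOrderOf_dvd_iff_nsmul_eq_zero.mpr h0
    have hpm : p • (m • Q) = 0 := by rw [smul_comm, hpQ, nsmul_zero]
    exact pl2_torsion_integral W hℓ A hA hℓp' (m • Q) hm0 hpm
  have hΔ0' : ((W.map (Int.castRingHom ℚ))⁄Ω).Δ ≠ 0 := by
    rw [pl2_Δ]; exact Int.cast_ne_zero.mpr hΔ0
  have hΔ' : ((W.map (Int.castRingHom ℚ))⁄Ω).Δ ∈ A.nonunits := by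
    rw [pl2_Δ]; exact intCast_mem_nonunits A hℓA hℓΔ
  have hc₄' : ((W.map (Int.castRingHom ℚ))⁄Ω).c₄ ∉ A.nonunits := by
    rw [pl2_c₄]; exact intCast_notMem_nonunits A hℓ hℓA hℓc₄
  have h1 : ¬ p ∣ 1 := fun h => hp.one_lt.ne' (Nat.dvd_one.mp h)
  obtain ⟨x, y, h, hQxy, hx, hy⟩ := hint 1 h1
  rw [one_smul] at hQxy
  refine ⟨hint, pl2_c₆_unit W hℓ A hA hℓΔ hℓc₄, ?_, ?_⟩
  · intro hin m hm
    rw [hQxy] at hin
    have hxn := (pl2_inZero_iff W hℓ A hA hΔ0 hℓΔ hℓc₄ h hx hy).mp hin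
    obtain ⟨xm, ym, hm', hmQ, -, -⟩ := hint m hm
    rw [hmQ, pl2X_some, nodeNum_eq]
    rw [nodeNum_eq] at hxn
    rw [hQxy] at hmQ hpQ
    exact pl2_nsmul_away L ((W.map (Int.castRingHom ℚ))⁄Ω) (pl2_isIntegral W A)
      hΔ0' hΔ' hc₄' hp.ne_zero (inv_natCast_mem A hℓ hℓA hℓp') h hpQ hxn m hm' hmQ
  · intro hnot
    rw [hQxy] at hnot ⊢
    rw [pl2X_some]
    by_contra hcon
    exact hnot ((pl2_inZero_iff W hℓ A hA hΔ0 hℓΔ hℓc₄ h hx hy).mpr hcon)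

end Dict

section Prod

variable (W : WeierstrassCurve ℤ) {ℓ : ℕ} (hℓ : ℓ.Prime) (A : ValuationSubring Ω)
  (hA : A.LiesOverPrime ℓ) (hΔ0 : W.Δ ≠ 0) (hℓΔ : (ℓ : ℤ) ∣ W.Δ) (hℓc₄ : ¬ (ℓ : ℤ) ∣ W.c₄)

theorem pl2X_neg {E : Affine Ω} (R : E.Point) : pl2X (-R) = pl2X R := by
  rcases R with _ | ⟨x, y, h⟩
  · rfl
  · rfl

/-- the abscissa of an integer multiple is the abscissa of the `natAbs` multiple. -/
theorem pl2X_zsmul {E : Affine Ω} (R : E.Point) (m : ℤ) :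
    pl2X (m • R) = pl2X (m.natAbs • R) := by
  rcases Int.natAbs_eq m with h | h
  · conv_lhs => rw [h]
    rw [natCast_zsmul]
  · conv_lhs => rw [h]
    rw [neg_smul, natCast_zsmul, pl2X_neg]

/-- the weight-`0` invariant `Y(R) = N_W(x(R)) / c₆` of a point. -/
noncomputable def nodeY (R : ((W.map (Int.castRingHom ℚ))⁄Ω).Point) : Ω :=
  nodeNum W (pl2X R) / (W.c₆ : Ω)

theorem nodeNum_mem {x : Ω} (hx : x ∈ A) : nodeNum W x ∈ A := by
  unfold nodeNum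
  have h18 : (18 : Ω) ∈ A := by exact_mod_cast natCast_mem A 18
  exact add_mem (sub_mem (mul_mem (intCast_mem A _) hx) (mul_mem h18 (intCast_mem A _)))
    (mul_mem (intCast_mem A _) (intCast_mem A _))

include hℓ hA hΔ0 hℓΔ hℓc₄ in
/-- **the local dictionary for the invariant `Y`**: for `Q` of prime order `p ≠ ℓ` and `m`
prime to `p`, `Y(m Q) ∈ A`; it is a unit for every such `m` if `Q` is in the zero component, and
`Y(Q) ∈ 𝔪_A` if not. -/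
theorem pl2_nodeY_dict {p : ℕ} (hp : p.Prime) (hℓp : ℓ ≠ p)
    (Q : ((W.map (Int.castRingHom ℚ))⁄Ω).Point) (hQ : addOrderOf Q = p) :
    (∀ m : ℤ, ¬ (p : ℤ) ∣ m → nodeY W (m • Q) ∈ A) ∧
    (W.InZeroComponentAt A Q → ∀ m : ℤ, ¬ (p : ℤ) ∣ m → A.valuation (nodeY W (m • Q)) = 1) ∧
    (¬ W.InZeroComponentAt A Q → A.valuation (nodeY W Q) < 1) := by
  obtain ⟨h1, ⟨hc₆, hc₆'⟩, h3, h4⟩ :=
    pl2_node_dict W hℓ A hA hΔ0 hℓΔ hℓc₄ hp hℓp Q hQ
  have hvc₆ : A.valuation (W.c₆ : Ω) = 1 := by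
    refine le_antisymm ((A.valuation_le_one_iff _).mpr hc₆) ?_
    rw [A.mem_nonunits_iff, not_lt] at hc₆'
    exact hc₆'
  have hnat : ∀ m : ℤ, ¬ (p : ℤ) ∣ m → ¬ p ∣ m.natAbs := by
    intro m hm h
    exact hm (Int.natCast_dvd.mpr h)
  have hval : ∀ R : ((W.map (Int.castRingHom ℚ))⁄Ω).Point,
      A.valuation (nodeY W R) = A.valuation (nodeNum W (pl2X R)) := by
    intro R
    rw [nodeY, map_div₀, hvc₆, div_one]
  refine ⟨?_, ?_, ?_⟩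
  · intro m hm
    obtain ⟨x, y, h, hmQ, hx, hy⟩ := h1 m.natAbs (hnat m hm)
    rw [← A.valuation_le_one_iff, hval, pl2X_zsmul, hmQ, pl2X_some, A.valuation_le_one_iff]
    exact nodeNum_mem W A hx
  · intro hin m hm
    obtain ⟨x, y, h, hmQ, hx, hy⟩ := h1 m.natAbs (hnat m hm)
    have hnot := h3 hin m.natAbs (hnat m hm)
    rw [hval, pl2X_zsmul]
    refine le_antisymm ?_ ?_
    · rw [A.valuation_le_one_iff, hmQ, pl2X_some]
      exact nodeNum_mem W A hx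
    · rw [A.mem_nonunits_iff, not_lt] at hnot
      exact hnot
  · intro hnot
    rw [hval, ← A.mem_nonunits_iff]
    exact h4 hnot

include hℓ hA hΔ0 hℓΔ hℓc₄ in
/-- **the product form**: `c := ∏ Y(mᵢ Q)` over any finite family of multipliers prime to `p`
containing one with `x(mᵢ Q) = x(Q)` lies in `A`, and `c ∈ 𝔪_A` iff `Q` is not in the zero
component. -/
theorem pl2_prod_dict {p : ℕ} (hp : p.Prime) (hℓp : ℓ ≠ p)
    (Q : ((W.map (Int.castRingHom ℚ))⁄Ω).Point) (hQ : addOrderOf Q = p)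
    {ι : Type*} (s : Finset ι) (f : ι → ℤ) (hf : ∀ i ∈ s, ¬ (p : ℤ) ∣ f i)
    (i₀ : ι) (hi₀ : i₀ ∈ s) (hi₀Q : pl2X (f i₀ • Q) = pl2X Q) :
    (∏ i ∈ s, nodeY W (f i • Q)) ∈ A ∧
      ((∏ i ∈ s, nodeY W (f i • Q)) ∈ A.nonunits ↔ ¬ W.InZeroComponentAt A Q) := by
  classical
  obtain ⟨h1, h2, h3⟩ := pl2_nodeY_dict W hℓ A hA hΔ0 hℓΔ hℓc₄ hp hℓp Q hQ
  have hmem : (∏ i ∈ s, nodeY W (f i • Q)) ∈ A :=
    prod_mem (fun i hi => h1 (f i) (hf i hi))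
  refine ⟨hmem, ?_⟩
  rw [A.mem_nonunits_iff, map_prod]
  constructor
  · intro hlt hin
    have hone : ∏ i ∈ s, A.valuation (nodeY W (f i • Q)) = 1 :=
      Finset.prod_eq_one (fun i hi => h2 hin (f i) (hf i hi))
    rw [hone] at hlt
    exact lt_irrefl _ hlt
  · intro hnot
    have hi₀v : A.valuation (nodeY W (f i₀ • Q)) < 1 := by
      have := h3 hnot
      unfold nodeY at this ⊢
      rw [hi₀Q]
      exact this
    rw [← Finset.mul_prod_erase s _ hi₀]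
    have hrest : ∏ i ∈ s.erase i₀, A.valuation (nodeY W (f i • Q)) ≤ 1 :=
      Finset.prod_le_one' (fun i hi =>
        (A.valuation_le_one_iff _).mpr (h1 (f i) (hf i (Finset.mem_of_mem_erase hi))))
    exact mul_lt_one_of_lt_of_le hi₀v hrest

end Prod

section JInv

variable (W : WeierstrassCurve ℤ) {ℓ : ℕ} (hℓ : ℓ.Prime) (A : ValuationSubring Ω)
  (hA : A.LiesOverPrime ℓ) (hΔ0 : W.Δ ≠ 0) (hℓΔ : (ℓ : ℤ) ∣ W.Δ) (hℓc₄ : ¬ (ℓ : ℤ) ∣ W.c₄)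

include hℓ hA hΔ0 hℓΔ hℓc₄ in
/-- the `j`-invariant is not integral at a prime of multiplicative reduction. -/
theorem pl2_j_notMem : ((W.c₄ : Ω) ^ 3 / (W.Δ : Ω)) ∉ A := by
  have hℓA : ((ℓ : ℕ) : Ω) ∈ A.nonunits := hA
  have hΔ : (W.Δ : Ω) ∈ A.nonunits := intCast_mem_nonunits A hℓA hℓΔ
  have hΔne : (W.Δ : Ω) ≠ 0 := Int.cast_ne_zero.mpr hΔ0
  have hc₄ : (W.c₄ : Ω) ∉ A.nonunits := intCast_notMem_nonunits A hℓ hℓA hℓc₄
  have hv4 : A.valuation (W.c₄ : Ω) = 1 := by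
    refine le_antisymm ((A.valuation_le_one_iff _).mpr (intCast_mem A _)) ?_
    rw [A.mem_nonunits_iff, not_lt] at hc₄
    exact hc₄
  rw [← A.valuation_le_one_iff, map_div₀, map_pow, hv4, one_pow, not_le]
  rw [A.mem_nonunits_iff] at hΔ
  have hpos : 0 < A.valuation (W.Δ : Ω) := by
    rw [zero_lt_iff, Ne, Valuation.zero_iff]
    exact hΔne
  rw [one_div]
  exact (one_lt_inv₀ hpos).mpr hΔ

include hℓ hA hℓΔ hℓc₄ in
/-- `c₄ ≠ 0` and `c₆ ≠ 0` at a prime of multiplicative reduction. -/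
theorem pl2_c₄_c₆_ne_zero : W.c₄ ≠ 0 ∧ W.c₆ ≠ 0 := by
  refine ⟨fun h => hℓc₄ (by rw [h]; exact dvd_zero _), fun h => ?_⟩
  have := (pl2_c₆_unit W hℓ A hA hℓΔ hℓc₄).2
  rw [h, Int.cast_zero] at this
  exact this (A.nonunits.zero_mem)

end JInv

end Fermat.Agent.MZ
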