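/-
PROJECT MZ (branch-only) — (MOD), unconditional — helper8.

`modDict_cusps : ModDict p (cuspInfP p) (cuspZeroP p)` for every prime `p > 2`:
`modDict_of_parts` with `RedDict p` discharged by helper1's `mz_red` and `NodeDict p` by helper6's
`pl2_node_dict`.
-/
import Mathlib
import Fermat.Agent.MZ.MODASM_helper8_Main
import Fermat.Agent.MZ.MOD_helper1_Red
import Fermat.Agent.MZ.PL2_helper6_Main

set_option autoImplicit false
set_option linter.unusedSectionVars false
set_option linter.unusedVariables false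
set_option linter.style.haveILetI false
set_option synthInstance.maxHeartbeats 400000

open ModularCurve AlgebraicCurve UpperHalfPlane WeierstrassCurve
open scoped MatrixGroups

namespace Fermat.Agent.MZ

local notation "Ω" => AlgebraicClosure ℚ

open Fermat.Agent.JA Fermat.Agent.X0N Fermat.Agent.MW Fermat.Agent.S13

variable {p : ℕ} [Fact p.Prime]

/-- the reduction step, from helper1's `mz_red`. -/
theorem redDict (hp2 : 2 < p) : RedDict p := by
  intro ℓ hℓ hℓp A hA h Px a ha hPx c hc
  haveI : Fact ℓ.Prime := ⟨hℓ⟩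
  exact mz_red hp2 (wpDivData (p := p) (Fact.out : p.Prime).pos) hℓp hA h Px a ha hPx
    (c : Ω) c.2 hc

/-- the local node algebra, from helper6's `pl2_node_dict`. -/
theorem nodeDict : NodeDict p := by
  have hp : p.Prime := Fact.out
  intro W hΔ ℓ hℓ hℓp hℓΔ hℓc₄ A hA Q hQ
  obtain ⟨h1, -, h3, h4⟩ := pl2_node_dict W hℓ A hA hΔ hℓΔ hℓc₄ hp hℓp Q hQ
  refine ⟨?_, ?_, ?_⟩
  · intro m hm x y h hmQ
    obtain ⟨x', y', h', e, hx', -⟩ := h1 m hm
    rw [hmQ] at e
    cases e
    exact hx'
  · intro hz m hm x y h hmQ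
    have h5 := h3 hz m hm
    rw [hmQ, pl2X_some] at h5
    exact h5
  · intro hnz x y h hQe
    have h5 := h4 hnz
    rw [hQe, pl2X_some] at h5
    exact h5

/-- **(MOD)**: the moduli dictionary for `X₀(p)`, `p` an odd prime. -/
theorem modDict_cusps (hp2 : 2 < p) : ModDict p (cuspInfP p) (cuspZeroP p) :=
  modDict_of_parts hp2 (redDict hp2) nodeDict

end Fermat.Agent.MZ
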