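/-
PROJECT MZ (branch only) -- helper4 -- assembly, preparatory lemmas (abstract):
finite sup with a cyclic group, the finite torsion of a finitely generated group, a uniform
multiplier into the infinitely `r`-divisible points.
-/
import Mathlib

set_option autoImplicit false
set_option linter.style.haveILetI false
set_option linter.unusedSectionVars false
set_option linter.unusedVariables false

namespace Fermat.Agent.MZ

section FiniteSup

variable {A : Type*} [AddCommGroup A]

/-- the sup of a finite subgroup and the cyclic group of an element of finite order is finite. -/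
theorem finite_sup_zmultiples (H : AddSubgroup A) [Finite H] (f : A) {n : ℕ} (hn : 0 < n)
    (hf : n • f = 0) : Finite ↥(H ⊔ AddSubgroup.zmultiples f) := by
  have hsurj : Function.Surjective
      (fun x : ↥H × Fin n => (⟨x.1.1 + (x.2 : ℕ) • f,
        add_mem (AddSubgroup.mem_sup_left x.1.2)
          (AddSubgroup.mem_sup_right (AddSubgroup.nsmul_mem _ (AddSubgroup.mem_zmultiples f) _))⟩ :
        ↥(H ⊔ AddSubgroup.zmultiples f))) := by
    rintro ⟨y, hy⟩
    obtain ⟨h, hh, z, hz, rfl⟩ := AddSubgroup.mem_sup.mp hy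
    obtain ⟨m, rfl⟩ := AddSubgroup.mem_zmultiples_iff.mp hz
    -- reduce `m` modulo `n`
    have hm : m • f = ((m % (n : ℤ)).toNat) • f := by
      have h1 : (0 : ℤ) ≤ m % (n : ℤ) := Int.emod_nonneg _ (by exact_mod_cast hn.ne')
      conv_lhs => rw [← Int.emod_add_mul_ediv m (n : ℤ)]
      rw [add_zsmul, mul_zsmul', natCast_zsmul, hf, zsmul_zero, add_zero]
      conv_lhs => rw [← Int.toNat_of_nonneg h1]
      rw [natCast_zsmul]
    have hlt : (m % (n : ℤ)).toNat < n := by
      have h1 : (0 : ℤ) ≤ m % (n : ℤ) := Int.emod_nonneg _ (by exact_mod_cast hn.ne')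
      have h2 : m % (n : ℤ) < n := Int.emod_lt_of_pos _ (by exact_mod_cast hn)
      omega
    refine ⟨(⟨h, hh⟩, ⟨(m % (n : ℤ)).toNat, hlt⟩), ?_⟩
    apply Subtype.ext
    show h + ((m % (n : ℤ)).toNat) • f = h + m • f
    rw [hm]
  exact Finite.of_surjective _ hsurj

end FiniteSup

section TorsFG

variable {A : Type*} [AddCommGroup A]

/-- the torsion subgroup of a finitely generated abelian group is finite. -/
theorem finite_torsion_of_fg (hA : AddGroup.FG A) : Finite ↥(Submodule.torsion ℤ A) := by
  haveI : Module.Finite ℤ A := Module.Finite.iff_addGroup_fg.mpr hA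
  haveI : IsNoetherian ℤ A := isNoetherian_of_isNoetherianRing_of_finite ℤ A
  haveI : Module.Finite ℤ ↥(Submodule.torsion ℤ A) := Module.IsNoetherian.finite ℤ _
  exact Module.finite_of_fg_torsion _ (Submodule.torsion_isTorsion)

end TorsFG

section Mult

variable {J : Type*} [AddCommGroup J]

/-- a uniform multiplier: if every element of a finitely generated subgroup `R` has a positive
multiple with the additive property `P`, one positive `d` works for all of `R`. -/
theorem exists_uniform_multiplier (R : AddSubgroup J) (hR : R.FG) (P : J → Prop)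
    (h0 : P 0) (hadd : ∀ x y, P x → P y → P (x + y)) (hneg : ∀ x, P x → P (-x))
    (hx : ∀ x ∈ R, ∃ d : ℕ, 0 < d ∧ P (d • x)) :
    ∃ d : ℕ, 0 < d ∧ ∀ x ∈ R, P (d • x) := by
  classical
  obtain ⟨S, hS⟩ := hR
  have hSR : ∀ s ∈ S, s ∈ R := fun s hs => hS ▸ AddSubgroup.subset_closure hs
  choose! dd hdd using hx
  have hnsmul : ∀ (m : ℕ) (x : J), P x → P (m • x) := by
    intro m x hPx
    induction m with
    | zero => rw [zero_nsmul]; exact h0
    | succ m ih => rw [succ_nsmul]; exact hadd _ _ ih hPx
  refine ⟨∏ s ∈ S, dd s, Finset.prod_pos fun s hs => (hdd s (hSR s hs)).1, ?_⟩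
  intro x hxR
  rw [← hS] at hxR
  induction hxR using AddSubgroup.closure_induction with
  | mem s hs =>
    obtain ⟨e, he⟩ := Finset.dvd_prod_of_mem dd hs
    rw [he, mul_comm, mul_nsmul']
    exact hnsmul e _ (hdd s (hSR s hs)).2
  | zero => rw [nsmul_zero]; exact h0
  | add a b _ _ ha hb => rw [nsmul_add]; exact hadd _ _ ha hb
  | neg a _ ha => rw [smul_neg]; exact hneg _ ha

end Mult

end Fermat.Agent.MZ
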