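/-
MZ (S15 gamble) — helper4 — (TORS-COMM): the Hecke operators `T_ℓ`, `ℓ ≠ p`, commute on
`tateTors p r k` (the components of Tate sequences), through the transport to the lattice
`parabolicHoms ℤ_[r] (Gamma0 p) ℤ_[r]` where the `heckeParP` commute; and the **projector word**
`exists_projWord_Wk`.
-/
import Fermat.Agent.GR.TOP_lead_System
import Fermat.Agent.GR.MULT1_helper2_Occur
import Fermat.Agent.MZ.WK_helper4_Def

set_option autoImplicit false
set_option linter.style.haveILetI false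
set_option linter.unusedSectionVars false
set_option linter.unusedVariables false

namespace Fermat.Agent.MZ

open ModularCurve ModularCurve.Period CongruenceSubgroup Fermat.Agent.GR

open scoped MatrixGroups

local notation "Ω" => AlgebraicClosure ℚ
local notation "GQ" => (AlgebraicClosure ℚ ≃ₐ[ℚ] AlgebraicClosure ℚ)

section Padic

variable {N : ℕ} [NeZero N] {r : ℕ} [Fact r.Prime]

/-- the Hecke operators commute on `ℤ_r`-valued parabolic homomorphisms. -/
theorem heckeGrpP_comm_padic (ℓ q : Nat.Primes) {ψ : Additive (Gamma0 N) →+ ℤ_[r]}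
    (hψ : ψ ∈ parabolicHoms ℤ_[r] (Gamma0 N) ℤ_[r]) :
    heckeGrpP N ℓ ℤ_[r] (heckeGrpP N q ℤ_[r] ψ) = heckeGrpP N q ℤ_[r] (heckeGrpP N ℓ ℤ_[r] ψ) := by
  obtain ⟨x, hx⟩ := (parTheta ℤ_[r] (Gamma0 N) ℤ_[r]).surjective ⟨ψ, hψ⟩
  have hψx : ψ = (parTheta ℤ_[r] (Gamma0 N) ℤ_[r] x).1 := by rw [hx]
  rw [hψx]
  clear hx hψx hψ
  induction x using TensorProduct.induction_on with
  | zero => rw [map_zero]; simp only [Submodule.coe_zero, map_zero]
  | tmul c ψ₀ =>
    rw [parTheta_tmul, parScal_coe_eq_comp, heckeGrpP_comp, heckeGrpP_comp, heckeGrpP_comp,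
      heckeGrpP_comp]
    congr 1
    refine heckeGrpP_comm_of_injective N ℓ q (Int.castAddHom ℂ) Int.cast_injective ?_
    intro γ hγ
    exact ψ₀.2 γ hγ
  | add x y hx hy =>
    rw [map_add, Submodule.coe_add, map_add, map_add, map_add, map_add, hx, hy]

theorem heckeParP_commute_padic (ℓ q : Nat.Primes) :
    Commute (heckeParP N ℓ ℤ_[r] ℤ_[r]) (heckeParP N q ℤ_[r] ℤ_[r]) := by
  apply LinearMap.ext
  intro ψ
  apply Subtype.ext
  exact heckeGrpP_comm_padic ℓ q ψ.2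

/-- **the `T'_ℓ` commute on the components of Tate sequences.** -/
theorem T'_comm_tateSeq (I : StageIData N r) (ℓ q : Nat.Primes) (s : ↥(TateSeq (JZero N) r))
    (k : ℕ) : I.T' ℓ (I.T' q (s.1 k)) = I.T' q (I.T' ℓ (s.1 k)) := by
  have hc := (heckeParP_commute_padic (N := N) (r := r) ℓ q).eq
  rw [← I.transport_T' ℓ, ← I.transport_T' q] at hc
  have h2 := congrArg (fun F => F (I.D.phi s)) hc
  simp only [Module.End.mul_apply] at h2
  have e1 := I.D.transport_phi (I.T' q) s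
  have e2 := I.D.transport_phi (I.T' ℓ) (TateSeq.map r (I.T' q) s)
  have e3 := I.D.transport_phi (I.T' ℓ) s
  have e4 := I.D.transport_phi (I.T' q) (TateSeq.map r (I.T' ℓ) s)
  have h3 : TateSeq.map r (I.T' ℓ) (TateSeq.map r (I.T' q) s) =
      TateSeq.map r (I.T' q) (TateSeq.map r (I.T' ℓ) s) := by
    apply I.D.phi_injective
    rw [← e2, ← e4, ← e1, ← e3]
    exact h2
  have h4 := congrArg (fun t : ↥(TateSeq (JZero N) r) => t.1 k) h3
  exact h4

end Padic

section Wk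

variable {p : ℕ} [NeZero p] {r : ℕ} [Fact r.Prime]

/-- **(TORS-COMM)**: the `T_ℓ`, `ℓ ≠ p`, commute on `tateTors p r k`. -/
theorem heckeFam_comm_tateTors (hp : p.Prime) (k : ℕ) (ℓ q : HeckeIdx p) (x : JZero p)
    (hx : x ∈ tateTors p r k) : heckeFam p ℓ (heckeFam p q x) = heckeFam p q (heckeFam p ℓ x) := by
  obtain ⟨s, rfl⟩ := hx
  have I := stageIData p r
  have hℓ : ¬ ((ℓ.1 : ℕ) ∣ p) := fun h => ℓ.2 ((Nat.prime_dvd_prime_iff_eq ℓ.1.2 hp).mp h)
  have hq : ¬ ((q.1 : ℕ) ∣ p) := fun h => q.2 ((Nat.prime_dvd_prime_iff_eq q.1.2 hp).mp h)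
  show heckeOperatorBar p ℓ.1 (heckeOperatorBar p q.1 (s.1 k)) =
    heckeOperatorBar p q.1 (heckeOperatorBar p ℓ.1 (s.1 k))
  rw [← I.hT' ℓ.1 hℓ, ← I.hT' q.1 hq, ← I.hT' q.1 hq, ← I.hT' ℓ.1 hℓ]
  exact T'_comm_tateSeq I ℓ.1 q.1 s k

/-- **the projector word of `W_k`**: a word `t` in the `T_ℓ`, `ℓ ≠ p`, with `ε t = 1`, which is
the identity on `Wk p r k` and maps `tateTors p r k` into it. -/
theorem exists_projWord_Wk (hp : p.Prime) (k : ℕ) :
    ∃ t : FreeAlgebra ℤ (HeckeIdx p), epsWord (eisVal p) t = 1 ∧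
      (∀ x ∈ Wk p r k, evWord (heckeFam p) t x = x) ∧
      ∀ x ∈ tateTors p r k, evWord (heckeFam p) t x ∈ Wk p r k :=
  exists_projWord_in (heckeFam p) (eisVal p) (tateTors p r k)
    (fun ℓ x hx => end_mem_tateTors _ hx) (finite_tateTors r k)
    (fun ℓ q x hx => heckeFam_comm_tateTors hp k ℓ q x hx)

end Wk

end Fermat.Agent.MZ
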