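/-
PROJECT MZ (branch only) -- helper4 -- the **count**: from the devissage inequality to a uniform
exponent killing the Good cocycles modulo coboundaries.

Abstract: `Γ` a group, `c ∈ Γ` an involution, `I₁ ⊆ Γ`, `W` a finite `Γ`-module killed by `r ^ k`,
`𝒵` a finite group of cocycles containing the coboundaries.  If
`card 𝒵 ≤ card (res_{I₁ ∪ {c}} 𝒵)`, `card (res_{I₁} 𝒵) ^ 2 ≤ r ^ B₁ * card W`,
`card W⁻ ^ 2 ≤ r ^ B₂ * card W` and `card W^Γ ≤ r ^ h₀`, then `r ^ (B₁ + B₂ + h₀)` maps `𝒵` into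
the coboundaries.
-/
import Mathlib
import Fermat.Agent.MZ.D1_helper4_Coc

set_option autoImplicit false
set_option linter.style.haveILetI false
set_option linter.unusedSectionVars false
set_option linter.unusedVariables false

namespace Fermat.Agent.MZ

section Count

variable {Γ : Type*} [Group Γ] {W : Type*} [AddCommGroup W] [DistribMulAction Γ W]

/-- the value of a cocycle at an involution is anti-invariant. -/
theorem Z1_apply_involution {f : Γ → W} (hf : f ∈ Z1 Γ W) {c : Γ} (hc : c * c = 1) :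
    c • f c = -f c := by
  have h1 := hf c c
  rw [hc, Z1_map_one hf] at h1
  exact (neg_eq_of_add_eq_zero_right h1.symm).symm

/-- restriction to `I₁ ∪ {c}` is controlled by the restriction to `I₁` and the value at `c`. -/
theorem card_res_union_le [Finite W] (I₁ : Set Γ) (c : Γ) (hc : c * c = 1)
    (𝒵 : AddSubgroup (Γ → W)) (h𝒵 : 𝒵 ≤ Z1 Γ W) [Finite 𝒵] :
    Nat.card (𝒵.map (resTo (I₁ ∪ {c}))) ≤
      Nat.card (𝒵.map (resTo I₁)) * Nat.card {w : W // c • w = -w} := by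
  classical
  haveI : Finite (𝒵.map (resTo (G := W) I₁)) :=
    Finite.of_surjective _ ((resTo I₁).addSubgroupMap_surjective 𝒵)
  rw [← Nat.card_prod]
  have hcI : c ∈ I₁ ∪ {c} := Or.inr rfl
  let Φ : ↥(𝒵.map (resTo (G := W) (I₁ ∪ {c}))) →
      ↥(𝒵.map (resTo (G := W) I₁)) × {w : W // c • w = -w} := fun g =>
    (⟨fun s => g.1 ⟨s.1, Or.inl s.2⟩, by
        obtain ⟨f, hf, hfg⟩ := g.2
        refine ⟨f, hf, ?_⟩
        funext s
        rw [← hfg]
        rfl⟩,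
      ⟨g.1 ⟨c, hcI⟩, by
        obtain ⟨f, hf, hfg⟩ := g.2
        rw [← hfg]
        exact Z1_apply_involution (h𝒵 hf) hc⟩)
  refine Nat.card_le_card_of_injective Φ ?_
  intro g g' h
  apply Subtype.ext
  funext s
  have h1 := congrArg (fun x => (x.1 : ↥I₁ → W)) h
  have h2 := congrArg (fun x => (x.2 : W)) h
  rcases s.2 with hs | hs
  · exact congrFun h1 ⟨s.1, hs⟩
  · have hsc : s = ⟨c, hcI⟩ := Subtype.ext hs
    rw [hsc]
    exact h2

/-- `card W = card W^Γ * card B¹`. -/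
theorem card_eq_card_fixed_mul_card_B1 :
    Nat.card W = Nat.card {w : W // ∀ σ : Γ, σ • w = w} * Nat.card (B1 Γ W) := by
  rw [card_eq_card_ker_mul_card_range (cobd Γ (G := W))]
  congr 1
  refine Nat.card_congr (Equiv.subtypeEquivRight fun w => ?_)
  rw [AddMonoidHom.mem_ker]
  constructor
  · intro h σ
    have := congrFun h σ
    rw [cobd_apply] at this
    exact sub_eq_zero.mp this
  · intro h
    funext σ
    rw [cobd_apply, h σ, sub_self]
    rfl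

/-- **the count.** -/
theorem pow_smul_mem_B1_of_card [Finite W] (r : ℕ) (hr : r.Prime) (k : ℕ)
    (hk : ∀ w : W, r ^ k • w = 0) (I₁ : Set Γ) (c : Γ) (hc : c * c = 1)
    (𝒵 : AddSubgroup (Γ → W)) [Finite 𝒵] (h𝒵 : 𝒵 ≤ Z1 Γ W) (hB : B1 Γ W ≤ 𝒵)
    (B₁ B₂ h₀ : ℕ)
    (ha : Nat.card 𝒵 ≤ Nat.card (𝒵.map (resTo (I₁ ∪ {c}))))
    (hd : Nat.card (𝒵.map (resTo I₁)) ^ 2 ≤ r ^ B₁ * Nat.card W)
    (hcc : Nat.card {w : W // c • w = -w} ^ 2 ≤ r ^ B₂ * Nat.card W)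
    (hh : Nat.card {w : W // ∀ σ : Γ, σ • w = w} ≤ r ^ h₀)
    {f : Γ → W} (hf : f ∈ 𝒵) : r ^ (B₁ + B₂ + h₀) • f ∈ B1 Γ W := by
  classical
  set b := B₁ + B₂ + h₀ with hb
  -- the subgroup of coboundaries inside `𝒵`
  set B' : AddSubgroup ↥𝒵 := (B1 Γ W).addSubgroupOf 𝒵 with hB'
  have hcardB' : Nat.card B' = Nat.card (B1 Γ W) :=
    Nat.card_congr (AddSubgroup.addSubgroupOfEquivOfLe hB).toEquiv
  set q := Nat.card (↥𝒵 ⧸ B') with hq
  have hcard𝒵 : Nat.card 𝒵 = q * Nat.card (B1 Γ W) := by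
    rw [← hcardB', hq]
    exact AddSubgroup.card_eq_card_quotient_mul_card_addSubgroup B'
  have hqpos : 0 < q := Nat.card_pos
  have hWpos : 0 < Nat.card W := Nat.card_pos
  haveI : Finite ↥(B1 Γ W) := Finite.of_injective
    (fun g : ↥(B1 Γ W) => (⟨g.1, hB g.2⟩ : ↥𝒵)) (fun a b h => Subtype.ext (by
      have := congrArg (fun z : ↥𝒵 => (z : Γ → W)) h
      exact this))
  have hBpos : 0 < Nat.card (B1 Γ W) := Nat.card_pos
  -- the chain of inequalities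
  have h1 := card_res_union_le I₁ c hc 𝒵 h𝒵
  have h2 : Nat.card 𝒵 ^ 2 ≤ r ^ (B₁ + B₂) * Nat.card W ^ 2 := by
    calc Nat.card 𝒵 ^ 2 ≤ (Nat.card (𝒵.map (resTo I₁)) * Nat.card {w : W // c • w = -w}) ^ 2 :=
          Nat.pow_le_pow_left (ha.trans h1) 2
      _ = Nat.card (𝒵.map (resTo I₁)) ^ 2 * Nat.card {w : W // c • w = -w} ^ 2 := by ring
      _ ≤ (r ^ B₁ * Nat.card W) * (r ^ B₂ * Nat.card W) := Nat.mul_le_mul hd hcc
      _ = r ^ (B₁ + B₂) * Nat.card W ^ 2 := by ring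
  have h3 : Nat.card W ≤ r ^ h₀ * Nat.card (B1 Γ W) := by
    rw [card_eq_card_fixed_mul_card_B1 (Γ := Γ) (W := W)]
    exact Nat.mul_le_mul_right _ hh
  have h4 : q ^ 2 * Nat.card (B1 Γ W) ^ 2 ≤ (r ^ b) ^ 2 * Nat.card (B1 Γ W) ^ 2 := by
    calc q ^ 2 * Nat.card (B1 Γ W) ^ 2 = Nat.card 𝒵 ^ 2 := by rw [hcard𝒵]; ring
      _ ≤ r ^ (B₁ + B₂) * Nat.card W ^ 2 := h2
      _ ≤ r ^ (B₁ + B₂) * (r ^ h₀ * Nat.card (B1 Γ W)) ^ 2 :=
          Nat.mul_le_mul_left _ (Nat.pow_le_pow_left h3 2)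
      _ ≤ (r ^ b) ^ 2 * Nat.card (B1 Γ W) ^ 2 := by
          have : r ^ (B₁ + B₂) * (r ^ h₀ * Nat.card (B1 Γ W)) ^ 2 =
              r ^ (B₁ + B₂ + 2 * h₀) * Nat.card (B1 Γ W) ^ 2 := by ring
          rw [this, ← pow_mul]
          refine Nat.mul_le_mul_right _ (Nat.pow_le_pow_right hr.pos ?_)
          omega
  have h5 : q ^ 2 ≤ (r ^ b) ^ 2 := Nat.le_of_mul_le_mul_right h4 (by positivity)
  have h6 : q ≤ r ^ b := by
    by_contra hcon
    push Not at hcon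
    have := Nat.pow_lt_pow_left hcon (n := 2) (by norm_num)
    omega
  -- the order of the class of `f`
  set x : ↥𝒵 ⧸ B' := QuotientAddGroup.mk (⟨f, hf⟩ : ↥𝒵) with hx
  haveI : Finite (↥𝒵 ⧸ B') := inferInstance
  have ho1 : addOrderOf x ∣ q := addOrderOf_dvd_natCard x
  have ho2 : addOrderOf x ∣ r ^ k := by
    apply addOrderOf_dvd_of_nsmul_eq_zero
    rw [hx, ← QuotientAddGroup.mk_nsmul]
    have : r ^ k • (⟨f, hf⟩ : ↥𝒵) = 0 := by
      apply Subtype.ext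
      funext σ
      show (r ^ k • f) σ = 0
      rw [Pi.smul_apply, hk]
    rw [this]
    rfl
  obtain ⟨j, -, hj⟩ := (Nat.dvd_prime_pow hr).mp ho2
  have hjb : j ≤ b := by
    have h7 : r ^ j ≤ r ^ b := by
      rw [← hj]
      exact (Nat.le_of_dvd hqpos ho1).trans h6
    exact (Nat.pow_le_pow_iff_right hr.one_lt).mp h7
  have h8 : r ^ b • x = 0 := by
    apply addOrderOf_dvd_iff_nsmul_eq_zero.mp
    rw [hj]
    exact pow_dvd_pow r hjb
  rw [hx, ← QuotientAddGroup.mk_nsmul, QuotientAddGroup.eq_zero_iff] at h8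
  exact h8

end Count

end Fermat.Agent.MZ
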