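/-
MZ (S15 gamble) — helper4 — (DIV-TORS): in an abelian group `X` with finite `r`-torsion there is
`c` such that `r^c • X[r^∞]` is `r`-divisible; every element of it killed by `r^k` is the `k`-th
component of a Tate sequence.  For `X = J₀(p)`: `r^c • x ∈ tateTors p r k` whenever
`r^(k+c) • x = 0`.
-/
import Fermat.Agent.MZ.WK_helper4_Def

set_option autoImplicit false
set_option linter.style.haveILetI false
set_option linter.unusedSectionVars false
set_option linter.unusedVariables false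

namespace Fermat.Agent.MZ

open ModularCurve Fermat.Agent.GR

section Abstract

variable {X : Type*} [AddCommGroup X] (r : ℕ)

/-- an antitone sequence of natural numbers is eventually constant. -/
theorem exists_stable_of_antitone (f : ℕ → ℕ) (hf : Antitone f) :
    ∃ c, ∀ n, c ≤ n → f n = f c := by
  classical
  have hne : (Set.range f).Nonempty := ⟨f 0, 0, rfl⟩
  obtain ⟨c, hc⟩ := Nat.sInf_mem hne
  refine ⟨c, fun n hn => le_antisymm (hf hn) ?_⟩
  rw [hc]
  exact Nat.sInf_le ⟨n, rfl⟩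

/-- the `r`-torsion elements divisible by `r^n` inside the `r`-power torsion. -/
def torsDivSet (X : Type*) [AddCommGroup X] (r n : ℕ) : Set X :=
  {x | r • x = 0 ∧ ∃ y : X, (∃ m : ℕ, r ^ m • y = 0) ∧ x = r ^ n • y}

theorem torsDivSet_antitone : Antitone (torsDivSet X r) := by
  intro n n' hnn' x hx
  obtain ⟨hx0, y, ⟨m, hm⟩, rfl⟩ := hx
  obtain ⟨d, rfl⟩ := Nat.exists_eq_add_of_le hnn'
  refine ⟨hx0, r ^ d • y, ⟨m, ?_⟩, ?_⟩
  · rw [smul_comm, hm, smul_zero]
  · rw [← mul_smul, ← pow_add]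

/-- **stabilisation**: there is `c` with `torsDivSet X r n = torsDivSet X r c` for `n ≥ c`. -/
theorem exists_torsDivSet_stable (hfin : {x : X | r • x = 0}.Finite) :
    ∃ c, ∀ n, c ≤ n → torsDivSet X r n = torsDivSet X r c := by
  have hsub : ∀ n, torsDivSet X r n ⊆ {x : X | r • x = 0} := fun n x hx => hx.1
  have hfinn : ∀ n, (torsDivSet X r n).Finite := fun n => hfin.subset (hsub n)
  obtain ⟨c, hc⟩ := exists_stable_of_antitone (fun n => (torsDivSet X r n).ncard)
    (fun n n' h => Set.ncard_le_ncard (torsDivSet_antitone r h) (hfinn n))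
  refine ⟨c, fun n hn => ?_⟩
  exact Set.eq_of_subset_of_ncard_le (torsDivSet_antitone r hn) (le_of_eq (hc n hn).symm)
    (hfinn c)

/-- **divisibility of `r^c • X[r^∞]`.** -/
theorem exists_divisible_pow_smul_tors (hfin : {x : X | r • x = 0}.Finite) :
    ∃ c : ℕ, ∀ y : X, (∃ m : ℕ, r ^ m • y = 0) →
      ∃ z : X, (∃ m : ℕ, r ^ m • z = 0) ∧ r • (r ^ c • z) = r ^ c • y := by
  obtain ⟨c, hc⟩ := exists_torsDivSet_stable r hfin
  refine ⟨c, ?_⟩
  -- induction on the exponent of `d = r^c • y`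
  suffices H : ∀ m : ℕ, ∀ y : X, (∃ m' : ℕ, r ^ m' • y = 0) → r ^ m • (r ^ c • y) = 0 →
      ∃ z : X, (∃ m' : ℕ, r ^ m' • z = 0) ∧ r • (r ^ c • z) = r ^ c • y by
    intro y hy
    obtain ⟨m, hm⟩ := hy
    exact H m y ⟨m, hm⟩ (by rw [smul_comm, hm, smul_zero])
  intro m
  induction m with
  | zero =>
    intro y hy h0
    rw [pow_zero, one_smul] at h0
    exact ⟨0, ⟨0, smul_zero _⟩, by rw [smul_zero, smul_zero, h0]⟩
  | succ m ih =>
    intro y hy h0
    -- `x := r^m • (r^c • y)` is `r`-torsion and divisible by `r^(m+c)`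
    have hx : r ^ (m + c) • y ∈ torsDivSet X r (m + c) := by
      refine ⟨?_, y, hy, rfl⟩
      rw [← mul_smul, ← pow_succ', show m + c + 1 = (m + 1) + c by ring, pow_add, mul_smul]
      exact h0
    have hx' : r ^ (m + c) • y ∈ torsDivSet X r (m + c + 1) := by
      rw [hc (m + c + 1) (by omega), ← hc (m + c) (by omega)]
      exact hx
    obtain ⟨-, z, hz, hxz⟩ := hx'
    -- `d₁ := r^c • (y - r • z)`
    have hy1 : ∃ m' : ℕ, r ^ m' • (y - r • z) = 0 := by
      rw [sub_eq_add_neg]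
      exact isTorsion_add hy (isTorsion_neg (isTorsion_nsmul r hz))
    have h1 : r ^ m • (r ^ c • (y - r • z)) = 0 := by
      rw [← mul_smul, ← pow_add, smul_sub, hxz, ← mul_smul, ← pow_succ, sub_self]
    obtain ⟨z₁, hz₁, hz₁e⟩ := ih (y - r • z) hy1 h1
    refine ⟨z₁ + z, ?_, ?_⟩
    · exact isTorsion_add hz₁ hz
    · rw [smul_add, smul_add, hz₁e, smul_sub, smul_comm (r ^ c) r z]
      abel

/-- in a group where `D := r^c • X[r^∞]` is `r`-divisible, every element of `D` killed by `r^k`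
is the `k`-th component of a Tate sequence. -/
theorem exists_tateSeq_of_divisible (c : ℕ)
    (hdiv : ∀ y : X, (∃ m : ℕ, r ^ m • y = 0) →
      ∃ z : X, (∃ m : ℕ, r ^ m • z = 0) ∧ r • (r ^ c • z) = r ^ c • y)
    (y : X) (hy : ∃ m : ℕ, r ^ m • y = 0) (k : ℕ) (hk : r ^ k • (r ^ c • y) = 0) :
    ∃ s : ↥(TateSeq X r), s.1 k = r ^ c • y := by
  classical
  -- a division function on the torsion subtype
  let T := {y : X // ∃ m : ℕ, r ^ m • y = 0}
  choose g hg1 hg2 using fun t : T => hdiv t.1 t.2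
  let G : T → T := fun t => ⟨g t, hg1 t⟩
  have hG : ∀ t : T, r • (r ^ c • (G t).1) = r ^ c • t.1 := fun t => hg2 t
  let y₀ : T := ⟨y, hy⟩
  refine ⟨⟨fun j => if j ≤ k then r ^ (k - j) • (r ^ c • y) else r ^ c • (G^[j - k] y₀).1, ?_, ?_⟩,
    ?_⟩
  · show (if 0 ≤ k then r ^ (k - 0) • (r ^ c • y) else _) = 0
    rw [if_pos (Nat.zero_le k), Nat.sub_zero, hk]
  · intro j
    show r • (if j + 1 ≤ k then r ^ (k - (j + 1)) • (r ^ c • y)
      else r ^ c • (G^[j + 1 - k] y₀).1) =
      (if j ≤ k then r ^ (k - j) • (r ^ c • y) else r ^ c • (G^[j - k] y₀).1)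
    by_cases h1 : j + 1 ≤ k
    · rw [if_pos h1, if_pos (by omega), ← mul_smul, ← pow_succ']
      congr 2
      omega
    · rw [if_neg h1]
      by_cases h2 : j ≤ k
      · have hjk : j = k := by omega
        subst hjk
        rw [if_pos le_rfl, Nat.sub_self, pow_zero, one_smul,
          show j + 1 - j = 1 by omega, Function.iterate_one]
        exact hG y₀
      · rw [if_neg h2, show j + 1 - k = (j - k) + 1 by omega, Function.iterate_succ_apply']
        exact hG _
  · show (if k ≤ k then r ^ (k - k) • (r ^ c • y) else _) = r ^ c • y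
    rw [if_pos le_rfl, Nat.sub_self, pow_zero, one_smul]

end Abstract

section JZero

variable (p : ℕ) [NeZero p] (r : ℕ) [Fact r.Prime]

/-- **(DIV-TORS) for `J₀(p)`**: there is `c₀` such that `r^c₀ • x ∈ tateTors p r k` for every
`x` with `r^(k + c₀) • x = 0`. -/
theorem exists_pow_smul_mem_tateTors :
    ∃ c₀ : ℕ, ∀ (k : ℕ) (x : JZero p), r ^ (k + c₀) • x = 0 → r ^ c₀ • x ∈ tateTors p r k := by
  have hfin : {x : JZero p | r • x = 0}.Finite := by
    haveI : Finite ↥(torsionNat (JZero p) (r ^ 1)) := (stageIData p r).D.finite_torsion 1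
    have h1 : {x : JZero p | r • x = 0} = (torsionNat (JZero p) (r ^ 1) : Set (JZero p)) := by
      ext x
      show r • x = 0 ↔ r ^ 1 • x = 0
      rw [pow_one]
    rw [h1]
    exact Set.toFinite _
  obtain ⟨c₀, hc₀⟩ := exists_divisible_pow_smul_tors r hfin
  refine ⟨c₀, fun k x hx => ?_⟩
  have hk : r ^ k • (r ^ c₀ • x) = 0 := by rw [← mul_smul, ← pow_add]; exact hx
  obtain ⟨s, hs⟩ := exists_tateSeq_of_divisible r c₀ hc₀ x ⟨k + c₀, hx⟩ k hk
  exact ⟨s, hs⟩

end JZero

end Fermat.Agent.MZ
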