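/-
PROJECT MZ (branch only) -- helper4 -- (RANK): the rank step.

`rank_step`: `R ≤ J` a finitely generated subgroup stable under the operators `T i`,
`t₀` a word with `r ∤ ε(t₀)` mapping `R` into `r • R + torsion(R)`.  Then some word `t`
with `r ∤ ε(t)` maps `R` into the torsion of `R`
(`t := χ(t₀)`, `χ` the characteristic polynomial of `t₀` on `R / torsion`; `χ ≡ X ^ ρ` mod `r`).
Depends on Mathlib + `D3_helper4_PrimPart` only.
-/
import Mathlib
import Fermat.Agent.MZ.D3_helper4_PrimPart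

set_option autoImplicit false

namespace Fermat.Agent.MZ

open Polynomial

section Semiconj

variable {M N : Type*} [AddCommGroup M] [AddCommGroup N]

theorem pow_semiconj (π : M →ₗ[ℤ] N) (A : Module.End ℤ M) (B : Module.End ℤ N)
    (h : ∀ x, π (A x) = B (π x)) (n : ℕ) (x : M) : π ((A ^ n) x) = (B ^ n) (π x) := by
  induction n generalizing x with
  | zero => simp
  | succ n ih => rw [pow_succ, pow_succ, Module.End.mul_apply, Module.End.mul_apply, ih, h]

theorem aeval_semiconj (π : M →ₗ[ℤ] N) (A : Module.End ℤ M) (B : Module.End ℤ N)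
    (h : ∀ x, π (A x) = B (π x)) (P : ℤ[X]) (x : M) :
    π (aeval A P x) = aeval B P (π x) := by
  induction P using Polynomial.induction_on' with
  | add p q hp hq => rw [map_add, map_add, LinearMap.add_apply, LinearMap.add_apply, map_add, hp, hq]
  | monomial n a =>
    rw [aeval_monomial, aeval_monomial, Algebra.algebraMap_eq_smul_one,
      Algebra.algebraMap_eq_smul_one, smul_mul_assoc, smul_mul_assoc, one_mul, one_mul,
      LinearMap.smul_apply, LinearMap.smul_apply, map_zsmul, pow_semiconj π A B h]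

end Semiconj

section CharpolyModR

/-- an endomorphism of a finite free `ℤ`-module with image in `r • Λ` has characteristic
polynomial `≡ X ^ rank` mod `r`. -/
theorem charpoly_map_eq_X_pow {Λ : Type*} [AddCommGroup Λ] [Module.Free ℤ Λ] [Module.Finite ℤ Λ]
    (B : Module.End ℤ Λ) (r : ℕ) (hB : ∀ x, ∃ y, B x = (r : ℤ) • y) :
    B.charpoly.map (Int.castRingHom (ZMod r)) = X ^ Module.finrank ℤ Λ := by
  classical
  set b := Module.Free.chooseBasis ℤ Λ with hb
  rw [← LinearMap.charpoly_toMatrix B b, ← Matrix.charpoly_map]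
  have hz : (LinearMap.toMatrix b b B).map (Int.castRingHom (ZMod r)) = 0 := by
    ext i j
    rw [Matrix.map_apply, LinearMap.toMatrix_apply, Matrix.zero_apply]
    obtain ⟨y, hy⟩ := hB (b j)
    rw [hy, map_zsmul, Finsupp.smul_apply, smul_eq_mul, map_mul]
    simp
  rw [hz, Matrix.charpoly_zero, Module.finrank_eq_card_chooseBasisIndex]

end CharpolyModR

section RankStep

variable {J : Type*} [AddCommGroup J] {ι : Type*}

/-- **(RANK)** -/
theorem rank_step (T : ι → Module.End ℤ J) (e : ι → ℤ) (R : Submodule ℤ J) (hFG : R.FG)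
    (hstab : ∀ i, ∀ x ∈ R, T i x ∈ R) (r : ℕ) (hr : r.Prime) (t₀ : FreeAlgebra ℤ ι)
    (h₀ : ¬ (r : ℤ) ∣ epsWord e t₀)
    (hmap : ∀ x ∈ R, ∃ y ∈ R, ∃ z ∈ R, (∃ m : ℕ, 0 < m ∧ m • z = 0) ∧
      evWord T t₀ x = r • y + z) :
    ∃ t : FreeAlgebra ℤ ι, ¬ (r : ℤ) ∣ epsWord e t ∧
      ∀ x ∈ R, ∃ m : ℕ, 0 < m ∧ m • evWord T t x = 0 := by
  classical
  have : Fact r.Prime := ⟨hr⟩
  have : Module.Finite ℤ ↥R := Module.Finite.iff_fg.mpr hFG
  -- the operator on R
  set A : Module.End ℤ ↥R :=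
    restrSub R (evWord T t₀) (fun x hx => evWord_mem_of_stable T R hstab t₀ hx) with hA
  set tor : Submodule ℤ ↥R := Submodule.torsion ℤ ↥R with htor
  have htorA : tor ≤ tor.comap A := by
    intro x hx
    rw [Submodule.mem_comap]
    rw [htor, Submodule.mem_torsion_iff] at hx ⊢
    obtain ⟨a, ha⟩ := hx
    refine ⟨a, ?_⟩
    rw [Submonoid.smul_def] at ha ⊢
    rw [← map_zsmul, ha, map_zero]
  set B : Module.End ℤ (↥R ⧸ tor) := tor.mapQ tor A htorA with hB
  have hBr : ∀ x, ∃ y, B x = (r : ℤ) • y := by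
    intro x
    induction x using Submodule.Quotient.induction_on with
    | H x =>
      obtain ⟨y, hy, z, hz, ⟨m, hm, hmz⟩, hxyz⟩ := hmap x.1 x.2
      refine ⟨Submodule.Quotient.mk ⟨y, hy⟩, ?_⟩
      rw [hB, Submodule.mapQ_apply, ← Submodule.Quotient.mk_smul, Submodule.Quotient.eq]
      rw [htor, Submodule.mem_torsion_iff]
      refine ⟨⟨(m : ℤ), ?_⟩, ?_⟩
      · rw [mem_nonZeroDivisors_iff_ne_zero]
        exact_mod_cast hm.ne'
      · apply Subtype.ext
        have : ((A x - (r : ℤ) • (⟨y, hy⟩ : ↥R) : ↥R) : J) = z := by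
          rw [Submodule.coe_sub, hA, coe_restrSub, hxyz, Submodule.coe_smul]
          simp
        show (((m : ℤ) • (A x - (r : ℤ) • (⟨y, hy⟩ : ↥R)) : ↥R) : J) = ((0 : ↥R) : J)
        rw [Submodule.coe_smul, this, Submodule.coe_zero, natCast_zsmul, hmz]
  have : Module.Free ℤ (↥R ⧸ tor) := Module.free_of_finite_type_torsion_free'
  have hχ := charpoly_map_eq_X_pow B r hBr
  set χ : ℤ[X] := B.charpoly with hχdef
  refine ⟨aeval t₀ χ, ?_, ?_⟩
  · -- augmentation
    rw [← aeval_algHom_apply]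
    intro hdvd
    have h1 : ((aeval (epsWord e t₀) χ : ℤ) : ZMod r) = 0 :=
      (ZMod.intCast_zmod_eq_zero_iff_dvd _ _).mpr hdvd
    have h2 : ((aeval (epsWord e t₀) χ : ℤ) : ZMod r) =
        (χ.map (Int.castRingHom (ZMod r))).eval ((epsWord e t₀ : ℤ) : ZMod r) := by
      rw [Polynomial.eval_map, Polynomial.aeval_def]
      simp
    rw [h2, hχ, eval_pow, eval_X] at h1
    have h3 : ((epsWord e t₀ : ℤ) : ZMod r) = 0 := eq_zero_of_pow_eq_zero h1
    exact h₀ ((ZMod.intCast_zmod_eq_zero_iff_dvd _ _).mp h3)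
  · intro x hx
    -- `evWord T (χ(t₀)) = χ(evWord T t₀)`
    have e1 : evWord T (aeval t₀ χ) = aeval (evWord T t₀) χ := by
      rw [← aeval_algHom_apply]
    -- on `R`
    have e2 : ((aeval A χ (⟨x, hx⟩ : ↥R) : ↥R) : J) = aeval (evWord T t₀) χ x :=
      aeval_semiconj R.subtype A (evWord T t₀) (fun y => rfl) χ ⟨x, hx⟩
    -- on the quotient
    have e3 : tor.mkQ (aeval A χ (⟨x, hx⟩ : ↥R)) = aeval B χ (tor.mkQ ⟨x, hx⟩) :=
      aeval_semiconj tor.mkQ A B (fun y => rfl) χ ⟨x, hx⟩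
    have e4 : aeval B χ = 0 := LinearMap.aeval_self_charpoly B
    rw [e4, LinearMap.zero_apply, Submodule.mkQ_apply, Submodule.Quotient.mk_eq_zero, htor,
      Submodule.mem_torsion_iff] at e3
    obtain ⟨⟨a, ha⟩, haa⟩ := e3
    rw [Submonoid.smul_def] at haa
    have ha0 : a ≠ 0 := mem_nonZeroDivisors_iff_ne_zero.mp ha
    refine ⟨a.natAbs, Int.natAbs_pos.mpr ha0, ?_⟩
    rw [e1, ← e2]
    have h5 : (a : ℤ) • ((aeval A χ (⟨x, hx⟩ : ↥R) : ↥R) : J) = 0 := by
      rw [← Submodule.coe_smul, haa, Submodule.coe_zero]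
    rcases Int.natAbs_eq a with h | h
    · rw [← natCast_zsmul, ← h]; exact h5
    · rw [← natCast_zsmul]
      have : ((a.natAbs : ℕ) : ℤ) = -a := by omega
      rw [this, neg_smul, h5, neg_zero]

end RankStep

end Fermat.Agent.MZ
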