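/-
PROJECT MZ (branch only) -- helper4 -- **assembly of PART B (FIN)**: from the devissage inequality
(hDEV), the counts (FIN-c), (FIN-d) and the finite generation of `J₀(p)(ℚ)` to helper6's
`EisKiller p c r`.
-/
import Mathlib
import Fermat.Agent.MZ.KUM_helper4_Coc
import Fermat.Agent.MZ.COUNT_helper4_Sel
import Fermat.Agent.MZ.ASM_helper4_Prep
import Fermat.Agent.MZ.COMM_helper4_Tors
import Fermat.Agent.MZ.DIVT_helper4_Tors
import Fermat.Agent.MZ.G1_helper4_Div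
import Fermat.Agent.MZ.RANK_helper4_Step
import Fermat.Agent.MZ.TOP15_helper6_Defs

set_option autoImplicit false
set_option linter.style.haveILetI false
set_option linter.unusedSectionVars false
set_option linter.unusedVariables false

namespace Fermat.Agent.MZ

open ModularCurve Fermat.Agent.GR Fermat.Agent.FG GaloisRep

local notation "Ω" => AlgebraicClosure ℚ
local notation "GQ" => (AlgebraicClosure ℚ ≃ₐ[ℚ] AlgebraicClosure ℚ)

section RatPts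

variable (p : ℕ) [NeZero p]

/-- the rational points of `J₀(p)` as a `ℤ`-submodule. -/
def ratPts : Submodule ℤ (JZero p) where
  carrier := {x | ∀ σ : GQ, σ • x = x}
  zero_mem' σ := map_zero (DistribSMul.toAddMonoidHom (JZero p) σ)
  add_mem' {a b} ha hb σ := by
    have h := map_add (DistribSMul.toAddMonoidHom (JZero p) σ) a b
    have h1 : σ • (a + b) = σ • a + σ • b := h
    rw [h1, ha σ, hb σ]
  smul_mem' c x hx σ := by
    have h : σ • (c • x) = c • (σ • x) := map_zsmul (DistribSMul.toAddMonoidHom (JZero p) σ) c x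
    rw [h, hx σ]

variable {p}

theorem mem_ratPts {x : JZero p} : x ∈ ratPts p ↔ ∀ σ : GQ, σ • x = x := Iff.rfl

theorem ratPts_fg (hFG : AddGroup.FG ↥(FixedPoints.addSubgroup GQ (JZero p))) :
    (ratPts p).FG := by
  rw [Submodule.fg_iff_addSubgroup_fg]
  have h1 : (ratPts p).toAddSubgroup = FixedPoints.addSubgroup GQ (JZero p) := by
    ext x
    exact Iff.rfl
  rw [h1]
  exact (AddGroup.fg_iff_addSubgroup_fg _).mp hFG

/-- words in the `T_ℓ` preserve the rational points. -/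
theorem evWord_mem_ratPts [hp : Fact p.Prime] (t : FreeAlgebra ℤ (HeckeIdx p)) {x : JZero p}
    (hx : x ∈ ratPts p) : evWord (heckeFam p) t x ∈ ratPts p := by
  intro σ
  rw [← evWord_heckeFam_smul, hx σ]

end RatPts

section Steps

variable {p : ℕ} [NeZero p] [hp : Fact p.Prime] {r : ℕ}

/-- **the Kummer step**: if `r ^ b` maps the Kummer cocycles of level `k` into the coboundaries,
then `r ^ b • t (r ^ k • Q)` is `r ^ k` times a rational point, for `Q` in the Kummer domain. -/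
theorem kummer_step (k : ℕ) (t : FreeAlgebra ℤ (HeckeIdx p))
    (ht : ∀ x ∈ tateTors p r k, evWord (heckeFam p) t x ∈ Wk p r k) (b : ℕ)
    (hcnt : ∀ f ∈ kumCocs k t ht, r ^ b • f ∈ B1 GQ ↥(Wk p r k))
    {Q : JZero p} (hQ : Q ∈ kumDom p r k) :
    ∃ y ∈ ratPts p, r ^ k • y = r ^ b • evWord (heckeFam p) t (r ^ k • Q) := by
  obtain ⟨w, hw⟩ := hcnt _ (kumHom_mem_kumCocs k t ht ⟨Q, hQ⟩)
  set e := evWord (heckeFam p) t Q with he
  have hσ : ∀ σ : GQ, σ • (w : JZero p) - w = r ^ b • (σ • e - e) := by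
    intro σ
    have h1 := congrFun hw σ
    have h2 := congrArg (fun x : ↥(Wk p r k) => (x : JZero p)) h1
    simp only [cobd_apply, Pi.smul_apply] at h2
    rw [Submodule.coe_smul_of_tower, coe_kumHom] at h2
    exact h2
  refine ⟨r ^ b • e - w, fun σ => ?_, ?_⟩
  · have h1 : σ • (r ^ b • e - (w : JZero p)) = r ^ b • (σ • e) - σ • (w : JZero p) := by
      have := map_sub (DistribSMul.toAddMonoidHom (JZero p) σ) (r ^ b • e) (w : JZero p)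
      have h3 : σ • (r ^ b • e) = r ^ b • (σ • e) :=
        map_nsmul (DistribSMul.toAddMonoidHom (JZero p) σ) _ _
      rw [← h3]
      exact this
    rw [h1]
    have h2 := hσ σ
    rw [nsmul_sub] at h2
    have h4 : σ • (w : JZero p) = r ^ b • (σ • e) - r ^ b • e + w := by
      rw [← h2]; abel
    rw [h4]
    abel
  · have h1 : evWord (heckeFam p) t (r ^ k • Q) = r ^ k • e := map_nsmul _ _ _
    have h2 : r ^ k • (w : JZero p) = 0 := pow_smul_eq_zero_of_mem_Wk w.2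
    rw [h1, nsmul_sub, h2, sub_zero, ← mul_nsmul', ← mul_nsmul', mul_comm]

/-- points which are `r ^ (k + c₀)`-divisible give points of the Kummer domain. -/
theorem mem_kumDom_of_divisible (c₀ : ℕ)
    (hc : ∀ (k : ℕ) (x : JZero p), r ^ (k + c₀) • x = 0 → r ^ c₀ • x ∈ tateTors p r k) (k : ℕ)
    {P Q₀ : JZero p} (hP : P ∈ ratPts p) (hQ₀ : r ^ (k + c₀) • Q₀ = P) :
    r ^ c₀ • Q₀ ∈ kumDom p r k ∧ r ^ k • (r ^ c₀ • Q₀) = P := by
  refine ⟨fun σ => ?_, ?_⟩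
  · have h1 : σ • (r ^ c₀ • Q₀) - r ^ c₀ • Q₀ = r ^ c₀ • (σ • Q₀ - Q₀) := by
      have h3 : σ • (r ^ c₀ • Q₀) = r ^ c₀ • (σ • Q₀) :=
        map_nsmul (DistribSMul.toAddMonoidHom (JZero p) σ) _ _
      rw [h3, nsmul_sub]
    rw [h1]
    apply hc
    have h3 : σ • (r ^ (k + c₀) • Q₀) = r ^ (k + c₀) • (σ • Q₀) :=
      map_nsmul (DistribSMul.toAddMonoidHom (JZero p) σ) _ _
    rw [nsmul_sub, ← h3, hQ₀, hP σ, sub_self]
  · rw [← mul_nsmul', ← pow_add, hQ₀]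

end Steps

section CountWk

variable {p : ℕ} [NeZero p] [hp : Fact p.Prime] {r : ℕ} [hr : Fact r.Prime]

/-- the invariants of `W_k` are uniformly bounded (finite generation of `J₀(p)(ℚ)`). -/
theorem exists_card_fixed_Wk_le (hFG : AddGroup.FG ↥(FixedPoints.addSubgroup GQ (JZero p))) :
    ∃ h₀ : ℕ, ∀ k : ℕ, Nat.card {w : ↥(Wk p r k) // ∀ σ : GQ, σ • w = w} ≤ r ^ h₀ := by
  haveI hfin := finite_torsion_of_fg hFG
  refine ⟨Nat.card ↥(Submodule.torsion ℤ ↥(FixedPoints.addSubgroup GQ (JZero p))), fun k => ?_⟩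
  refine le_trans ?_ (Nat.lt_pow_self hr.out.one_lt).le
  let Φ : {w : ↥(Wk p r k) // ∀ σ : GQ, σ • w = w} →
      ↥(Submodule.torsion ℤ ↥(FixedPoints.addSubgroup GQ (JZero p))) := fun w =>
    ⟨⟨w.1.1, fun σ => congrArg Subtype.val (w.2 σ)⟩, by
      rw [Submodule.mem_torsion_iff]
      refine ⟨⟨((r ^ k : ℕ) : ℤ), ?_⟩, ?_⟩
      · rw [mem_nonZeroDivisors_iff_ne_zero]
        exact_mod_cast pow_ne_zero k hr.out.ne_zero
      · apply Subtype.ext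
        rw [Submonoid.smul_def]
        show ((r ^ k : ℕ) : ℤ) • (w.1.1 : JZero p) = 0
        rw [natCast_zsmul]
        exact pow_smul_eq_zero_of_mem_Wk w.1.2⟩
  refine Nat.card_le_card_of_injective Φ ?_
  intro a b hab
  apply Subtype.ext
  apply Subtype.ext
  have := congrArg (fun x : ↥(Submodule.torsion ℤ ↥(FixedPoints.addSubgroup GQ (JZero p))) =>
    ((x : ↥(FixedPoints.addSubgroup GQ (JZero p))) : JZero p)) hab
  exact this

/-- **the Kummer cocycles modulo coboundaries are killed by a uniform power of `r`** (abstract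
"Good" predicate: `GoodCoc` for `r` odd, `GoodCoc2` for `r = 2`). -/
theorem exists_pow_smul_kumCocs_mem_B1_gen
    (Good : ∀ k : ℕ, (GQ → ↥(Wk p r k)) → Prop)
    (hGood : ∀ (k : ℕ) (f : GQ → ↥(Wk p r k)), Good k f → f ∈ Z1 GQ ↥(Wk p r k) ∧ IsCtsCoc f)
    (hKum : ∀ (k : ℕ) (t : FreeAlgebra ℤ (HeckeIdx p))
      (ht : ∀ x ∈ tateTors p r k, evWord (heckeFam p) t x ∈ Wk p r k)
      (ht1 : ∀ x ∈ Wk p r k, evWord (heckeFam p) t x = x), ∀ f ∈ kumCocs k t ht, Good k f)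
    (hFG : AddGroup.FG ↥(FixedPoints.addSubgroup GQ (JZero p)))
    (A₀ : ValuationSubring Ω)
    (hDEV : ∀ (k : ℕ) (𝒵 : AddSubgroup (GQ → ↥(Wk p r k))), Finite 𝒵 →
      (∀ f ∈ 𝒵, Good k f) →
      Nat.card 𝒵 ≤ Nat.card (𝒵.map
        (resTo ((A₀.inertiaSubgroupIn ℚ : Set GQ) ∪ {complexConjugation}))))
    (hFINc : ∃ B : ℕ, ∀ k : ℕ,
      (Nat.card {w : ↥(Wk p r k) // complexConjugation • w = -w}) ^ 2 ≤
        r ^ B * Nat.card ↥(Wk p r k))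
    (hFINd : ∃ B : ℕ, ∀ k : ℕ, ∀ 𝒵 : AddSubgroup (GQ → ↥(Wk p r k)),
      𝒵 ≤ Z1 GQ ↥(Wk p r k) → (∀ f ∈ 𝒵, IsCtsCoc f) → Finite 𝒵 →
      (Nat.card (𝒵.map (resTo (A₀.inertiaSubgroupIn ℚ : Set GQ)))) ^ 2 ≤
        r ^ B * Nat.card ↥(Wk p r k)) :
    ∃ b : ℕ, ∀ (k : ℕ) (t : FreeAlgebra ℤ (HeckeIdx p))
      (ht : ∀ x ∈ tateTors p r k, evWord (heckeFam p) t x ∈ Wk p r k)
      (ht1 : ∀ x ∈ Wk p r k, evWord (heckeFam p) t x = x),
      ∀ f ∈ kumCocs k t ht, r ^ b • f ∈ B1 GQ ↥(Wk p r k) := by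
  obtain ⟨B₂, hB₂⟩ := hFINc
  obtain ⟨B₁, hB₁⟩ := hFINd
  obtain ⟨h₀, hh₀⟩ := exists_card_fixed_Wk_le (r := r) hFG
  refine ⟨B₁ + B₂ + h₀, fun k t ht ht1 f hf => ?_⟩
  have hrP : r.Prime := hr.out
  haveI : Finite ↥(Wk p r k) := finite_Wk r k
  -- the finite group `B¹ + ℤ f`
  haveI : Finite ↥(B1 GQ ↥(Wk p r k)) :=
    Finite.of_surjective (fun w : ↥(Wk p r k) => (⟨cobd GQ w, ⟨w, rfl⟩⟩ : ↥(B1 GQ ↥(Wk p r k))))
      (by rintro ⟨_, w, rfl⟩; exact ⟨w, rfl⟩)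
  have hkf : r ^ k • f = 0 := by
    funext σ
    rw [Pi.smul_apply, nsmul_Wk_eq_zero]
    rfl
  obtain ⟨𝒵, h𝒵⟩ : ∃ 𝒵 : AddSubgroup (GQ → ↥(Wk p r k)),
      𝒵 = B1 GQ ↥(Wk p r k) ⊔ AddSubgroup.zmultiples f := ⟨_, rfl⟩
  have hfin𝒵 : Finite ↥𝒵 := by
    rw [h𝒵]
    exact finite_sup_zmultiples (B1 GQ ↥(Wk p r k)) f (pow_pos hrP.pos k) hkf
  have hle : 𝒵 ≤ kumCocs k t ht := by
    rw [h𝒵]
    exact sup_le (B1_le_kumCocs k t ht ht1) ((AddSubgroup.zmultiples_le).mpr hf)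
  have hgood : ∀ g ∈ 𝒵, Good k g := fun g hg => hKum k t ht ht1 g (hle hg)
  have hZ1 : 𝒵 ≤ Z1 GQ ↥(Wk p r k) := fun g hg => (hGood k g (hgood g hg)).1
  have hB𝒵 : B1 GQ ↥(Wk p r k) ≤ 𝒵 := by
    rw [h𝒵]
    exact le_sup_left
  have hf𝒵 : f ∈ 𝒵 := by
    rw [h𝒵]
    exact AddSubgroup.mem_sup_right (AddSubgroup.mem_zmultiples f)
  haveI := hfin𝒵
  exact pow_smul_mem_B1_of_card r hrP k (nsmul_Wk_eq_zero k)
    (A₀.inertiaSubgroupIn ℚ : Set GQ) complexConjugation complexConjugation_mul_self 𝒵 hZ1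
    hB𝒵 B₁ B₂ h₀ (hDEV k 𝒵 hfin𝒵 hgood)
    (hB₁ k 𝒵 hZ1 (fun g hg => (hGood k g (hgood g hg)).2) hfin𝒵) (hB₂ k) (hh₀ k) hf𝒵

/-- the same with `GoodCoc`. -/
theorem exists_pow_smul_kumCocs_mem_B1 (hrp : ¬ r ∣ p)
    (hFG : AddGroup.FG ↥(FixedPoints.addSubgroup GQ (JZero p)))
    (A₀ : ValuationSubring Ω)
    (hDEV : ∀ (k : ℕ) (𝒵 : AddSubgroup (GQ → ↥(Wk p r k))), Finite 𝒵 →
      (∀ f ∈ 𝒵, GoodCoc r p (r ^ k) (nsmul_Wk_eq_zero k) f) →
      Nat.card 𝒵 ≤ Nat.card (𝒵.map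
        (resTo ((A₀.inertiaSubgroupIn ℚ : Set GQ) ∪ {complexConjugation}))))
    (hFINc : ∃ B : ℕ, ∀ k : ℕ,
      (Nat.card {w : ↥(Wk p r k) // complexConjugation • w = -w}) ^ 2 ≤
        r ^ B * Nat.card ↥(Wk p r k))
    (hFINd : ∃ B : ℕ, ∀ k : ℕ, ∀ 𝒵 : AddSubgroup (GQ → ↥(Wk p r k)),
      𝒵 ≤ Z1 GQ ↥(Wk p r k) → (∀ f ∈ 𝒵, IsCtsCoc f) → Finite 𝒵 →
      (Nat.card (𝒵.map (resTo (A₀.inertiaSubgroupIn ℚ : Set GQ)))) ^ 2 ≤
        r ^ B * Nat.card ↥(Wk p r k)) :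
    ∃ b : ℕ, ∀ (k : ℕ) (t : FreeAlgebra ℤ (HeckeIdx p))
      (ht : ∀ x ∈ tateTors p r k, evWord (heckeFam p) t x ∈ Wk p r k)
      (ht1 : ∀ x ∈ Wk p r k, evWord (heckeFam p) t x = x),
      ∀ f ∈ kumCocs k t ht, r ^ b • f ∈ B1 GQ ↥(Wk p r k) :=
  exists_pow_smul_kumCocs_mem_B1_gen
    (fun k f => GoodCoc r p (r ^ k) (nsmul_Wk_eq_zero k) f)
    (fun k f h => ⟨h.coc, h.cts⟩)
    (fun k t ht ht1 f hf => goodCoc_of_mem_kumCocs k t ht hrp ht1 hf)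
    hFG A₀ hDEV hFINc hFINd

end CountWk

section Final

variable {p : ℕ} [NeZero p] [hp : Fact p.Prime] {r : ℕ} [hr : Fact r.Prime]

/-- words in the `T_ℓ`, `ℓ ≠ p`, lie in helper6's `heckeAdjoin p`. -/
theorem evWord_mem_heckeAdjoin (t : FreeAlgebra ℤ (HeckeIdx p)) :
    evWord (heckeFam p) t ∈ heckeAdjoin p := by
  induction t using FreeAlgebra.induction with
  | grade0 n =>
    rw [AlgHom.commutes]
    exact Subalgebra.algebraMap_mem _ n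
  | grade1 ℓ =>
    have h : evWord (heckeFam p) (FreeAlgebra.ι ℤ ℓ) = heckeFam p ℓ := by simp [evWord]
    rw [h]
    exact Algebra.subset_adjoin ⟨ℓ.1, ℓ.2, rfl⟩
  | mul a b ha hb => rw [map_mul]; exact Subalgebra.mul_mem _ ha hb
  | add a b ha hb => rw [map_add]; exact Subalgebra.add_mem _ ha hb

/-- the key congruence for one rational point. -/
theorem exists_ratPt_of_count (c₀ : ℕ)
    (hc₀ : ∀ (k : ℕ) (x : JZero p), r ^ (k + c₀) • x = 0 → r ^ c₀ • x ∈ tateTors p r k)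
    (a b d' d : ℕ) (hdd' : d = r ^ a * d') (t : FreeAlgebra ℤ (HeckeIdx p))
    (ht : ∀ x ∈ tateTors p r (a + b + 1), evWord (heckeFam p) t x ∈ Wk p r (a + b + 1))
    (hcnt : ∀ f ∈ kumCocs (a + b + 1) t ht, r ^ b • f ∈ B1 GQ ↥(Wk p r (a + b + 1)))
    {x : JZero p} (hx : x ∈ ratPts p)
    (hdiv : ∃ Q₀ : JZero p, r ^ (a + b + 1 + c₀) • Q₀ = d • x) :
    ∃ y ∈ ratPts p, r ^ (a + b) • (d' • evWord (heckeFam p) t x - r • y) = 0 := by
  obtain ⟨Q₀, hQ₀⟩ := hdiv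
  have hdx : d • x ∈ ratPts p := (ratPts p).smul_of_tower_mem d hx
  obtain ⟨hQ, hQk⟩ := mem_kumDom_of_divisible c₀ hc₀ (a + b + 1) hdx hQ₀
  obtain ⟨y, hy, hyk⟩ := kummer_step (a + b + 1) t ht b hcnt hQ
  rw [hQk] at hyk
  refine ⟨y, hy, ?_⟩
  have h1 : r ^ (a + b) • (r • y) = r ^ (a + b + 1) • y := by
    rw [← mul_nsmul', pow_succ]
  have h3 : evWord (heckeFam p) t (d • x) = d • evWord (heckeFam p) t x :=
    map_nsmul (evWord (heckeFam p) t) d x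
  have h2 : r ^ (a + b) • (d' • evWord (heckeFam p) t x) =
      r ^ b • evWord (heckeFam p) t (d • x) := by
    rw [h3, ← mul_nsmul', ← mul_nsmul']
    congr 1
    rw [hdd', pow_add]
    ring
  rw [nsmul_sub, h1, h2, hyk, sub_self]

/-- **from a uniform exponent to `EisKiller`.** -/
theorem eisKiller_of_pow_smul_mem_B1
    (hFG : AddGroup.FG ↥(FixedPoints.addSubgroup GQ (JZero p))) (b : ℕ)
    (hb : ∀ (k : ℕ) (t : FreeAlgebra ℤ (HeckeIdx p))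
      (ht : ∀ x ∈ tateTors p r k, evWord (heckeFam p) t x ∈ Wk p r k)
      (ht1 : ∀ x ∈ Wk p r k, evWord (heckeFam p) t x = x),
      ∀ f ∈ kumCocs k t ht, r ^ b • f ∈ B1 GQ ↥(Wk p r k))
    (c : JZero p) (hcH : ∀ ℓ : HeckeIdx p, heckeFam p ℓ c = eisVal p ℓ • c) :
    EisKiller p c r := by
  have hpP : p.Prime := hp.out
  have hrP : r.Prime := hr.out
  obtain ⟨c₀, hc₀⟩ := exists_pow_smul_mem_tateTors p r
  -- the uniform multiplier into the infinitely divisible points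
  obtain ⟨d, hdpos, hd⟩ := exists_uniform_multiplier (ratPts p).toAddSubgroup
    ((Submodule.fg_iff_addSubgroup_fg _).mp (ratPts_fg hFG))
    (fun x : JZero p => ∀ j : ℕ, ∃ y : JZero p, r ^ j • y = x)
    (fun j => ⟨0, nsmul_zero _⟩)
    (fun x y hx hy j => by
      obtain ⟨x', hx'⟩ := hx j
      obtain ⟨y', hy'⟩ := hy j
      exact ⟨x' + y', by rw [nsmul_add, hx', hy']⟩)
    (fun x hx j => by
      obtain ⟨x', hx'⟩ := hx j
      exact ⟨-x', by rw [neg_nsmul, hx']⟩)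
    (fun x _ => exists_nsmul_eq_pow_smul p hpP r hrP x)
  obtain ⟨a, d', hd', hdd'⟩ := Nat.exists_eq_pow_mul_and_not_dvd hdpos.ne' r hrP.ne_one
  -- the level `a + b + 1`
  obtain ⟨t, hε, ht1, ht⟩ := exists_projWord_Wk (r := r) hpP (a + b + 1)
  -- the word `t₀ = d' t`
  have hεt₀ : epsWord (eisVal p) ((d' : ℤ) • t) = (d' : ℤ) := by
    rw [map_zsmul, hε, smul_eq_mul, mul_one]
  have hevt₀ : ∀ x : JZero p,
      evWord (heckeFam p) ((d' : ℤ) • t) x = d' • evWord (heckeFam p) t x := by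
    intro x
    rw [map_zsmul, LinearMap.smul_apply, natCast_zsmul]
  have hstab : ∀ ℓ : HeckeIdx p, ∀ x ∈ ratPts p, heckeFam p ℓ x ∈ ratPts p := by
    intro ℓ x hx σ
    rw [← heckeFam_smul hpP, hx σ]
  have h₀ : ¬ (r : ℤ) ∣ epsWord (eisVal p) ((d' : ℤ) • t) := by
    rw [hεt₀]
    intro h
    exact hd' (Int.natCast_dvd_natCast.mp h)
  have hmap : ∀ x ∈ ratPts p, ∃ y ∈ ratPts p, ∃ z ∈ ratPts p,
      (∃ m : ℕ, 0 < m ∧ m • z = 0) ∧ evWord (heckeFam p) ((d' : ℤ) • t) x = r • y + z := by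
    intro x hx
    obtain ⟨y, hy, hyz⟩ := exists_ratPt_of_count c₀ hc₀ a b d' d hdd' t ht
      (hb (a + b + 1) t ht ht1) hx (hd x hx (a + b + 1 + c₀))
    have hz : d' • evWord (heckeFam p) t x - r • y ∈ ratPts p :=
      sub_mem ((ratPts p).smul_of_tower_mem d' (evWord_mem_ratPts t hx))
        ((ratPts p).smul_of_tower_mem r hy)
    refine ⟨y, hy, d' • evWord (heckeFam p) t x - r • y, hz,
      ⟨r ^ (a + b), pow_pos hrP.pos _, hyz⟩, ?_⟩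
    rw [hevt₀]
    abel
  obtain ⟨tf, htfε, htf⟩ := rank_step (heckeFam p) (eisVal p) (ratPts p) (ratPts_fg hFG) hstab r
    hrP ((d' : ℤ) • t) h₀ hmap
  exact ⟨evWord (heckeFam p) tf, evWord_mem_heckeAdjoin tf, fun x hx => htf x hx,
    epsWord (eisVal p) tf, htfε, evWord_eigen hcH tf⟩

/-- **PART B (FIN), assembled, abstract "Good" predicate.** -/
theorem eisKiller_of_inputs_gen
    (Good : ∀ k : ℕ, (GQ → ↥(Wk p r k)) → Prop)
    (hGood : ∀ (k : ℕ) (f : GQ → ↥(Wk p r k)), Good k f → f ∈ Z1 GQ ↥(Wk p r k) ∧ IsCtsCoc f)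
    (hKum : ∀ (k : ℕ) (t : FreeAlgebra ℤ (HeckeIdx p))
      (ht : ∀ x ∈ tateTors p r k, evWord (heckeFam p) t x ∈ Wk p r k)
      (ht1 : ∀ x ∈ Wk p r k, evWord (heckeFam p) t x = x), ∀ f ∈ kumCocs k t ht, Good k f)
    (hFG : AddGroup.FG ↥(FixedPoints.addSubgroup GQ (JZero p)))
    (A₀ : ValuationSubring Ω)
    (hDEV : ∀ (k : ℕ) (𝒵 : AddSubgroup (GQ → ↥(Wk p r k))), Finite 𝒵 →
      (∀ f ∈ 𝒵, Good k f) →
      Nat.card 𝒵 ≤ Nat.card (𝒵.map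
        (resTo ((A₀.inertiaSubgroupIn ℚ : Set GQ) ∪ {complexConjugation}))))
    (hFINc : ∃ B : ℕ, ∀ k : ℕ,
      (Nat.card {w : ↥(Wk p r k) // complexConjugation • w = -w}) ^ 2 ≤
        r ^ B * Nat.card ↥(Wk p r k))
    (hFINd : ∃ B : ℕ, ∀ k : ℕ, ∀ 𝒵 : AddSubgroup (GQ → ↥(Wk p r k)),
      𝒵 ≤ Z1 GQ ↥(Wk p r k) → (∀ f ∈ 𝒵, IsCtsCoc f) → Finite 𝒵 →
      (Nat.card (𝒵.map (resTo (A₀.inertiaSubgroupIn ℚ : Set GQ)))) ^ 2 ≤
        r ^ B * Nat.card ↥(Wk p r k))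
    (c : JZero p) (hcH : ∀ ℓ : HeckeIdx p, heckeFam p ℓ c = eisVal p ℓ • c) :
    EisKiller p c r := by
  obtain ⟨b, hb⟩ := exists_pow_smul_kumCocs_mem_B1_gen Good hGood hKum hFG A₀ hDEV hFINc hFINd
  exact eisKiller_of_pow_smul_mem_B1 hFG b hb c hcH

/-- **PART B (FIN), assembled**: the devissage inequality for finite groups of Good cocycles of
the `W_k`, the counts (FIN-c), (FIN-d) and the finite generation of `J₀(p)(ℚ)` give helper6's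
`EisKiller p c r` for every class `c` which is Eisenstein for the `T_ℓ`, `ℓ ≠ p`. -/
theorem eisKiller_of_inputs (hrp : ¬ r ∣ p)
    (hFG : AddGroup.FG ↥(FixedPoints.addSubgroup GQ (JZero p)))
    (A₀ : ValuationSubring Ω)
    (hDEV : ∀ (k : ℕ) (𝒵 : AddSubgroup (GQ → ↥(Wk p r k))), Finite 𝒵 →
      (∀ f ∈ 𝒵, GoodCoc r p (r ^ k) (nsmul_Wk_eq_zero k) f) →
      Nat.card 𝒵 ≤ Nat.card (𝒵.map
        (resTo ((A₀.inertiaSubgroupIn ℚ : Set GQ) ∪ {complexConjugation}))))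
    (hFINc : ∃ B : ℕ, ∀ k : ℕ,
      (Nat.card {w : ↥(Wk p r k) // complexConjugation • w = -w}) ^ 2 ≤
        r ^ B * Nat.card ↥(Wk p r k))
    (hFINd : ∃ B : ℕ, ∀ k : ℕ, ∀ 𝒵 : AddSubgroup (GQ → ↥(Wk p r k)),
      𝒵 ≤ Z1 GQ ↥(Wk p r k) → (∀ f ∈ 𝒵, IsCtsCoc f) → Finite 𝒵 →
      (Nat.card (𝒵.map (resTo (A₀.inertiaSubgroupIn ℚ : Set GQ)))) ^ 2 ≤
        r ^ B * Nat.card ↥(Wk p r k))
    (c : JZero p) (hcH : ∀ ℓ : HeckeIdx p, heckeFam p ℓ c = eisVal p ℓ • c) :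
    EisKiller p c r := by
  obtain ⟨b, hb⟩ := exists_pow_smul_kumCocs_mem_B1 hrp hFG A₀ hDEV hFINc hFINd
  exact eisKiller_of_pow_smul_mem_B1 hFG b hb c hcH

end Final

end Fermat.Agent.MZ
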