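/-
PROJECT MZ (branch-only) — (FIN-b4), **type-E base case (bE)** in helper4's (D1) literals — helper8.

`G` a finite `G_ℚ`-module killed by an odd prime `r` with TRIVIAL action; a Good cocycle
(`GoodCoc r p r`) which vanishes on the inertia group of ONE place over `p` is zero:
flat ⇒ unramified at `r` (L3), Good ⇒ unramified outside `{r, p}`, trivial action ⇒ vanishing on
all inertia groups over `p` (conjugation), Minkowski ⇒ `f = 0`.
-/
import Mathlib
import Fermat.Agent.MZ.GOOD_helper4_Defs
import Fermat.Agent.MZ.FLATLOC_helper8_Etale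
import Fermat.Agent.MZ.BASE_helper8_Mink

set_option autoImplicit false
set_option linter.unusedSectionVars false
set_option linter.unusedVariables false
set_option linter.style.haveILetI false

namespace Fermat.Agent.MZ

open Fermat.Agent.FG

local notation "Ω" => AlgebraicClosure ℚ
local notation "GQ" => (AlgebraicClosure ℚ ≃ₐ[ℚ] AlgebraicClosure ℚ)

section TypeE

variable {r p : ℕ} [Fact r.Prime] {G : Type} [AddCommGroup G] [Finite G] [DistribMulAction GQ G]

/-- a cocycle with values in a module with trivial action (killed by the odd prime `r`) whose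
extension module is flat vanishes on the inertia groups over `r` (instance form). -/
theorem flatExt_unramified_of_trivial [Module (ZMod r) G] (hr2 : r ≠ 2) (hn : ∀ x : G, r • x = 0)
    (htriv : ∀ (σ : GQ) (g : G), σ • g = g) (f : Z1 GQ G) (hflat : HasHopfOrder r (ExtMod r f))
    (A' : ValuationSubring Ω) (hA' : A'.LiesOverPrime r) :
    ∀ σ ∈ A'.inertiaSubgroupIn ℚ, f.1 σ = 0 := by
  have hr : r.Prime := Fact.out
  haveI : NeZero r := ⟨hr.ne_zero⟩
  have hrE : ∀ e : ExtMod r f, r • e = 0 := by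
    intro e
    apply ExtMod.ext
    · show r • e.fst = 0
      exact hn _
    · show r • e.snd = 0
      rw [nsmul_eq_mul, ZMod.natCast_self, zero_mul]
  have hA : ∀ (σ : GQ), ∀ a ∈ (ExtMod.inl : G →+ ExtMod r f).range, σ • a = a := by
    rintro σ _ ⟨g, rfl⟩
    rw [← ExtMod.inl_smul, htriv]
  have hEA : ∀ (σ : GQ) (e : ExtMod r f), σ • e - e ∈ (ExtMod.inl : G →+ ExtMod r f).range := by
    intro σ e
    refine ⟨(σ • e - e).fst, ?_⟩
    apply ExtMod.ext
    · rfl
    · show (0 : ZMod r) = (σ • e - e).snd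
      rw [ExtMod.snd_sub, ExtMod.snd_smul, sub_self]
  intro σ hσ
  have h1 := flat_unramified_of_ext_trivial hr2 hflat hrE _ hA hEA A' hA' σ hσ
    (ExtMod.e₀ : ExtMod r f)
  have h2 := ExtMod.smul_e₀_sub (f := f) (n := r) σ
  rw [h1, sub_self] at h2
  exact (ExtMod.inl_injective (h2.symm.trans (map_zero _).symm))

/-- a flat cocycle with values in a module with trivial action (killed by the odd prime `r`)
vanishes on the inertia groups over `r`. -/
theorem flatCoc_unramified_of_trivial (hr2 : r ≠ 2) (hn : ∀ x : G, r • x = 0)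
    (htriv : ∀ (σ : GQ) (g : G), σ • g = g) (f : Z1 GQ G) (hflat : FlatCoc r r hn f)
    (A' : ValuationSubring Ω) (hA' : A'.LiesOverPrime r) :
    ∀ σ ∈ A'.inertiaSubgroupIn ℚ, f.1 σ = 0 :=
  @flatExt_unramified_of_trivial r _ G _ _ _ (AddCommGroup.zmodModule hn) hr2 hn htriv f hflat
    A' hA'

/-- **(bE)**: type-E base case. -/
theorem goodCoc_eq_zero_of_trivial (hr2 : r ≠ 2) (hp : p.Prime) (hn : ∀ x : G, r • x = 0)
    (htriv : ∀ (σ : GQ) (g : G), σ • g = g) {f : GQ → G} (h : GoodCoc r p r hn f)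
    (Ap : ValuationSubring Ω) (hAp : Ap.LiesOverPrime p)
    (hfp : ∀ σ ∈ Ap.inertiaSubgroupIn ℚ, f σ = 0) : f = 0 := by
  have hr : r.Prime := Fact.out
  have hadd : ∀ σ τ : GQ, f (σ * τ) = f σ + f τ := by
    intro σ τ
    rw [h.coc σ τ, htriv]
  have hconj : ∀ σ τ : GQ, f (τ⁻¹ * σ * τ) = f σ := by
    intro σ τ
    have h1 : f (τ⁻¹) = - f τ := by
      have := hadd τ⁻¹ τ
      rw [inv_mul_cancel, Z1_map_one h.coc] at this
      exact eq_neg_of_add_eq_zero_left this.symm
    rw [hadd, hadd, h1]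
    abel
  funext σ
  refine char_eq_zero_of_unramified f hadd ?_ ?_ σ
  · obtain ⟨F, hF, hv⟩ := h.cts
    refine ⟨F, hF, fun σ hσ => hv σ ?_⟩
    exact (IntermediateField.mem_fixingSubgroup_iff F σ).mp hσ
  · intro v hv A hA σ hσ
    by_cases hvr : v = r
    · subst hvr
      exact flatCoc_unramified_of_trivial hr2 hn htriv ⟨f, h.coc⟩ h.flat A hA σ hσ
    by_cases hvp : v = p
    · subst hvp
      obtain ⟨τ, hτ⟩ := Fermat.Agent.EC.exists_conj_inertia hv Ap A hAp hA
      rw [← hconj σ τ]
      exact hfp _ (hτ σ hσ)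
    · refine h.unr v hv ?_ A hA σ hσ
      simp only [Set.mem_insert_iff, Set.mem_singleton_iff, not_or]
      exact ⟨hvr, hvp⟩

end TypeE

end Fermat.Agent.MZ
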