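/-
PROJECT MZ (branch-only) — (FIN-b4), **the single base case of the dévissage** (restriction set
`I_p ∪ {c₀}`, helper4's message 1913) for `r` odd — helper8.

`Q` of prime order `r` (odd), either with trivial `G_ℚ`-action (type E) or with `G_ℚ` acting through
the mod `r` cyclotomic character (type M); a Good cocycle vanishing on the inertia group of one
place over `p` and at complex conjugation is zero.
-/
import Mathlib
import Fermat.Agent.MZ.BASE_helper8_TypeE
import Fermat.Agent.MZ.BASE_helper8_TypeM
import Fermat.Agent.TW.Odd_helper1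

set_option autoImplicit false
set_option linter.unusedSectionVars false
set_option linter.unusedVariables false
set_option linter.style.haveILetI false

namespace Fermat.Agent.MZ

open Fermat.Agent.FG Fermat.Agent.TW.Kill GaloisRep

local notation "Ω" => AlgebraicClosure ℚ
local notation "GQ" => (AlgebraicClosure ℚ ≃ₐ[ℚ] AlgebraicClosure ℚ)

section Base

variable {r p : ℕ} [Fact r.Prime] [NeZero r] {G : Type} [AddCommGroup G] [Finite G]
  [DistribMulAction GQ G]

/-- the cyclotomic character at complex conjugation is `-1`. -/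
theorem cycNat_complexConjugation : cycNat r complexConjugation = r - 1 := by
  have hr : r.Prime := Fact.out
  have hlt : r - 1 < r := Nat.sub_lt hr.pos one_pos
  have hval : ((r - 1 : ℕ) : ZMod r).val = r - 1 := ZMod.val_natCast_of_lt hlt
  have h := cyc_unique r complexConjugation (c := ((r - 1 : ℕ) : ZMod r)) (fun t ht => by
    rw [hval]
    exact Fermat.Agent.TW.Odd.complexConjugation_eq_pow hr.pos ht)
  rw [cycNat, h, hval]

/-- **type M with the condition at the real place.** -/
theorem goodCoc_eq_zero_of_cyclotomic (hr2 : r ≠ 2) (hp : p.Prime) (hn : ∀ x : G, r • x = 0)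
    (hcard : Nat.card G = r) (hχ : ∀ (σ : GQ) (g : G), σ • g = cycNat r σ • g)
    {f : GQ → G} (h : GoodCoc r p r hn f)
    (Ap : ValuationSubring Ω) (hAp : Ap.LiesOverPrime p)
    (hfp : ∀ σ ∈ Ap.inertiaSubgroupIn ℚ, f σ = 0) (hfc : f complexConjugation = 0) : f = 0 := by
  have hr : r.Prime := Fact.out
  obtain ⟨g, rfl⟩ := goodCoc_mem_B1_of_cyclotomic hr2 hp hn hcard hχ h Ap hAp hfp
  have h1 : complexConjugation • g - g = 0 := hfc
  rw [hχ, cycNat_complexConjugation] at h1
  -- `(r - 2) • g = 0` and `r • g = 0` with `r` odd give `g = 0`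
  have h2 : (r - 1) • g = g := sub_eq_zero.mp h1
  have h3 : (2 : ℕ) • g = 0 := by
    have h4 : r • g = (r - 1) • g + g := by
      rw [← succ_nsmul, Nat.sub_add_cancel hr.pos]
    rw [hn g, h2] at h4
    rw [two_nsmul]
    exact h4.symm
  have hcop : Nat.Coprime 2 r := by
    rw [Nat.coprime_comm]
    exact (Nat.Prime.coprime_iff_not_dvd hr).mpr fun hd =>
      hr2 ((Nat.prime_dvd_prime_iff_eq hr Nat.prime_two).mp hd)
  have hg : g = 0 := by
    have hord : addOrderOf g ∣ Nat.gcd 2 r :=
      Nat.dvd_gcd (addOrderOf_dvd_of_nsmul_eq_zero h3) (addOrderOf_dvd_of_nsmul_eq_zero (hn g))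
    rw [hcop, Nat.dvd_one, AddMonoid.addOrderOf_eq_one_iff] at hord
    exact hord
  rw [hg, map_zero]

/-- **the base case of the dévissage, `r` odd**: a simple Eisenstein module (prime order `r`,
trivial or cyclotomic action). -/
theorem goodCoc_eq_zero_base (hr2 : r ≠ 2) (hp : p.Prime) (hn : ∀ x : G, r • x = 0)
    (hcard : Nat.card G = r)
    (htype : (∀ (σ : GQ) (g : G), σ • g = g) ∨ (∀ (σ : GQ) (g : G), σ • g = cycNat r σ • g))
    {f : GQ → G} (h : GoodCoc r p r hn f)
    (Ap : ValuationSubring Ω) (hAp : Ap.LiesOverPrime p)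
    (hfp : ∀ σ ∈ Ap.inertiaSubgroupIn ℚ, f σ = 0) (hfc : f complexConjugation = 0) : f = 0 := by
  rcases htype with htriv | hχ
  · exact goodCoc_eq_zero_of_trivial hr2 hp hn htriv h Ap hAp hfp
  · exact goodCoc_eq_zero_of_cyclotomic hr2 hp hn hcard hχ h Ap hAp hfp hfc

end Base

end Fermat.Agent.MZ
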