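/-
PROJECT MZ (branch only) -- helper4 -- **the devissage for `r` odd**: instantiation of the
abstract `devissage` with `Γ = G_ℚ`, `I = I_p ∪ {c₀}`, `u = v = 1` (mirror of helper7's
`sel2_card_le` at `r = 2`).

`AdmOdd r p G 𝒵` : `G` finite, `𝒵` finite, `G` Eisenstein (`IsEisMod`, helper8), `G` killed by
`r ^ k` and `𝒵` consists of Good cocycles.  Then

`sel_card_le : Finite 𝒵 ∧ Nat.card 𝒵 ≤ Nat.card (𝒵.map (resTo (I_p ∪ {c₀})))`.
-/
import Mathlib
import Fermat.Agent.MZ.DEV_helper4_Abstract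
import Fermat.Agent.MZ.BASE_helper8_Main
import Fermat.Agent.MZ.FINA_helper8_Simple

set_option autoImplicit false
set_option linter.style.haveILetI false
set_option linter.unusedSectionVars false
set_option linter.unusedVariables false

namespace Fermat.Agent.MZ

open Fermat.Agent.FG GaloisRep

local notation "Ω" => AlgebraicClosure ℚ
local notation "GQ" => (AlgebraicClosure ℚ ≃ₐ[ℚ] AlgebraicClosure ℚ)

section Reduce

variable {Γ : Type*} [Group Γ] {G : Type*} [AddCommGroup G] [DistribMulAction Γ G]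

theorem zmod_smul_eq_zsmul {n : ℕ} [Module (ZMod n) G] (j : ZMod n) (w : G) :
    j • w = (ZMod.cast j : ℤ) • w := by
  conv_lhs => rw [← ZMod.intCast_zmod_cast j]
  exact Int.cast_smul_eq_zsmul (ZMod n) _ w

/-- reduction of the extension module modulo a divisor `m` of `n`. -/
def ExtMod.reduce {n m : ℕ} (hmn : m ∣ n) (i1 : Module (ZMod n) G) (i2 : Module (ZMod m) G)
    (f : Z1 Γ G) : @ExtMod Γ _ G _ _ n i1 f →+ @ExtMod Γ _ G _ _ m i2 f where
  toFun x := @ExtMod.mk Γ _ G _ _ m i2 f (@ExtMod.fst Γ _ G _ _ n i1 f x)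
    (ZMod.castHom hmn (ZMod m) (@ExtMod.snd Γ _ G _ _ n i1 f x))
  map_zero' := by
    apply @ExtMod.ext Γ _ G _ _ m i2 f
    · rfl
    · exact map_zero (ZMod.castHom hmn (ZMod m))
  map_add' a b := by
    apply @ExtMod.ext Γ _ G _ _ m i2 f
    · rfl
    · exact map_add (ZMod.castHom hmn (ZMod m)) _ _

theorem ExtMod.reduce_smul {n m : ℕ} (hmn : m ∣ n) (i1 : Module (ZMod n) G)
    (i2 : Module (ZMod m) G) (f : Z1 Γ G) (σ : Γ) (x : @ExtMod Γ _ G _ _ n i1 f) :
    ExtMod.reduce hmn i1 i2 f (σ • x) = σ • ExtMod.reduce hmn i1 i2 f x := by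
  apply @ExtMod.ext Γ _ G _ _ m i2 f
  · show σ • (@ExtMod.fst Γ _ G _ _ n i1 f x) + (@ExtMod.snd Γ _ G _ _ n i1 f x) • f.1 σ =
      σ • (@ExtMod.fst Γ _ G _ _ n i1 f x) +
        (ZMod.castHom hmn (ZMod m) (@ExtMod.snd Γ _ G _ _ n i1 f x)) • f.1 σ
    congr 1
    have e1 : (@ExtMod.snd Γ _ G _ _ n i1 f x) • f.1 σ =
        (ZMod.cast (@ExtMod.snd Γ _ G _ _ n i1 f x) : ℤ) • f.1 σ :=
      @zmod_smul_eq_zsmul G _ n i1 _ _
    have e2 : ZMod.castHom hmn (ZMod m) (@ExtMod.snd Γ _ G _ _ n i1 f x) =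
        ((ZMod.cast (@ExtMod.snd Γ _ G _ _ n i1 f x) : ℤ) : ZMod m) := by
      rw [ZMod.castHom_apply, ZMod.intCast_cast]
    rw [e1, e2]
    exact (Int.cast_smul_eq_zsmul (ZMod m) _ _).symm
  · rfl

theorem ExtMod.reduce_surjective {n m : ℕ} (hmn : m ∣ n) (i1 : Module (ZMod n) G)
    (i2 : Module (ZMod m) G) (f : Z1 Γ G) : Function.Surjective (ExtMod.reduce hmn i1 i2 f) := by
  intro y
  obtain ⟨j, hj⟩ := ZMod.ringHom_surjective (ZMod.castHom hmn (ZMod m))
    (@ExtMod.snd Γ _ G _ _ m i2 f y)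
  refine ⟨@ExtMod.mk Γ _ G _ _ n i1 f (@ExtMod.fst Γ _ G _ _ m i2 f y) j, ?_⟩
  apply @ExtMod.ext Γ _ G _ _ m i2 f
  · rfl
  · exact hj

end Reduce

section GoodReduce

variable {G : Type} [AddCommGroup G] [DistribMulAction GQ G]

/-- flatness modulo a divisor. -/
theorem FlatCoc.reduce {r n m : ℕ} [Fact r.Prime] [NeZero n] [Finite G] (hmn : m ∣ n)
    {hn : ∀ x : G, n • x = 0} (hm : ∀ x : G, m • x = 0) {f : Z1 GQ G}
    (h : FlatCoc r n hn f) : FlatCoc r m hm f := by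
  haveI : Finite (@ExtMod GQ _ G _ _ n (AddCommGroup.zmodModule hn) f) :=
    inferInstanceAs (Finite (G × ZMod n))
  exact HasHopfOrder.of_surjective h
    (ExtMod.reduce hmn (AddCommGroup.zmodModule hn) (AddCommGroup.zmodModule hm) f)
    (ExtMod.reduce_surjective hmn _ _ f) (ExtMod.reduce_smul hmn _ _ f)

/-- Good cocycles modulo a divisor. -/
theorem GoodCoc.reduce {r p n m : ℕ} [Fact r.Prime] [NeZero n] [Finite G] (hmn : m ∣ n)
    {hn : ∀ x : G, n • x = 0} (hm : ∀ x : G, m • x = 0) {f : GQ → G}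
    (h : GoodCoc r p n hn f) : GoodCoc r p m hm f :=
  ⟨h.coc, h.cts, h.unr, FlatCoc.reduce hmn hm h.flat⟩

end GoodReduce

/-- the restriction set: one inertia group over `p` and the complex conjugation. -/
def inertiaConjSet (A₀ : ValuationSubring Ω) : Set GQ :=
  (A₀.inertiaSubgroupIn ℚ : Set GQ) ∪ {complexConjugation}

/-- **admissible pairs, `r` odd.** -/
def AdmOdd (r p : ℕ) (G : Type) [AddCommGroup G] [DistribMulAction GQ G]
    (𝒵 : AddSubgroup (GQ → G)) : Prop :=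
  Finite G ∧ Finite 𝒵 ∧ IsEisMod r G ∧
    ∃ (k : ℕ) (hn : ∀ x : G, r ^ k • x = 0), ∀ f ∈ 𝒵, GoodCoc r p (r ^ k) hn f

section Propag

variable {r p : ℕ} [Fact r.Prime]

/-- propagation of admissibility along a short exact sequence. -/
theorem AdmOdd.ses {G' G G'' : Type} [AddCommGroup G'] [AddCommGroup G]
    [AddCommGroup G''] [DistribMulAction GQ G'] [DistribMulAction GQ G] [DistribMulAction GQ G'']
    (i : G' →+ G) (π : G →+ G'') (hi : Function.Injective i) (hπ : Function.Surjective π)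
    (hiσ : ∀ (σ : GQ) (g : G'), i (σ • g) = σ • i g)
    (hπσ : ∀ (σ : GQ) (g : G), π (σ • g) = σ • π g) (𝒵 : AddSubgroup (GQ → G))
    (h : AdmOdd r p G 𝒵) : AdmOdd r p G' (subCoc i 𝒵) ∧ AdmOdd r p G'' (quotCoc π 𝒵) := by
  obtain ⟨hfin, hfinZ, hEis, k, hn, hgood⟩ := h
  have hr : r.Prime := Fact.out
  haveI : NeZero (r ^ k) := ⟨pow_ne_zero _ hr.ne_zero⟩
  haveI := hfin
  haveI := hfinZ
  haveI hfin' : Finite G' := Finite.of_injective i hi
  haveI hfin'' : Finite G'' := Finite.of_surjective π hπ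
  have hn' : ∀ x : G', r ^ k • x = 0 := fun x => hi (by rw [map_nsmul, hn, map_zero])
  have hn'' : ∀ x : G'', r ^ k • x = 0 := fun x => by
    obtain ⟨g, rfl⟩ := hπ x
    rw [← map_nsmul, hn, map_zero]
  have hfinS : Finite ↥(subCoc i 𝒵) := by
    refine Finite.of_injective
      (fun f : ↥(subCoc i 𝒵) => (⟨fun σ => i (f.1 σ), (mem_subCoc i).mp f.2⟩ : ↥𝒵)) ?_
    intro a b hab
    apply Subtype.ext
    funext σ
    exact hi (congrFun (congrArg Subtype.val hab) σ)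
  have hfinQ : Finite ↥(quotCoc π 𝒵) := Finite.of_surjective _ (toQuotCoc_surjective π 𝒵)
  refine ⟨⟨hfin', hfinS, hEis.of_injective i hi hiσ, k, hn', fun f' hf' => ?_⟩,
    ⟨hfin'', hfinQ, hEis.of_surjective π hπ hπσ, k, hn'', fun f'' hf'' => ?_⟩⟩
  · exact GoodCoc.of_injective hn' i hi hiσ (hgood _ ((mem_subCoc i).mp hf'))
  · obtain ⟨g, hg, rfl⟩ := (mem_quotCoc π).mp hf''
    exact GoodCoc.of_surjective hn'' π hπ hπσ (hgood g hg)

/-- a simple module killed by a power of `r` is killed by `r`. -/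
theorem nsmul_eq_zero_of_simple {G : Type} [AddCommGroup G] [DistribMulAction GQ G] {k : ℕ}
    (hn : ∀ x : G, r ^ k • x = 0)
    (hsimple : ∀ A : AddSubgroup G, (∀ σ : GQ, ∀ a ∈ A, σ • a ∈ A) → A = ⊥ ∨ A = ⊤) (x : G) :
    r • x = 0 := by
  set B : AddSubgroup G := (nsmulAddMonoidHom r : G →+ G).range with hB
  have hBst : ∀ σ : GQ, ∀ a ∈ B, σ • a ∈ B := by
    rintro σ _ ⟨g, rfl⟩
    refine ⟨σ • g, ?_⟩
    rw [nsmulAddMonoidHom_apply, nsmulAddMonoidHom_apply]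
    exact (map_nsmul (DistribSMul.toAddMonoidHom G σ) r g).symm
  rcases hsimple B hBst with hbot | htop
  · have : r • x ∈ B := ⟨x, rfl⟩
    rw [hbot, AddSubgroup.mem_bot] at this
    exact this
  · -- every element is divisible by every power of `r`, hence zero
    have hdiv : ∀ j : ℕ, ∀ g : G, ∃ g' : G, g = r ^ j • g' := by
      intro j
      induction j with
      | zero => exact fun g => ⟨g, by simp⟩
      | succ j ih =>
        intro g
        obtain ⟨g₁, hg₁⟩ := ih g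
        have : g₁ ∈ B := htop ▸ AddSubgroup.mem_top g₁
        obtain ⟨g₂, hg₂⟩ := this
        refine ⟨g₂, ?_⟩
        rw [hg₁, ← hg₂, nsmulAddMonoidHom_apply, pow_succ, mul_nsmul']
    obtain ⟨g', hg'⟩ := hdiv k x
    rw [hg', hn, smul_zero]

/-- **the base case**: admissible pairs without proper stable subgroups. -/
theorem AdmOdd.base (hr2 : r ≠ 2) (hp : p.Prime) (A₀ : ValuationSubring Ω)
    (hA₀ : A₀.LiesOverPrime p)
    {G : Type} [AddCommGroup G] [DistribMulAction GQ G] (𝒵 : AddSubgroup (GQ → G))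
    (h : AdmOdd r p G 𝒵)
    (hsimple : ∀ A : AddSubgroup G, (∀ σ : GQ, ∀ a ∈ A, σ • a ∈ A) → A = ⊥ ∨ A = ⊤) :
    Finite 𝒵 ∧ Nat.card 𝒵 ≤ Nat.card (𝒵.map (resTo (inertiaConjSet A₀))) := by
  obtain ⟨hfin, hfinZ, hEis, k, hn, hgood⟩ := h
  have hr : r.Prime := Fact.out
  haveI : NeZero r := ⟨hr.ne_zero⟩
  haveI : NeZero (r ^ k) := ⟨pow_ne_zero _ hr.ne_zero⟩
  haveI := hfin
  haveI := hfinZ
  refine ⟨hfinZ, ?_⟩
  have hsurj : Function.Surjective ((resTo (inertiaConjSet A₀)).addSubgroupMap 𝒵) :=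
    (resTo (inertiaConjSet A₀)).addSubgroupMap_surjective 𝒵
  haveI : Finite (𝒵.map (resTo (G := G) (inertiaConjSet A₀))) := Finite.of_surjective _ hsurj
  refine Nat.card_le_card_of_injective ((resTo (inertiaConjSet A₀)).addSubgroupMap 𝒵) ?_
  rw [injective_iff_map_eq_zero]
  intro f hf
  have h0 : resTo (inertiaConjSet A₀) f.1 = 0 := congrArg Subtype.val hf
  have hres : ∀ σ ∈ inertiaConjSet A₀, f.1 σ = 0 := fun σ hσ => congrFun h0 ⟨σ, hσ⟩
  apply Subtype.ext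
  show f.1 = 0
  rcases subsingleton_or_nontrivial G with hs | hnt
  · funext σ
    exact Subsingleton.elim _ _
  · have hrG : ∀ x : G, r • x = 0 := nsmul_eq_zero_of_simple hn hsimple
    have hk : k ≠ 0 := by
      rintro rfl
      obtain ⟨g, hg⟩ := exists_ne (0 : G)
      apply hg
      have := hn g
      rwa [pow_zero, one_nsmul] at this
    have hdvd : r ∣ r ^ k := dvd_pow_self r hk
    obtain ⟨hcard, htype⟩ := hEis.card_eq_and_type hrG hsimple
    exact goodCoc_eq_zero_base hr2 hp hrG hcard htype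
      (GoodCoc.reduce hdvd hrG (hgood f.1 f.2)) A₀ hA₀
      (fun σ hσ => hres σ (Or.inl hσ)) (hres _ (Or.inr rfl))

/-- **the Selmer estimate for `r` odd, cocycle form**: a finite group of Good cocycles with
values in an Eisenstein module injects, up to cardinality, into its restriction to
`I_p ∪ {c₀}`. -/
theorem sel_card_le (hr2 : r ≠ 2) (hp : p.Prime) (A₀ : ValuationSubring Ω)
    (hA₀ : A₀.LiesOverPrime p) (G : Type) [AddCommGroup G] [Finite G] [DistribMulAction GQ G]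
    (𝒵 : AddSubgroup (GQ → G)) (h : AdmOdd r p G 𝒵) :
    Finite 𝒵 ∧ Nat.card 𝒵 ≤ Nat.card (𝒵.map (resTo (inertiaConjSet A₀))) := by
  have key := devissage (Γ := GQ) (inertiaConjSet A₀)
    (fun G _ _ 𝒵 => AdmOdd r p G 𝒵) (fun _ _ _ => 1) (fun _ _ _ => 1)
    (fun G' G G'' _ _ _ _ _ _ i π hi hπ hex hiσ hπσ 𝒵 hAdm => by
      obtain ⟨h1, h2⟩ := AdmOdd.ses i π hi hπ hiσ hπσ 𝒵 hAdm
      exact ⟨h1, h2, le_refl _, le_refl _⟩)
    (fun G _ _ 𝒵 hAdm hsimple => by
      obtain ⟨h1, h2⟩ := AdmOdd.base hr2 hp A₀ hA₀ 𝒵 hAdm hsimple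
      exact ⟨h1, by rw [mul_one, one_mul]; exact h2⟩)
    G 𝒵 h
  obtain ⟨h1, h2⟩ := key
  exact ⟨h1, by rw [mul_one, one_mul] at h2; exact h2⟩

end Propag

end Fermat.Agent.MZ
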