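/-
PROJECT MZ (branch only) -- helper4 -- assembly for `r` odd: the devissage hypothesis (hDEV) of
`eisKiller_of_inputs` from `sel_card_le` and `IsEisMod r ↥(Wk p r k)` (FIN-a1).
-/
import Mathlib
import Fermat.Agent.MZ.ASM_helper4_Main
import Fermat.Agent.MZ.SELODD_helper4_Dev

set_option autoImplicit false
set_option linter.style.haveILetI false
set_option linter.unusedSectionVars false
set_option linter.unusedVariables false

namespace Fermat.Agent.MZ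

open ModularCurve Fermat.Agent.GR Fermat.Agent.FG GaloisRep

local notation "Ω" => AlgebraicClosure ℚ
local notation "GQ" => (AlgebraicClosure ℚ ≃ₐ[ℚ] AlgebraicClosure ℚ)

section Odd

variable {p : ℕ} [NeZero p] [hp : Fact p.Prime] {r : ℕ} [hr : Fact r.Prime]

/-- **(hDEV) for `r` odd.** -/
theorem card_le_card_res_of_odd (hr2 : r ≠ 2) (A₀ : ValuationSubring Ω)
    (hA₀ : A₀.LiesOverPrime p) (hEis : ∀ k : ℕ, IsEisMod r ↥(Wk p r k))
    (k : ℕ) (𝒵 : AddSubgroup (GQ → ↥(Wk p r k))) (hfin : Finite 𝒵)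
    (hgood : ∀ f ∈ 𝒵, GoodCoc r p (r ^ k) (nsmul_Wk_eq_zero k) f) :
    Nat.card 𝒵 ≤ Nat.card (𝒵.map
      (resTo ((A₀.inertiaSubgroupIn ℚ : Set GQ) ∪ {complexConjugation}))) := by
  haveI : Finite ↥(Wk p r k) := finite_Wk r k
  exact (sel_card_le hr2 hp.out A₀ hA₀ ↥(Wk p r k) 𝒵
    ⟨inferInstance, hfin, hEis k, k, nsmul_Wk_eq_zero k, hgood⟩).2

/-- **PART B (FIN) for `r` odd.** -/
theorem eisKiller_of_inputs_odd (hr2 : r ≠ 2) (hrp : ¬ r ∣ p)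
    (hFG : AddGroup.FG ↥(FixedPoints.addSubgroup GQ (JZero p)))
    (A₀ : ValuationSubring Ω) (hA₀ : A₀.LiesOverPrime p)
    (hEis : ∀ k : ℕ, IsEisMod r ↥(Wk p r k))
    (hFINc : ∃ B : ℕ, ∀ k : ℕ,
      (Nat.card {w : ↥(Wk p r k) // complexConjugation • w = -w}) ^ 2 ≤
        r ^ B * Nat.card ↥(Wk p r k))
    (hFINd : ∃ B : ℕ, ∀ k : ℕ, ∀ 𝒵 : AddSubgroup (GQ → ↥(Wk p r k)),
      𝒵 ≤ Z1 GQ ↥(Wk p r k) → (∀ f ∈ 𝒵, IsCtsCoc f) → Finite 𝒵 →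
      (Nat.card (𝒵.map (resTo (A₀.inertiaSubgroupIn ℚ : Set GQ)))) ^ 2 ≤
        r ^ B * Nat.card ↥(Wk p r k))
    (c : JZero p) (hcH : ∀ ℓ : HeckeIdx p, heckeFam p ℓ c = eisVal p ℓ • c) :
    EisKiller p c r :=
  eisKiller_of_inputs hrp hFG A₀
    (fun k 𝒵 hfin hgood => card_le_card_res_of_odd hr2 A₀ hA₀ hEis k 𝒵 hfin hgood)
    hFINc hFINd c hcH

end Odd

end Fermat.Agent.MZ
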