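/-
PROJECT MZ (S15), block (RK) (the balance at `p`) — helper2 — **abstract linear algebra**.

`K` an algebraically closed field of characteristic `≠ 2`, `V` a finite-dimensional `K`-vector
space with a commuting family `T i` (the Hecke operators), and `Φ` (a Frobenius), `C` (complex
conjugation), `E` (a Hecke-equivariant operator anti-commuting with `C`), all commuting with the
`T i`; `g₁(Φ) g₂(Φ) = 0` with `g₁, g₂` coprime.  Hypothesis `(H)`: every non-zero joint eigenspace
`V[λ]` of the family is `2`-dimensional and `ker g₂(Φ) ∩ V[λ]` is a line.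

* `BalHyp.balance`: for every subspace `W` stable under all `T i`, `Φ`, `C`, `E`:
  `2 * dim (ker g₂(Φ) ∩ W) = dim W`.  No semisimplicity, no multiplicity one for subfamilies.
* `BalHyp.exists_swap`: if the `T i`, `i ∈ S`, are semisimple (killed by a squarefree polynomial),
  there is a bijective `F` commuting with the `T i`, `i ∈ S`, mapping `ker g₂(Φ)` into `ker g₁(Φ)`
  and `ker g₁(Φ)` into `ker g₂(Φ)`.
-/
import Mathlib

set_option autoImplicit false
set_option linter.unusedSectionVars false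
set_option linter.unusedVariables false
set_option linter.style.haveILetI false

namespace Fermat.Agent.MZ

open Polynomial Module

section Basics

variable {K V : Type*} [Field K] [AddCommGroup V] [Module K V]

/-- polynomials in `A` commute with everything `A` commutes with. -/
theorem bal_commute_aeval {A B : Module.End K V} (h : Commute A B) (g : K[X]) :
    Commute (aeval A g) B := by
  induction g using Polynomial.induction_on' with
  | add p q hp hq => rw [map_add]; exact hp.add_left hq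
  | monomial n a =>
    rw [aeval_monomial]
    exact (Algebra.commute_algebraMap_left a B).mul_left (h.pow_left n)

theorem bal_commute_aeval_aeval {A B : Module.End K V} (h : Commute A B) (g g' : K[X]) :
    Commute (aeval A g) (aeval B g') :=
  bal_commute_aeval (bal_commute_aeval h.symm g').symm g

/-- powers preserve stable subspaces. -/
theorem bal_pow_mem {X : Module.End K V} {W : Submodule K V} (hW : ∀ w ∈ W, X w ∈ W) (n : ℕ) :
    ∀ w ∈ W, (X ^ n) w ∈ W := by
  induction n with
  | zero => intro w hw; simpa using hw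
  | succ k ih =>
    intro w hw
    rw [pow_succ, Module.End.mul_apply]
    exact ih _ (hW w hw)

/-- polynomials preserve stable subspaces. -/
theorem bal_aeval_mem {X : Module.End K V} {W : Submodule K V} (hW : ∀ w ∈ W, X w ∈ W)
    (g : K[X]) : ∀ w ∈ W, (aeval X g) w ∈ W := by
  induction g using Polynomial.induction_on' with
  | add p q hp hq =>
    intro w hw
    rw [map_add, LinearMap.add_apply]
    exact W.add_mem (hp w hw) (hq w hw)
  | monomial n a =>
    intro w hw
    rw [aeval_monomial, Module.End.mul_apply, Module.algebraMap_end_apply]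
    exact W.smul_mem _ (bal_pow_mem hW n w hw)

/-- rank–nullity for the restriction of an endomorphism to a subspace. -/
theorem bal_finrank_map_add_ker_inf [FiniteDimensional K V] (A : Module.End K V)
    (U : Submodule K V) :
    finrank K ↥(U.map A) + finrank K ↥(LinearMap.ker A ⊓ U) = finrank K ↥U := by
  have h := LinearMap.finrank_range_add_finrank_ker (A.domRestrict U)
  rw [LinearMap.range_domRestrict, LinearMap.ker_domRestrict] at h
  have e : ↥(Submodule.comap U.subtype (LinearMap.ker A)) ≃ₗ[K] ↥(LinearMap.ker A ⊓ U) := by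
    have h1 : Submodule.comap U.subtype (LinearMap.ker A) =
        Submodule.comap U.subtype (LinearMap.ker A ⊓ U) := by
      ext x
      simp only [Submodule.mem_comap, Submodule.subtype_apply, Submodule.mem_inf,
        SetLike.coe_mem, and_true]
    rw [h1]
    exact Submodule.comapSubtypeEquivOfLe (inf_le_right : LinearMap.ker A ⊓ U ≤ U)
  rw [← e.finrank_eq]
  exact h

/-- an eigenvector inside a non-zero stable subspace. -/
theorem bal_exists_eigenvector [IsAlgClosed K] [FiniteDimensional K V] (X : Module.End K V)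
    {W : Submodule K V} (hW : ∀ w ∈ W, X w ∈ W) (hne : W ≠ ⊥) :
    ∃ t : K, ∃ w ∈ W, w ≠ 0 ∧ X w = t • w := by
  haveI : Nontrivial ↥W := (Submodule.nontrivial_iff_ne_bot).2 hne
  obtain ⟨t, ht⟩ := Module.End.exists_eigenvalue (X.restrict hW)
  obtain ⟨v, hv⟩ := ht.exists_hasEigenvector
  refine ⟨t, v.1, v.2, fun h0 => hv.2 (Subtype.ext h0), ?_⟩
  have := congrArg Subtype.val hv.apply_eq_smul
  simpa using this

end Basics

section Balance

variable {K V ι : Type*} [Field K] [AddCommGroup V] [Module K V]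

/-- the joint eigenspace of a family of operators. -/
def jointEig (T : ι → Module.End K V) (lam : ι → K) : Submodule K V :=
  ⨅ i, (T i).eigenspace (lam i)

theorem mem_jointEig {T : ι → Module.End K V} {lam : ι → K} {v : V} :
    v ∈ jointEig T lam ↔ ∀ i, T i v = lam i • v := by
  unfold jointEig
  rw [Submodule.mem_iInf]
  exact forall_congr' fun i => Module.End.mem_eigenspace_iff

/-- the hypotheses of the balance lemma. -/
structure BalHyp (T : ι → Module.End K V) (Φ C E : Module.End K V) (g₁ g₂ : K[X]) : Prop where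
  comm : ∀ i j, Commute (T i) (T j)
  commΦ : ∀ i, Commute (T i) Φ
  commC : ∀ i, Commute (T i) C
  commE : ∀ i, Commute (T i) E
  two_ne : (2 : K) ≠ 0
  C_sq : C * C = 1
  EC : E * C = -(C * E)
  E_inj : Function.Injective E
  cop : IsCoprime g₁ g₂
  kill : aeval Φ g₁ * aeval Φ g₂ = 0
  H : ∀ lam : ι → K, jointEig T lam ≠ ⊥ →
    finrank K ↥(jointEig T lam) = 2 ∧
      finrank K ↥(LinearMap.ker (aeval Φ g₂) ⊓ jointEig T lam) = 1

/-- stability of a subspace under all the operators. -/
structure BalStable (T : ι → Module.End K V) (Φ C E : Module.End K V) (W : Submodule K V) :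
    Prop where
  T : ∀ i, ∀ w ∈ W, T i w ∈ W
  Φ : ∀ w ∈ W, Φ w ∈ W
  C : ∀ w ∈ W, C w ∈ W
  E : ∀ w ∈ W, E w ∈ W

variable {T : ι → Module.End K V} {Φ C E : Module.End K V} {g₁ g₂ : K[X]}

theorem balStable_top : BalStable T Φ C E (⊤ : Submodule K V) :=
  ⟨fun _ _ _ => Submodule.mem_top, fun _ _ => Submodule.mem_top, fun _ _ => Submodule.mem_top,
    fun _ _ => Submodule.mem_top⟩

/-- the kernel of `T i - t` inside a stable subspace is stable. -/
theorem BalStable.ker_inf (h : BalHyp T Φ C E g₁ g₂) {W : Submodule K V}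
    (hW : BalStable T Φ C E W) (i : ι) (t : K) :
    BalStable T Φ C E (LinearMap.ker (T i - algebraMap K _ t) ⊓ W) := by
  have key : ∀ X : Module.End K V, Commute (T i) X → (∀ w ∈ W, X w ∈ W) →
      ∀ w ∈ LinearMap.ker (T i - algebraMap K _ t) ⊓ W,
        X w ∈ LinearMap.ker (T i - algebraMap K _ t) ⊓ W := by
    intro X hX hXW w hw
    refine ⟨?_, hXW w hw.2⟩
    have h1 : (T i - algebraMap K _ t) w = 0 := hw.1
    have hc : Commute (T i - algebraMap K _ t) X :=
      hX.sub_left (Algebra.commute_algebraMap_left t X)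
    show (T i - algebraMap K _ t) (X w) = 0
    have h2 : ((T i - algebraMap K _ t) * X) w = (X * (T i - algebraMap K _ t)) w := by
      rw [hc.eq]
    rw [Module.End.mul_apply, Module.End.mul_apply, h1, map_zero] at h2
    exact h2
  exact ⟨fun j => key (T j) (h.comm i j) (hW.T j), key Φ (h.commΦ i) hW.Φ,
    key C (h.commC i) hW.C, key E (h.commE i) hW.E⟩

/-- the image of a stable subspace under `T i - t` is stable. -/
theorem BalStable.map (h : BalHyp T Φ C E g₁ g₂) {W : Submodule K V}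
    (hW : BalStable T Φ C E W) (i : ι) (t : K) :
    BalStable T Φ C E (W.map (T i - algebraMap K _ t)) := by
  have key : ∀ X : Module.End K V, Commute (T i) X → (∀ w ∈ W, X w ∈ W) →
      ∀ w ∈ W.map (T i - algebraMap K _ t), X w ∈ W.map (T i - algebraMap K _ t) := by
    intro X hX hXW w hw
    obtain ⟨u, hu, rfl⟩ := hw
    have hc : Commute (T i - algebraMap K _ t) X :=
      hX.sub_left (Algebra.commute_algebraMap_left t X)
    refine ⟨X u, hXW u hu, ?_⟩
    have h2 : ((T i - algebraMap K _ t) * X) u = (X * (T i - algebraMap K _ t)) u := by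
      rw [hc.eq]
    rw [Module.End.mul_apply, Module.End.mul_apply] at h2
    exact h2
  exact ⟨fun j => key (T j) (h.comm i j) (hW.T j), key Φ (h.commΦ i) hW.Φ,
    key C (h.commC i) hW.C, key E (h.commE i) hW.E⟩

theorem BalStable.map_le {W : Submodule K V} (hW : BalStable T Φ C E W) (i : ι) (t : K) :
    W.map (T i - algebraMap K _ t) ≤ W := by
  rintro _ ⟨u, hu, rfl⟩
  rw [LinearMap.sub_apply, Module.algebraMap_end_apply]
  exact W.sub_mem (hW.T i u hu) (W.smul_mem t hu)

/-- the projector onto `ker g'(Φ)` along `ker g(Φ)`, as a polynomial in `Φ`. -/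
theorem bal_exists_proj {Φ : Module.End K V} {g g' : K[X]} (hcop : IsCoprime g g')
    (hkill : aeval Φ g * aeval Φ g' = 0) :
    ∃ e : K[X], (∀ v, aeval Φ g' (aeval Φ e v) = 0) ∧
      (∀ v, aeval Φ g' v = 0 → aeval Φ e v = v) ∧ (∀ v, aeval Φ g v = 0 → aeval Φ e v = 0) := by
  obtain ⟨a, b, hab⟩ := hcop
  refine ⟨a * g, fun v => ?_, fun v hv => ?_, fun v hv => ?_⟩
  · have h1 : aeval Φ g' * aeval Φ (a * g) = aeval Φ a * (aeval Φ g * aeval Φ g') := by
      rw [← map_mul, ← map_mul, ← map_mul]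
      congr 1
      ring
    have h2 := congrArg (fun X : Module.End K V => X v) h1
    simp only [Module.End.mul_apply] at h2
    rw [h2]
    have h3 := congrArg (fun X : Module.End K V => X v) hkill
    simp only [Module.End.mul_apply, LinearMap.zero_apply] at h3
    rw [h3, map_zero]
  · have h1 : aeval Φ (a * g) + aeval Φ b * aeval Φ g' = 1 := by
      rw [← map_mul, ← map_add, hab, map_one]
    have h2 := congrArg (fun X : Module.End K V => X v) h1
    simp only [LinearMap.add_apply, Module.End.mul_apply, Module.End.one_apply] at h2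
    rw [hv, map_zero, add_zero] at h2
    exact h2
  · rw [map_mul, Module.End.mul_apply, hv, map_zero]

/-- the kernel of `g₂(Φ)` is additive along `W ⊇ ker (T i - t) ∩ W`, `(T i - t) W`. -/
theorem BalHyp.finrank_ker_inf (h : BalHyp T Φ C E g₁ g₂) [FiniteDimensional K V]
    {W : Submodule K V} (hW : BalStable T Φ C E W) (i : ι) (t : K) :
    finrank K ↥(LinearMap.ker (aeval Φ g₂) ⊓ W.map (T i - algebraMap K _ t)) +
      finrank K ↥(LinearMap.ker (aeval Φ g₂) ⊓ (LinearMap.ker (T i - algebraMap K _ t) ⊓ W)) =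
      finrank K ↥(LinearMap.ker (aeval Φ g₂) ⊓ W) := by
  obtain ⟨e, he1, he2, -⟩ := bal_exists_proj h.cop h.kill
  have hcA : ∀ g : K[X], Commute (aeval Φ g) (T i - algebraMap K _ t) := fun g =>
    (bal_commute_aeval (h.commΦ i).symm g).sub_right (Algebra.commute_algebraMap_right t _)
  have hmap : (LinearMap.ker (aeval Φ g₂) ⊓ W).map (T i - algebraMap K _ t) =
      LinearMap.ker (aeval Φ g₂) ⊓ W.map (T i - algebraMap K _ t) := by
    apply le_antisymm
    · rintro _ ⟨x, ⟨hx1, hx2⟩, rfl⟩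
      refine ⟨?_, x, hx2, rfl⟩
      show aeval Φ g₂ ((T i - algebraMap K _ t) x) = 0
      have h2 := congrArg (fun X : Module.End K V => X x) (hcA g₂).eq
      simp only [Module.End.mul_apply] at h2
      rw [h2]
      have hx1' : aeval Φ g₂ x = 0 := hx1
      rw [hx1', map_zero]
    · rintro y ⟨hy1, w, hw, rfl⟩
      have hy1' : aeval Φ g₂ ((T i - algebraMap K _ t) w) = 0 := hy1
      refine ⟨aeval Φ e w, ⟨he1 w, bal_aeval_mem hW.Φ e w hw⟩, ?_⟩
      have h2 := congrArg (fun X : Module.End K V => X w) (hcA e).eq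
      simp only [Module.End.mul_apply] at h2
      rw [← h2]
      exact he2 _ hy1'
  have h1 := bal_finrank_map_add_ker_inf (T i - algebraMap K _ t) (LinearMap.ker (aeval Φ g₂) ⊓ W)
  rw [hmap] at h1
  have h3 : LinearMap.ker (T i - algebraMap K _ t) ⊓ (LinearMap.ker (aeval Φ g₂) ⊓ W) =
      LinearMap.ker (aeval Φ g₂) ⊓ (LinearMap.ker (T i - algebraMap K _ t) ⊓ W) := by
    rw [← inf_assoc, ← inf_assoc, inf_comm (LinearMap.ker (T i - algebraMap K _ t))]
  rw [h3] at h1
  exact h1

/-- a non-zero subspace of a joint eigenspace stable under `C` and `E` has dimension `≥ 2`. -/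
theorem BalHyp.two_le_finrank (h : BalHyp T Φ C E g₁ g₂) [IsAlgClosed K] [FiniteDimensional K V]
    {W : Submodule K V} (hW : BalStable T Φ C E W) (hbot : W ≠ ⊥) : 2 ≤ finrank K ↥W := by
  obtain ⟨ε, s, hs, hs0, hCs⟩ := bal_exists_eigenvector C hW.C hbot
  have hε : ε * ε = 1 := by
    have h1 := congrArg (fun X : Module.End K V => X s) h.C_sq
    simp only [Module.End.mul_apply, Module.End.one_apply] at h1
    rw [hCs, map_smul, hCs, smul_smul] at h1
    have h2 : (ε * ε - 1) • s = 0 := by rw [sub_smul, h1, one_smul, sub_self]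
    rcases smul_eq_zero.1 h2 with h3 | h3
    · exact sub_eq_zero.1 h3
    · exact absurd h3 hs0
  have hε0 : ε ≠ 0 := by
    rintro rfl
    rw [mul_zero] at hε
    exact zero_ne_one hε
  have hEs : E s ∈ W := hW.E s hs
  have hCEs : C (E s) = -(ε • E s) := by
    have h1 := congrArg (fun X : Module.End K V => X s) h.EC
    simp only [Module.End.mul_apply, LinearMap.neg_apply] at h1
    rw [hCs, map_smul] at h1
    rw [h1, neg_neg]
  by_contra hlt
  push Not at hlt
  have hpos : 0 < finrank K ↥W := by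
    haveI : Nontrivial ↥W := (Submodule.nontrivial_iff_ne_bot).2 hbot
    exact Module.finrank_pos
  have h1 : finrank K ↥W = 1 := by omega
  have hs0' : (⟨s, hs⟩ : ↥W) ≠ 0 := fun h0 => hs0 (congrArg Subtype.val h0)
  obtain ⟨c, hc⟩ := (finrank_eq_one_iff_of_nonzero' (⟨s, hs⟩ : ↥W) hs0').1 h1 ⟨E s, hEs⟩
  have hc' : c • s = E s := congrArg Subtype.val hc
  rw [← hc', map_smul, hCs, smul_smul, smul_smul] at hCEs
  have h2 : (c * ε + ε * c) • s = 0 := by
    rw [add_smul, hCEs]
    exact neg_add_cancel _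
  rcases smul_eq_zero.1 h2 with h3 | h3
  · have h4 : 2 * (ε * c) = 0 := by
      rw [← h3]; ring
    rcases mul_eq_zero.1 h4 with h5 | h5
    · exact h.two_ne h5
    · rcases mul_eq_zero.1 h5 with h6 | h6
      · exact hε0 h6
      · rw [h6, zero_smul] at hc'
        exact hs0 (h.E_inj (by rw [← hc', map_zero]))
  · exact hs0 h3

/-- **the balance lemma**: on every stable subspace, `ker g₂(Φ)` is exactly half. -/
theorem BalHyp.balance (h : BalHyp T Φ C E g₁ g₂) [IsAlgClosed K] [FiniteDimensional K V] :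
    ∀ (n : ℕ) (W : Submodule K V), finrank K ↥W = n → BalStable T Φ C E W →
      2 * finrank K ↥(LinearMap.ker (aeval Φ g₂) ⊓ W) = finrank K ↥W := by
  intro n
  induction n using Nat.strong_induction_on with
  | _ n ih =>
  intro W hn hW
  by_cases hbot : W = ⊥
  · subst hbot
    rw [inf_bot_eq, finrank_bot]
  by_cases hsc : ∀ i, ∃ t : K, ∀ w ∈ W, T i w = t • w
  · choose lam hlam using hsc
    have hle : W ≤ jointEig T lam := fun w hw => mem_jointEig.2 fun i => hlam i w hw
    have hne : jointEig T lam ≠ ⊥ := by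
      intro h0
      rw [h0] at hle
      exact hbot (le_bot_iff.1 hle)
    obtain ⟨h2, h1⟩ := h.H lam hne
    have h3 := h.two_le_finrank hW hbot
    have hWeq : W = jointEig T lam := Submodule.eq_of_le_of_finrank_le hle (by omega)
    rw [hWeq, h1, h2]
  · push Not at hsc
    obtain ⟨i, hi⟩ := hsc
    obtain ⟨t, w₀, hw₀, hw₀0, hTw₀⟩ := bal_exists_eigenvector (T i) (hW.T i) hbot
    have hmemker : ∀ w, w ∈ LinearMap.ker (T i - algebraMap K _ t) ↔ T i w = t • w := by
      intro w
      rw [LinearMap.mem_ker, LinearMap.sub_apply, Module.algebraMap_end_apply, sub_eq_zero]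
    have hker_ne : LinearMap.ker (T i - algebraMap K _ t) ⊓ W ≠ ⊥ := by
      intro h0
      have : w₀ ∈ LinearMap.ker (T i - algebraMap K _ t) ⊓ W := ⟨(hmemker w₀).2 hTw₀, hw₀⟩
      rw [h0] at this
      exact hw₀0 ((Submodule.mem_bot K).1 this)
    have hker_lt : LinearMap.ker (T i - algebraMap K _ t) ⊓ W < W := by
      refine lt_of_le_of_ne inf_le_right ?_
      intro heq
      obtain ⟨w, hw, hne⟩ := hi t
      have : w ∈ LinearMap.ker (T i - algebraMap K _ t) ⊓ W := by rw [heq]; exact hw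
      exact hne ((hmemker w).1 this.1)
    have hsum := bal_finrank_map_add_ker_inf (T i - algebraMap K _ t) W
    have hpos : 0 < finrank K ↥(LinearMap.ker (T i - algebraMap K _ t) ⊓ W) := by
      haveI : Nontrivial ↥(LinearMap.ker (T i - algebraMap K _ t) ⊓ W) :=
        (Submodule.nontrivial_iff_ne_bot).2 hker_ne
      exact Module.finrank_pos
    have hlt1 : finrank K ↥(LinearMap.ker (T i - algebraMap K _ t) ⊓ W) < finrank K ↥W :=
      Submodule.finrank_lt_finrank_of_lt hker_lt
    have hlt2 : finrank K ↥(W.map (T i - algebraMap K _ t)) < finrank K ↥W := by omega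
    have ih1 := ih _ (hn ▸ hlt1) (LinearMap.ker (T i - algebraMap K _ t) ⊓ W) rfl
      (hW.ker_inf h i t)
    have ih2 := ih _ (hn ▸ hlt2) (W.map (T i - algebraMap K _ t)) rfl (hW.map h i t)
    have hadd := h.finrank_ker_inf hW i t
    omega

/-- the balance lemma on the whole space. -/
theorem BalHyp.balance_top (h : BalHyp T Φ C E g₁ g₂) [IsAlgClosed K] [FiniteDimensional K V] :
    2 * finrank K ↥(LinearMap.ker (aeval Φ g₂)) = finrank K V := by
  have := h.balance _ ⊤ rfl balStable_top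
  rw [inf_top_eq, finrank_top] at this
  exact this

/-- both projectors of the decomposition `V = ker g₁(Φ) ⊕ ker g₂(Φ)`. -/
theorem bal_exists_proj2 {Φ : Module.End K V} {g₁ g₂ : K[X]} (hcop : IsCoprime g₁ g₂)
    (hkill : aeval Φ g₁ * aeval Φ g₂ = 0) :
    ∃ e₁ e₂ : K[X], e₁ + e₂ = 1 ∧ (∀ v, aeval Φ g₁ (aeval Φ e₁ v) = 0) ∧
      (∀ v, aeval Φ g₂ (aeval Φ e₂ v) = 0) ∧ (∀ v, aeval Φ g₁ v = 0 → aeval Φ e₂ v = 0) ∧
      (∀ v, aeval Φ g₂ v = 0 → aeval Φ e₁ v = 0) := by
  obtain ⟨a, b, hab⟩ := hcop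
  have hk : ∀ v, aeval Φ g₁ (aeval Φ g₂ v) = 0 := by
    intro v
    have h3 := congrArg (fun X : Module.End K V => X v) hkill
    simpa only [Module.End.mul_apply, LinearMap.zero_apply] using h3
  have hk' : ∀ v, aeval Φ g₂ (aeval Φ g₁ v) = 0 := by
    intro v
    have hc : aeval Φ g₂ * aeval Φ g₁ = aeval Φ g₁ * aeval Φ g₂ := by
      rw [← map_mul, ← map_mul, mul_comm]
    have h3 := congrArg (fun X : Module.End K V => X v) (hc.trans hkill)
    simpa only [Module.End.mul_apply, LinearMap.zero_apply] using h3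
  refine ⟨b * g₂, a * g₁, by rw [add_comm]; exact hab, fun v => ?_, fun v => ?_, fun v hv => ?_,
    fun v hv => ?_⟩
  · have h1 : aeval Φ g₁ * aeval Φ (b * g₂) = aeval Φ b * (aeval Φ g₁ * aeval Φ g₂) := by
      rw [← map_mul, ← map_mul, ← map_mul]
      congr 1
      ring
    have h2 := congrArg (fun X : Module.End K V => X v) h1
    simp only [Module.End.mul_apply] at h2
    rw [h2, hk, map_zero]
  · have h1 : aeval Φ g₂ * aeval Φ (a * g₁) = aeval Φ a * (aeval Φ g₂ * aeval Φ g₁) := by
      rw [← map_mul, ← map_mul, ← map_mul]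
      congr 1
      ring
    have h2 := congrArg (fun X : Module.End K V => X v) h1
    simp only [Module.End.mul_apply] at h2
    rw [h2, hk', map_zero]
  · rw [map_mul, Module.End.mul_apply, hv, map_zero]
  · rw [map_mul, Module.End.mul_apply, hv, map_zero]

/-- `W = (ker g₁(Φ) ∩ W) ⊕ (ker g₂(Φ) ∩ W)`, dimension count. -/
theorem BalHyp.finrank_ker_add (h : BalHyp T Φ C E g₁ g₂) [FiniteDimensional K V]
    {W : Submodule K V} (hΦW : ∀ w ∈ W, Φ w ∈ W) :
    finrank K ↥(LinearMap.ker (aeval Φ g₂) ⊓ W) + finrank K ↥(LinearMap.ker (aeval Φ g₁) ⊓ W) =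
      finrank K ↥W := by
  obtain ⟨e₁, e₂, hsum, h11, h22, h12, h21⟩ := bal_exists_proj2 h.cop h.kill
  have hdec : ∀ v : V, aeval Φ e₁ v + aeval Φ e₂ v = v := by
    intro v
    rw [← LinearMap.add_apply, ← map_add, hsum, map_one, Module.End.one_apply]
  have h1 := bal_finrank_map_add_ker_inf (aeval Φ e₂) W
  have hmap : W.map (aeval Φ e₂) = LinearMap.ker (aeval Φ g₂) ⊓ W := by
    apply le_antisymm
    · rintro _ ⟨w, hw, rfl⟩
      exact ⟨h22 w, bal_aeval_mem hΦW e₂ w hw⟩
    · rintro x ⟨hx1, hx2⟩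
      refine ⟨x, hx2, ?_⟩
      have := hdec x
      rw [h21 x hx1, zero_add] at this
      exact this
  have hker : LinearMap.ker (aeval Φ e₂) ⊓ W = LinearMap.ker (aeval Φ g₁) ⊓ W := by
    apply le_antisymm
    · rintro x ⟨hx1, hx2⟩
      refine ⟨?_, hx2⟩
      have hx1' : aeval Φ e₂ x = 0 := hx1
      have := hdec x
      rw [hx1', add_zero] at this
      show aeval Φ g₁ x = 0
      rw [← this]
      exact h11 x
    · rintro x ⟨hx1, hx2⟩
      exact ⟨h12 x hx1, hx2⟩
  rw [hmap, hker] at h1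
  exact h1

/-- the properties of a swap on a stable subspace `W`. -/
structure IsSwapOn (T : ι → Module.End K V) (Φ : Module.End K V) (g₁ g₂ : K[X]) (S : Set ι)
    (W : Submodule K V) (F : Module.End K V) : Prop where
  mem : ∀ w ∈ W, F w ∈ W
  inj : ∀ w ∈ W, F w = 0 → w = 0
  comm : ∀ i ∈ S, ∀ w ∈ W, F (T i w) = T i (F w)
  swap₂ : ∀ w ∈ W, aeval Φ g₂ w = 0 → aeval Φ g₁ (F w) = 0
  swap₁ : ∀ w ∈ W, aeval Φ g₁ w = 0 → aeval Φ g₂ (F w) = 0

/-- the swap when the operators of `S` are scalars on `W`. -/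
theorem BalHyp.exists_swap_scalar (h : BalHyp T Φ C E g₁ g₂) [IsAlgClosed K]
    [FiniteDimensional K V] (S : Set ι) {W : Submodule K V} (hW : BalStable T Φ C E W)
    (hsc : ∀ i ∈ S, ∃ t : K, ∀ w ∈ W, T i w = t • w) :
    ∃ F : Module.End K V, IsSwapOn T Φ g₁ g₂ S W F := by
  obtain ⟨e₁, e₂, hsum, h11, h22, h12, h21⟩ := bal_exists_proj2 h.cop h.kill
  have hdec : ∀ v : V, aeval Φ e₁ v + aeval Φ e₂ v = v := by
    intro v
    rw [← LinearMap.add_apply, ← map_add, hsum, map_one, Module.End.one_apply]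
  have hbal := h.balance _ W rfl hW
  have hadd := h.finrank_ker_add (W := W) hW.Φ
  have heq : finrank K ↥(LinearMap.ker (aeval Φ g₂) ⊓ W) =
      finrank K ↥(LinearMap.ker (aeval Φ g₁) ⊓ W) := by omega
  let f : ↥(LinearMap.ker (aeval Φ g₂) ⊓ W) ≃ₗ[K] ↥(LinearMap.ker (aeval Φ g₁) ⊓ W) :=
    LinearEquiv.ofFinrankEq _ _ heq
  let P₂ : ↥W →ₗ[K] ↥(LinearMap.ker (aeval Φ g₂) ⊓ W) :=
    LinearMap.codRestrict _ ((aeval Φ e₂).domRestrict W)
      (fun w => ⟨h22 w.1, bal_aeval_mem hW.Φ e₂ w.1 w.2⟩)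
  let P₁ : ↥W →ₗ[K] ↥(LinearMap.ker (aeval Φ g₁) ⊓ W) :=
    LinearMap.codRestrict _ ((aeval Φ e₁).domRestrict W)
      (fun w => ⟨h11 w.1, bal_aeval_mem hW.Φ e₁ w.1 w.2⟩)
  let f₀ : ↥W →ₗ[K] V :=
    (LinearMap.ker (aeval Φ g₁) ⊓ W).subtype ∘ₗ f.toLinearMap ∘ₗ P₂ +
      (LinearMap.ker (aeval Φ g₂) ⊓ W).subtype ∘ₗ f.symm.toLinearMap ∘ₗ P₁
  obtain ⟨F, hF⟩ := LinearMap.exists_extend f₀
  have hFw : ∀ (w : V) (hw : w ∈ W), F w = ((f (P₂ ⟨w, hw⟩) : ↥(LinearMap.ker (aeval Φ g₁) ⊓ W)) : V)
      + ((f.symm (P₁ ⟨w, hw⟩) : ↥(LinearMap.ker (aeval Φ g₂) ⊓ W)) : V) := by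
    intro w hw
    have := congrArg (fun X : ↥W →ₗ[K] V => X ⟨w, hw⟩) hF
    exact this
  have hP₂ : ∀ (w : V) (hw : w ∈ W), ((P₂ ⟨w, hw⟩ : ↥(LinearMap.ker (aeval Φ g₂) ⊓ W)) : V) =
      aeval Φ e₂ w := fun w hw => rfl
  have hP₁ : ∀ (w : V) (hw : w ∈ W), ((P₁ ⟨w, hw⟩ : ↥(LinearMap.ker (aeval Φ g₁) ⊓ W)) : V) =
      aeval Φ e₁ w := fun w hw => rfl
  have hmem : ∀ w ∈ W, F w ∈ W := by
    intro w hw
    rw [hFw w hw]
    exact W.add_mem (f (P₂ ⟨w, hw⟩)).2.2 (f.symm (P₁ ⟨w, hw⟩)).2.2
  refine ⟨F, hmem, ?_, ?_, ?_, ?_⟩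
  · intro w hw hFw0
    rw [hFw w hw] at hFw0
    set x := f (P₂ ⟨w, hw⟩) with hx
    set y := f.symm (P₁ ⟨w, hw⟩) with hy
    have hx1 : aeval Φ g₁ (x : V) = 0 := x.2.1
    have hy2 : aeval Φ g₂ (y : V) = 0 := y.2.1
    have hxy : (x : V) = -(y : V) := eq_neg_of_add_eq_zero_left hFw0
    have hx2 : aeval Φ g₂ (x : V) = 0 := by rw [hxy, map_neg, hy2, neg_zero]
    have hx0 : (x : V) = 0 := by
      have := hdec (x : V)
      rw [h21 _ hx2, h12 _ hx1, add_zero] at this
      exact this.symm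
    have hy0 : (y : V) = 0 := by
      rw [hx0] at hxy
      exact neg_eq_zero.1 hxy.symm
    have hx0' : x = 0 := Subtype.ext hx0
    have hy0' : y = 0 := Subtype.ext hy0
    rw [hx, LinearEquiv.map_eq_zero_iff] at hx0'
    rw [hy, LinearEquiv.map_eq_zero_iff] at hy0'
    have h2 : aeval Φ e₂ w = 0 := by rw [← hP₂ w hw, hx0']; rfl
    have h1 : aeval Φ e₁ w = 0 := by rw [← hP₁ w hw, hy0']; rfl
    have := hdec w
    rw [h1, h2, add_zero] at this
    exact this.symm
  · intro i hi w hw
    obtain ⟨t, ht⟩ := hsc i hi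
    rw [ht w hw, map_smul, ht (F w) (hmem w hw)]
  · intro w hw hw2
    have h1 : P₁ ⟨w, hw⟩ = 0 := Subtype.ext (by rw [hP₁ w hw, h21 w hw2]; rfl)
    rw [hFw w hw, h1, map_zero, Submodule.coe_zero, add_zero]
    exact (f (P₂ ⟨w, hw⟩)).2.1
  · intro w hw hw1
    have h2 : P₂ ⟨w, hw⟩ = 0 := Subtype.ext (by rw [hP₂ w hw, h12 w hw1]; rfl)
    rw [hFw w hw, h2, map_zero, Submodule.coe_zero, zero_add]
    exact (f.symm (P₁ ⟨w, hw⟩)).2.1

/-- gluing swaps along `W = (ker (T i - t) ∩ W) ⊕ (T i - t) W` for a semisimple `T i`. -/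
theorem BalHyp.exists_swap_glue (h : BalHyp T Φ C E g₁ g₂) (S : Set ι) {W : Submodule K V}
    (hW : BalStable T Φ C E W) (i : ι) (t : K) {q : K[X]} (hq : Squarefree q)
    (hqT : aeval (T i) q = 0) (hroot : q.IsRoot t) {F' F'' : Module.End K V}
    (hF' : IsSwapOn T Φ g₁ g₂ S (LinearMap.ker (T i - algebraMap K _ t) ⊓ W) F')
    (hF'' : IsSwapOn T Φ g₁ g₂ S (W.map (T i - algebraMap K _ t)) F'') :
    ∃ F : Module.End K V, IsSwapOn T Φ g₁ g₂ S W F := by
  obtain ⟨q', hq'⟩ := (Polynomial.dvd_iff_isRoot).2 hroot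
  have hcop : IsCoprime (X - Polynomial.C t) q' := by
    rw [(Polynomial.irreducible_X_sub_C t).coprime_iff_not_dvd]
    intro hdvd
    obtain ⟨q'', hq''⟩ := hdvd
    have : (X - Polynomial.C t) * (X - Polynomial.C t) ∣ q := ⟨q'', by rw [hq', hq'']; ring⟩
    exact (Polynomial.irreducible_X_sub_C t).not_isUnit (hq _ this)
  obtain ⟨a, b, hab⟩ := hcop
  have hA : aeval (T i) (X - Polynomial.C t) = T i - algebraMap K _ t := by
    rw [map_sub, aeval_X, aeval_C]
  -- the two projectors
  have hsum : ∀ v : V, aeval (T i) (b * q') v + aeval (T i) (a * (X - Polynomial.C t)) v = v := by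
    intro v
    rw [← LinearMap.add_apply, ← map_add, add_comm, hab, map_one, Module.End.one_apply]
  have hπ1ker : ∀ v : V, (T i - algebraMap K _ t) (aeval (T i) (b * q') v) = 0 := by
    intro v
    have h1 : (T i - algebraMap K _ t) * aeval (T i) (b * q') = aeval (T i) b * aeval (T i) q := by
      rw [← hA, ← map_mul, ← map_mul, hq']
      congr 1
      ring
    have h2 := congrArg (fun X : Module.End K V => X v) h1
    simp only [Module.End.mul_apply] at h2
    rw [h2, hqT, LinearMap.zero_apply, map_zero]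
  have hπ2map : ∀ v : V, aeval (T i) (a * (X - Polynomial.C t)) v =
      (T i - algebraMap K _ t) (aeval (T i) a v) := by
    intro v
    rw [mul_comm, map_mul, hA, Module.End.mul_apply]
  have hπ1mem : ∀ w ∈ W, aeval (T i) (b * q') w ∈ LinearMap.ker (T i - algebraMap K _ t) ⊓ W :=
    fun w hw => ⟨hπ1ker w, bal_aeval_mem (hW.T i) _ w hw⟩
  have hπ2mem : ∀ w ∈ W, aeval (T i) (a * (X - Polynomial.C t)) w ∈ W.map (T i - algebraMap K _ t) := by
    intro w hw
    rw [hπ2map]
    exact ⟨_, bal_aeval_mem (hW.T i) a w hw, rfl⟩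
  -- the two pieces meet trivially
  have hdisj : ∀ x : V, x ∈ LinearMap.ker (T i - algebraMap K _ t) →
      x ∈ W.map (T i - algebraMap K _ t) → x = 0 := by
    rintro x hx1 ⟨u, hu, rfl⟩
    have hx1' : (T i - algebraMap K _ t) ((T i - algebraMap K _ t) u) = 0 := hx1
    have h1 := hsum ((T i - algebraMap K _ t) u)
    have h2 : aeval (T i) (a * (X - Polynomial.C t)) ((T i - algebraMap K _ t) u) = 0 := by
      rw [map_mul, Module.End.mul_apply, hA, hx1', map_zero]
    have h3 : aeval (T i) (b * q') ((T i - algebraMap K _ t) u) = 0 := by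
      have h4 : aeval (T i) (b * q') * (T i - algebraMap K _ t) = aeval (T i) b * aeval (T i) q := by
        rw [← hA, ← map_mul, ← map_mul, hq']
        congr 1
        ring
      have h5 := congrArg (fun X : Module.End K V => X u) h4
      simp only [Module.End.mul_apply] at h5
      rw [h5, hqT, LinearMap.zero_apply, map_zero]
    rw [h2, h3, add_zero] at h1
    exact h1.symm
  refine ⟨F' * aeval (T i) (b * q') + F'' * aeval (T i) (a * (X - Polynomial.C t)), ?_, ?_, ?_, ?_, ?_⟩
  · intro w hw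
    rw [LinearMap.add_apply, Module.End.mul_apply, Module.End.mul_apply]
    exact W.add_mem (hF'.mem _ (hπ1mem w hw)).2 (hW.map_le i t (hF''.mem _ (hπ2mem w hw)))
  · intro w hw hFw
    rw [LinearMap.add_apply, Module.End.mul_apply, Module.End.mul_apply] at hFw
    have hx := hF'.mem _ (hπ1mem w hw)
    have hy := hF''.mem _ (hπ2mem w hw)
    have hxy : F' (aeval (T i) (b * q') w) = -F'' (aeval (T i) (a * (X - Polynomial.C t)) w) :=
      eq_neg_of_add_eq_zero_left hFw
    have hx0 : F' (aeval (T i) (b * q') w) = 0 := by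
      apply hdisj _ hx.1
      rw [hxy]
      exact Submodule.neg_mem _ hy
    have hy0 : F'' (aeval (T i) (a * (X - Polynomial.C t)) w) = 0 := by
      rw [hx0] at hxy
      exact neg_eq_zero.1 hxy.symm
    have h1 := hF'.inj _ (hπ1mem w hw) hx0
    have h2 := hF''.inj _ (hπ2mem w hw) hy0
    have := hsum w
    rw [h1, h2, add_zero] at this
    exact this.symm
  · intro j hj w hw
    have hc1 : ∀ g : K[X], aeval (T i) g (T j w) = T j (aeval (T i) g w) := by
      intro g
      have := congrArg (fun X : Module.End K V => X w) (bal_commute_aeval (h.comm i j) g).eq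
      simpa only [Module.End.mul_apply] using this
    rw [LinearMap.add_apply, Module.End.mul_apply, Module.End.mul_apply, hc1, hc1,
      hF'.comm j hj _ (hπ1mem w hw), hF''.comm j hj _ (hπ2mem w hw), LinearMap.add_apply,
      Module.End.mul_apply, Module.End.mul_apply, map_add]
  · intro w hw hw2
    have hc1 : ∀ g : K[X], aeval Φ g₂ (aeval (T i) g w) = 0 := by
      intro g
      have := congrArg (fun X : Module.End K V => X w)
        (bal_commute_aeval_aeval (h.commΦ i) g g₂).eq
      simp only [Module.End.mul_apply] at this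
      rw [← this, hw2, map_zero]
    rw [LinearMap.add_apply, Module.End.mul_apply, Module.End.mul_apply, map_add,
      hF'.swap₂ _ (hπ1mem w hw) (hc1 _), hF''.swap₂ _ (hπ2mem w hw) (hc1 _), add_zero]
  · intro w hw hw1
    have hc1 : ∀ g : K[X], aeval Φ g₁ (aeval (T i) g w) = 0 := by
      intro g
      have := congrArg (fun X : Module.End K V => X w)
        (bal_commute_aeval_aeval (h.commΦ i) g g₁).eq
      simp only [Module.End.mul_apply] at this
      rw [← this, hw1, map_zero]
    rw [LinearMap.add_apply, Module.End.mul_apply, Module.End.mul_apply, map_add,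
      hF'.swap₁ _ (hπ1mem w hw) (hc1 _), hF''.swap₁ _ (hπ2mem w hw) (hc1 _), add_zero]

/-- **the swap lemma**, on stable subspaces. -/
theorem BalHyp.exists_swap_aux (h : BalHyp T Φ C E g₁ g₂) [IsAlgClosed K] [FiniteDimensional K V]
    (S : Set ι) (hss : ∀ i ∈ S, ∃ q : K[X], Squarefree q ∧ aeval (T i) q = 0) :
    ∀ (n : ℕ) (W : Submodule K V), finrank K ↥W = n → BalStable T Φ C E W →
      ∃ F : Module.End K V, IsSwapOn T Φ g₁ g₂ S W F := by
  intro n
  induction n using Nat.strong_induction_on with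
  | _ n ih =>
  intro W hn hW
  by_cases hsc : ∀ i ∈ S, ∃ t : K, ∀ w ∈ W, T i w = t • w
  · exact h.exists_swap_scalar S hW hsc
  · push Not at hsc
    obtain ⟨i, hiS, hi⟩ := hsc
    have hbot : W ≠ ⊥ := by
      rintro rfl
      obtain ⟨w, hw, hne⟩ := hi 0
      rw [(Submodule.mem_bot K).1 hw, map_zero, smul_zero] at hne
      exact hne rfl
    obtain ⟨t, w₀, hw₀, hw₀0, hTw₀⟩ := bal_exists_eigenvector (T i) (hW.T i) hbot
    obtain ⟨q, hq, hqT⟩ := hss i hiS
    have hroot : q.IsRoot t := by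
      have hev : (T i).HasEigenvector t w₀ := ⟨Module.End.mem_eigenspace_iff.2 hTw₀, hw₀0⟩
      have h1 := Module.End.aeval_apply_of_hasEigenvector (p := q) hev
      rw [hqT, LinearMap.zero_apply] at h1
      rcases smul_eq_zero.1 h1.symm with h2 | h2
      · exact h2
      · exact absurd h2 hw₀0
    have hmemker : ∀ w, w ∈ LinearMap.ker (T i - algebraMap K _ t) ↔ T i w = t • w := by
      intro w
      rw [LinearMap.mem_ker, LinearMap.sub_apply, Module.algebraMap_end_apply, sub_eq_zero]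
    have hker_ne : LinearMap.ker (T i - algebraMap K _ t) ⊓ W ≠ ⊥ := by
      intro h0
      have : w₀ ∈ LinearMap.ker (T i - algebraMap K _ t) ⊓ W := ⟨(hmemker w₀).2 hTw₀, hw₀⟩
      rw [h0] at this
      exact hw₀0 ((Submodule.mem_bot K).1 this)
    have hker_lt : LinearMap.ker (T i - algebraMap K _ t) ⊓ W < W := by
      refine lt_of_le_of_ne inf_le_right ?_
      intro heq
      obtain ⟨w, hw, hne⟩ := hi t
      have : w ∈ LinearMap.ker (T i - algebraMap K _ t) ⊓ W := by rw [heq]; exact hw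
      exact hne ((hmemker w).1 this.1)
    have hsum := bal_finrank_map_add_ker_inf (T i - algebraMap K _ t) W
    have hpos : 0 < finrank K ↥(LinearMap.ker (T i - algebraMap K _ t) ⊓ W) := by
      haveI : Nontrivial ↥(LinearMap.ker (T i - algebraMap K _ t) ⊓ W) :=
        (Submodule.nontrivial_iff_ne_bot).2 hker_ne
      exact Module.finrank_pos
    have hlt1 : finrank K ↥(LinearMap.ker (T i - algebraMap K _ t) ⊓ W) < finrank K ↥W :=
      Submodule.finrank_lt_finrank_of_lt hker_lt
    have hlt2 : finrank K ↥(W.map (T i - algebraMap K _ t)) < finrank K ↥W := by omega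
    obtain ⟨F', hF'⟩ := ih _ (hn ▸ hlt1) (LinearMap.ker (T i - algebraMap K _ t) ⊓ W) rfl
      (hW.ker_inf h i t)
    obtain ⟨F'', hF''⟩ := ih _ (hn ▸ hlt2) (W.map (T i - algebraMap K _ t)) rfl (hW.map h i t)
    exact h.exists_swap_glue S hW i t hq hqT hroot hF' hF''

/-- **the swap lemma**: a bijective `F` commuting with the semisimple operators of the family and
exchanging `ker g₁(Φ)` and `ker g₂(Φ)`. -/
theorem BalHyp.exists_swap (h : BalHyp T Φ C E g₁ g₂) [IsAlgClosed K] [FiniteDimensional K V]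
    (S : Set ι) (hss : ∀ i ∈ S, ∃ q : K[X], Squarefree q ∧ aeval (T i) q = 0) :
    ∃ F : Module.End K V, Function.Injective F ∧ (∀ i ∈ S, Commute F (T i)) ∧
      (∀ v, aeval Φ g₂ v = 0 → aeval Φ g₁ (F v) = 0) ∧
      (∀ v, aeval Φ g₁ v = 0 → aeval Φ g₂ (F v) = 0) := by
  obtain ⟨F, hF⟩ := h.exists_swap_aux S hss _ ⊤ rfl balStable_top
  refine ⟨F, ?_, fun i hi => ?_, fun v hv => hF.swap₂ v Submodule.mem_top hv,
    fun v hv => hF.swap₁ v Submodule.mem_top hv⟩
  · rw [← LinearMap.ker_eq_bot, Submodule.eq_bot_iff]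
    intro v hv
    exact hF.inj v Submodule.mem_top hv
  · apply LinearMap.ext
    intro v
    exact hF.comm i hi v Submodule.mem_top

end Balance

end Fermat.Agent.MZ
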