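/-
PROJECT MZ (S15), `r = 2` — helper2 — **the abstract dévissage with two restriction sets**.

Verbatim helper4's `devissage` (`MZ/DEV_helper4_Abstract.lean`), with two subsets `I₁ I₂ ⊆ Γ`
("inertia at `p`" and "complex conjugation") and the conclusion
`card 𝒵 * u G ≤ v G * (card (res_{I₁} 𝒵) * card (res_{I₂} 𝒵))`.
At `r = 2` one takes `I₁ = I_p`, `I₂ = {c}`, `u = v = 1`: at cocycle level one restriction set
`I_p ∪ {c}` would be too lossy.
-/
import Fermat.Agent.MZ.DEV_helper4_Abstract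

set_option autoImplicit false
set_option linter.style.haveILetI false
set_option linter.unusedSectionVars false
set_option linter.unusedVariables false

namespace Fermat.Agent.MZ

section Dev

variable {Γ : Type} [Group Γ] (I₁ I₂ : Set Γ)

/-- **the abstract dévissage with two restriction sets.** -/
theorem devissage2
    (Adm : ∀ (G : Type) [AddCommGroup G] [DistribMulAction Γ G], AddSubgroup (Γ → G) → Prop)
    (u v : ∀ (G : Type) [AddCommGroup G] [DistribMulAction Γ G], ℕ)
    (hses : ∀ (G' G G'' : Type) [AddCommGroup G'] [AddCommGroup G] [AddCommGroup G'']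
      [DistribMulAction Γ G'] [DistribMulAction Γ G] [DistribMulAction Γ G'']
      (i : G' →+ G) (π : G →+ G''), Function.Injective i → Function.Surjective π →
      (∀ g, π g = 0 ↔ g ∈ i.range) → (∀ (σ : Γ) (g : G'), i (σ • g) = σ • i g) →
      (∀ (σ : Γ) (g : G), π (σ • g) = σ • π g) →
      ∀ 𝒵 : AddSubgroup (Γ → G), Adm G 𝒵 →
        Adm G' (subCoc i 𝒵) ∧ Adm G'' (quotCoc π 𝒵) ∧ u G ≤ u G' * u G'' ∧ v G' * v G'' ≤ v G)
    (hbase : ∀ (G : Type) [AddCommGroup G] [DistribMulAction Γ G] (𝒵 : AddSubgroup (Γ → G)),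
      Adm G 𝒵 → (∀ A : AddSubgroup G, (∀ σ : Γ, ∀ a ∈ A, σ • a ∈ A) → A = ⊥ ∨ A = ⊤) →
      Finite 𝒵 ∧ Nat.card 𝒵 * u G ≤
        v G * (Nat.card (𝒵.map (resTo I₁)) * Nat.card (𝒵.map (resTo I₂))))
    (G : Type) [AddCommGroup G] [Finite G] [DistribMulAction Γ G] (𝒵 : AddSubgroup (Γ → G))
    (h : Adm G 𝒵) :
    Finite 𝒵 ∧ Nat.card 𝒵 * u G ≤
        v G * (Nat.card (𝒵.map (resTo I₁)) * Nat.card (𝒵.map (resTo I₂))) := by
  -- strong induction on the cardinality
  suffices H : ∀ (n : ℕ) (G : Type) [AddCommGroup G] [Finite G] [DistribMulAction Γ G]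
      (𝒵 : AddSubgroup (Γ → G)), Nat.card G = n → Adm G 𝒵 →
      Finite 𝒵 ∧ Nat.card 𝒵 * u G ≤
        v G * (Nat.card (𝒵.map (resTo I₁)) * Nat.card (𝒵.map (resTo I₂))) from
    H _ G 𝒵 rfl h
  intro n
  induction n using Nat.strong_induction_on with
  | _ n ih =>
    intro G _ _ _ 𝒵 hn hAdm
    by_cases hsimple : ∀ A : AddSubgroup G, (∀ σ : Γ, ∀ a ∈ A, σ • a ∈ A) → A = ⊥ ∨ A = ⊤
    · exact hbase G 𝒵 hAdm hsimple
    · push Not at hsimple
      obtain ⟨A, hA, hAbot, hAtop⟩ := hsimple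
      letI actA : DistribMulAction Γ ↥A := stableSubAction A hA
      letI actQ : DistribMulAction Γ (G ⧸ A) := stableQuotAction A hA
      have hi : Function.Injective A.subtype := Subtype.val_injective
      have hπ : Function.Surjective (QuotientAddGroup.mk' A) := QuotientAddGroup.mk'_surjective A
      have hex : ∀ g : G, QuotientAddGroup.mk' A g = 0 ↔ g ∈ A.subtype.range := by
        intro g
        rw [QuotientAddGroup.mk'_apply, QuotientAddGroup.eq_zero_iff, AddSubgroup.range_subtype]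
      obtain ⟨hA1, hA2, hu, hv⟩ := hses ↥A G (G ⧸ A) A.subtype (QuotientAddGroup.mk' A) hi hπ hex
        (fun σ g => rfl) (fun σ g => rfl) 𝒵 hAdm
      -- cardinalities drop
      have hcardA : Nat.card ↥A < n := by
        rw [← hn]
        refine lt_of_le_of_ne (Nat.card_le_card_of_injective _ hi) ?_
        intro hc
        exact hAtop (AddSubgroup.card_eq_iff_eq_top A |>.mp hc)
      have hcardQ : Nat.card (G ⧸ A) < n := by
        rw [← hn, AddSubgroup.card_eq_card_quotient_mul_card_addSubgroup A]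
        have h1 : 1 < Nat.card ↥A := by
          rw [Nat.one_lt_iff_ne_zero_and_ne_one]
          refine ⟨Nat.card_pos.ne', ?_⟩
          intro hc
          exact hAbot (AddSubgroup.eq_bot_of_card_eq A hc)
        have h2 : 0 < Nat.card (G ⧸ A) := Nat.card_pos
        nlinarith
      obtain ⟨hf1, hb1⟩ := ih _ hcardA ↥A (subCoc A.subtype 𝒵) rfl hA1
      obtain ⟨hf2, hb2⟩ := ih _ hcardQ (G ⧸ A) (quotCoc (QuotientAddGroup.mk' A) 𝒵) rfl hA2
      have hfin : Finite 𝒵 := finite_of_finite_subCoc_quotCoc A.subtype _ hi hex 𝒵 hf1 hf2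
      refine ⟨hfin, ?_⟩
      have hcard := card_eq_card_subCoc_mul_card_quotCoc A.subtype _ hi hex 𝒵
      have hfinR : ∀ I : Set Γ, Finite (𝒵.map (resTo I)) := by
        intro I
        have : Function.Surjective ((resTo I).addSubgroupMap 𝒵) :=
          (resTo I).addSubgroupMap_surjective 𝒵
        exact Finite.of_surjective _ this
      have hres₁ := card_res_mul_le A.subtype (QuotientAddGroup.mk' A) hi hex I₁ 𝒵 (hfinR I₁)
      have hres₂ := card_res_mul_le A.subtype (QuotientAddGroup.mk' A) hi hex I₂ 𝒵 (hfinR I₂)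
      set z := Nat.card 𝒵
      set z1 := Nat.card (subCoc A.subtype 𝒵)
      set z2 := Nat.card (quotCoc (QuotientAddGroup.mk' A) 𝒵)
      set r := Nat.card (𝒵.map (resTo I₁))
      set r1 := Nat.card ((subCoc A.subtype 𝒵).map (resTo I₁))
      set r2 := Nat.card ((quotCoc (QuotientAddGroup.mk' A) 𝒵).map (resTo I₁))
      set s := Nat.card (𝒵.map (resTo I₂))
      set s1 := Nat.card ((subCoc A.subtype 𝒵).map (resTo I₂))
      set s2 := Nat.card ((quotCoc (QuotientAddGroup.mk' A) 𝒵).map (resTo I₂))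
      calc z * u G = z1 * z2 * u G := by rw [hcard]
        _ ≤ z1 * z2 * (u ↥A * u (G ⧸ A)) := Nat.mul_le_mul_left _ hu
        _ = (z1 * u ↥A) * (z2 * u (G ⧸ A)) := by ring
        _ ≤ (v ↥A * (r1 * s1)) * (v (G ⧸ A) * (r2 * s2)) := Nat.mul_le_mul hb1 hb2
        _ = (v ↥A * v (G ⧸ A)) * ((r1 * r2) * (s1 * s2)) := by ring
        _ ≤ v G * (r * s) := Nat.mul_le_mul hv (Nat.mul_le_mul hres₁ hres₂)

end Dev

end Fermat.Agent.MZ
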