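/-
PROJECT MZ (branch-only) — (FIN-d), final part — helper6.

**`find_Wk`**: helper4's literal (FIN-d), unconditional for every prime `5 ≤ p` and every prime
`r ≠ p` (including `r = 2`): uniformly in `k`, the square of the number of restrictions to the
inertia group at `A ∣ p` of a finite group of continuous cocycles `G_ℚ → W_k` is at most
`r ^ B * card W_k`.

Inputs discharged here for `find_of_inputs` (`FIND_helper6_Main`):
* `hdev` : the coboundaries of elements of `W_k` are Good cocycles (`find_goodCoc_cobd`,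
  `find_goodCoc2_cobd`: continuity from the finite level of `W_k`, unramifiedness outside `{r, p}`
  from the Eichler–Shimura clauses, flatness at `r` from helper5's `flatCoc_kummer` with `P = 0`),
  then helper4's `sel_card_le` (`r` odd) / helper7's `sel2_card_le_eis` (`r = 2`) with helper8's
  `isEisMod_Wk`;
* `hfinc` : helper5's `card_Wk_minus_sq_le`;
* `hH0` : Mordell–Weil (S17): the torsion subgroup of `J₀(p)(ℚ)` is finite.
-/
import Mathlib
import Fermat.Agent.MZ.FIND_helper6_Main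
import Fermat.Agent.MZ.SELODD_helper4_Dev
import Fermat.Agent.MZ.DEV2_helper7_Eis
import Fermat.Agent.MZ.FINA_helper8_Wk
import Fermat.Agent.MZ.KUMFLAT_helper5_Ext
import Fermat.Agent.MZ.FINC_helper5_Bridge
import Fermat.Agent.MZ.GOOD2_helper2_Defs
import Fermat.Agent.S17

set_option autoImplicit false
set_option linter.unusedSectionVars false
set_option linter.unusedVariables false
set_option linter.style.haveILetI false

namespace Fermat.Agent.MZ

open ModularCurve Fermat.Agent.GR Fermat.Agent.FG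

local notation "Ω" => AlgebraicClosure ℚ
local notation "GQ" => (AlgebraicClosure ℚ ≃ₐ[ℚ] AlgebraicClosure ℚ)

section Good

variable {p : ℕ} [NeZero p] [hp : Fact p.Prime]

/-- inertia at `v ∉ {r, p}` acts trivially on `W_k`. -/
theorem find_wk_unramified (r : ℕ) [hr : Fact r.Prime] (k : ℕ) {v : ℕ} (hv : v.Prime)
    (hvS : v ∉ ({r, p} : Set ℕ)) (A : ValuationSubring Ω) (hA : A.LiesOverPrime v)
    (σ : GQ) (hσ : σ ∈ A.inertiaSubgroupIn ℚ) (w : ↥(Wk p r k)) : σ • w = w := by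
  have I := stageIData p r
  have hvr : v ≠ r := fun h => hvS (by rw [h]; exact Set.mem_insert _ _)
  have hvp : v ≠ p := fun h => hvS (by rw [h]; exact Set.mem_insert_of_mem _ rfl)
  have hvpr : ¬ v ∣ p * r := by
    intro h
    rcases (Nat.Prime.dvd_mul hv).mp h with h | h
    · exact hvp ((Nat.prime_dvd_prime_iff_eq hv hp.out).mp h)
    · exact hvr ((Nat.prime_dvd_prime_iff_eq hv hr.out).mp h)
  apply Subtype.ext
  rw [coe_smul_Wk]
  exact I.inertia_smul_eq hv hvpr hA hσ ⟨k, pow_smul_eq_zero_of_mem_Wk w.2⟩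

/-- the inclusion `W_k → J₀(p)` as an additive map. -/
noncomputable def wkIncl (p : ℕ) [NeZero p] (r k : ℕ) : ↥(Wk p r k) →+ JZero p :=
  (Wk p r k).subtype.toAddMonoidHom

theorem wkIncl_apply (r k : ℕ) (w : ↥(Wk p r k)) : wkIncl p r k w = (w : JZero p) := rfl

theorem wkIncl_injective (r k : ℕ) : Function.Injective (wkIncl p r k) :=
  fun a b h => Subtype.ext h

/-- **coboundaries of elements of `W_k` are Good cocycles.** -/
theorem find_goodCoc_cobd (r : ℕ) [hr : Fact r.Prime] (hpr : p ≠ r) (k : ℕ)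
    (hn : ∀ x : ↥(Wk p r k), r ^ k • x = 0) (w : ↥(Wk p r k)) :
    GoodCoc r p (r ^ k) hn (cobd GQ w) := by
  refine ⟨cobd_mem_Z1 (Γ := GQ) w, ?_, ?_, ?_⟩
  · obtain ⟨F, hF, hfix⟩ := wk_finite_level (p := p) r k
    exact ⟨F, hF, fun σ hσ => by rw [cobd_apply, hfix σ hσ w, sub_self]⟩
  · intro v hv hvS A hA σ hσ
    rw [cobd_apply, find_wk_unramified r k hv hvS A hA σ hσ w, sub_self]
  · have hrp : ¬ r ∣ p := fun h => hpr ((Nat.prime_dvd_prime_iff_eq hr.out hp.out).mp h).symm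
    exact flatCoc_kummer p r hrp k (0 : JZero p)
      (fun σ => map_zero (DistribSMul.toAddMonoidHom (JZero p) σ))
      (w : JZero p) (pow_smul_eq_zero_of_mem_Wk w.2) (wkIncl p r k) (wkIncl_injective r k)
      (fun σ g => rfl) hn ⟨cobd GQ w, cobd_mem_Z1 (Γ := GQ) w⟩ (fun σ => rfl)

/-- **coboundaries of elements of `W_k` are Good₂ cocycles** (`r = 2`). -/
theorem find_goodCoc2_cobd [hr : Fact (Nat.Prime 2)] (hp2 : p ≠ 2) (k : ℕ)
    (hn : ∀ x : ↥(Wk p 2 k), 2 ^ k • x = 0) (w : ↥(Wk p 2 k)) :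
    GoodCoc2 p (2 ^ k) hn (cobd GQ w) := by
  refine ⟨cobd_mem_Z1 (Γ := GQ) w, ?_, ?_, ?_⟩
  · obtain ⟨F, hF, hfix⟩ := wk_finite_level (p := p) 2 k
    exact ⟨F, hF, fun σ hσ => by rw [cobd_apply, hfix σ hσ w, sub_self]⟩
  · intro v hv hvS A hA σ hσ
    rw [cobd_apply, find_wk_unramified 2 k hv hvS A hA σ hσ w, sub_self]
  · have hrp : ¬ 2 ∣ p := fun h => hp2 ((Nat.prime_dvd_prime_iff_eq hr.out hp.out).mp h).symm
    obtain ⟨H, hH, hind⟩ := flatCoc_kummer_pair p 2 hrp k (0 : JZero p)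
      (fun σ => map_zero (DistribSMul.toAddMonoidHom (JZero p) σ))
      (w : JZero p) (pow_smul_eq_zero_of_mem_Wk w.2) (wkIncl p 2 k) (wkIncl_injective 2 k)
      (fun σ g => rfl) hn ⟨cobd GQ w, cobd_mem_Z1 (Γ := GQ) w⟩ (fun σ => rfl)
    refine ⟨H, hH, ?_⟩
    have hset : (((@ExtMod.inl GQ _ ↥(Wk p 2 k) _ _ (2 ^ k) (AddCommGroup.zmodModule hn)
        ⟨cobd GQ w, cobd_mem_Z1 (Γ := GQ) w⟩).range : AddSubgroup _) : Set _) =
        {x : @ExtMod GQ _ ↥(Wk p 2 k) _ _ (2 ^ k) (AddCommGroup.zmodModule hn)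
          ⟨cobd GQ w, cobd_mem_Z1 (Γ := GQ) w⟩ |
          @ExtMod.snd GQ _ ↥(Wk p 2 k) _ _ (2 ^ k) (AddCommGroup.zmodModule hn)
            ⟨cobd GQ w, cobd_mem_Z1 (Γ := GQ) w⟩ x = 0} := by
      ext x
      exact @ExtMod.mem_range_inl GQ _ ↥(Wk p 2 k) _ _ (2 ^ k) (AddCommGroup.zmodModule hn)
        ⟨cobd GQ w, cobd_mem_Z1 (Γ := GQ) w⟩ x
    rw [hset]
    exact hind

end Good

section Dev

variable {p : ℕ} [NeZero p] [hp : Fact p.Prime]

/-- **the dévissage inequality for the coboundaries of the inertia-fixed elements of `W_k`.** -/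
theorem find_hdev (r : ℕ) [hr : Fact r.Prime] (hpr : p ≠ r)
    (A : ValuationSubring Ω) (hA : A.LiesOverPrime p) (k : ℕ) :
    Nat.card ((inertiaFixed A ↥(Wk p r k)).map (cobd GQ)) ≤
      Nat.card (((inertiaFixed A ↥(Wk p r k)).map (cobd GQ)).map
        (resTo ((A.inertiaSubgroupIn ℚ : Set GQ) ∪ {complexConjugation}))) := by
  haveI := finite_Wk (p := p) r k
  have hn : ∀ x : ↥(Wk p r k), r ^ k • x = 0 :=
    fun x => Subtype.ext (pow_smul_eq_zero_of_mem_Wk x.2)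
  by_cases hr2 : r = 2
  · subst hr2
    have hadm : Adm2E p k ↥(Wk p 2 k) ((inertiaFixed A ↥(Wk p 2 k)).map (cobd GQ)) := by
      refine ⟨inferInstance, isEisMod_Wk p 2 k, hn, ?_⟩
      rintro f ⟨w, -, rfl⟩
      exact find_goodCoc2_cobd hpr k hn w
    exact (sel2_card_le_eis hp.out A hA ↥(Wk p 2 k) _ hadm).2
  · have hadm : AdmOdd r p ↥(Wk p r k) ((inertiaFixed A ↥(Wk p r k)).map (cobd GQ)) := by
      refine ⟨inferInstance, ?_, isEisMod_Wk p r k, k, hn, ?_⟩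
      · exact Finite.of_surjective
          (fun w : ↥(inertiaFixed A ↥(Wk p r k)) =>
            (⟨cobd GQ w.1, w.1, w.2, rfl⟩ :
              ↥((inertiaFixed A ↥(Wk p r k)).map (cobd GQ))))
          (by
            rintro ⟨f, w, hw, rfl⟩
            exact ⟨⟨w, hw⟩, rfl⟩)
      · rintro f ⟨w, -, rfl⟩
        exact find_goodCoc_cobd r hpr k hn w
    exact (sel_card_le hr2 hp.out A hA ↥(Wk p r k) _ hadm).2

end Dev

section H0

variable {p : ℕ} [NeZero p] [hp : Fact p.Prime]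

/-- **`H⁰(ℚ, W_k)` is bounded**: the torsion subgroup of `J₀(p)(ℚ)` is finite (Mordell–Weil). -/
theorem find_hH0 (hp5 : 5 ≤ p) (r : ℕ) [hr : Fact r.Prime] :
    ∃ C : ℕ, ∀ k : ℕ, Nat.card {w : ↥(Wk p r k) // ∀ σ : GQ, σ • w = w} ≤ C := by
  set JQ := ↥(FixedPoints.addSubgroup GQ (JZero p)) with hJQ
  have hfg : AddGroup.FG JQ := Fermat.Agent.S17.result p hp.out hp5
  haveI : Module.Finite ℤ JQ := Module.Finite.iff_addGroup_fg.mpr hfg
  haveI : Module.Finite ℤ ↥(Submodule.torsion ℤ JQ) := Module.Finite.of_injective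
    (Submodule.torsion ℤ JQ).subtype Subtype.val_injective
  haveI hfin : Finite ↥(Submodule.torsion ℤ JQ) :=
    Module.finite_of_fg_torsion _ Submodule.torsion_isTorsion
  refine ⟨Nat.card ↥(Submodule.torsion ℤ JQ), fun k => ?_⟩
  have hmem : ∀ w : {w : ↥(Wk p r k) // ∀ σ : GQ, σ • w = w},
      ((w.1 : ↥(Wk p r k)) : JZero p) ∈ FixedPoints.addSubgroup GQ (JZero p) := by
    intro w σ
    have h := congrArg Subtype.val (w.2 σ)
    exact h
  have htors : ∀ w : {w : ↥(Wk p r k) // ∀ σ : GQ, σ • w = w},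
      (⟨((w.1 : ↥(Wk p r k)) : JZero p), hmem w⟩ : JQ) ∈ Submodule.torsion ℤ JQ := by
    intro w
    rw [Submodule.mem_torsion_iff]
    refine ⟨⟨((r ^ k : ℕ) : ℤ), ?_⟩, ?_⟩
    · rw [mem_nonZeroDivisors_iff_ne_zero]
      exact_mod_cast pow_ne_zero k hr.out.ne_zero
    · apply Subtype.ext
      show (((r ^ k : ℕ) : ℤ)) • ((w.1 : ↥(Wk p r k)) : JZero p) = 0
      rw [natCast_zsmul]
      exact pow_smul_eq_zero_of_mem_Wk w.1.2
  exact Nat.card_le_card_of_injective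
    (fun w => (⟨⟨((w.1 : ↥(Wk p r k)) : JZero p), hmem w⟩, htors w⟩ :
      ↥(Submodule.torsion ℤ JQ)))
    (fun a b hab => by
      have h1 := congrArg (fun z : ↥(Submodule.torsion ℤ JQ) => ((z : JQ) : JZero p)) hab
      exact Subtype.ext (Subtype.ext h1))

end H0

section Final

variable {p : ℕ} [NeZero p] [hp : Fact p.Prime]

/-- **(FIN-d)**, helper4's literal, unconditional (`5 ≤ p` prime, `r ≠ p` prime, `A ∣ p`). -/
theorem find_Wk (hp5 : 5 ≤ p) (r : ℕ) [hr : Fact r.Prime] (hpr : p ≠ r)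
    (A : ValuationSubring Ω) (hA : A.LiesOverPrime p) :
    ∃ B : ℕ, ∀ (k : ℕ) (𝒵 : AddSubgroup (GQ → ↥(Wk p r k))), 𝒵 ≤ Z1 GQ ↥(Wk p r k) →
      (∀ f ∈ 𝒵, ∃ F : IntermediateField ℚ Ω, FiniteDimensional ℚ F ∧
        ∀ σ : GQ, (∀ a ∈ F, σ a = a) → f σ = 0) → Finite 𝒵 →
      (Nat.card (𝒵.map (resTo (A.inertiaSubgroupIn ℚ : Set GQ)))) ^ 2 ≤
        r ^ B * Nat.card ↥(Wk p r k) :=
  find_of_inputs r hpr A hA (fun k => find_hdev r hpr A hA k) (card_Wk_minus_sq_le p r)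
    (find_hH0 hp5 r)

/-- the same with `IsCtsCoc`. -/
theorem find_Wk' (hp5 : 5 ≤ p) (r : ℕ) [hr : Fact r.Prime] (hpr : p ≠ r)
    (A : ValuationSubring Ω) (hA : A.LiesOverPrime p) :
    ∃ B : ℕ, ∀ (k : ℕ) (𝒵 : AddSubgroup (GQ → ↥(Wk p r k))), 𝒵 ≤ Z1 GQ ↥(Wk p r k) →
      (∀ f ∈ 𝒵, IsCtsCoc f) → Finite 𝒵 →
      (Nat.card (𝒵.map (resTo (A.inertiaSubgroupIn ℚ : Set GQ)))) ^ 2 ≤
        r ^ B * Nat.card ↥(Wk p r k) :=
  find_Wk hp5 r hpr A hA

end Final

end Fermat.Agent.MZ
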