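/-
PROJECT MZ (branch-only) — (FIN-e), `r` odd — helper8 — **(L3): the étale constituents.**

A flat Galois module `E` killed by an odd prime `r` on which the inertia group at `r` acts
unipotently of level two (trivially on a subgroup `A` and on `E / A`) is unramified at `r`.
In particular a flat extension of `ℤ/r` by `ℤ/r` (trivial actions) is unramified at `r`: the
propagated flat condition on a constituent `ℤ/r` consists of unramified classes.

This is `TW.Flat.flat_mem_of_smul_sub_mem` (`I_aug • E` has no `I`-trivial subquotient).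
-/
import Mathlib
import Fermat.Agent.TW.FlatModelD_helper8
import Fermat.Agent.FG.HOPF_helper8_Closure
import Fermat.Agent.EC.Conjugacy_helper5
import Fermat.Agent.TW.Kill_helper1_Frob

set_option autoImplicit false
set_option linter.unusedSectionVars false
set_option linter.unusedVariables false
set_option linter.style.haveILetI false

namespace Fermat.Agent.MZ

open GaloisRep Fermat.Agent.Ram Fermat.Agent.TW Fermat.Agent.TW.Flat Fermat.Agent.FG

local notation "Ω" => AlgebraicClosure ℚ
local notation "GQ" => (AlgebraicClosure ℚ ≃ₐ[ℚ] AlgebraicClosure ℚ)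

section Etale

variable {r : ℕ} [Fact r.Prime] {E : Type} [AddCommGroup E] [Finite E] [DistribMulAction GQ E]

/-- **(L3), flat-module form.** -/
theorem flat_inertia_trivial_of_unipotent' (hr2 : r ≠ 2)
    (hflat : IsFlatGaloisModule r E (fun σ m => σ • m)) (hrE : ∀ e : E, r • e = 0)
    (A : AddSubgroup E) (hA : ∀ σ ∈ inertiaQ r, ∀ a ∈ A, σ • a = a)
    (hEA : ∀ σ ∈ inertiaQ r, ∀ e : E, σ • e - e ∈ A) :
    ∀ σ ∈ inertiaQ r, ∀ e : E, σ • e = e := by
  -- the augmentation subgroup lies in `A`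
  have haug : FunModel.augSub (inertiaQ r) E ≤ A := by
    rw [FunModel.augSub, AddSubgroup.closure_le]
    rintro x ⟨σ, hσ, y, rfl⟩
    exact hEA σ hσ y
  intro σ hσ e
  have hx : σ • e - e ∈ FunModel.augSub (inertiaQ r) E := FunModel.smul_sub_mem_augSub hσ e
  have h0 : σ • e - e ∈ (⊥ : AddSubgroup E) := by
    refine flat_mem_of_smul_sub_mem r hr2 hflat hrE ⊥ ?_ hx ?_
    · intro τ _ y hy
      rw [AddSubgroup.mem_bot] at hy ⊢
      rw [hy, smul_zero]
    · intro τ hτ
      rw [AddSubgroup.mem_bot, hA τ hτ _ (haug hx), sub_self]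
  rw [AddSubgroup.mem_bot, sub_eq_zero] at h0
  exact h0

/-- **(L3), Hopf-order form.** -/
theorem flat_inertia_trivial_of_unipotent (hr2 : r ≠ 2) (hflat : HasHopfOrder r E)
    (hrE : ∀ e : E, r • e = 0)
    (A : AddSubgroup E) (hA : ∀ σ ∈ inertiaQ r, ∀ a ∈ A, σ • a = a)
    (hEA : ∀ σ ∈ inertiaQ r, ∀ e : E, σ • e - e ∈ A) :
    ∀ σ ∈ inertiaQ r, ∀ e : E, σ • e = e :=
  flat_inertia_trivial_of_unipotent' hr2 hflat.isFlatGaloisModule hrE A hA hEA

/-- **(L3), global form**: a flat module killed by an odd prime `r`, extension of a module with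
trivial `G_ℚ`-action by a module with trivial `G_ℚ`-action, is unramified at every place over `r`. -/
theorem flat_unramified_of_ext_trivial (hr2 : r ≠ 2) (hflat : HasHopfOrder r E)
    (hrE : ∀ e : E, r • e = 0)
    (A : AddSubgroup E) (hA : ∀ (σ : GQ), ∀ a ∈ A, σ • a = a)
    (hEA : ∀ (σ : GQ) (e : E), σ • e - e ∈ A)
    (A' : ValuationSubring Ω) (hA' : A'.LiesOverPrime r) :
    ∀ σ ∈ A'.inertiaSubgroupIn ℚ, ∀ e : E, σ • e = e := by
  have hr : r.Prime := Fact.out
  have h0 := flat_inertia_trivial_of_unipotent hr2 hflat hrE A (fun σ _ => hA σ)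
    (fun σ _ => hEA σ)
  obtain ⟨τ, hτ⟩ := Fermat.Agent.EC.exists_conj_inertia hr (padicPlace r) A'
    (Fermat.Agent.TW.Kill.padicPlace_liesOverPrime r) hA'
  intro σ hσ e
  have h1 := h0 (τ⁻¹ * σ * τ) (hτ σ hσ) (τ⁻¹ • e)
  rw [mul_smul, mul_smul, smul_inv_smul] at h1
  have h2 := congrArg (fun x => τ • x) h1
  simpa using h2

end Etale

end Fermat.Agent.MZ
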