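/-
PROJECT MZ (branch-only) — (FIN-e), `r` odd — helper8 — **(L4): the multiplicative constituents.**

A flat Galois module `E` killed by an odd prime `r` which is an extension of `ℤ/r` by `μ_r` with
Kummer class `a ∈ ℚˣ` (a generator `e₀` of the quotient with `σ e₀ - e₀ = ι (σ α / α)`,
`α ^ r = a`) is *peu ramifié* at `r`: `r ∣ v_r(a)`.  So the propagated flat condition on a
constituent `μ_r` consists of unit classes.

Proof: flat ⇒ the field cut out by `E` over `ℚ_r` is Fontaine-bounded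
(`exists_fontaineBdd_field_of_isFlatGaloisModule`); it contains `ζ_r` and `α`; the bounded Kummer
theorem `Ram.bddKummer` gives `y ∈ ℚ_r(ζ_r)ˣ` with `‖a y ^ r - 1‖ < 1`, so `‖a‖ = ‖y‖ ^ (-r)`, and
the value group of the tame field `ℚ_r(ζ_r)` has index prime to `r` over that of `ℚ_r`.
-/
import Mathlib
import Fermat.Agent.TW.FlatIface_helper7
import Fermat.Agent.TW.FlatKummer_helper7
import Fermat.Agent.TW.FlatCore_helper7_NF
import Fermat.Agent.TW.FlatCore_helper7_Data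
import Fermat.Agent.TW.FlatLeaf_helper5_NF
import Fermat.Agent.Ram.BddKummer_helper8
import Fermat.Agent.Ram.Bridge_helper7
import Fermat.Agent.FG.HOPF_helper8_Closure

set_option autoImplicit false
set_option linter.unusedSectionVars false
set_option linter.unusedVariables false
set_option linter.style.haveILetI false

namespace Fermat.Agent.MZ

open GaloisRep Fermat.Agent.Ram Fermat.Agent.TW Fermat.Agent.TW.Flat Fermat.Agent.FG
  IntermediateField

local notation "Ω" => AlgebraicClosure ℚ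
local notation "GQ" => (AlgebraicClosure ℚ ≃ₐ[ℚ] AlgebraicClosure ℚ)

section Cyclo

variable {r : ℕ} [Fact r.Prime]

/-- the field `ℚ_r(ζ_r)` is tame: its degree is prime to `r`. -/
theorem not_dvd_finrank_adjoin_zeta {ζ : PadicAlgCl r} (hζ : IsPrimitiveRoot ζ r) :
    ¬ r ∣ Module.finrank ℚ_[r] ↥(ℚ_[r]⟮ζ⟯) := by
  have hr : r.Prime := Fact.out
  haveI : NeZero r := ⟨hr.ne_zero⟩
  have hint : IsIntegral ℚ_[r] ζ := (hζ.isIntegral hr.pos).tower_top
  rw [IntermediateField.adjoin.finrank hint]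
  have hroot : Polynomial.aeval ζ (Polynomial.cyclotomic r ℚ_[r]) = 0 := by
    rw [Polynomial.aeval_def, Polynomial.eval₂_eq_eval_map, Polynomial.map_cyclotomic]
    exact (Polynomial.isRoot_cyclotomic_iff.mpr hζ)
  have hdvd := minpoly.dvd ℚ_[r] ζ hroot
  have hne : Polynomial.cyclotomic r ℚ_[r] ≠ 0 := Polynomial.cyclotomic_ne_zero r _
  have hle := Polynomial.natDegree_le_of_dvd hdvd hne
  rw [Polynomial.natDegree_cyclotomic, Nat.totient_prime hr] at hle
  have hpos : 0 < (minpoly ℚ_[r] ζ).natDegree := minpoly.natDegree_pos hint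
  intro h
  have := Nat.le_of_dvd hpos h
  have h2 := hr.two_le
  omega

/-- the field `ℚ_r(ζ_r)` is Galois over `ℚ_r`. -/
theorem isGalois_adjoin_zeta {ζ : PadicAlgCl r} (hζ : IsPrimitiveRoot ζ r) :
    IsGalois ℚ_[r] ↥(ℚ_[r]⟮ζ⟯) := by
  have hr : r.Prime := Fact.out
  haveI : NeZero r := ⟨hr.ne_zero⟩
  haveI : IsCyclotomicExtension {r} ℚ_[r] ↥(ℚ_[r]⟮ζ⟯) :=
    hζ.intermediateField_adjoin_isCyclotomicExtension ℚ_[r]
  exact IsCyclotomicExtension.isGalois {r} ℚ_[r] ↥(ℚ_[r]⟮ζ⟯)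

end Cyclo

section Mult

variable {r : ℕ} [Fact r.Prime] {E : Type} [AddCommGroup E] [Finite E] [DistribMulAction GQ E]

/-- **(L4), flat-module form.** -/
theorem flat_kummer_val_dvd' (hr2 : r ≠ 2)
    (hflat : IsFlatGaloisModule r E (fun σ m => σ • m)) (hrE : ∀ e : E, r • e = 0)
    (ι : rootsOfUnity r Ω → E) (hι : Function.Injective ι)
    (hισ : ∀ (σ : GQ) (ζ ζ' : rootsOfUnity r Ω), ((ζ' : Ωˣ) : Ω) = σ ((ζ : Ωˣ) : Ω) →
      ι ζ' = σ • ι ζ)
    (e₀ : E) (a : ℚ) (ha : a ≠ 0) (α : Ω) (hα : α ^ r = algebraMap ℚ Ω a)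
    (hc : ∀ (σ : GQ) (ζ : rootsOfUnity r Ω), σ α = ((ζ : Ωˣ) : Ω) * α → σ • e₀ - e₀ = ι ζ) :
    (r : ℤ) ∣ padicValRat r a := by
  classical
  have hr : r.Prime := Fact.out
  haveI : NeZero r := ⟨hr.ne_zero⟩
  have hα0 : α ≠ 0 := by
    rintro rfl
    rw [zero_pow hr.ne_zero] at hα
    exact ha ((map_eq_zero (algebraMap ℚ Ω)).mp hα.symm)
  -- `ι 1 = 0`
  have hι1 : ι 1 = 0 := by
    have := hc 1 1 (by simp)
    rw [one_smul, sub_self] at this
    exact this.symm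
  -- the Fontaine-bounded field
  obtain ⟨L, hL1, hL2, hL3, hL4⟩ := exists_fontaineBdd_field_of_isFlatGaloisModule r
    (fun σ m => σ • m) hflat hrE
  haveI := hL1
  haveI := hL2
  -- the root of unity
  obtain ⟨ζ₀, hζ₀⟩ := HasEnoughRootsOfUnity.exists_primitiveRoot Ω r
  have hζ : IsPrimitiveRoot (padicEmbedding r ζ₀) r :=
    hζ₀.map_of_injective (padicEmbedding r).injective
  have hfixζ : ∀ τ : PadicAlgCl r ≃ₐ[ℚ_[r]] PadicAlgCl r, (∀ z ∈ L, τ z = z) →
      localGaloisToGlobal r τ ζ₀ = ζ₀ := by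
    intro τ hτ
    have h1 := (hL4 τ).mp hτ
    have hp1 : (localGaloisToGlobal r τ ζ₀) ^ r = 1 := by
      rw [← map_pow, hζ₀.pow_eq_one, map_one]
    have h2 := hισ (localGaloisToGlobal r τ) (rootsOfUnity.mkOfPowEq ζ₀ hζ₀.pow_eq_one)
      (rootsOfUnity.mkOfPowEq _ hp1) (by simp)
    rw [h1] at h2
    have h3 := congrArg (fun z : rootsOfUnity r Ω => ((z : Ωˣ) : Ω)) (hι h2)
    simpa using h3
  have hζL : padicEmbedding r ζ₀ ∈ L := by
    refine mem_of_forall_fixing L fun τ hτ => ?_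
    rw [← padicEmbedding_localGaloisToGlobal, hfixζ τ hτ]
  -- the Kummer generator
  have hfixα : ∀ τ : PadicAlgCl r ≃ₐ[ℚ_[r]] PadicAlgCl r, (∀ z ∈ L, τ z = z) →
      localGaloisToGlobal r τ α = α := by
    intro τ hτ
    have h1 := (hL4 τ).mp hτ
    set σ := localGaloisToGlobal r τ with hσ
    have hp1 : (σ α / α) ^ r = 1 := by
      rw [div_pow, ← map_pow, hα, σ.commutes, div_self]
      rw [← hα]
      exact pow_ne_zero r hα0
    have h2 := hc σ (rootsOfUnity.mkOfPowEq _ hp1) (by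
      simp only [rootsOfUnity.val_mkOfPowEq_coe]
      rw [div_mul_cancel₀ _ hα0])
    rw [h1, sub_self] at h2
    have h3 := hι (h2.symm.trans hι1.symm)
    have h4 := congrArg (fun z : rootsOfUnity r Ω => ((z : Ωˣ) : Ω)) h3
    simp only [rootsOfUnity.val_mkOfPowEq_coe, OneMemClass.coe_one, Units.val_one] at h4
    rw [div_eq_one_iff_eq hα0] at h4
    exact h4
  have hαL : padicEmbedding r α ∈ L := by
    refine mem_of_forall_fixing L fun τ hτ => ?_
    rw [← padicEmbedding_localGaloisToGlobal, hfixα τ hτ]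
  -- the cyclotomic field
  set L₀ : IntermediateField ℚ_[r] (PadicAlgCl r) := ℚ_[r]⟮padicEmbedding r ζ₀⟯ with hL₀
  haveI : FiniteDimensional ℚ_[r] L₀ :=
    IntermediateField.adjoin.finiteDimensional ((hζ.isIntegral hr.pos).tower_top)
  haveI : IsGalois ℚ_[r] L₀ := isGalois_adjoin_zeta hζ
  have htame : ¬ r ∣ Module.finrank ℚ_[r] L₀ := not_dvd_finrank_adjoin_zeta hζ
  have hζL₀ : padicEmbedding r ζ₀ ∈ L₀ := mem_adjoin_simple_self ℚ_[r] _
  have hL₀L : L₀ ≤ L := by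
    rw [hL₀, adjoin_simple_le_iff]
    exact hζL
  -- the element `a` in `L₀`
  have hua : padicEmbedding r α ^ r = algebraMap ℚ_[r] (PadicAlgCl r) (a : ℚ_[r]) := by
    rw [← map_pow, hα, AlgHom.commutes]
    rw [IsScalarTower.algebraMap_apply ℚ ℚ_[r] (PadicAlgCl r)]
    rfl
  have hu : algebraMap ℚ_[r] (PadicAlgCl r) (a : ℚ_[r]) ∈ L₀ := L₀.algebraMap_mem _
  have ha' : (a : ℚ_[r]) ≠ 0 := by exact_mod_cast ha
  have hu0 : algebraMap ℚ_[r] (PadicAlgCl r) (a : ℚ_[r]) ≠ 0 :=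
    (map_ne_zero (algebraMap ℚ_[r] (PadicAlgCl r))).mpr ha'
  obtain ⟨y, hyL₀, hy0, hy⟩ := bddKummer L₀ L hL₀L htame hr2 hζ hζL₀ (hL3.fontaineP_two hr2)
    hu hu0 hαL hua
  have hlam1 : ‖padicEmbedding r ζ₀ - 1‖ < 1 :=
    norm_sub_one_lt_one hr norm_natCast_p_lt_one hζ
  have hunit : ‖algebraMap ℚ_[r] (PadicAlgCl r) (a : ℚ_[r]) * y ^ r‖ = 1 :=
    norm_eq_one_of_norm_sub_one_lt (hy.trans hlam1)
  -- the norm of `y`
  obtain ⟨n, σ, hn, -, hN, -⟩ := exists_norm_family r ⊥ L₀ bot_le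
  obtain ⟨c, hc'⟩ := IntermediateField.mem_bot.mp (hN y hyL₀)
  have hnormc : ‖c‖ = ‖y‖ ^ n := by
    rw [← PadicAlgCl.norm_extends, hc', norm_prod]
    simp only [norm_galP_apply]
    rw [Finset.prod_const, Finset.card_univ, Fintype.card_fin]
  have hy0' : 0 < ‖y‖ := norm_pos_iff.mpr hy0
  have hc0 : c ≠ 0 := by
    intro h0
    rw [h0, norm_zero] at hnormc
    exact absurd hnormc.symm (pow_pos hy0' n).ne'
  have hrn : ¬ r ∣ n := fun h => htame (h.trans hn)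
  -- valuations
  have hr1 : (1 : ℝ) < r := by exact_mod_cast hr.one_lt
  have hr0 : (0 : ℝ) < r := by linarith
  have hna : ‖algebraMap ℚ_[r] (PadicAlgCl r) (a : ℚ_[r])‖ = (r : ℝ) ^ (-(padicValRat r a)) := by
    rw [PadicAlgCl.norm_extends, Padic.norm_eq_zpow_neg_valuation ha', Padic.valuation_ratCast]
  have hnc : ‖c‖ = (r : ℝ) ^ (-c.valuation) := Padic.norm_eq_zpow_neg_valuation hc0
  have hkey : (r : ℝ) ^ (-(padicValRat r a) * n + -c.valuation * r) = 1 := by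
    have h1 : (‖algebraMap ℚ_[r] (PadicAlgCl r) (a : ℚ_[r])‖ * ‖y‖ ^ r) ^ n = 1 := by
      rw [← norm_pow, ← norm_mul, hunit, one_pow]
    rw [mul_pow, ← pow_mul, mul_comm r n, pow_mul, ← hnormc, hna, hnc] at h1
    rw [zpow_add₀ hr0.ne', zpow_mul, zpow_mul, zpow_natCast, zpow_natCast]
    exact h1
  have hexp : -(padicValRat r a) * n + -c.valuation * r = 0 := by
    by_contra hne
    rcases lt_or_gt_of_ne hne with h | h
    · have := zpow_lt_one_of_neg₀ hr1 h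
      rw [hkey] at this
      exact lt_irrefl _ this
    · have := one_lt_zpow₀ hr1 h
      rw [hkey] at this
      exact lt_irrefl _ this
  have hdvd : (r : ℤ) ∣ padicValRat r a * n := by
    refine ⟨-c.valuation, ?_⟩
    linarith
  have hcop : IsCoprime (r : ℤ) (n : ℤ) := by
    rw [Nat.isCoprime_iff_coprime]
    exact (Nat.Prime.coprime_iff_not_dvd hr).mpr hrn
  exact hcop.dvd_of_dvd_mul_right hdvd

/-- **(L4), Hopf-order form.** -/
theorem flat_kummer_val_dvd (hr2 : r ≠ 2) (hflat : HasHopfOrder r E) (hrE : ∀ e : E, r • e = 0)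
    (ι : rootsOfUnity r Ω → E) (hι : Function.Injective ι)
    (hισ : ∀ (σ : GQ) (ζ ζ' : rootsOfUnity r Ω), ((ζ' : Ωˣ) : Ω) = σ ((ζ : Ωˣ) : Ω) →
      ι ζ' = σ • ι ζ)
    (e₀ : E) (a : ℚ) (ha : a ≠ 0) (α : Ω) (hα : α ^ r = algebraMap ℚ Ω a)
    (hc : ∀ (σ : GQ) (ζ : rootsOfUnity r Ω), σ α = ((ζ : Ωˣ) : Ω) * α → σ • e₀ - e₀ = ι ζ) :
    (r : ℤ) ∣ padicValRat r a :=
  flat_kummer_val_dvd' hr2 hflat.isFlatGaloisModule hrE ι hι hισ e₀ a ha α hα hc

end Mult

end Fermat.Agent.MZ
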