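/-
PROJECT MZ (branch-only) — (HR), abstract place-level lemma — helper8.

Variant of helper4's `es_place_abstract₂` with the Kronecker congruence removed.  Setting: function
fields `F`, `F'` over `K`, two embeddings `φ ψ : F →ₐ[K] F'` (`φ = β`, `ψ = α`), a function field
`Ft` over `k`, a valuation subring `A ⊆ K` with residue map `res`, a map of places `r`, chart rings
`𝔅₁` (functions compared) and `𝔅₂ ⊇` their norms.  If the norms `N_φ (c - ψ (ι y))` are again chart
functions (`hnorm`), then the push-forward `r_* (ψ_* φ^* P)` depends on `P` only through `r P`.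
-/
import Mathlib
import Fermat.Agent.JA.ES_helper4_Main2

set_option autoImplicit false
set_option linter.unusedSectionVars false
set_option linter.unusedVariables false
set_option linter.style.haveILetI false

open AlgebraicCurve Polynomial

namespace Fermat.Agent.MZ

open Fermat.Agent.JA

section Abstract

variable {K F F' : Type*} [Field K] [Field F] [Field F'] [Algebra K F] [Algebra K F']
  [HasPrincipalDivisors K F']
  {k Ft : Type*} [Field k] [Field Ft] [Algebra k Ft]

/-- **the reduction of the correspondence depends only on the reduction of the place.** -/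
theorem red_corr_eq_of_red_eq [Infinite k]
    (φ ψ : F →ₐ[K] F') (hφ : φ.toRingHom.IsIntegral) (hψ : ψ.toRingHom.IsIntegral)
    (hdeg' : ∀ W : Place K F', W.deg = 1)
    (A : ValuationSubring K) (res : A →+* k) (hres : Function.Surjective res)
    (r : Place K F → Place k Ft)
    {𝔅₁ 𝔅₂ : Type*} (ι : 𝔅₁ → F) (ρ : 𝔅₁ → Ft) (ι₂ : 𝔅₂ → F) (ρ₂ : 𝔅₂ → Ft)
    (good₁ good : Place K F → Prop) (goodk : Place k Ft → Prop)
    (hdegk : ∀ Q, goodk Q → Q.deg = 1)
    (heval : ∀ P, good₁ P → ∀ y : 𝔅₁, ∃ a : A,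
      HasValueAt P (ι y) (a : K) ∧ HasValueAt (r P) (ρ y) (res a))
    (heval₂ : ∀ P, good P → ∀ n : 𝔅₂, ∃ a : A,
      HasValueAt P (ι₂ n) (a : K) ∧ HasValueAt (r P) (ρ₂ n) (res a))
    (hgood_r₁ : ∀ P, good₁ P → goodk (r P))
    (hreg : ∀ (y : 𝔅₁) (Q : Place k Ft), goodk Q → ρ y ∈ Q.toValuationSubring)
    (hG2 : ∀ P, good P → ∀ W ∈ Place.fiberAlong φ hφ P, good₁ (W.restrictAlong ψ hψ))
    (hsep : ∀ T : Finset (Place k Ft), (∀ Q ∈ T, goodk Q) → ∀ Q₀ ∈ T,
      ∃ y : 𝔅₁, HasValueAt Q₀ (ρ y) 0 ∧ ∀ Q ∈ T, Q ≠ Q₀ → ¬ HasValueAt Q (ρ y) 0)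
    (hnorm : ∀ (y : 𝔅₁) (c : A), ∃ n : 𝔅₂,
      ι₂ n = normAlong φ (algebraMap K F' (c : K) - ψ (ι y)))
    (hspec : ∀ (P : Place K F) (z : F') (a : Place K F' → K),
      (∀ W ∈ Place.fiberAlong φ hφ P, HasValueAt W z (a W)) →
      HasValueAt P (normAlong φ z)
        (∏ W ∈ Place.fiberAlong φ hφ P, a W ^ W.ramificationIndexAlong φ))
    (P P' : Place K F) (hP : good P) (hP' : good P') (hPP' : r P = r P') :
    Finsupp.mapDomain r (Divisor.correspondence φ ψ hφ hψ (Finsupp.single P 1))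
      = Finsupp.mapDomain r (Divisor.correspondence φ ψ hφ hψ (Finsupp.single P' 1)) := by
  classical
  -- unfold the correspondence
  rw [correspondence_single φ ψ hφ hψ hdeg' P, correspondence_single φ ψ hφ hψ hdeg' P',
    Finsupp.mapDomain_finsetSum, Finsupp.mapDomain_finsetSum]
  simp only [Finsupp.mapDomain_single]
  -- goodness of all the places involved
  have hgW : ∀ P₁, good P₁ → ∀ W ∈ Place.fiberAlong φ hφ P₁,
      goodk (r (W.restrictAlong ψ hψ)) := fun P₁ hP₁ W hW => hgood_r₁ _ (hG2 P₁ hP₁ W hW)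
  -- every reduction has a value at good places
  have hval : ∀ (y : 𝔅₁) (Q : Place k Ft), goodk Q → HasValueAt Q (ρ y) (valueAt Q (ρ y)) :=
    fun y Q hQ => hasValueAt_valueAt_of_mem (hdegk Q hQ) (hreg y Q hQ)
  -- the value polynomial at a good place is the value of the reduced norm
  have key : ∀ P₁, good P₁ → ∀ (y : 𝔅₁) (c : A) (n : 𝔅₂),
      ι₂ n = normAlong φ (algebraMap K F' (c : K) - ψ (ι y)) →
      ∏ W ∈ Place.fiberAlong φ hφ P₁,
          (res c - valueAt (r (W.restrictAlong ψ hψ)) (ρ y)) ^ W.ramificationIndexAlong φ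
        = valueAt (r P₁) (ρ₂ n) := by
    intro P₁ hP₁ y c n hn1
    set fib := Place.fiberAlong φ hφ P₁ with hfib
    have hW : ∀ W ∈ fib, ∃ a : A, HasValueAt W (ψ (ι y)) (a : K) ∧
        valueAt (r (W.restrictAlong ψ hψ)) (ρ y) = res a := by
      intro W hW
      obtain ⟨a, ha1, ha2⟩ := heval _ (hG2 P₁ hP₁ W hW) y
      exact ⟨a, (hasValueAt_restrictAlong_iff ψ hψ W (ι y) a).mp ha1, ha2.valueAt_eq⟩
    choose! aW haW1 haW2 using hW
    have h1 : HasValueAt P₁ (ι₂ n)
        (∏ W ∈ fib, ((c : K) - (aW W : K)) ^ W.ramificationIndexAlong φ) := by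
      rw [hn1]
      exact hspec P₁ _ (fun W => (c : K) - (aW W : K)) fun W hW =>
        (HasValueAt.algebraMap' W (c : K)).sub (haW1 W hW)
    obtain ⟨b, hb1, hb2⟩ := heval₂ P₁ hP₁ n
    have hb : (b : K) = ∏ W ∈ fib, ((c : K) - (aW W : K)) ^ W.ramificationIndexAlong φ :=
      hb1.unique h1
    have hb' : b = ∏ W ∈ fib, (c - aW W) ^ W.ramificationIndexAlong φ := by
      apply Subtype.ext
      rw [hb]
      push_cast
      rfl
    rw [hb2.valueAt_eq, hb', map_prod]
    refine Finset.prod_congr rfl fun W hW => ?_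
    rw [haW2 W hW, map_pow, map_sub]
  -- the key polynomial identity
  have hpoly : ∀ y : 𝔅₁,
      ∏ W ∈ Place.fiberAlong φ hφ P,
          (X - C (valueAt (r (W.restrictAlong ψ hψ)) (ρ y))) ^ W.ramificationIndexAlong φ
        = ∏ W ∈ Place.fiberAlong φ hφ P',
          (X - C (valueAt (r (W.restrictAlong ψ hψ)) (ρ y))) ^ W.ramificationIndexAlong φ := by
    intro y
    apply Polynomial.funext
    intro x
    obtain ⟨c, rfl⟩ := hres x
    rw [eval_prod, eval_prod]
    simp only [eval_pow, eval_sub, eval_X, eval_C]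
    obtain ⟨n, hn1⟩ := hnorm y c
    rw [key P hP y c n hn1, key P' hP' y c n hn1, hPP']
  -- apply the multiset lemma
  refine sum_single_eq_of_prod_eq (k := k) (Place.fiberAlong φ hφ P) (Place.fiberAlong φ hφ P')
    (fun W => r (W.restrictAlong ψ hψ)) (fun W => W.ramificationIndexAlong φ)
    (fun W => r (W.restrictAlong ψ hψ)) (fun W => W.ramificationIndexAlong φ) ?_
  intro Q₀ hQ₀
  set T : Finset (Place k Ft) :=
    (Place.fiberAlong φ hφ P).image (fun W => r (W.restrictAlong ψ hψ)) ∪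
      (Place.fiberAlong φ hφ P').image (fun W => r (W.restrictAlong ψ hψ)) with hT
  have hTgood : ∀ Q ∈ T, goodk Q := by
    intro Q hQ
    rw [hT, Finset.mem_union, Finset.mem_image, Finset.mem_image] at hQ
    rcases hQ with ⟨W, hW, rfl⟩ | ⟨W, hW, rfl⟩
    · exact hgW P hP W hW
    · exact hgW P' hP' W hW
  have hQ₀T : Q₀ ∈ T := by
    rw [hT, Finset.mem_union, Finset.mem_image, Finset.mem_image]
    rcases hQ₀ with ⟨W, hW, rfl⟩ | ⟨W, hW, rfl⟩
    · exact Or.inl ⟨W, hW, rfl⟩
    · exact Or.inr ⟨W, hW, rfl⟩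
  obtain ⟨y, hy0, hyne⟩ := hsep T hTgood Q₀ hQ₀T
  refine ⟨fun Q => valueAt Q (ρ y), hy0.valueAt_eq, ?_, ?_, hpoly y⟩
  · intro W hW hne h0
    have hmem : r (W.restrictAlong ψ hψ) ∈ T := by
      rw [hT, Finset.mem_union, Finset.mem_image]
      exact Or.inl ⟨W, hW, rfl⟩
    apply hyne _ hmem hne
    have h0' : valueAt (r (W.restrictAlong ψ hψ)) (ρ y) = 0 := h0
    have := hval y _ (hgW P hP W hW)
    rwa [h0'] at this
  · intro W hW hne h0
    have hmem : r (W.restrictAlong ψ hψ) ∈ T := by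
      rw [hT, Finset.mem_union, Finset.mem_image, Finset.mem_image]
      exact Or.inr ⟨W, hW, rfl⟩
    apply hyne _ hmem hne
    have h0' : valueAt (r (W.restrictAlong ψ hψ)) (ρ y) = 0 := h0
    have := hval y _ (hgW P' hP' W hW)
    rwa [h0'] at this

end Abstract

end Fermat.Agent.MZ
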