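/-
PROJECT MZ (branch-only) — (HR), integrality of norms on the chart rings — helper8.

helper4's (KRON-N) lemmas `gauss_kron`, `chart_kron`, `chartLoc_kron` with the Kronecker congruence
removed: for `y` in the chart ring of `z` and `c ∈ A` the norm `N_β (c - α y)` is again
Gauss-integral (norm formula of (ES1), no hypothesis on the residue characteristic) and lies in the
chart ring (resp. its localisation).  Here the Hecke prime `ℓ'` and the valuation ring `A` are
unrelated.
-/
import Mathlib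
import Fermat.Agent.JA.ES_helper4_CuspChart
import Fermat.Agent.JA.ES_helper4_KronChart

set_option autoImplicit false
set_option linter.unusedSectionVars false
set_option linter.unusedVariables false
set_option linter.style.haveILetI false

open HahnSeries IntermediateField AlgebraicCurve

namespace Fermat.Agent.MZ

open ModularCurve Fermat.Agent.X0N Fermat.Agent.Igusa Fermat.Agent.JA

set_option synthInstance.maxHeartbeats 400000
set_option maxHeartbeats 1600000

section Abstract

variable {A Ω : Type*} [CommRing A] [CommRing Ω] (sub : A →+* Ω) (ℓ : ℕ) [NeZero ℓ]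

/-- the first half of `exists_kron_of_norm_formula`: a series `ν` over `Ω` whose `q ↦ q ^ ℓ`
expansion is the norm-formula product of series over `A` comes from a series over `A`. -/
theorem exists_int_of_norm_formula (hsub : Function.Injective sub) (ζ : Aˣ)
    (y : LaurentSeries A) (c : A) (ν : LaurentSeries Ω)
    (hν : qExpand Ω ℓ ν
      = (∏ b ∈ Finset.range ℓ, twist (Units.map (sub : A →* Ω) ζ ^ b)
            (HahnSeries.C (sub c) - coeffMap sub y))
        * (HahnSeries.C (sub c) - qExpand Ω (ℓ ^ 2) (coeffMap sub y))) :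
    ∃ n : LaurentSeries A, coeffMap sub n = ν := by
  set PA : LaurentSeries A :=
    (∏ b ∈ Finset.range ℓ, twist (ζ ^ b) (HahnSeries.C c - y))
      * (HahnSeries.C c - qExpand A (ℓ ^ 2) y) with hPA
  have hsubPA : coeffMap sub PA = qExpand Ω ℓ ν := by
    rw [hν, hPA, map_mul, map_prod]
    congr 1
    · refine Finset.prod_congr rfl fun b _ => ?_
      rw [coeffMap_twist, map_sub, Fermat.Agent.JA.coeffMap_C, map_pow]
    · rw [map_sub, Fermat.Agent.JA.coeffMap_C, coeffMap_qExpand]
  exact ⟨qContract ℓ PA, by rw [coeffMap_qContract, hsubPA, qContract_qExpand]⟩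

end Abstract

section Chart

variable {ℓ : ℕ} [hℓ : Fact ℓ.Prime] {A : ValuationSubring (AlgebraicClosure ℚ)}
  {N : ℕ} [NeZero N]

/-- **integrality of the norm on the Gauss ring.** -/
theorem gauss_normInt (ζ : (↥A)ˣ)
    (hnormf : ∀ (Y : ↥(modularFunctionFieldBar N)) (c : AlgebraicClosure ℚ),
      haveI : NeZero ℓ := ⟨hℓ.out.ne_zero⟩
      qExpand (AlgebraicClosure ℚ) ℓ
          ((normAlong (heckeBetaBar (AlgebraicClosure ℚ) N ℓ)
            (algebraMap (AlgebraicClosure ℚ) ↥(modularFunctionFieldBar (N * ℓ)) c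
              - heckeAlphaBar (AlgebraicClosure ℚ) N ℓ Y) : ↥(modularFunctionFieldBar N)) :
            LaurentSeries (AlgebraicClosure ℚ))
        = (∏ b ∈ Finset.range ℓ,
            twist (Units.map (A.subtype : ↥A →* AlgebraicClosure ℚ) ζ ^ b)
              (HahnSeries.C c - (Y : LaurentSeries (AlgebraicClosure ℚ))))
          * (HahnSeries.C c
              - qExpand (AlgebraicClosure ℚ) (ℓ ^ 2) (Y : LaurentSeries (AlgebraicClosure ℚ))))
    (y : ↥(gaussRing A N)) (c : ↥A) :
    haveI : NeZero ℓ := ⟨hℓ.out.ne_zero⟩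
    ∃ n : ↥(gaussRing A N),
      gaussι A N n = normAlong (heckeBetaBar (AlgebraicClosure ℚ) N ℓ)
        (algebraMap (AlgebraicClosure ℚ) ↥(modularFunctionFieldBar (N * ℓ))
            ((c : ↥A) : AlgebraicClosure ℚ)
          - heckeAlphaBar (AlgebraicClosure ℚ) N ℓ (gaussι A N y)) := by
  haveI : NeZero ℓ := ⟨hℓ.out.ne_zero⟩
  set ν : ↥(modularFunctionFieldBar N) :=
    normAlong (heckeBetaBar (AlgebraicClosure ℚ) N ℓ)
      (algebraMap (AlgebraicClosure ℚ) ↥(modularFunctionFieldBar (N * ℓ))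
          ((c : ↥A) : AlgebraicClosure ℚ)
        - heckeAlphaBar (AlgebraicClosure ℚ) N ℓ (gaussι A N y)) with hν
  have hsub : Function.Injective (A.subtype : ↥A →+* AlgebraicClosure ℚ) := Subtype.val_injective
  obtain ⟨n, hn1⟩ := exists_int_of_norm_formula (A.subtype : ↥A →+* AlgebraicClosure ℚ)
    ℓ hsub ζ (y : LaurentSeries ↥A) c
    (ν : LaurentSeries (AlgebraicClosure ℚ)) (hnormf (gaussι A N y) (c : AlgebraicClosure ℚ))
  have hng : n ∈ gaussRing A N := by
    rw [mem_gaussRing_iff, hn1]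
    exact ν.2
  exact ⟨⟨n, hng⟩, Subtype.ext hn1⟩

/-- **integrality of the norm on a chart ring.** -/
theorem chart_normInt (z : ↥(modularFunctionFieldBar N)) (ζ : (↥A)ˣ)
    (hnormf : ∀ (Y : ↥(modularFunctionFieldBar N)) (c : AlgebraicClosure ℚ),
      haveI : NeZero ℓ := ⟨hℓ.out.ne_zero⟩
      qExpand (AlgebraicClosure ℚ) ℓ
          ((normAlong (heckeBetaBar (AlgebraicClosure ℚ) N ℓ)
            (algebraMap (AlgebraicClosure ℚ) ↥(modularFunctionFieldBar (N * ℓ)) c
              - heckeAlphaBar (AlgebraicClosure ℚ) N ℓ Y) : ↥(modularFunctionFieldBar N)) :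
            LaurentSeries (AlgebraicClosure ℚ))
        = (∏ b ∈ Finset.range ℓ,
            twist (Units.map (A.subtype : ↥A →* AlgebraicClosure ℚ) ζ ^ b)
              (HahnSeries.C c - (Y : LaurentSeries (AlgebraicClosure ℚ))))
          * (HahnSeries.C c
              - qExpand (AlgebraicClosure ℚ) (ℓ ^ 2) (Y : LaurentSeries (AlgebraicClosure ℚ))))
    (hint : haveI : NeZero ℓ := ⟨hℓ.out.ne_zero⟩
      ((heckeBetaBar (AlgebraicClosure ℚ) N ℓ).toRingHom.comp
        (algebraMap ↥(coeffSubring A N z) _)).IsIntegralElem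
          (heckeAlphaBar (AlgebraicClosure ℚ) N ℓ z))
    (y : ↥(chartRing A N z)) (c : ↥A) :
    haveI : NeZero ℓ := ⟨hℓ.out.ne_zero⟩
    ∃ n : ↥(chartRing A N z),
      chartι A N z n = normAlong (heckeBetaBar (AlgebraicClosure ℚ) N ℓ)
        (algebraMap (AlgebraicClosure ℚ) ↥(modularFunctionFieldBar (N * ℓ))
            ((c : ↥A) : AlgebraicClosure ℚ)
          - heckeAlphaBar (AlgebraicClosure ℚ) N ℓ (chartι A N z y)) := by
  haveI : NeZero ℓ := ⟨hℓ.out.ne_zero⟩
  obtain ⟨n, hn⟩ := gauss_normInt ζ hnormf (Subring.inclusion (chartRing_le_gaussRing z) y) c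
  have hn' : gaussι A N n = normAlong (heckeBetaBar (AlgebraicClosure ℚ) N ℓ)
        (algebraMap (AlgebraicClosure ℚ) ↥(modularFunctionFieldBar (N * ℓ))
            ((c : ↥A) : AlgebraicClosure ℚ)
          - heckeAlphaBar (AlgebraicClosure ℚ) N ℓ (chartι A N z y)) := hn
  have hnint : IsIntegral ↥(coeffSubring A N z) (gaussι A N ⟨(n : LaurentSeries ↥A), n.2⟩) := by
    have e0 : (⟨(n : LaurentSeries ↥A), n.2⟩ : ↥(gaussRing A N)) = n := rfl
    rw [e0, hn']
    have e : algebraMap (AlgebraicClosure ℚ) ↥(modularFunctionFieldBar (N * ℓ))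
          ((c : ↥A) : AlgebraicClosure ℚ)
        = heckeBetaBar (AlgebraicClosure ℚ) N ℓ
          (algebraMap ↥(coeffSubring A N z) ↥(modularFunctionFieldBar N)
            ⟨_, algebraMap_mem_coeffSubring z c⟩) := by
      show _ = heckeBetaBar (AlgebraicClosure ℚ) N ℓ
        (algebraMap (AlgebraicClosure ℚ) _ ((c : ↥A) : AlgebraicClosure ℚ))
      rw [AlgHom.commutes]
    rw [e]
    exact isIntegral_normAlong_sub (heckeBetaBar (AlgebraicClosure ℚ) N ℓ)
      (heckeAlphaBar (AlgebraicClosure ℚ) N ℓ)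
      (isIntegralElem_of_coeffSubring A N z _ _ hint) _ _ (isIntegral_chartι z y)
  exact ⟨⟨(n : LaurentSeries ↥A), n.2, hnint⟩, hn'⟩

/-- **integrality of the norm on the localised chart ring.** -/
theorem chartLoc_normInt (z : ↥(modularFunctionFieldBar N)) (s : ↥(chartRing A N z))
    (hsz : chartι A N z s ∈ coeffSubring A N z) (hs0 : chartι A N z s ≠ 0)
    (ζ : (↥A)ˣ)
    (hnormf : ∀ (Y : ↥(modularFunctionFieldBar N)) (c : AlgebraicClosure ℚ),
      haveI : NeZero ℓ := ⟨hℓ.out.ne_zero⟩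
      qExpand (AlgebraicClosure ℚ) ℓ
          ((normAlong (heckeBetaBar (AlgebraicClosure ℚ) N ℓ)
            (algebraMap (AlgebraicClosure ℚ) ↥(modularFunctionFieldBar (N * ℓ)) c
              - heckeAlphaBar (AlgebraicClosure ℚ) N ℓ Y) : ↥(modularFunctionFieldBar N)) :
            LaurentSeries (AlgebraicClosure ℚ))
        = (∏ b ∈ Finset.range ℓ,
            twist (Units.map (A.subtype : ↥A →* AlgebraicClosure ℚ) ζ ^ b)
              (HahnSeries.C c - (Y : LaurentSeries (AlgebraicClosure ℚ))))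
          * (HahnSeries.C c
              - qExpand (AlgebraicClosure ℚ) (ℓ ^ 2) (Y : LaurentSeries (AlgebraicClosure ℚ))))
    (hint : haveI : NeZero ℓ := ⟨hℓ.out.ne_zero⟩
      IsIntegral ↥(Algebra.adjoin ℤ
        {heckeBetaBar (AlgebraicClosure ℚ) N ℓ z,
          (heckeBetaBar (AlgebraicClosure ℚ) N ℓ (chartι A N z s))⁻¹})
        (heckeAlphaBar (AlgebraicClosure ℚ) N ℓ z))
    (y : ↥(chartRing A N z)) (c : ↥A) :
    haveI : NeZero ℓ := ⟨hℓ.out.ne_zero⟩
    ∃ n : chartLoc A N z s,
      gaussι A N n.1 = normAlong (heckeBetaBar (AlgebraicClosure ℚ) N ℓ)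
        (algebraMap (AlgebraicClosure ℚ) ↥(modularFunctionFieldBar (N * ℓ))
            ((c : ↥A) : AlgebraicClosure ℚ)
          - heckeAlphaBar (AlgebraicClosure ℚ) N ℓ (chartι A N z y)) := by
  haveI : NeZero ℓ := ⟨hℓ.out.ne_zero⟩
  obtain ⟨n, hn1⟩ := gauss_normInt ζ hnormf (Subring.inclusion (chartRing_le_gaussRing z) y) c
  -- localised integrality of the norm
  obtain ⟨m, hm⟩ := exists_isIntegral_pow_mul_normAlong
    (heckeBetaBar (AlgebraicClosure ℚ) N ℓ) (heckeAlphaBar (AlgebraicClosure ℚ) N ℓ)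
    (coeffSubring A N z) ⟨chartι A N z s, hsz⟩ hs0
    (isIntegral_closure_of_coeffSubring z (chartι A N z s) _ _ hint)
    ⟨_, algebraMap_mem_coeffSubring z c⟩ (chartι A N z y) (isIntegral_chartι z y)
  have hmem : (s : LaurentSeries ↥A) ^ m * (n : LaurentSeries ↥A) ∈ chartRing A N z := by
    have hg : (s : LaurentSeries ↥A) ^ m * (n : LaurentSeries ↥A) ∈ gaussRing A N :=
      (gaussRing A N).mul_mem ((gaussRing A N).pow_mem s.2.1 m) n.2
    refine ⟨hg, ?_⟩
    have e : gaussι A N ⟨_, hg⟩ = chartι A N z s ^ m * gaussι A N n := by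
      apply Subtype.ext
      show coeffMap A.subtype ((s : LaurentSeries ↥A) ^ m * (n : LaurentSeries ↥A)) = _
      rw [map_mul, map_pow]
      rfl
    rw [e, hn1]
    have e2 : (heckeBetaBar (AlgebraicClosure ℚ) N ℓ)
        (algebraMap (AlgebraicClosure ℚ) ↥(modularFunctionFieldBar N)
          ((c : ↥A) : AlgebraicClosure ℚ))
        = algebraMap (AlgebraicClosure ℚ) ↥(modularFunctionFieldBar (N * ℓ))
          ((c : ↥A) : AlgebraicClosure ℚ) := AlgHom.commutes _ _
    rw [← e2]
    exact hm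
  exact ⟨⟨n, m, hmem⟩, hn1⟩

end Chart

end Fermat.Agent.MZ
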