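/-
PROJECT MZ (branch-only) — (HR), place-level statement on the two charts — helper8.

**`hr_place_all`**: for a map of places `r` evaluating both charts `j`, `(j - b)⁻¹` of `X₀(N)` at a
valuation ring `A` of `ℚ̄`, and ANY Hecke prime `ℓ ∤ N` (equal to the residue characteristic or
not): `r P = r P' ⟹ r_* (T_ℓ P) = r_* (T_ℓ P')` as divisors.  Clone of helper4's
`es_place_jchart` / `es_place_vchart` / `es_place_all` (JA/ES_helper4_Final) with the Kronecker
congruence replaced by the integrality of norms (`HR_helper8_Norm`) and `es_place_modular` by the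
modular specialisation of `red_corr_eq_of_red_eq`.
-/
import Mathlib
import Fermat.Agent.JA.ES_helper4_Final
import Fermat.Agent.MZ.HR_helper8_Abstract
import Fermat.Agent.MZ.HR_helper8_Norm

set_option autoImplicit false
set_option linter.unusedSectionVars false
set_option linter.unusedVariables false
set_option linter.style.haveILetI false

open HahnSeries IntermediateField AlgebraicCurve

namespace Fermat.Agent.MZ

open ModularCurve Fermat.Agent.X0N Fermat.Agent.Igusa Fermat.Agent.JA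

set_option synthInstance.maxHeartbeats 400000
set_option maxHeartbeats 1600000

section Modular

variable {A : ValuationSubring (AlgebraicClosure ℚ)} {N : ℕ} [NeZero N] {ℓ : ℕ} [NeZero ℓ]

/-- the modular specialisation of `red_corr_eq_of_red_eq`. -/
theorem hr_place_modular
    [HasPrincipalDivisors (AlgebraicClosure ℚ)
      (laurentBaseChange (AlgebraicClosure ℚ) (modularFunctionFieldFull (N * ℓ)))]
    (hα : HeckeAlphaBarIntegral (AlgebraicClosure ℚ) N ℓ)
    (hβ : HeckeBetaBarIntegral (AlgebraicClosure ℚ) N ℓ)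
    (r : Place (AlgebraicClosure ℚ) (modularFunctionFieldBar N) →
      Place (IsLocalRing.ResidueField A)
        (modularFunctionFieldFullC (IsLocalRing.ResidueField A) N))
    {𝔅₁ 𝔅₂ : Type*} (ι : 𝔅₁ → modularFunctionFieldBar N)
    (ρ : 𝔅₁ → modularFunctionFieldFullC (IsLocalRing.ResidueField A) N)
    (ι₂ : 𝔅₂ → modularFunctionFieldBar N)
    (ρ₂ : 𝔅₂ → modularFunctionFieldFullC (IsLocalRing.ResidueField A) N)
    (good₁ good : Place (AlgebraicClosure ℚ) (modularFunctionFieldBar N) → Prop)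
    (goodk : Place (IsLocalRing.ResidueField A)
      (modularFunctionFieldFullC (IsLocalRing.ResidueField A) N) → Prop)
    (hdegk : ∀ Q, goodk Q → Q.deg = 1)
    (heval : ∀ P, good₁ P → ∀ y : 𝔅₁, ∃ a : A,
      HasValueAt P (ι y) (a : AlgebraicClosure ℚ) ∧
        HasValueAt (r P) (ρ y) (IsLocalRing.residue A a))
    (heval₂ : ∀ P, good P → ∀ n : 𝔅₂, ∃ a : A,
      HasValueAt P (ι₂ n) (a : AlgebraicClosure ℚ) ∧
        HasValueAt (r P) (ρ₂ n) (IsLocalRing.residue A a))
    (hgood_r₁ : ∀ P, good₁ P → goodk (r P))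
    (hreg : ∀ (y : 𝔅₁) Q, goodk Q → ρ y ∈ Q.toValuationSubring)
    (hG2 : ∀ P, good P →
      ∀ W ∈ Place.fiberAlong (heckeBetaBar (AlgebraicClosure ℚ) N ℓ) hβ P,
        good₁ (W.restrictAlong (heckeAlphaBar (AlgebraicClosure ℚ) N ℓ) hα))
    (hsep : ∀ T : Finset (Place (IsLocalRing.ResidueField A)
        (modularFunctionFieldFullC (IsLocalRing.ResidueField A) N)),
      (∀ Q ∈ T, goodk Q) → ∀ Q₀ ∈ T,
      ∃ y : 𝔅₁, HasValueAt Q₀ (ρ y) 0 ∧ ∀ Q ∈ T, Q ≠ Q₀ → ¬ HasValueAt Q (ρ y) 0)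
    (hnorm : ∀ (y : 𝔅₁) (c : A), ∃ n : 𝔅₂,
      ι₂ n = normAlong (heckeBetaBar (AlgebraicClosure ℚ) N ℓ)
        (algebraMap (AlgebraicClosure ℚ) (modularFunctionFieldBar (N * ℓ)) (c : AlgebraicClosure ℚ)
          - heckeAlphaBar (AlgebraicClosure ℚ) N ℓ (ι y)))
    (hspec : ∀ (P : Place (AlgebraicClosure ℚ) (modularFunctionFieldBar N))
      (z : modularFunctionFieldBar (N * ℓ))
      (a : Place (AlgebraicClosure ℚ) (modularFunctionFieldBar (N * ℓ)) → AlgebraicClosure ℚ),
      (∀ W ∈ Place.fiberAlong (heckeBetaBar (AlgebraicClosure ℚ) N ℓ) hβ P, HasValueAt W z (a W)) →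
      HasValueAt P (normAlong (heckeBetaBar (AlgebraicClosure ℚ) N ℓ) z)
        (∏ W ∈ Place.fiberAlong (heckeBetaBar (AlgebraicClosure ℚ) N ℓ) hβ P,
          a W ^ W.ramificationIndexAlong (heckeBetaBar (AlgebraicClosure ℚ) N ℓ)))
    (P P' : Place (AlgebraicClosure ℚ) (modularFunctionFieldBar N)) (hP : good P)
    (hP' : good P') (hPP' : r P = r P') :
    Finsupp.mapDomain r (heckeDivBar hα hβ (Finsupp.single P 1))
      = Finsupp.mapDomain r (heckeDivBar hα hβ (Finsupp.single P' 1)) := by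
  haveI : IsAlgClosed (IsLocalRing.ResidueField A) := isAlgClosed_residueField A
  haveI : Infinite (IsLocalRing.ResidueField A) := IsAlgClosed.instInfinite
  exact red_corr_eq_of_red_eq (heckeBetaBar (AlgebraicClosure ℚ) N ℓ)
    (heckeAlphaBar (AlgebraicClosure ℚ) N ℓ) hβ hα
    (fun W => (jCoordBar (N * ℓ)).deg_eq_one W) A (IsLocalRing.residue A)
    IsLocalRing.residue_surjective r
    ι ρ ι₂ ρ₂ good₁ good goodk hdegk heval heval₂ hgood_r₁ hreg hG2 hsep hnorm
    hspec P P' hP hP' hPP'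

end Modular

section Main

variable {ℓ : ℕ} [hℓ : Fact ℓ.Prime] {A : ValuationSubring (AlgebraicClosure ℚ)}
  {N : ℕ} [NeZero N]

/-- **(HR1) on the `j`-chart.** -/
theorem hr_place_jchart (hℓN : ¬ ℓ ∣ N)
    (h : GaussRes A N (IsLocalRing.residue A))
    [HasPrincipalDivisors (AlgebraicClosure ℚ)
      (laurentBaseChange (AlgebraicClosure ℚ) (modularFunctionFieldFull (N * ℓ)))]
    (hα : haveI : NeZero ℓ := ⟨hℓ.out.ne_zero⟩; HeckeAlphaBarIntegral (AlgebraicClosure ℚ) N ℓ)
    (hβ : haveI : NeZero ℓ := ⟨hℓ.out.ne_zero⟩; HeckeBetaBarIntegral (AlgebraicClosure ℚ) N ℓ)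
    (r : Place (AlgebraicClosure ℚ) (modularFunctionFieldBar N) →
      Place (IsLocalRing.ResidueField A)
        (modularFunctionFieldFullC (IsLocalRing.ResidueField A) N))
    (hdegk : ∀ Q : Place (IsLocalRing.ResidueField A)
      (modularFunctionFieldFullC (IsLocalRing.ResidueField A) N), Q.deg = 1)
    (hev : ChartEval h (jBar N) r)
    (hsep : ChartSep h (jBar N)
      (fun Q => jTildeElt (IsLocalRing.ResidueField A) N ∈ Q.toValuationSubring))
    (P P' : Place (AlgebraicClosure ℚ) (modularFunctionFieldBar N))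
    (hP : GoodAt A N (jBar N) P) (hP' : GoodAt A N (jBar N) P') (hPP' : r P = r P') :
    haveI : NeZero ℓ := ⟨hℓ.out.ne_zero⟩
    Finsupp.mapDomain r (heckeDivBar hα hβ (Finsupp.single P 1))
      = Finsupp.mapDomain r (heckeDivBar hα hβ (Finsupp.single P' 1)) := by
  haveI : NeZero ℓ := ⟨hℓ.out.ne_zero⟩
  obtain ⟨ζ, hζ⟩ := exists_unit_isPrimitiveRoot A ℓ
  have hdeg' : ∀ W : Place (AlgebraicClosure ℚ) (modularFunctionFieldBar (N * ℓ)), W.deg = 1 :=
    fun W => (jCoordBar (N * ℓ)).deg_eq_one W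
  refine hr_place_modular hα hβ r (chartι A N (jBar N)) (chartρF h (jBar N))
    (chartι A N (jBar N)) (chartρF h (jBar N)) (GoodAt A N (jBar N)) (GoodAt A N (jBar N))
    (fun Q => jTildeElt (IsLocalRing.ResidueField A) N ∈ Q.toValuationSubring)
    (fun Q _ => hdegk Q) hev hev ?_ ?_ ?_ hsep ?_ ?_ P P' hP hP' hPP'
  · -- hgood_r₁
    intro P hP
    obtain ⟨a, -, h2⟩ := hev P hP (jA A N)
    rw [chartρF_jA] at h2
    exact h2.mem
  · -- hreg
    intro y Q hQ
    refine chartρF_mem_of_mem h (jBar N)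
      (Subring.inclusion (chartRing_le_gaussRing (jBar N)) (jA A N)) chartι_jA y Q ?_
    have e : gaussρF h (Subring.inclusion (chartRing_le_gaussRing (jBar N)) (jA A N))
        = jTildeElt (IsLocalRing.ResidueField A) N := chartρF_jA h
    rw [e]
    exact hQ
  · -- hG2
    intro P hP W hW
    obtain ⟨a, ha⟩ := hP
    have hWP : W.restrictAlong (heckeBetaBar (AlgebraicClosure ℚ) N ℓ) hβ = P :=
      Place.mem_fiberAlong.mp hW
    have h1 : HasValueAt W (heckeBetaBar (AlgebraicClosure ℚ) N ℓ (jBar N))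
        (a : AlgebraicClosure ℚ) := by
      rw [← hasValueAt_restrictAlong_iff _ hβ, hWP]
      exact ha
    obtain ⟨a', ha'⟩ := hasValueAt_of_isIntegral_adjoin_int (A := A) (hdeg' W)
      (isIntegral_heckeAlphaBar_jBar hℓ.out hℓN) ⟨a, h1⟩
    exact ⟨a', (hasValueAt_restrictAlong_iff _ hα W _ _).mpr ha'⟩
  · -- hnorm
    exact chart_normInt (jBar N) ζ (hnormf_of_es1 hℓN ζ hζ) (hint_jBar hℓN)
  · -- hspec
    intro P z a hz
    exact hasValueAt_normAlong _ hβ (finiteAlong_heckeBetaBar N ℓ) hdeg' P z a hz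

/-- **(HR1) on the cusp chart `V = (j - b)⁻¹`.** -/
theorem hr_place_vchart (hℓN : ¬ ℓ ∣ N)
    (h : GaussRes A N (IsLocalRing.residue A))
    [HasPrincipalDivisors (AlgebraicClosure ℚ)
      (laurentBaseChange (AlgebraicClosure ℚ) (modularFunctionFieldFull (N * ℓ)))]
    (hα : haveI : NeZero ℓ := ⟨hℓ.out.ne_zero⟩; HeckeAlphaBarIntegral (AlgebraicClosure ℚ) N ℓ)
    (hβ : haveI : NeZero ℓ := ⟨hℓ.out.ne_zero⟩; HeckeBetaBarIntegral (AlgebraicClosure ℚ) N ℓ)
    (r : Place (AlgebraicClosure ℚ) (modularFunctionFieldBar N) →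
      Place (IsLocalRing.ResidueField A)
        (modularFunctionFieldFullC (IsLocalRing.ResidueField A) N))
    (b : ℤ)
    (hdegk : ∀ Q : Place (IsLocalRing.ResidueField A)
      (modularFunctionFieldFullC (IsLocalRing.ResidueField A) N), Q.deg = 1)
    (hev : ChartEval h (jBar N - (b : ↥(modularFunctionFieldBar N)))⁻¹ r)
    (hsep : ChartSep h (jBar N - (b : ↥(modularFunctionFieldBar N)))⁻¹
      (fun Q => HasValueAt Q (jTildeElt (IsLocalRing.ResidueField A) N
        - (b : ↥(modularFunctionFieldFullC (IsLocalRing.ResidueField A) N)))⁻¹ 0))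
    (P P' : Place (AlgebraicClosure ℚ) (modularFunctionFieldBar N))
    (hP : ∃ a : ↥A, IsLocalRing.residue ↥A a = 0 ∧
      HasValueAt P (jBar N - (b : ↥(modularFunctionFieldBar N)))⁻¹ (a : AlgebraicClosure ℚ))
    (hP' : ∃ a : ↥A, IsLocalRing.residue ↥A a = 0 ∧
      HasValueAt P' (jBar N - (b : ↥(modularFunctionFieldBar N)))⁻¹ (a : AlgebraicClosure ℚ))
    (hPP' : r P = r P') :
    haveI : NeZero ℓ := ⟨hℓ.out.ne_zero⟩
    Finsupp.mapDomain r (heckeDivBar hα hβ (Finsupp.single P 1))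
      = Finsupp.mapDomain r (heckeDivBar hα hβ (Finsupp.single P' 1)) := by
  haveI : NeZero ℓ := ⟨hℓ.out.ne_zero⟩
  obtain ⟨ζ, hζ⟩ := exists_unit_isPrimitiveRoot A ℓ
  have hdeg' : ∀ W : Place (AlgebraicClosure ℚ) (modularFunctionFieldBar (N * ℓ)), W.deg = 1 :=
    fun W => (jCoordBar (N * ℓ)).deg_eq_one W
  set V : ↥(modularFunctionFieldBar N) := (jBar N - (b : ↥(modularFunctionFieldBar N)))⁻¹ with hV
  set Vt : ↥(modularFunctionFieldFullC (IsLocalRing.ResidueField A) N) :=
    (jTildeElt (IsLocalRing.ResidueField A) N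
      - (b : ↥(modularFunctionFieldFullC (IsLocalRing.ResidueField A) N)))⁻¹ with hVt
  -- the polynomial `u` of the cusp integrality
  obtain ⟨u, hu0, hune, hint⟩ := exists_isIntegral_heckeAlphaBar_inv_jBar_sub (N := N) (ℓ := ℓ) b
  rw [← hV] at hune hint
  set sA : ↥(chartRing A N V) := Polynomial.aeval (vA A N b) u with hsA
  have hιs : chartι A N V sA = Polynomial.aeval V u := by
    rw [hsA, chartι_aeval, chartι_vA]
  have hβs : heckeBetaBar (AlgebraicClosure ℚ) N ℓ (Polynomial.aeval V u)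
      = Polynomial.aeval (heckeBetaBar (AlgebraicClosure ℚ) N ℓ V) u :=
    (Polynomial.aeval_algHom_apply
      ((heckeBetaBar (AlgebraicClosure ℚ) N ℓ).toRingHom.toIntAlgHom) V u).symm
  have hsz : chartι A N V sA ∈ coeffSubring A N V := by
    rw [hιs]
    exact aeval_mem_coeffSubring V u
  have hs0 : chartι A N V sA ≠ 0 := by
    rw [hιs]
    intro h0
    apply hune
    rw [← hβs, h0, map_zero]
  have hint' : IsIntegral ↥(Algebra.adjoin ℤ
      {heckeBetaBar (AlgebraicClosure ℚ) N ℓ V,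
        (heckeBetaBar (AlgebraicClosure ℚ) N ℓ (chartι A N V sA))⁻¹})
      (heckeAlphaBar (AlgebraicClosure ℚ) N ℓ V) := by
    rw [hιs, hβs]
    exact hint
  -- the value of `sA` at a good place is a unit
  have hsP : ∀ P : Place (AlgebraicClosure ℚ) (modularFunctionFieldBar N),
      (∃ a : ↥A, IsLocalRing.residue ↥A a = 0 ∧ HasValueAt P V (a : AlgebraicClosure ℚ)) →
      ∃ a : ↥A, IsUnit a ∧ HasValueAt P (chartι A N V sA) (a : AlgebraicClosure ℚ) := by
    rintro P ⟨a, ha0, ha⟩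
    refine ⟨Polynomial.aeval a u, isUnit_aeval_of_residue_eq_zero A u hu0 a ha0, ?_⟩
    have e : ((Polynomial.aeval a u : ↥A) : AlgebraicClosure ℚ)
        = Polynomial.aeval (a : AlgebraicClosure ℚ) u :=
      (Polynomial.aeval_algHom_apply (A.subtype.toIntAlgHom) a u).symm
    rw [hιs, e]
    exact ha.aeval_int u
  have hgood_r : ∀ P : Place (AlgebraicClosure ℚ) (modularFunctionFieldBar N),
      (∃ a : ↥A, IsLocalRing.residue ↥A a = 0 ∧ HasValueAt P V (a : AlgebraicClosure ℚ)) →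
      HasValueAt (r P) Vt 0 := by
    rintro P ⟨a, ha0, ha⟩
    obtain ⟨a', h1, h2⟩ := hev P ⟨a, ha⟩ (vA A N b)
    rw [chartι_vA] at h1
    rw [chartρF_vA] at h2
    have e : a' = a := Subtype.ext (h1.unique ha)
    rw [e, ha0] at h2
    exact h2
  refine hr_place_modular hα hβ r (chartι A N V) (chartρF h V)
    (fun n : chartLoc A N V sA => gaussι A N n.1) (fun n : chartLoc A N V sA => gaussρF h n.1)
    (fun P => ∃ a : ↥A, IsLocalRing.residue ↥A a = 0 ∧ HasValueAt P V (a : AlgebraicClosure ℚ))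
    (fun P => ∃ a : ↥A, IsLocalRing.residue ↥A a = 0 ∧ HasValueAt P V (a : AlgebraicClosure ℚ))
    (fun Q => HasValueAt Q Vt 0)
    (fun Q _ => hdegk Q) ?_ ?_ hgood_r ?_ ?_ hsep ?_ ?_ P P' hP hP' hPP'
  · -- heval
    rintro P ⟨a, -, ha⟩ y
    exact hev P ⟨a, ha⟩ y
  · -- heval₂
    rintro P ⟨a, ha0, ha⟩ n
    exact chartLoc_eval h V r hev sA P ⟨a, ha⟩ (hsP P ⟨a, ha0, ha⟩) n
  · -- hreg
    intro y Q hQ
    refine chartρF_mem_of_mem h V
      (Subring.inclusion (chartRing_le_gaussRing V) (vA A N b)) (chartι_vA b) y Q ?_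
    have e : gaussρF h (Subring.inclusion (chartRing_le_gaussRing V) (vA A N b)) = Vt :=
      chartρF_vA h b
    rw [e]
    exact hQ.mem
  · -- hG2
    rintro P ⟨a, ha0, ha⟩ W hW
    have hWP : W.restrictAlong (heckeBetaBar (AlgebraicClosure ℚ) N ℓ) hβ = P :=
      Place.mem_fiberAlong.mp hW
    have h1 : HasValueAt W (heckeBetaBar (AlgebraicClosure ℚ) N ℓ V)
        (a : AlgebraicClosure ℚ) := by
      rw [← hasValueAt_restrictAlong_iff _ hβ, hWP]
      exact ha
    rw [hV, map_inv_jBar_sub] at h1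
    have hYb : heckeBetaBar (AlgebraicClosure ℚ) N ℓ (jBar N)
        - (b : ↥(modularFunctionFieldBar (N * ℓ))) ≠ 0 := by
      have e : heckeBetaBar (AlgebraicClosure ℚ) N ℓ (jBar N)
          - (b : ↥(modularFunctionFieldBar (N * ℓ)))
          = heckeBetaBar (AlgebraicClosure ℚ) N ℓ
            (jBar N - (b : ↥(modularFunctionFieldBar N))) := by
        rw [map_sub, map_intCast]
      rw [e]
      exact (map_ne_zero _).mpr (jBar_sub_intCast_ne_zero b)
    obtain ⟨a', ha'0, ha'⟩ := hasValueAt_inv_sub_of_isIntegral_adjoin_int (A := A) (hdeg' W) b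
      (isIntegral_heckeBetaBar_jBar (N := N) (ℓ := ℓ)) hYb ⟨a, ha0, h1⟩
    refine ⟨a', ha'0, (hasValueAt_restrictAlong_iff _ hα W _ _).mpr ?_⟩
    rw [hV, map_inv_jBar_sub]
    exact ha'
  · -- hnorm
    exact chartLoc_normInt V sA hsz hs0 ζ (hnormf_of_es1 hℓN ζ hζ) hint'
  · -- hspec
    intro P z a hz
    exact hasValueAt_normAlong _ hβ (finiteAlong_heckeBetaBar N ℓ) hdeg' P z a hz

/-- a place of `F̃` at which `j̃` is regular is not a zero of `(j̃ - b)⁻¹`. -/
theorem not_hasValueAt_inv_sub_zero_of_mem (b : ℤ)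
    (Q : Place (IsLocalRing.ResidueField A)
      (modularFunctionFieldFullC (IsLocalRing.ResidueField A) N))
    (h1 : jTildeElt (IsLocalRing.ResidueField A) N ∈ Q.toValuationSubring)
    (h2 : HasValueAt Q (jTildeElt (IsLocalRing.ResidueField A) N
        - (b : ↥(modularFunctionFieldFullC (IsLocalRing.ResidueField A) N)))⁻¹ 0) : False := by
  set w : ↥(modularFunctionFieldFullC (IsLocalRing.ResidueField A) N) :=
    jTildeElt (IsLocalRing.ResidueField A) N
      - (b : ↥(modularFunctionFieldFullC (IsLocalRing.ResidueField A) N)) with hw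
  have hw0 : w ≠ 0 := by
    intro h0
    apply transcendental_jTildeElt (IsLocalRing.ResidueField A) N
    have e : jTildeElt (IsLocalRing.ResidueField A) N
        = algebraMap (IsLocalRing.ResidueField A)
          ↥(modularFunctionFieldFullC (IsLocalRing.ResidueField A) N)
          ((b : ℤ) : IsLocalRing.ResidueField A) := by
      rw [map_intCast]
      exact sub_eq_zero.mp h0
    rw [e]
    exact isAlgebraic_algebraMap _
  have hwmem : w ∈ Q.toValuationSubring :=
    Q.toValuationSubring.sub_mem h1 (intCast_mem _ b)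
  have hv1 : Q.adicValuation w ≤ 1 := Q.adicValuation_le_one_of_mem hwmem
  have hv2 : Q.adicValuation w⁻¹ < 1 := HasValueAt.zero_iff_lt.mp h2
  have hv0 : Q.adicValuation w ≠ 0 := (map_ne_zero _).mpr hw0
  have h3 : Q.adicValuation w * Q.adicValuation w⁻¹ = 1 := by
    rw [← map_mul, mul_inv_cancel₀ hw0, map_one]
  have h4 : Q.adicValuation w * Q.adicValuation w⁻¹ < 1 := by
    calc Q.adicValuation w * Q.adicValuation w⁻¹
        ≤ 1 * Q.adicValuation w⁻¹ := mul_le_mul_left hv1 _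
      _ = Q.adicValuation w⁻¹ := one_mul _
      _ < 1 := hv2
  rw [h3] at h4
  exact lt_irrefl _ h4

/-- **(HR1): for every pair of places of `X₀(N)` with the same reduction the reductions of their
Hecke transforms coincide.** -/
theorem hr_place_all (hℓN : ¬ ℓ ∣ N)
    (h : GaussRes A N (IsLocalRing.residue A))
    [HasPrincipalDivisors (AlgebraicClosure ℚ)
      (laurentBaseChange (AlgebraicClosure ℚ) (modularFunctionFieldFull (N * ℓ)))]
    (hα : haveI : NeZero ℓ := ⟨hℓ.out.ne_zero⟩; HeckeAlphaBarIntegral (AlgebraicClosure ℚ) N ℓ)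
    (hβ : haveI : NeZero ℓ := ⟨hℓ.out.ne_zero⟩; HeckeBetaBarIntegral (AlgebraicClosure ℚ) N ℓ)
    (r : Place (AlgebraicClosure ℚ) (modularFunctionFieldBar N) →
      Place (IsLocalRing.ResidueField A)
        (modularFunctionFieldFullC (IsLocalRing.ResidueField A) N))
    (b : ℤ)
    (hdegk : ∀ Q : Place (IsLocalRing.ResidueField A)
      (modularFunctionFieldFullC (IsLocalRing.ResidueField A) N), Q.deg = 1)
    (hevJ : ChartEval h (jBar N) r)
    (hsepJ : ChartSep h (jBar N)
      (fun Q => jTildeElt (IsLocalRing.ResidueField A) N ∈ Q.toValuationSubring))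
    (hevV : ChartEval h (jBar N - (b : ↥(modularFunctionFieldBar N)))⁻¹ r)
    (hsepV : ChartSep h (jBar N - (b : ↥(modularFunctionFieldBar N)))⁻¹
      (fun Q => HasValueAt Q (jTildeElt (IsLocalRing.ResidueField A) N
        - (b : ↥(modularFunctionFieldFullC (IsLocalRing.ResidueField A) N)))⁻¹ 0))
    (P P' : Place (AlgebraicClosure ℚ) (modularFunctionFieldBar N)) (hPP' : r P = r P') :
    haveI : NeZero ℓ := ⟨hℓ.out.ne_zero⟩
    Finsupp.mapDomain r (heckeDivBar hα hβ (Finsupp.single P 1))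
      = Finsupp.mapDomain r (heckeDivBar hα hβ (Finsupp.single P' 1)) := by
  haveI : NeZero ℓ := ⟨hℓ.out.ne_zero⟩
  -- reductions of good places
  have hJ : ∀ P₁ : Place (AlgebraicClosure ℚ) (modularFunctionFieldBar N),
      GoodAt A N (jBar N) P₁ →
      jTildeElt (IsLocalRing.ResidueField A) N ∈ (r P₁).toValuationSubring := by
    intro P₁ hP₁
    obtain ⟨a, -, h2⟩ := hevJ P₁ hP₁ (jA A N)
    rw [chartρF_jA] at h2
    exact h2.mem
  have hV : ∀ P₁ : Place (AlgebraicClosure ℚ) (modularFunctionFieldBar N),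
      (∃ a : ↥A, IsLocalRing.residue ↥A a = 0 ∧
        HasValueAt P₁ (jBar N - (b : ↥(modularFunctionFieldBar N)))⁻¹
          (a : AlgebraicClosure ℚ)) →
      HasValueAt (r P₁) (jTildeElt (IsLocalRing.ResidueField A) N
        - (b : ↥(modularFunctionFieldFullC (IsLocalRing.ResidueField A) N)))⁻¹ 0 := by
    rintro P₁ ⟨a, ha0, ha⟩
    obtain ⟨a', h1, h2⟩ := hevV P₁ ⟨a, ha⟩ (vA A N b)
    rw [chartι_vA] at h1
    rw [chartρF_vA] at h2
    have e : a' = a := Subtype.ext (h1.unique ha)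
    rw [e, ha0] at h2
    exact h2
  rcases hasValueAt_or_hasValueAt_inv_sub (A := A) ((jCoordBar N).deg_eq_one P) (jBar N) b
    with hP | hP <;>
  rcases hasValueAt_or_hasValueAt_inv_sub (A := A) ((jCoordBar N).deg_eq_one P') (jBar N) b
    with hP' | hP'
  · exact hr_place_jchart hℓN h hα hβ r hdegk hevJ hsepJ P P' hP hP' hPP'
  · exfalso
    have h1 := hJ P hP
    have h2 := hV P' hP'
    rw [← hPP'] at h2
    exact not_hasValueAt_inv_sub_zero_of_mem b _ h1 h2
  · exfalso
    have h1 := hJ P' hP'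
    have h2 := hV P hP
    rw [hPP'] at h2
    exact not_hasValueAt_inv_sub_zero_of_mem b _ h1 h2
  · exact hr_place_vchart hℓN h hα hβ r b hdegk hevV hsepV P P' hP hP' hPP'

end Main

end Fermat.Agent.MZ
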