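/-
PROJECT MZ (branch-only) — (HR), Pic-level assembly — helper8.

`red_hecke_eq_zero_of_place`: if the reduction of the Hecke correspondence `T_ℓ'` of a place depends
only on the reduction of the place (`hHR1`, the place-level statement), then the kernel of the
reduction map on `Pic⁰` is stable under `T_ℓ'`.  Proof: a class `x = [D]` with `r_* D = div h̃`;
write `h̃ = ỹ₁ / ỹ₂` (helper9's (LIFT)); then `E := D - div y₁ + div y₂` represents `x` and
`r_* E = 0` as a divisor, so `r_* (T E) = 0` by linearity.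
-/
import Mathlib
import Fermat.Agent.JA.LIFT_helper9
import Fermat.Agent.JA.S37Asm_helper7_ESPlace

set_option autoImplicit false
set_option linter.unusedSectionVars false
set_option linter.unusedVariables false
set_option linter.style.haveILetI false

open HahnSeries IntermediateField AlgebraicCurve

namespace Fermat.Agent.MZ

open ModularCurve Fermat.Agent.JA

set_option synthInstance.maxHeartbeats 400000
set_option maxHeartbeats 1600000

section Linear

/-- an additive map on divisors whose values on places depend only on the image of the place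
under `r` kills the divisors with zero push-forward. -/
theorem addMonoidHom_eq_zero_of_mapDomain_eq_zero {X Y M : Type*} [AddCommGroup M] (r : X → Y)
    (G : (X →₀ ℤ) →+ M)
    (hG : ∀ P P', r P = r P' → G (Finsupp.single P 1) = G (Finsupp.single P' 1))
    (E : X →₀ ℤ) (hE : Finsupp.mapDomain r E = 0) : G E = 0 := by
  classical
  rcases isEmpty_or_nonempty X with hX | hX
  · rw [Subsingleton.elim E 0, map_zero]
  let g : Y → M := fun Q => G (Finsupp.single (Function.invFun r Q) 1)
  have hg : ∀ P, G (Finsupp.single P 1) = g (r P) := by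
    intro P
    exact hG P _ (Function.invFun_eq ⟨P, rfl⟩).symm
  have h1 : G E = E.sum (fun P n => n • g (r P)) := by
    conv_lhs => rw [← Finsupp.sum_single E]
    rw [map_finsuppSum]
    refine Finsupp.sum_congr fun P _ => ?_
    have e : (Finsupp.single P (E P) : X →₀ ℤ) = E P • Finsupp.single P (1 : ℤ) := by
      rw [Finsupp.smul_single, smul_eq_mul, mul_one]
    rw [e, map_zsmul, hg]
  have h2 : (Finsupp.mapDomain r E).sum (fun Q n => n • g Q) = E.sum (fun P n => n • g (r P)) :=
    Finsupp.sum_mapDomain_index (fun Q => zero_smul ℤ (g Q)) (fun Q m₁ m₂ => add_smul m₁ m₂ (g Q))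
  rw [h1, ← h2, hE, Finsupp.sum_zero_index]

end Linear

section Concrete

local notation "Ω" => AlgebraicClosure ℚ

variable {A : ValuationSubring Ω} {N : ℕ} [NeZero N]
variable {r : Place Ω (modularFunctionFieldBar N) →
      Place (IsLocalRing.ResidueField A)
        (modularFunctionFieldFullC (IsLocalRing.ResidueField A) N)}
variable (hr : IsPlaceReductionModL A N r)
  (hgen : PrincipalGeneratedByIntegral A (IsLocalRing.residue A) N)

/-- **(HR) from its place-level form.** -/
theorem red_hecke_eq_zero_of_place {ℓ' : ℕ} (hℓ' : ℓ'.Prime) [NeZero ℓ']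
    [HasPrincipalDivisors Ω (modularFunctionFieldBar N)]
    [HasPrincipalDivisors Ω (laurentBaseChange Ω (modularFunctionFieldFull (N * ℓ')))]
    (hα : HeckeAlphaBarIntegral Ω N ℓ') (hβ : HeckeBetaBarIntegral Ω N ℓ')
    (hHR1 : ∀ P P' : Place Ω (modularFunctionFieldBar N), r P = r P' →
      Finsupp.mapDomain r (heckeDivBar hα hβ (Finsupp.single P 1))
        = Finsupp.mapDomain r (heckeDivBar hα hβ (Finsupp.single P' 1)))
    (x : JZero N) (hx : reductionPic0Along r hr hgen x = 0) :
    reductionPic0Along r hr hgen (heckeOperatorBar N ⟨ℓ', hℓ'⟩ x) = 0 := by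
  classical
  have hFI : FundamentalIdentityAlong Ω (heckeBetaBar Ω N ℓ') hβ :=
    fundamentalIdentityAlong_of_coord (Fermat.Agent.X0N.jCoordBar N)
      (Fermat.Agent.X0N.jCoordBar (N * ℓ')) _ _
  have hfin : FiniteAlong Ω (heckeAlphaBar Ω N ℓ') := finiteAlong_heckeAlphaBar N ℓ'
  have hN : NormFormulaAlong Ω (heckeAlphaBar Ω N ℓ') hfin :=
    normFormulaAlong_of_coord (Fermat.Agent.X0N.jCoordBar N)
      (Fermat.Agent.X0N.jCoordBar (N * ℓ')) _ _
  have e1 : ∀ z : JZero N, heckeOperatorBar N ⟨ℓ', hℓ'⟩ z = heckePic0Bar hα hβ hFI hfin hN z :=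
    fun z => (heckeOperatorBar_apply N ⟨ℓ', hℓ'⟩ z).trans
      (congrFun (congrArg DFunLike.coe (heckeOperatorAlong_eq hα hβ hFI hfin hN)) z)
  obtain ⟨D, rfl⟩ := Pic0.mk_surjective x
  -- the reduction of `D` is principal
  rw [reductionPic0Along_mk] at hx
  have hx' : ((reductionDegZeroAlong r hr.1 D : Divisor.degZero
      (K := IsLocalRing.ResidueField A)
      (F := modularFunctionFieldFullC (IsLocalRing.ResidueField A) N)) :
        Divisor (IsLocalRing.ResidueField A)
          (modularFunctionFieldFullC (IsLocalRing.ResidueField A) N)) ∈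
      Divisor.principal (K := IsLocalRing.ResidueField A)
        (F := modularFunctionFieldFullC (IsLocalRing.ResidueField A) N) := by
    have := (QuotientAddGroup.eq_zero_iff _).mp hx
    exact AddSubgroup.mem_addSubgroupOf.mp this
  rw [coe_reductionDegZeroAlong] at hx'
  obtain ⟨hbar, hbar0, hbarD⟩ := hx'
  -- lift `h̃`
  obtain ⟨y₁, y₂, h1, h2, h1k, h2k, h2ne, hrel⟩ :=
    exists_integral_lift A N IsLocalRing.residue_surjective hbar.2
  have hrel' : hbar * (⟨coeffMap (IsLocalRing.residue A) y₂, h2k⟩ :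
      modularFunctionFieldFullC (IsLocalRing.ResidueField A) N)
      = ⟨coeffMap (IsLocalRing.residue A) y₁, h1k⟩ := Subtype.ext hrel
  have h2ne' : (⟨coeffMap (IsLocalRing.residue A) y₂, h2k⟩ :
      modularFunctionFieldFullC (IsLocalRing.ResidueField A) N) ≠ 0 :=
    fun h0 => h2ne (congrArg Subtype.val h0)
  have h1ne' : (⟨coeffMap (IsLocalRing.residue A) y₁, h1k⟩ :
      modularFunctionFieldFullC (IsLocalRing.ResidueField A) N) ≠ 0 := by
    rw [← hrel']
    exact mul_ne_zero hbar0 h2ne'
  have h1ne : coeffMap (IsLocalRing.residue A) y₁ ≠ 0 :=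
    fun h0 => h1ne' (Subtype.ext h0)
  -- the functions upstairs
  have hf1 : (⟨coeffMap A.subtype y₁, h1⟩ : modularFunctionFieldBar N) ≠ 0 := by
    intro h0
    apply h1ne
    have h3 : coeffMap A.subtype y₁ = 0 := congrArg Subtype.val h0
    have h4 : y₁ = 0 := by
      ext n
      have := congrArg (fun s : LaurentSeries Ω => s.coeff n) h3
      simpa using this
    rw [h4, map_zero]
  have hf2 : (⟨coeffMap A.subtype y₂, h2⟩ : modularFunctionFieldBar N) ≠ 0 := by
    intro h0
    apply h2ne
    have h3 : coeffMap A.subtype y₂ = 0 := congrArg Subtype.val h0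
    have h4 : y₂ = 0 := by
      ext n
      have := congrArg (fun s : LaurentSeries Ω => s.coeff n) h3
      simpa using this
    rw [h4, map_zero]
  obtain ⟨D₁, hD₁, hD₁0⟩ := HasPrincipalDivisors.exists_divisor (K := Ω)
    (F := ↥(modularFunctionFieldBar N)) _ hf1
  obtain ⟨D₂, hD₂, hD₂0⟩ := HasPrincipalDivisors.exists_divisor (K := Ω)
    (F := ↥(modularFunctionFieldBar N)) _ hf2
  have hr1 := hr.2 y₁ h1 h1k h1ne D₁ hD₁
  have hr2 := hr.2 y₂ h2 h2k h2ne D₂ hD₂
  -- the corrected divisor
  have hE0 : (D : Divisor Ω (modularFunctionFieldBar N)) - D₁ + D₂ ∈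
      Divisor.degZero (K := Ω) (F := modularFunctionFieldBar N) := by
    rw [Divisor.mem_degZero, map_add, map_sub, hD₁0, hD₂0, sub_zero, add_zero]
    exact D.2
  set E : Divisor.degZero (K := Ω) (F := modularFunctionFieldBar N) :=
    ⟨(D : Divisor Ω (modularFunctionFieldBar N)) - D₁ + D₂, hE0⟩ with hE
  have hrE : Finsupp.mapDomain r (E : Divisor Ω (modularFunctionFieldBar N)) = 0 := by
    ext Q
    show Finsupp.mapDomain r ((D : Divisor Ω (modularFunctionFieldBar N)) - D₁ + D₂) Q = 0
    rw [Finsupp.mapDomain_add, Finsupp.mapDomain_sub, Finsupp.add_apply, Finsupp.sub_apply,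
      hbarD Q, hr1 Q, hr2 Q, ← hrel', Q.ord_mul hbar0 h2ne']
    ring
  have hDE : Pic0.mk D = Pic0.mk E := by
    rw [Pic0.mk, Pic0.mk, QuotientAddGroup.eq_iff_sub_mem, AddSubgroup.mem_addSubgroupOf]
    show (D : Divisor Ω (modularFunctionFieldBar N)) -
      ((D : Divisor Ω (modularFunctionFieldBar N)) - D₁ + D₂) ∈ _
    have e : (D : Divisor Ω (modularFunctionFieldBar N)) -
        ((D : Divisor Ω (modularFunctionFieldBar N)) - D₁ + D₂) = D₁ - D₂ := by abel
    rw [e]
    exact AddSubgroup.sub_mem _ ⟨_, hf1, hD₁⟩ ⟨_, hf2, hD₂⟩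
  rw [hDE, e1]
  have e2 : heckePic0Bar hα hβ hFI hfin hN (Pic0.mk E)
      = Pic0.mk (Pic0.degZeroCorrespondence (heckeBetaBar Ω N ℓ') (heckeAlphaBar Ω N ℓ')
          hβ hα hFI E) := rfl
  rw [e2, reductionPic0Along_mk]
  have hzero : reductionDegZeroAlong r hr.1
      (Pic0.degZeroCorrespondence (heckeBetaBar Ω N ℓ') (heckeAlphaBar Ω N ℓ') hβ hα hFI E) = 0 := by
    apply Subtype.ext
    rw [coe_reductionDegZeroAlong]
    exact addMonoidHom_eq_zero_of_mapDomain_eq_zero r
      ((Finsupp.mapDomain.addMonoidHom r).comp (heckeDivBar hα hβ)) hHR1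
      (E : Divisor Ω (modularFunctionFieldBar N)) hrE
  rw [hzero]
  rfl

end Concrete

end Fermat.Agent.MZ
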