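/-
PROJECT MZ (branch-only) — (HR), final statement — helper8.

**`hecke_red_stable`**: for `p` prime, `A | ℓ ≠ p` and every Hecke prime `ℓ' ≠ p` (INCLUDING
`ℓ' = ℓ`), the kernel of `reductionModL A p : J₀(p)(ℚ̄) → J̃₀(p)(k_A)` is stable under `T_ℓ'`.
This is the unfolded form of helper6's `HeckeRedStable p A` ([TOP15]).

Route: the Prelude's `placeReductionModL h` evaluates both charts (`HR_helper8_UniqP`), the
place-level statement `hr_place_all` (`HR_helper8_Chart`), and the Pic-level assembly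
`red_hecke_eq_zero_of_place` (`HR_helper8_Pic`).
-/
import Mathlib
import Fermat.Agent.JA.S37Asm_helper7_Final2
import Fermat.Agent.JA.O1_helper6_Final
import Fermat.Agent.MZ.HR_helper8_UniqP
import Fermat.Agent.MZ.HR_helper8_Pic
import Fermat.Agent.MZ.HR_helper8_Chart

set_option autoImplicit false
set_option linter.unusedSectionVars false
set_option linter.unusedVariables false
set_option linter.style.haveILetI false

open HahnSeries IntermediateField AlgebraicCurve

namespace Fermat.Agent.MZ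

open ModularCurve Fermat.Agent.X0N Fermat.Agent.JA

set_option synthInstance.maxHeartbeats 400000
set_option maxHeartbeats 1600000

local notation "Ω" => AlgebraicClosure ℚ

/-- **(HR)**: the kernel of reduction at `A | ℓ ≠ p` is stable under every `T_ℓ'`, `ℓ' ≠ p`. -/
theorem hecke_red_stable {p : ℕ} [NeZero p] (hp : p.Prime) {ℓ : ℕ} (hℓ : ℓ.Prime) (hℓp : ℓ ≠ p)
    (A : ValuationSubring Ω) (hA : A.LiesOverPrime ℓ) (ℓ' : Nat.Primes) (hℓ' : (ℓ' : ℕ) ≠ p)
    (x : JZero p) (hx : reductionModL A p x = 0) :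
    reductionModL A p (heckeOperatorBar p ℓ' x) = 0 := by
  by_cases h : ReductionInputsModL A p
  swap
  · rw [reductionModL_of_not h]
    rfl
  haveI hℓF : Fact ℓ.Prime := ⟨hℓ⟩
  have hℓN : ¬ ℓ ∣ p := fun hd => hℓp ((Nat.prime_dvd_prime_iff_eq hℓ hp).mp hd)
  have hres : GaussRes A p (IsLocalRing.residue ↥A) := gaussRes_residue hA p hℓN
  obtain ⟨ℓ'', hℓ''⟩ := ℓ'
  haveI hℓ'F : Fact ℓ''.Prime := ⟨hℓ''⟩
  haveI : NeZero ℓ'' := ⟨hℓ''.ne_zero⟩
  have hℓ'N : ¬ ℓ'' ∣ p := fun hd => hℓ' ((Nat.prime_dvd_prime_iff_eq hℓ'' hp).mp hd)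
  haveI : HasPrincipalDivisors Ω (modularFunctionFieldBar p) :=
    (jCoordBar p).hasPrincipalDivisors
  haveI : HasPrincipalDivisors Ω
      (laurentBaseChange Ω (modularFunctionFieldFull (p * ℓ''))) :=
    hasPrincipalDivisors_bar (p * ℓ'')
  have hα := heckeAlphaBarIntegral_bar p ℓ''
  have hβ := heckeBetaBarIntegral_bar p ℓ''
  obtain ⟨hevJ, hevV, -, -⟩ := chartEval_placeReductionModL hA hp hℓp 0 h
  have hsepJ := chartSep_jBar hA p hℓN hres
  have hsepV := chartSep_jInvBar hA p hℓN hres 0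
  rw [jInvBar_eq] at hevV hsepV
  rw [← vG_eq_jInvGauss] at hsepV
  have hsepV' : ChartSep hres (jBar p - ((0 : ℤ) : ↥(modularFunctionFieldBar p)))⁻¹
      (fun Q => HasValueAt Q (jTildeElt (IsLocalRing.ResidueField A) p
        - ((0 : ℤ) : ↥(modularFunctionFieldFullC (IsLocalRing.ResidueField A) p)))⁻¹ 0) := by
    refine hsepV.mono fun Q hQ => ?_
    rw [gaussρF_vG]
    exact hQ.mem
  have e : reductionModL A p
      = reductionPic0Along h.choose h.choose_spec.1 h.choose_spec.2 := reductionAlong_eq h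
  rw [e] at hx ⊢
  exact red_hecke_eq_zero_of_place h.choose_spec.1 h.choose_spec.2 hℓ'' hα hβ
    (fun P P' hPP' => hr_place_all hℓ'N hres hα hβ (placeReductionModL h) 0
      (fun Q => deg_eq_one_fullC_residue hA p hℓN Q) hevJ hsepJ hevV hsepV' P P' hPP') x hx

end Fermat.Agent.MZ
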