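/-
MZ (S15, branch-only) — helper5 — (FIN-e1), part 1 (abstract, Mathlib only): **the Kummer module
of a point as the torsion of a pushout.**

`J` an abelian group, `P : J`, `n : ℕ`.  `KummerAmb J P n := (J × ℤ) / ℤ·(P, -n)` ("`J` with an
`n`-th root of `P` adjoined").  Then `J → KummerAmb J P n` is injective (`n ≠ 0`), the `n`-torsion
of `KummerAmb J P n` is an extension of `ℤ/n` by `J[n]` whose class is the Kummer class of `P`
(`kummerMk (Q₀, -1)` with `n Q₀ = P` is a lift of `-1`, and `σ s - s = (σ Q₀ - Q₀, 0)`), and a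
group acting on `J` and fixing `P` acts on everything.
-/
import Mathlib

set_option autoImplicit false
set_option linter.unusedSectionVars false
set_option linter.unusedVariables false
set_option linter.style.haveILetI false

namespace Fermat.Agent.MZ

section Amb

variable (J : Type*) [AddCommGroup J] (P : J) (n : ℕ)

/-- the relation subgroup `ℤ·(P, -n)` of `J × ℤ`. -/
def kummerRel : AddSubgroup (J × ℤ) := AddSubgroup.zmultiples ((P, -(n : ℤ)) : J × ℤ)

/-- **the ambient pushout** `(J × ℤ) / ℤ·(P, -n)`. -/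
abbrev KummerAmb : Type _ := (J × ℤ) ⧸ kummerRel J P n

variable {J P n}

theorem mem_kummerRel_iff (x : J × ℤ) :
    x ∈ kummerRel J P n ↔ ∃ t : ℤ, x = (t • P, -(t * (n : ℤ))) := by
  rw [kummerRel, AddSubgroup.mem_zmultiples_iff]
  constructor
  · rintro ⟨t, rfl⟩
    refine ⟨t, ?_⟩
    ext
    · simp
    · simp
  · rintro ⟨t, rfl⟩
    refine ⟨t, ?_⟩
    ext
    · simp
    · simp

/-- the quotient map. -/
def kummerMk : J × ℤ →+ KummerAmb J P n := QuotientAddGroup.mk' (kummerRel J P n)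

theorem kummerMk_surjective : Function.Surjective (kummerMk (J := J) (P := P) (n := n)) :=
  QuotientAddGroup.mk'_surjective _

theorem kummerMk_eq_zero_iff (x : J × ℤ) :
    kummerMk (P := P) (n := n) x = 0 ↔ ∃ t : ℤ, x = (t • P, -(t * (n : ℤ))) := by
  rw [kummerMk, QuotientAddGroup.mk'_apply, QuotientAddGroup.eq_zero_iff, mem_kummerRel_iff]

theorem kummerMk_eq_iff (x x' : J × ℤ) :
    kummerMk (P := P) (n := n) x = kummerMk x' ↔
      ∃ t : ℤ, x - x' = (t • P, -(t * (n : ℤ))) := by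
  rw [← sub_eq_zero, ← map_sub, kummerMk_eq_zero_iff]

/-- the relation: `(P, 0) = (0, n)` in the pushout. -/
theorem kummerMk_rel : kummerMk (P := P) (n := n) (P, -(n : ℤ)) = 0 := by
  rw [kummerMk_eq_zero_iff]
  exact ⟨1, by simp⟩

/-- the inclusion of `J`. -/
def kummerIncl : J →+ KummerAmb J P n := (kummerMk).comp (AddMonoidHom.inl J ℤ)

@[simp] theorem kummerIncl_apply (Q : J) :
    kummerIncl (P := P) (n := n) Q = kummerMk (Q, 0) := rfl

theorem kummerIncl_injective (hn : n ≠ 0) :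
    Function.Injective (kummerIncl (J := J) (P := P) (n := n)) := by
  rw [injective_iff_map_eq_zero]
  intro Q hQ
  rw [kummerIncl_apply, kummerMk_eq_zero_iff] at hQ
  obtain ⟨t, ht⟩ := hQ
  have h2 : (0 : ℤ) = -(t * (n : ℤ)) := congrArg Prod.snd ht
  have ht0 : t = 0 := by
    have hn' : (n : ℤ) ≠ 0 := by exact_mod_cast hn
    rcases mul_eq_zero.mp (neg_eq_zero.mp h2.symm) with h | h
    · exact h
    · exact absurd h hn'
  have h1 : Q = t • P := congrArg Prod.fst ht
  rw [h1, ht0, zero_smul]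

/-- shifting the integer coordinate by a multiple of `n`. -/
theorem kummerMk_add_mul (Q : J) (a b : ℤ) :
    kummerMk (P := P) (n := n) (Q, a + b * (n : ℤ)) = kummerMk (Q + b • P, a) := by
  rw [kummerMk_eq_iff]
  refine ⟨-b, ?_⟩
  ext
  · simp
  · simp

/-- the projection to `ℤ/n`. -/
def kummerProj : KummerAmb J P n →+ ZMod n :=
  QuotientAddGroup.lift (kummerRel J P n)
    ((Int.castAddHom (ZMod n)).comp (AddMonoidHom.snd J ℤ)) (by
      intro x hx
      rw [mem_kummerRel_iff] at hx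
      obtain ⟨t, rfl⟩ := hx
      simp)

@[simp] theorem kummerProj_mk (x : J × ℤ) :
    kummerProj (P := P) (n := n) (kummerMk x) = ((x.2 : ℤ) : ZMod n) := rfl

theorem kummerProj_incl (Q : J) : kummerProj (P := P) (n := n) (kummerIncl Q) = 0 := by
  rw [kummerIncl_apply, kummerProj_mk]
  simp

/-- **exactness in the middle**: an element of the pushout which projects to `0` comes from
`J`. -/
theorem exists_kummerIncl_eq_of_proj_eq_zero (x : KummerAmb J P n)
    (hx : kummerProj x = 0) : ∃ Q : J, kummerIncl Q = x := by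
  obtain ⟨⟨Q, a⟩, rfl⟩ := kummerMk_surjective x
  rw [kummerProj_mk] at hx
  have hdvd : (n : ℤ) ∣ a := (ZMod.intCast_zmod_eq_zero_iff_dvd a n).mp hx
  obtain ⟨b, rfl⟩ := hdvd
  refine ⟨Q + b • P, ?_⟩
  rw [kummerIncl_apply]
  have := kummerMk_add_mul (P := P) (n := n) Q 0 b
  rw [zero_add] at this
  rw [← this, mul_comm]

/-- an `n`-th root of `P` gives a lift of `-1`. -/
theorem kummerProj_root (Q₀ : J) : kummerProj (P := P) (n := n) (kummerMk (Q₀, -1)) = -1 := by
  rw [kummerProj_mk]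
  simp

/-- the lift `(Q₀, -1)` is `n`-torsion when `n Q₀ = P`. -/
theorem nsmul_kummerMk_root (Q₀ : J) (hQ₀ : n • Q₀ = P) :
    (n : ℤ) • kummerMk (P := P) (n := n) (Q₀, -1) = 0 := by
  rw [← map_zsmul, kummerMk_eq_zero_iff]
  refine ⟨1, ?_⟩
  ext
  · simp [hQ₀]
  · simp

end Amb

section Torsion

variable {J : Type*} [AddCommGroup J] {P : J} {n : ℕ}

/-- the inclusion of the `n`-torsion of `J` into the `n`-torsion of the pushout. -/
def kummerTorsIncl : ↥(Submodule.torsionBy ℤ J (n : ℤ)) →+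
    ↥(Submodule.torsionBy ℤ (KummerAmb J P n) (n : ℤ)) where
  toFun Q := ⟨kummerIncl (Q : J), by
    rw [Submodule.mem_torsionBy_iff, ← map_zsmul]
    have := Q.2
    rw [Submodule.mem_torsionBy_iff] at this
    rw [this, map_zero]⟩
  map_zero' := Subtype.ext (map_zero _)
  map_add' _ _ := Subtype.ext (map_add _ _ _)

@[simp] theorem coe_kummerTorsIncl (Q : ↥(Submodule.torsionBy ℤ J (n : ℤ))) :
    ((kummerTorsIncl (P := P) Q : ↥(Submodule.torsionBy ℤ (KummerAmb J P n) (n : ℤ))) :
      KummerAmb J P n) = kummerIncl (Q : J) := rfl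

theorem kummerTorsIncl_injective (hn : n ≠ 0) :
    Function.Injective (kummerTorsIncl (J := J) (P := P) (n := n)) := by
  intro Q Q' h
  have := congrArg Subtype.val h
  exact Subtype.ext (kummerIncl_injective hn this)

/-- the projection of the `n`-torsion of the pushout to `ℤ/n`. -/
def kummerTorsProj : ↥(Submodule.torsionBy ℤ (KummerAmb J P n) (n : ℤ)) →+ ZMod n :=
  (kummerProj).comp (Submodule.torsionBy ℤ (KummerAmb J P n) (n : ℤ)).subtype.toAddMonoidHom

/-- **exactness**: the kernel of the projection is `J[n]`. -/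
theorem kummerTorsProj_eq_zero_iff (hn : n ≠ 0)
    (x : ↥(Submodule.torsionBy ℤ (KummerAmb J P n) (n : ℤ))) :
    kummerTorsProj x = 0 ↔ ∃ Q, kummerTorsIncl Q = x := by
  constructor
  · intro hx
    obtain ⟨Q, hQ⟩ := exists_kummerIncl_eq_of_proj_eq_zero (x : KummerAmb J P n) hx
    have hQn : Q ∈ Submodule.torsionBy ℤ J (n : ℤ) := by
      rw [Submodule.mem_torsionBy_iff]
      apply kummerIncl_injective (P := P) hn
      rw [map_zsmul, hQ, map_zero]
      have := x.2
      rwa [Submodule.mem_torsionBy_iff] at this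
    exact ⟨⟨Q, hQn⟩, Subtype.ext hQ⟩
  · rintro ⟨Q, rfl⟩
    exact kummerProj_incl (P := P) (Q : J)

/-- **surjectivity of the projection**, given an `n`-th root of `P`. -/
theorem kummerTorsProj_surjective (Q₀ : J) (hQ₀ : n • Q₀ = P) :
    Function.Surjective (kummerTorsProj (J := J) (P := P) (n := n)) := by
  intro a
  set s : ↥(Submodule.torsionBy ℤ (KummerAmb J P n) (n : ℤ)) :=
    ⟨kummerMk (Q₀, -1), (Submodule.mem_torsionBy_iff _ _).mpr (nsmul_kummerMk_root Q₀ hQ₀)⟩
    with hs
  have h1 : kummerTorsProj s = -1 := kummerProj_root (P := P) Q₀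
  obtain ⟨b, rfl⟩ := ZMod.intCast_surjective a
  refine ⟨(-b) • s, ?_⟩
  rw [map_zsmul, h1]
  simp

end Torsion

section Action

variable {J : Type*} [AddCommGroup J] {P : J} {n : ℕ}
  {Γ : Type*} [Monoid Γ] [DistribMulAction Γ J]

/-- the action of `σ` on `J × ℤ` (trivial on `ℤ`). -/
def kummerSmulHom (σ : Γ) : J × ℤ →+ J × ℤ :=
  (DistribSMul.toAddMonoidHom J σ).prodMap (AddMonoidHom.id ℤ)

@[simp] theorem kummerSmulHom_apply (σ : Γ) (x : J × ℤ) :
    kummerSmulHom σ x = (σ • x.1, x.2) := rfl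

theorem kummerRel_le_comap (hP : ∀ σ : Γ, σ • P = P) (σ : Γ) :
    kummerRel J P n ≤ (kummerRel J P n).comap (kummerSmulHom σ) := by
  intro x hx
  rw [AddSubgroup.mem_comap, mem_kummerRel_iff]
  rw [mem_kummerRel_iff] at hx
  obtain ⟨t, rfl⟩ := hx
  refine ⟨t, ?_⟩
  rw [kummerSmulHom_apply]
  ext
  · show σ • (t • P) = t • P
    rw [smul_comm, hP]
  · rfl

/-- **the action on the pushout** of a monoid acting on `J` and fixing `P`. -/
@[reducible] def kummerAmbAction (hP : ∀ σ : Γ, σ • P = P) :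
    DistribMulAction Γ (KummerAmb J P n) where
  smul σ := QuotientAddGroup.map _ _ (kummerSmulHom σ) (kummerRel_le_comap hP σ)
  one_smul x := by
    obtain ⟨x, rfl⟩ := kummerMk_surjective x
    show QuotientAddGroup.map _ _ (kummerSmulHom (1 : Γ)) _ (kummerMk x) = kummerMk x
    show kummerMk (kummerSmulHom (1 : Γ) x) = kummerMk x
    rw [kummerSmulHom_apply, one_smul]
  mul_smul σ τ x := by
    obtain ⟨x, rfl⟩ := kummerMk_surjective x
    show kummerMk (kummerSmulHom (σ * τ) x) = kummerMk (kummerSmulHom σ (kummerSmulHom τ x))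
    rw [kummerSmulHom_apply, kummerSmulHom_apply, kummerSmulHom_apply, mul_smul]
  smul_zero σ := map_zero _
  smul_add σ x y := map_add _ x y

theorem kummerAmb_smul_mk (hP : ∀ σ : Γ, σ • P = P) (σ : Γ) (x : J × ℤ) :
    letI := kummerAmbAction (n := n) hP
    σ • kummerMk (P := P) (n := n) x = kummerMk (σ • x.1, x.2) := rfl

theorem kummerAmb_smul_incl (hP : ∀ σ : Γ, σ • P = P) (σ : Γ) (Q : J) :
    letI := kummerAmbAction (n := n) hP
    σ • kummerIncl (P := P) (n := n) Q = kummerIncl (σ • Q) := rfl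

/-- the projection to `ℤ/n` is invariant. -/
theorem kummerProj_smul (hP : ∀ σ : Γ, σ • P = P) (σ : Γ) (x : KummerAmb J P n) :
    letI := kummerAmbAction (n := n) hP
    kummerProj (σ • x) = kummerProj x := by
  letI := kummerAmbAction (n := n) hP
  obtain ⟨x, rfl⟩ := kummerMk_surjective x
  rw [kummerAmb_smul_mk, kummerProj_mk, kummerProj_mk]

/-- **the Kummer cocycle**: `σ s - s = (σ Q₀ - Q₀, 0)` for the lift `s = (Q₀, -1)`. -/
theorem kummerAmb_smul_root_sub (hP : ∀ σ : Γ, σ • P = P) (σ : Γ) (Q₀ : J) :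
    letI := kummerAmbAction (n := n) hP
    σ • kummerMk (P := P) (n := n) (Q₀, -1) - kummerMk (Q₀, -1) = kummerIncl (σ • Q₀ - Q₀) := by
  letI := kummerAmbAction (n := n) hP
  rw [kummerAmb_smul_mk, ← map_sub, kummerIncl_apply]
  congr 1

end Action

section Functorial

variable {J J' : Type*} [AddCommGroup J] [AddCommGroup J'] {P : J} {n : ℕ}

/-- functoriality of the pushout in `J`. -/
def kummerMap (f : J →+ J') : KummerAmb J P n →+ KummerAmb J' (f P) n :=
  QuotientAddGroup.map _ _ (f.prodMap (AddMonoidHom.id ℤ)) (by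
    intro x hx
    rw [AddSubgroup.mem_comap, mem_kummerRel_iff]
    rw [mem_kummerRel_iff] at hx
    obtain ⟨t, rfl⟩ := hx
    refine ⟨t, ?_⟩
    ext
    · show f (t • P) = t • f P
      rw [map_zsmul]
    · rfl)

@[simp] theorem kummerMap_mk (f : J →+ J') (x : J × ℤ) :
    kummerMap (P := P) (n := n) f (kummerMk x) = kummerMk (f x.1, x.2) := rfl

/-- on the `n`-torsion the functoriality map is injective as soon as the kernel of `f` is killed
by an integer prime to `n`. -/
theorem kummerMap_injOn_torsion (f : J →+ J') (hn : n ≠ 0) (m : ℕ) (hm : Nat.Coprime m n)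
    (hker : ∀ x : J, f x = 0 → m • x = 0) (x : KummerAmb J P n)
    (hx : (n : ℤ) • x = 0) (hfx : kummerMap f x = 0) : x = 0 := by
  obtain ⟨⟨Q, a⟩, rfl⟩ := kummerMk_surjective x
  rw [kummerMap_mk, kummerMk_eq_zero_iff] at hfx
  obtain ⟨t, ht⟩ := hfx
  have h1 : f Q = t • f P := congrArg Prod.fst ht
  have h2 : a = -(t * (n : ℤ)) := congrArg Prod.snd ht
  -- `(Q, a) = (Q - t P, 0)` in the pushout, and `z := Q - t P` is killed by `m` and by `n`
  set z : J := Q - t • P with hz
  have hfz : f z = 0 := by rw [hz, map_sub, map_zsmul, h1, sub_self]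
  have hmz : m • z = 0 := hker z hfz
  have hxz : kummerMk (P := P) (n := n) (Q, a) = kummerIncl z := by
    rw [kummerIncl_apply, kummerMk_eq_iff]
    refine ⟨t, ?_⟩
    ext
    · simp [hz]
    · simp [h2]
  rw [hxz] at hx ⊢
  have hnz : (n : ℤ) • z = 0 := by
    apply kummerIncl_injective (P := P) hn
    rw [map_zsmul, hx, map_zero]
  have hcop : IsCoprime (m : ℤ) (n : ℤ) := Nat.isCoprime_iff_coprime.mpr hm
  obtain ⟨u, v, huv⟩ := hcop
  have hz0 : z = 0 := by
    calc z = (1 : ℤ) • z := (one_smul _ _).symm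
      _ = (u * m + v * n) • z := by rw [huv]
      _ = 0 := by
        have hmz' : (m : ℤ) • z = 0 := by rw [natCast_zsmul]; exact hmz
        rw [add_zsmul, mul_zsmul, mul_zsmul, hmz', hnz, zsmul_zero, zsmul_zero, add_zero]
  rw [hz0, map_zero]

end Functorial

end Fermat.Agent.MZ
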