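/-
MZ (S15, branch-only) — helper5 — (FIN-e1), part 3: **the Kummer modules of the rational points of
`J₀(N)` are flat at every prime `ℓ ∤ N`**: for `P : JZero N` fixed by `G_ℚ` and `n = ℓ ^ k`, the
`n`-torsion of `(JZero N × ℤ) / ℤ·(P, -n)` (an extension of `ℤ/n` by `J₀(N)[n]` whose class is the
Kummer class of `P`) carries a Hopf order over `ℤ_(ℓ)`.  Odd `ℓ`: Legendre host; `ℓ ≠ 3` (in
particular `ℓ = 2`): Hesse host.
-/
import Mathlib
import Fermat.Agent.MZ.KUMFLAT_helper5_Front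
import Fermat.Agent.FG.TOP19_helper5_Leg
import Fermat.Agent.FG.INST_helper6_Hes

set_option autoImplicit false
set_option linter.style.haveILetI false
set_option linter.unusedSectionVars false
set_option linter.unusedVariables false

noncomputable section

namespace Fermat.Agent.MZ

open ModularCurve AlgebraicCurve IsLocalRing Fermat.Agent.GR Fermat.Agent.JA Fermat.Agent.FG
  Fermat.Agent.SS Fermat.Agent.Igusa
  GaloisRep

local notation "Ω" => AlgebraicClosure ℚ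
local notation "GQ" => (AlgebraicClosure ℚ ≃ₐ[ℚ] AlgebraicClosure ℚ)

section Abs

variable {J : Type*} [AddCommGroup J] {P : J} {n : ℕ}

/-- the `n`-torsion of the pushout is finite as soon as `J[n]` is. -/
theorem finite_kummerMod (hn : n ≠ 0) [Finite ↥(Submodule.torsionBy ℤ J (n : ℤ))] :
    Finite ↥(Submodule.torsionBy ℤ (KummerAmb J P n) (n : ℤ)) := by
  haveI : NeZero n := ⟨hn⟩
  set f := kummerTorsProj (J := J) (P := P) (n := n) with hf
  haveI : Finite ↥f.ker := by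
    have hsub : (f.ker : Set ↥(Submodule.torsionBy ℤ (KummerAmb J P n) (n : ℤ))) ⊆
        Set.range (kummerTorsIncl (J := J) (P := P) (n := n)) := by
      intro x hx
      obtain ⟨Q, hQ⟩ := (kummerTorsProj_eq_zero_iff hn x).mp hx
      exact ⟨Q, hQ⟩
    exact (Set.Finite.subset (Set.finite_range _) hsub).to_subtype
  haveI : Finite (↥(Submodule.torsionBy ℤ (KummerAmb J P n) (n : ℤ)) ⧸ f.ker) :=
    Finite.of_injective _ (QuotientAddGroup.kerLift_injective f)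
  exact Finite.of_addSubgroup_quotient f.ker

end Abs

section Inst

variable (N : ℕ) [NeZero N]

/-- the Galois action on the Kummer module of a rational point of `J₀(N)`. -/
@[reducible] def jzeroKummerAction (P : JZero N) (hP : ∀ σ : GQ, σ • P = P) (n : ℕ) :
    DistribMulAction GQ ↥(Submodule.torsionBy ℤ (KummerAmb (JZero N) P n) (n : ℤ)) :=
  letI := kummerAmbAction (Γ := GQ) (P := P) (n := n) hP
  torsByAction (KummerAmb (JZero N) P n) (G := GQ) (n : ℤ)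

/-- **flatness of the Kummer modules from a good-reduction instance.** -/
theorem jzeroKummer_hasHopfOrder_of_goodRed (ℓ : ℕ) [Fact ℓ.Prime] (k : ℕ)
    {𝔽 : Type} [Field 𝔽] [Algebra Ω 𝔽]
    {𝔽b : Type} [Field 𝔽b] [Algebra (ResidueField ↥(padicPlace ℓ)) 𝔽b]
    (X : GoodRed Ω (padicPlace ℓ) 𝔽 𝔽b) (φ : GQ →* SemilinearAut Ω 𝔽)
    (hφbase : ∀ (σ : GQ) (a : Ω), SemilinearAut.baseAut (φ σ) a = σ a)
    (hφrat : ∀ σ : GQ, X.IsRatAut (φ σ))
    (hφaut : ∀ τ : PadicAlgCl ℓ ≃ₐ[ℚ_[ℓ]] PadicAlgCl ℓ, X.IsAut (φ (localGaloisToGlobal ℓ τ)))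
    (j : JZero N →+ Pic0 Ω 𝔽) (hjσ : ∀ (σ : GQ) (x : JZero N), j (σ • x) = φ σ • j x)
    (m : ℕ) (hm : Nat.Coprime m ℓ) (hjker : ∀ x : JZero N, j x = 0 → m • x = 0)
    (P : JZero N) (hP : ∀ σ : GQ, σ • P = P) :
    letI := jzeroKummerAction N P hP (ℓ ^ k)
    HasHopfOrder ℓ ↥(Submodule.torsionBy ℤ (KummerAmb (JZero N) P (ℓ ^ k)) ((ℓ ^ k : ℕ) : ℤ)) := by
  letI actA := kummerAmbAction (Γ := GQ) (P := P) (n := ℓ ^ k) hP
  letI := jzeroKummerAction N P hP (ℓ ^ k)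
  have hℓ : ℓ.Prime := Fact.out
  have hn : ℓ ^ k ≠ 0 := pow_ne_zero _ hℓ.ne_zero
  haveI : Finite ↥(Submodule.torsionBy ℤ (JZero N) ((ℓ ^ k : ℕ) : ℤ)) := by
    have := finite_torsionBy_jzero N ℓ k
    rwa [show ((ℓ ^ k : ℕ) : ℤ) = (ℓ : ℤ) ^ k by push_cast; rfl]
  haveI := finite_kummerMod (J := JZero N) (P := P) hn
  have hA : (padicPlace ℓ).LiesOverPrime ℓ := Fermat.Agent.TW.Kill.padicPlace_liesOverPrime ℓ
  haveI : IsAlgClosed (ResidueField ↥(padicPlace ℓ)) := isAlgClosed_residueField (padicPlace ℓ)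
  have hens : IsMvHenselian (padicPlace ℓ) := isMvHenselian_padicPlace ℓ
  have hP₀ : ∀ σ : GQ, φ σ • j P = j P := fun σ => by rw [← hjσ, hP]
  refine kummer_hasHopfOrder_of_goodRed X φ hφbase hφrat hφaut (X.chartOf hens)
    (X.liftSpec_of_liesOverPrime hA) (j P) hP₀ (ℓ ^ k) hn (fun g => ?_)
    ((kummerMap (P := P) (n := ℓ ^ k) j).comp
      (Submodule.torsionBy ℤ (KummerAmb (JZero N) P (ℓ ^ k))
        ((ℓ ^ k : ℕ) : ℤ)).subtype.toAddMonoidHom) ?_ ?_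
  · -- continuity
    obtain ⟨⟨Q, a⟩, hQ⟩ := kummerMk_surjective (g : KummerAmb (JZero N) P (ℓ ^ k))
    obtain ⟨L, hL, hfix⟩ := jzero_fix N Q
    refine ⟨L, hL, fun σ hσ => Subtype.ext ?_⟩
    show σ • (g : KummerAmb (JZero N) P (ℓ ^ k)) = g
    rw [← hQ]
    show kummerMk (σ • Q, a) = kummerMk (Q, a)
    rw [hfix σ hσ]
  · -- injectivity
    rw [injective_iff_map_eq_zero]
    intro x hx
    have h2 : ((ℓ ^ k : ℕ) : ℤ) • (x : KummerAmb (JZero N) P (ℓ ^ k)) = 0 := by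
      have := x.2
      rwa [Submodule.mem_torsionBy_iff] at this
    exact Subtype.ext (kummerMap_injOn_torsion j hn m (Nat.Coprime.pow_right k hm) hjker _ h2 hx)
  · -- equivariance
    intro σ g
    obtain ⟨⟨Q, a⟩, hQ⟩ := kummerMk_surjective (g : KummerAmb (JZero N) P (ℓ ^ k))
    show kummerMap j (σ • (g : KummerAmb (JZero N) P (ℓ ^ k))) =
      (picKummerAction φ (j P) hP₀ (ℓ ^ k)).smul σ (kummerMap j (g : KummerAmb (JZero N) P (ℓ ^ k)))
    rw [← hQ]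
    show kummerMk (j (σ • Q), a) = kummerMk (φ σ • j Q, a)
    rw [hjσ]

/-- **the Kummer modules of rational points of `J₀(N)` are flat at odd `ℓ ∤ N`.** -/
theorem jzeroKummer_hasHopfOrder_of_odd (ℓ : ℕ) [Fact ℓ.Prime] (hℓN : ¬ ℓ ∣ N) (hℓ2 : ℓ ≠ 2)
    (k : ℕ) (P : JZero N) (hP : ∀ σ : GQ, σ • P = P) :
    letI := jzeroKummerAction N P hP (ℓ ^ k)
    HasHopfOrder ℓ ↥(Submodule.torsionBy ℤ (KummerAmb (JZero N) P (ℓ ^ k)) ((ℓ ^ k : ℕ) : ℤ)) := by
  have hA : (padicPlace ℓ).LiesOverPrime ℓ := Fermat.Agent.TW.Kill.padicPlace_liesOverPrime ℓ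
  refine jzeroKummer_hasHopfOrder_of_goodRed N ℓ k (legGoodRed hA N hℓN hℓ2) (legGalois Ω N)
    (fun σ a => baseAut_legGalois N σ a) (fun σ => legGoodRed_isRatAut hA N hℓN hℓ2 σ)
    (fun τ => legGoodRed_isAut hA N hℓN hℓ2 (localGaloisToGlobal_mem_decompositionSubgroup ℓ τ))
    (legPull N) (legPull_smul N) 2 ?_ (two_nsmul_eq_zero_of_legPull_eq_zero N) P hP
  rw [Nat.coprime_comm]
  exact (Nat.Prime.coprime_iff_not_dvd (Fact.out : ℓ.Prime)).mpr fun h =>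
    hℓ2 ((Nat.prime_dvd_prime_iff_eq (Fact.out : ℓ.Prime) Nat.prime_two).mp h)

/-- **the Kummer modules of rational points of `J₀(N)` are flat at `ℓ ∤ 3N`** (in particular at
`ℓ = 2` for odd `N`), via the Hesse cover. -/
theorem jzeroKummer_hasHopfOrder_of_hesse (ℓ : ℕ) [Fact ℓ.Prime] (hℓN : ¬ ℓ ∣ N) (hℓ3 : ℓ ≠ 3)
    (k : ℕ) (P : JZero N) (hP : ∀ σ : GQ, σ • P = P) :
    letI := jzeroKummerAction N P hP (ℓ ^ k)
    HasHopfOrder ℓ ↥(Submodule.torsionBy ℤ (KummerAmb (JZero N) P (ℓ ^ k)) ((ℓ ^ k : ℕ) : ℤ)) := by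
  have hA : (padicPlace ℓ).LiesOverPrime ℓ := Fermat.Agent.TW.Kill.padicPlace_liesOverPrime ℓ
  refine jzeroKummer_hasHopfOrder_of_goodRed N ℓ k (hesGoodRed hA N hℓN hℓ3) (hesGalois Ω N)
    (fun σ a => baseAut_hesGalois N σ a) (fun σ => hesGoodRed_isRatAut hA N hℓN hℓ3 σ)
    (fun τ => hesGoodRed_isAut hA N hℓN hℓ3
      (localGaloisToGlobal_mem_decompositionSubgroup ℓ τ))
    (hesPull N) (fun σ x => hesPull_smul N σ x) 3 ?_
    (fun x hx => three_nsmul_eq_zero_of_hesPull_eq_zero N x hx) P hP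
  have hℓ : ℓ.Prime := Fact.out
  exact (Nat.coprime_primes Nat.prime_three hℓ).mpr (Ne.symm hℓ3)

/-- **the Kummer modules of rational points of `J₀(N)` are flat at every `ℓ ∤ N`.** -/
theorem jzeroKummer_hasHopfOrder (ℓ : ℕ) [Fact ℓ.Prime] (hℓN : ¬ ℓ ∣ N)
    (k : ℕ) (P : JZero N) (hP : ∀ σ : GQ, σ • P = P) :
    letI := jzeroKummerAction N P hP (ℓ ^ k)
    HasHopfOrder ℓ ↥(Submodule.torsionBy ℤ (KummerAmb (JZero N) P (ℓ ^ k)) ((ℓ ^ k : ℕ) : ℤ)) := by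
  by_cases hℓ2 : ℓ = 2
  · exact jzeroKummer_hasHopfOrder_of_hesse N ℓ hℓN (by omega) k P hP
  · exact jzeroKummer_hasHopfOrder_of_odd N ℓ hℓN hℓ2 k P hP

end Inst

end Fermat.Agent.MZ

end
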